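import Fermat.Agent.MazurP.AuxLevel

/-!
# Every class of the representation is flat

A class rational over the tame field is flat.  So is a class rational over the wild field which
`σ` moves by a class rational over the tame field.
-/

set_option autoImplicit false
set_option linter.unusedSectionVars false

noncomputable section

open AlgebraicCurve SemilinearAut

namespace FLTAgent.MazurP

open FLTAgent.GoodRed FLTAgent.GoodRed.RedDatum FLTAgent.FunctionField FLTAgent.Semistable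
  FLTAgent.LevelLower

variable {L k : Type*} [Field L] [Field k] {A : ValuationSubring L} {π : A →+* k}
  {F C : Type*} [Field F] [Algebra L F] [Field C] [Algebra k C]
  [IsFunctionField L F] [IsFunctionField k C] [IsAlgClosed L] [IsAlgClosed k]
  {D D' : RedDatum A π F C}
  {E E' : Type*} [Field E] [Algebra L E] [Algebra E F] [IsScalarTower L E F]
  [Field E'] [Algebra L E'] [Algebra E' F] [IsScalarTower L E' F]
  [IsFunctionField L E] [IsFunctionField L E'] [Module.Finite E F] [Module.Finite E' F]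
  {DE : RedDatum A π E C} {DE' : RedDatum A π E' C} {frob frob' : C →ₐ[k] C} {q : ℕ}
  {E₁ F₁ C₁ : Type*} [Field E₁] [Algebra L E₁] [Field F₁] [Algebra L F₁] [Algebra E₁ F₁]
  [IsScalarTower L E₁ F₁] [Field C₁] [Algebra k C₁] [IsFunctionField L E₁] [IsFunctionField L F₁]
  [IsFunctionField k C₁] [Module.Finite E₁ F₁]
  [Algebra F F₁] [IsScalarTower L F F₁] [Algebra C C₁] [IsScalarTower k C C₁]
  {DE₁ : RedDatum A π E₁ C₁} {D₁ D₁' : RedDatum A π F₁ C₁} {frob₁ : C₁ →ₐ[k] C₁}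
  {ι : Type*} [Fintype ι] {S : CrossData DE₁ D₁ D₁' frob₁ q ι} [CharP k q]
  [Module.Finite F F₁] [Module.Finite C C₁]
  {R R' : GalStr D D'} {R₁ R₁' : TubeRat S}
  {Λ : Type*} {H : Λ → HeckeOp D D' R.FK} {c : Λ → ℕ}

/-- Operators seen on the whole component have no eigenclass of orders divisible by `q`, act
on the smaller rational functions, and some eigenvalue is not the degree. -/
structure EigenData (R' : GalStr D D') (H : Λ → HeckeOp D D' R.FK) (c : Λ → ℕ) (q : ℕ) :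
    Prop where
  hkill : ∀ a : C, a ≠ 0 → (∀ v : Place k C, (q : ℤ) ∣ v.ord a) →
    (∀ l, PowConst k q ((H l).Tb a / a ^ c l)) → PowConst k q a
  mem' : ∀ l, ∀ f ∈ R'.FK, (H l).T f ∈ R'.FK
  ne : ∃ l, IsCoprime (((H l).d : ℤ) - c l) q

/-- A class rational over the tame field is flat. -/
theorem exists_flatRep_tame (hS : OneSide DE D D' frob q)
    (Ax' : AuxLevel S R' R₁' frob q) (hq : (q : L) ≠ 0)
    (hnone : ∀ τ ∈ R₁'.K, ∀ β : ℕ, 0 < β → β < q →
      A.valuation τ ^ q * A.valuation (q : L) ^ β ≠ 1)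
    {esep : F} (hesK : esep ∈ R'.FK) (hes : D.Red esep 1) (hes' : D'.Red esep 0)
    (hpairs : ∀ a b : C, ∃ y ∈ R'.FK, D.Red y a ∧ D'.Red y b) (hED : EigenData R' H c q)
    {X : Divisor L F} (K : RatClass R' E E' H c q X) :
    Nonempty (FlatRep R' E E' H c q X) := by
  have : CharP C q := charP_of_injective_algebraMap (algebraMap k C).injective q
  have hm : 0 < q := hS.prime.pos
  obtain ⟨h, hh, hh0, K₁, a, b, ha0, hb0, ha, hb⟩ :=
    K.exists_normal hS.rankOne hesK hes hes' hm hED.mem' hED.ne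
  obtain ⟨hd, hd'⟩ := Ax'.dvd_tame hS.rankOne hq hm hnone K₁.mem K₁.div ha0 hb0 ha hb
    fun w hw => K₁.norm.powConst hS hm ha hb ha0 hb0 hw
  obtain ⟨P⟩ := K₁.exists_flatRep hm hpairs hED.hkill ha0 hb0 ha hb hd hd'
  have e : X + divisorOf h + divisorOf P.h = X + divisorOf (h * P.h) := by
    rw [divisorOf_mul hh0 P.h_ne, add_assoc]
  exact ⟨⟨h * P.h, mul_mem hh P.h_mem, mul_ne_zero hh0 P.h_ne,
    { g := P.cls.g, mem := P.cls.mem, ne := P.cls.ne, div := by rw [← e]; exact P.cls.div,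
      norm := P.cls.norm, norm' := P.cls.norm', eig := by rw [← e]; exact P.cls.eig },
    P.red, P.red'⟩⟩

/-- A class moved by `σ` by a tame class is flat. -/
theorem exists_flatRep_wild (hS : OneSide DE D D' frob q) (hS' : OneSide DE' D' D frob' q)
    (hpow : ∀ z : C, ∃ w, frob w = z ^ q) (hpow' : ∀ z : C, ∃ w, frob' w = z ^ q)
    {T : Twisting R R'} (hNE : NormCompat T E) (hNE' : NormCompat T E')
    {Ax : AuxLevel S R R₁ frob q} {Ax' : AuxLevel S R' R₁' frob q} (AT : AuxTwist T Ax Ax')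
    (hq : (q : L) ≠ 0)
    (hnone : ∀ τ ∈ R₁'.K, ∀ β : ℕ, 0 < β → β < q →
      A.valuation τ ^ q * A.valuation (q : L) ^ β ≠ 1)
    {esep : F} (hesK : esep ∈ R'.FK) (hes : D.Red esep 1) (hes' : D'.Red esep 0)
    (hpairs : ∀ a b : C, ∃ y ∈ R'.FK, D.Red y a ∧ D'.Red y b) (hED : EigenData R' H c q)
    (hHσ : ∀ l f, (H l).T (toRingAut T.σ f) = toRingAut T.σ ((H l).T f))
    (hHc : ∀ l f, Close D (unifOf R.toRatStr * unifOf R.toRatStr) f 1 →
      Close D (unifOf R.toRatStr * unifOf R.toRatStr) ((H l).T f) 1)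
    (hHc' : ∀ l f, Close D' (unifOf R.toRatStr * unifOf R.toRatStr) f 1 →
      Close D' (unifOf R.toRatStr * unifOf R.toRatStr) ((H l).T f) 1)
    {X T₀ : Divisor L F} (K : RatClass R E E' H c q X) (K₀ : RatClass R' E E' H c q T₀)
    {G₀ : F} (hG₀ : G₀ ≠ 0) (hdivG : divisorOf G₀ = T.σ • X - X - T₀) :
    Nonempty (FlatRep R E E' H c q X) := by
  have : CharP C q := charP_of_injective_algebraMap (algebraMap k C).injective q
  have hm : 0 < q := hS.prime.pos
  obtain ⟨P₀⟩ := exists_flatRep_tame hS Ax' hq hnone hesK hes hes' hpairs hED K₀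
  obtain ⟨h, hh, hh0, K₁, a, b, ha0, hb0, ha, hb⟩ := K.exists_normal hS.rankOne (T.le hesK)
    hes hes' hm (fun l => (H l).T_FK) hED.ne
  obtain ⟨l, hl⟩ := hED.ne
  have hdc : ((H l).d : k) ≠ c l := fun heq => by
    obtain ⟨x, y, hxy⟩ := hl
    have := congrArg (fun z : ℤ => (z : k)) hxy
    simp [heq] at this
  set σh := toRingAut T.σ h with hσh
  have hσh0 : σh ≠ 0 := (map_ne_zero _).2 hh0
  have hdG : divisorOf (G₀ * (σh * (h * P₀.h)⁻¹))
      = T.σ • (X + divisorOf h) - (X + divisorOf h) - (T₀ + divisorOf P₀.h) := by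
    rw [divisorOf_mul hG₀ (mul_ne_zero hσh0 (inv_ne_zero (mul_ne_zero hh0 P₀.h_ne))),
      divisorOf_mul hσh0 (inv_ne_zero (mul_ne_zero hh0 P₀.h_ne)), divisorOf_inv,
      divisorOf_mul hh0 P₀.h_ne, hσh, divisorOf_toRingAut, hdivG, smul_add]
    abel
  obtain ⟨G, -, hG0, hdivG', hGc, hGc'⟩ := exists_close_one T hS hS' hpow hpow' hNE hNE'
    K₁.mem K₁.div P₀.cls.mem P₀.cls.div ha hb ha0 hb0 (tT := 1) one_ne_zero
    (by rw [map_one]; exact P₀.red) (by rw [map_one]; exact P₀.red')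
    (mul_ne_zero hG₀ (mul_ne_zero hσh0 (inv_ne_zero (mul_ne_zero hh0 P₀.h_ne)))) hdG
    (fun f hf => by rcases hf with rfl | rfl <;> [exact K₁.norm; exact P₀.cls.norm])
    (fun f hf => by rcases hf with rfl | rfl <;> [exact K₁.norm'; exact P₀.cls.norm'])
    (H l) (hED.mem' l) (hHσ l) (hHc l) (hHc' l) hdc (K₁.eig l) (P₀.cls.eig l)
  obtain ⟨hd, hd'⟩ := dvd_wild hS.rankOne hq hm AT K₁.mem K₁.div P₀.cls.mem P₀.cls.div P₀.red
    P₀.red' ha0 hb0 ha hb (fun w hw => K₁.norm.powConst hS hm ha hb ha0 hb0 hw) hG0 hdivG' hGc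
    hGc'
  obtain ⟨P⟩ := K₁.exists_flatRep hm
    (fun a b => by obtain ⟨y, hy, h1, h2⟩ := hpairs a b; exact ⟨y, T.le hy, h1, h2⟩)
    hED.hkill ha0 hb0 ha hb hd hd'
  have e : X + divisorOf h + divisorOf P.h = X + divisorOf (h * P.h) := by
    rw [divisorOf_mul hh0 P.h_ne, add_assoc]
  exact ⟨⟨h * P.h, mul_mem hh P.h_mem, mul_ne_zero hh0 P.h_ne,
    { g := P.cls.g, mem := P.cls.mem, ne := P.cls.ne, div := by rw [← e]; exact P.cls.div,
      norm := P.cls.norm, norm' := P.cls.norm', eig := by rw [← e]; exact P.cls.eig },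
    P.red, P.red'⟩⟩

end FLTAgent.MazurP
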