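import Fermat.Agent.MazurP.SecondOrder

/-!
# Rational eigenclasses: normalisation and flat representatives

A rational eigenclass can be moved by a rational function so that both reductions of its function
live at the same scale.  If the orders of these reductions are multiples of `m`, the
corresponding classes on the component vanish and a rational flat representative exists, whose
function reduces to one on both components.
-/

set_option autoImplicit false
set_option linter.unusedSectionVars false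

noncomputable section

open AlgebraicCurve SemilinearAut

namespace FLTAgent.MazurP

open FLTAgent.GoodRed FLTAgent.GoodRed.RedDatum FLTAgent.FunctionField FLTAgent.Semistable
  FLTAgent.LevelLower

variable {L k : Type*} [Field L] [Field k] {A : ValuationSubring L} {π : A →+* k}

section norm

variable {E F : Type*} [Field E] [Algebra L E] [Field F] [Algebra L F] [Algebra E F]
  [IsScalarTower L E F]

/-- The norm is a constant times an `m`-th power. -/
def NormPow (L : Type*) [Field L] (E : Type*) [Field E] [Algebra L E] {F : Type*} [Field F]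
    [Algebra E F] (m : ℕ) (f : F) : Prop :=
  ∃ (c : L) (h : E), Algebra.norm E f = algebraMap L E c * h ^ m

theorem NormPow.mul_pow {m : ℕ} {f : F} (hf : NormPow L E m f) (h : F) :
    NormPow L E m (f * h ^ m) := by
  obtain ⟨c, z, hz⟩ := hf
  exact ⟨c, z * Algebra.norm E h, by rw [map_mul, map_pow, hz]; ring⟩

theorem NormPow.smul [Module.Finite E F] {m : ℕ} {f : F} (hf : NormPow L E m f) (s : L) :
    NormPow L E m (s • f) := by
  obtain ⟨c, z, hz⟩ := hf
  refine ⟨s ^ Module.finrank E F * c, z, ?_⟩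
  rw [Algebra.smul_def, IsScalarTower.algebraMap_apply L E F, map_mul, Algebra.norm_algebraMap, hz,
    map_mul, map_pow]
  ring

variable {C : Type*} [Field C] [Algebra k C] {DE : RedDatum A π E C} {D D' : RedDatum A π F C}
  {frob : C →ₐ[k] C} {q : ℕ} [IsFunctionField L E] [IsFunctionField L F]

/-- A norm which is a power gives the pairing of the two reductions. -/
theorem NormPow.powConst (hS : OneSide DE D D' frob q) [CharP C q] {m : ℕ} (hm : 0 < m) {f : F}
    (hf : NormPow L E m f) {a b w : C} (ha : D.Red f a) (hb : D'.Red f b) (ha0 : a ≠ 0)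
    (hb0 : b ≠ 0) (hw : frob w = b ^ q) : PowConst k m (a * w) := by
  obtain ⟨c, h, hh⟩ := hf
  have hw0 : w ≠ 0 := fun h0 => pow_ne_zero q hb0 (by rw [← hw, h0, map_zero])
  have hN := hS.red_norm ha hb hw
  have hN0 := hN.ne_zero (mul_ne_zero ha0 hw0)
  have hh0 : h ≠ 0 := fun h0 => hN0 (by rw [hh, h0, zero_pow hm.ne', mul_zero])
  obtain ⟨c₁, z, hc₁, hz, hzr⟩ := DE.exists_scale hh0
  have heq : Algebra.norm E f = (c / c₁ ^ m) • (c₁ • h) ^ m := by
    rw [hh, Algebra.smul_def, Algebra.smul_def, _root_.mul_pow, ← map_pow, ← mul_assoc, ← map_mul,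
      div_mul_cancel₀ _ (pow_ne_zero _ hc₁)]
  rw [heq] at hN
  obtain ⟨t, ht, hteq⟩ := exists_unit_smul_red DE (hzr.pow m) (pow_ne_zero _ hz) hN
    (mul_ne_zero ha0 hw0)
  exact ⟨t, z, ht, hz, by rw [hteq, Algebra.smul_def]⟩

end norm

variable {F C : Type*} [Field F] [Algebra L F] [Field C] [Algebra k C] [IsFunctionField L F]
  {D D' : RedDatum A π F C}

/-- A rational class: a rational function with divisor `m • X`, eigen for the operators, with
powers as norms to two lower levels. -/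
structure RatClass (R : GalStr D D') (E E' : Type*) [Field E] [Algebra L E] [Algebra E F]
    [Field E'] [Algebra L E'] [Algebra E' F] {FK : Subfield F} {Λ : Type*}
    (H : Λ → HeckeOp D D' FK) (c : Λ → ℕ) (m : ℕ) (X : Divisor L F) where
  /-- the function -/
  g : F
  mem : g ∈ R.FK
  ne : g ≠ 0
  div : divisorOf g = m • X
  norm : NormPow L E m g
  norm' : NormPow L E' m g
  eig : ∀ l, ∃ e, e ≠ 0 ∧ (H l).Tdiv X - c l • X = divisorOf e

variable [IsAlgClosed L] {E E' : Type*} [Field E] [Algebra L E] [Algebra E F]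
  [IsScalarTower L E F] [Field E'] [Algebra L E'] [Algebra E' F] [IsScalarTower L E' F]
  [Module.Finite E F] [Module.Finite E' F]
  {R : GalStr D D'} {FK : Subfield F} {Λ : Type*} {H : Λ → HeckeOp D D' FK} {c : Λ → ℕ} {m : ℕ}
  {X : Divisor L F}

theorem RatClass.degree_eq_zero (hm : 0 < m) (K : RatClass R E E' H c m X) :
    Divisor.degree X = 0 := by
  have h := degree_divisorOf (K := L) K.g
  rw [K.div, map_nsmul, nsmul_eq_mul, mul_eq_zero] at h
  exact h.resolve_left (by exact_mod_cast hm.ne')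

/-- Moving a class by a rational function, with a rational scalar. -/
def RatClass.move (K : RatClass R E E' H c m X) {h : F} (hK : h ∈ R.FK) (h0 : h ≠ 0) {s : L}
    (hs : s ∈ R.K) (hs0 : s ≠ 0) : RatClass R E E' H c m (X + divisorOf h) where
  g := s • (K.g * h ^ m)
  mem := R.smul_mem hs (mul_mem K.mem (pow_mem hK _))
  ne := smul_ne_zero hs0 (mul_ne_zero K.ne (pow_ne_zero _ h0))
  div := by
    rw [divisorOf_smul hs0 (mul_ne_zero K.ne (pow_ne_zero _ h0)),
      divisorOf_mul K.ne (pow_ne_zero _ h0), divisorOf_pow, K.div, smul_add]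
  norm := (K.norm.mul_pow h).smul s
  norm' := (K.norm'.mul_pow h).smul s
  eig l := by
    obtain ⟨e, he, heq⟩ := K.eig l
    have h1 : (H l).T h ≠ 0 := (map_ne_zero (H l).T).2 h0
    refine ⟨e * ((H l).T h * (h ^ c l)⁻¹),
      mul_ne_zero he (mul_ne_zero h1 (inv_ne_zero (pow_ne_zero _ h0))), ?_⟩
    rw [divisorOf_mul he (mul_ne_zero h1 (inv_ne_zero (pow_ne_zero _ h0))),
      divisorOf_mul h1 (inv_ne_zero (pow_ne_zero _ h0)), divisorOf_inv, divisorOf_pow,
      (H l).div_T _ h0, ← heq, map_add, smul_add]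
    abel

/-- Both reductions can be brought to the same scale. -/
theorem RatClass.exists_normal (hA : IsRankOne A) {esep : F} (hesK : esep ∈ R.FK)
    (hes : D.Red esep 1) (hes' : D'.Red esep 0) (hm : 0 < m) (hT : ∀ l, ∀ f ∈ R.FK, (H l).T f ∈ R.FK)
    (hne : ∃ l, IsCoprime (((H l).d : ℤ) - c l) m) (K : RatClass R E E' H c m X) :
    ∃ (h : F), h ∈ R.FK ∧ h ≠ 0 ∧ ∃ (K₁ : RatClass R E E' H c m (X + divisorOf h)) (a b : C),
      a ≠ 0 ∧ b ≠ 0 ∧ D.Red K₁.g a ∧ D'.Red K₁.g b := by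
  obtain ⟨c₀, n, z₀, z₀', -, hc₀, hz₀, hz₀', hr₀, hr₀'⟩ := R.exists_gap hA K.mem K.ne
  have hgap : R.Gap K.g n := ⟨c₀, z₀, z₀', hc₀, hz₀, hz₀', hr₀, hr₀'⟩
  obtain ⟨l, hl⟩ := hne
  obtain ⟨e, he, heq⟩ := K.eig l
  have hTgK : (H l).T K.g ∈ R.FK := hT l _ K.mem
  have hTg : (H l).T K.g ≠ 0 := (map_ne_zero (H l).T).2 K.ne
  have hdivT : divisorOf ((H l).T K.g) = m • (c l • X + divisorOf e) := by
    rw [(H l).div_T _ K.ne, K.div, map_nsmul, ← heq]; abel_nf
  obtain ⟨e', he'K, he', hde'⟩ := exists_rat_of_fixed R he fun γ => by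
    have h1 := fix_of_rat R hm hTgK hdivT γ
    rw [smul_add, smul_comm (R.act γ) (c l), fix_of_rat R hm K.mem K.div γ] at h1
    exact add_left_cancel h1
  obtain ⟨ce, ne, we, we', -, hce, hwe, hwe', hre, hre'⟩ := R.exists_gap hA he'K he'
  obtain ⟨t, ht, hteq⟩ := exists_smul_of_divisorOf_eq (K := L) hTg
    (mul_ne_zero (pow_ne_zero (c l) K.ne) (pow_ne_zero m he')) (by
      rw [hdivT, divisorOf_mul (pow_ne_zero _ K.ne) (pow_ne_zero _ he'), divisorOf_pow,
        divisorOf_pow, K.div, hde', smul_add, smul_comm m (c l)])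
  have hTgap : R.Gap ((H l).T K.g) (((H l).d : ℤ) * n) := by
    refine ⟨c₀ ^ (H l).d, (H l).Tb z₀, (H l).Tb z₀', pow_ne_zero _ hc₀,
      (map_ne_zero _).2 hz₀, (map_ne_zero _).2 hz₀', ?_, ?_⟩
    · rw [← (H l).T_smul]; exact (H l).red _ _ hr₀ hz₀
    · rw [mul_comm ((H l).d : ℤ) n, zpow_mul, zpow_natCast, ← mul_pow, ← (H l).T_smul]
      exact (H l).red' _ _ hr₀' hz₀'
  have hsum := hTgap.unique (hteq ▸ ((hgap.pow (c l)).mul (RatStr.Gap.pow (R := R.toRatStr)
    (f := e') (n := ne) ⟨ce, we, we', hce, hwe, hwe', hre, hre'⟩ m)).smul ht)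
  obtain ⟨j, rfl⟩ : (m : ℤ) ∣ n := hl.symm.dvd_of_dvd_mul_left ⟨ne, by linear_combination hsum⟩
  obtain ⟨Hf, hHK, hH, hHgap⟩ := R.exists_of_gap esep hesK hes hes' (-j)
  have hgap' : R.Gap (K.g * Hf ^ m) 0 := by
    have := hgap.mul (hHgap.pow m)
    rwa [show (m : ℤ) * j + (m : ℤ) * -j = 0 by ring] at this
  obtain ⟨s, n', a, b, hsK, hs, ha0, hb0, ha, hb⟩ := R.exists_gap hA
    (mul_mem K.mem (pow_mem hHK _)) (mul_ne_zero K.ne (pow_ne_zero _ hH))
  obtain rfl : n' = 0 := RatStr.Gap.unique ⟨s, a, b, hs, ha0, hb0, ha, hb⟩ hgap'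
  rw [zpow_zero, mul_one] at hb
  exact ⟨Hf, hHK, hH, K.move hHK hH hsK hs, a, b, ha0, hb0, ha, hb⟩

/-- A flat representative with function reducing to one. -/
structure FlatRep (R : GalStr D D') (E E' : Type*) [Field E] [Algebra L E] [Algebra E F]
    [Field E'] [Algebra L E'] [Algebra E' F] {FK : Subfield F} {Λ : Type*}
    (H : Λ → HeckeOp D D' FK) (c : Λ → ℕ) (m : ℕ) (X : Divisor L F) where
  /-- the correction -/
  h : F
  h_mem : h ∈ R.FK
  h_ne : h ≠ 0
  /-- the class -/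
  cls : RatClass R E E' H c m (X + divisorOf h)
  red : D.Red cls.g 1
  red' : D'.Red cls.g 1

theorem FlatRep.isFlat (hm : 0 < m) (P : FlatRep R E E' H c m X) :
    NodeSystem.IsFlat (D := D) (D' := D') m (X + divisorOf P.h) :=
  ⟨P.cls.degree_eq_zero hm, P.cls.g, P.cls.ne, P.cls.div, 1, 1, one_ne_zero, one_ne_zero,
    by rw [map_one]; exact P.red, by rw [map_one]; exact P.red'⟩

/-- Orders divisible by `m` and no eigenclass on the component give a flat representative. -/
theorem RatClass.exists_flatRep [IsAlgClosed k] [IsFunctionField k C] (hm : 0 < m)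
    (hpair : ∀ a b : C, ∃ y ∈ R.FK, D.Red y a ∧ D'.Red y b)
    (hkill : ∀ a : C, a ≠ 0 → (∀ v : Place k C, (m : ℤ) ∣ v.ord a) →
      (∀ l, PowConst k m ((H l).Tb a / a ^ c l)) → PowConst k m a)
    (K : RatClass R E E' H c m X) {a b : C} (ha0 : a ≠ 0) (hb0 : b ≠ 0) (ha : D.Red K.g a)
    (hb : D'.Red K.g b) (hd : ∀ v : Place k C, (m : ℤ) ∣ v.ord a)
    (hd' : ∀ v : Place k C, (m : ℤ) ∣ v.ord b) :
    Nonempty (FlatRep R E E' H c m X) := by
  have root : ∀ (Dx : RedDatum A π F C),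
      (∀ l f z, Dx.Red f z → z ≠ 0 → Dx.Red ((H l).T f) ((H l).Tb z)) → ∀ r : C,
      Dx.Red K.g r → r ≠ 0 → (∀ v : Place k C, (m : ℤ) ∣ v.ord r) → ∃ w : C, w ≠ 0 ∧ r = w ^ m := by
    intro Dx hDx r hr hr0 hdv
    obtain ⟨t, w, ht, hw, rfl⟩ := hkill r hr0 hdv fun l => by
      obtain ⟨e, he, heq⟩ := K.eig l
      exact powConst_eigen (H l) Dx (hDx l) K.div hr hr0 he heq
    obtain ⟨s, hs⟩ := IsAlgClosed.exists_pow_nat_eq (k := k) t hm
    exact ⟨algebraMap k C s * w, mul_ne_zero ((map_ne_zero _).2 fun h =>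
      ht (by rw [← hs, h, zero_pow hm.ne'])) hw, by rw [mul_pow, ← map_pow, hs]⟩
  obtain ⟨wa, hwa, rfl⟩ := root D (fun l => (H l).red) a ha ha0 hd
  obtain ⟨wb, hwb, rfl⟩ := root D' (fun l => (H l).red') b hb hb0 hd'
  obtain ⟨y, hyK, hya, hyb⟩ := hpair wa wb
  have hy0 : y ≠ 0 := hya.ne_zero hwa
  refine ⟨⟨y⁻¹, inv_mem hyK, inv_ne_zero hy0, K.move (inv_mem hyK) (inv_ne_zero hy0)
    (one_mem R.K) one_ne_zero, ?_, ?_⟩⟩
  · show D.Red ((1 : L) • (K.g * y⁻¹ ^ m)) 1
    rw [one_smul, inv_pow]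
    simpa [← div_eq_mul_inv, div_self (pow_ne_zero m hwa)] using
      ha.div (hya.pow m) (pow_ne_zero _ hwa)
  · show D'.Red ((1 : L) • (K.g * y⁻¹ ^ m)) 1
    rw [one_smul, inv_pow]
    simpa [← div_eq_mul_inv, div_self (pow_ne_zero m hwb)] using
      hb.div (hyb.pow m) (pow_ne_zero _ hwb)

end FLTAgent.MazurP
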