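import Fermat.Agent.MazurP.Twist
import Fermat.Agent.MazurP.Classes
import Fermat.Agent.LevelLower.Descend

/-!
# Divisibility at the crossings through an auxiliary level

The auxiliary level has the crossings; its covering has degree prime to `m`.  A class rational
over the tame field, or a class moved by `σ` by a flat tame class, has orders divisible by `m`.
-/

set_option autoImplicit false
set_option linter.unusedSectionVars false

noncomputable section

open AlgebraicCurve SemilinearAut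

namespace FLTAgent.MazurP

open FLTAgent.GoodRed FLTAgent.GoodRed.RedDatum FLTAgent.FunctionField FLTAgent.Semistable
  FLTAgent.LevelLower

variable {L k : Type*} [Field L] [Field k] {A : ValuationSubring L} {π : A →+* k}
  {F C : Type*} [Field F] [Algebra L F] [Field C] [Algebra k C]
  [IsFunctionField L F] [IsFunctionField k C] [IsAlgClosed L] [IsAlgClosed k]
  {D D' : RedDatum A π F C} {frob : C →ₐ[k] C} {q : ℕ}
  {E₁ F₁ C₁ : Type*} [Field E₁] [Algebra L E₁] [Field F₁] [Algebra L F₁] [Algebra E₁ F₁]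
  [IsScalarTower L E₁ F₁] [Field C₁] [Algebra k C₁] [IsFunctionField L E₁] [IsFunctionField L F₁]
  [IsFunctionField k C₁] [Module.Finite E₁ F₁]
  [Algebra F F₁] [IsScalarTower L F F₁] [Algebra C C₁] [IsScalarTower k C C₁]
  {DE₁ : RedDatum A π E₁ C₁} {D₁ D₁' : RedDatum A π F₁ C₁} {frob₁ : C₁ →ₐ[k] C₁}
  {ι : Type*} [Fintype ι] (S : CrossData DE₁ D₁ D₁' frob₁ q ι) [CharP k q]
  [Module.Finite F F₁] [Module.Finite C C₁]

/-- An auxiliary level with crossings, for one rational structure. -/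
structure AuxLevel (R : GalStr D D') (R₁ : TubeRat S) (frob : C →ₐ[k] C) (m : ℕ) : Prop where
  red : ∀ f z, D.Red f z → D₁.Red (algebraMap F F₁ f) (algebraMap C C₁ z)
  red' : ∀ f z, D'.Red f z → D₁'.Red (algebraMap F F₁ f) (algebraMap C C₁ z)
  frob_comm : ∀ z, algebraMap C C₁ (frob z) = frob₁ (algebraMap C C₁ z)
  map_mem : ∀ f ∈ R.FK, algebraMap F F₁ f ∈ R₁.FK
  hpow : ∀ z : C, ∃ w, frob w = z ^ q
  coprime : Nat.Coprime m (Module.finrank C C₁)

variable {S} {R : GalStr D D'} {R₁ R₁' : TubeRat S} {m : ℕ}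

/-- The pairing of the orders above. -/
theorem AuxLevel.pair (Ax : AuxLevel S R R₁ frob m) {a b : C} (ha0 : a ≠ 0) (hb0 : b ≠ 0)
    (hnorm : ∀ w, frob w = b ^ q → PowConst k m (a * w)) (v : Place k C₁) :
    (m : ℤ) ∣ v.ord (algebraMap C C₁ a) + (S.frP.symm v).ord (algebraMap C C₁ b) := by
  obtain ⟨w, hw⟩ := Ax.hpow b
  obtain ⟨t, z, ht, hz, hh⟩ := hnorm w hw
  refine pair_of_norm S ((map_ne_zero _).2 ha0) ((map_ne_zero _).2 hb0)
    (by rw [← Ax.frob_comm, hw, map_pow])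
    ⟨t, algebraMap C C₁ z, ht, (map_ne_zero _).2 hz, ?_⟩ v
  rw [← map_mul, hh, map_mul, map_pow, ← IsScalarTower.algebraMap_apply]

/-- Descent of the divisibility. -/
theorem AuxLevel.descend (Ax : AuxLevel S R R₁ frob m) {a b : C} (ha0 : a ≠ 0) (hb0 : b ≠ 0)
    (hnorm : ∀ w, frob w = b ^ q → PowConst k m (a * w))
    (h : ∀ v : Place k C₁, (m : ℤ) ∣ v.ord (algebraMap C C₁ a)) :
    (∀ v : Place k C, (m : ℤ) ∣ v.ord a) ∧ ∀ v : Place k C, (m : ℤ) ∣ v.ord b := by
  refine ⟨fun v => dvd_ord_of_map Ax.coprime h v, fun v => dvd_ord_of_map Ax.coprime (fun u => ?_) v⟩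
  have h1 := Ax.pair ha0 hb0 hnorm (S.frP u)
  rw [Equiv.symm_apply_apply] at h1
  exact (dvd_add_right (h _)).1 h1

/-- A class rational over the tame field has orders divisible by `m`. -/
theorem AuxLevel.dvd_tame (Ax : AuxLevel S R R₁ frob m) (hA : IsRankOne A) (hq : (q : L) ≠ 0)
    (hm : 0 < m)
    (hnone : ∀ τ ∈ R₁.K, ∀ β : ℕ, 0 < β → β < m →
      A.valuation τ ^ m * A.valuation (q : L) ^ β ≠ 1)
    {X : Divisor L F} {g : F} (hg : g ∈ R.FK) (hdiv : divisorOf g = m • X)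
    {a b : C} (ha0 : a ≠ 0) (hb0 : b ≠ 0) (ha : D.Red g a) (hb : D'.Red g b)
    (hnorm : ∀ w, frob w = b ^ q → PowConst k m (a * w)) :
    (∀ v : Place k C, (m : ℤ) ∣ v.ord a) ∧ ∀ v : Place k C, (m : ℤ) ∣ v.ord b := by
  refine Ax.descend ha0 hb0 hnorm ?_
  have hg₁ : divisorOf (K := L) (algebraMap F F₁ g) = m • Divisor.pullback F₁ X := by
    rw [divisorOf_algebraMap, hdiv, map_nsmul]
  have hdeg : Divisor.degree (Divisor.pullback F₁ X) = 0 := by
    have h := degree_divisorOf (K := L) (algebraMap F F₁ g)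
    rw [hg₁, map_nsmul, nsmul_eq_mul, mul_eq_zero] at h
    exact h.resolve_left (by exact_mod_cast hm.ne')
  exact dvd_ord_of_no_value R₁ hA hq hm hdeg
    (fun γ => fix_of_rat R₁.toGalStr hm (Ax.map_mem g hg) hg₁ γ)
    ((map_ne_zero _).2 (ha.ne_zero ha0)) hg₁ (Ax.red _ _ ha) (Ax.red' _ _ hb)
    ((map_ne_zero _).2 ha0) ((map_ne_zero _).2 hb0) (Ax.pair ha0 hb0 hnorm) hnone

variable {R' : GalStr D D'}

/-- The two auxiliary structures and the automorphism above. -/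
structure AuxTwist (T : Twisting R R') (Ax : AuxLevel S R R₁ frob m)
    (Ax' : AuxLevel S R' R₁' frob m)
    where
  /-- the automorphism above -/
  mover : Mover R₁ m
  comm : ∀ f, algebraMap F F₁ (toRingAut T.σ f) = toRingAut mover.σ (algebraMap F F₁ f)
  unif : R₁.unif = unifOf R.toRatStr
  unif_dvd : R₁.unif * R₁.unif ∣ unifOf R₁'.toRatStr

/-- A flat tame class has comparison functions regular over the tubes. -/
theorem exists_comparison (hA : IsRankOne A) (R₁ : TubeRat S) {u : A}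
    (hu : u ∣ unifOf R₁.toRatStr) (hq : 0 < q) {Tt : Divisor L F₁} {gT : F₁}
    (hTK : gT ∈ R₁.FK) (hdivT : divisorOf gT = q • Tt) (hT : D₁.Red gT 1)
    (hT' : D₁'.Red gT 1) (i : ι) :
    ∃ (w Y : F₁) (aw bw : C₁), w ≠ 0 ∧
      (∀ P, below S P = S.x i → 0 ≤ (divisorOf (K := L) w + Tt : Divisor L F₁) P) ∧
      RegTube S i Y ∧ D₁.Red Y aw ∧ D₁'.Red Y bw ∧ valAt (S.x i) aw ≠ 0 ∧
      Close D₁ u w Y ∧ Close D₁' u w Y := by
  set N := S.nodeSystem
  have hgT : gT ≠ 0 := hT.ne_zero one_ne_zero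
  have hdeg : Divisor.degree Tt = 0 := by
    have h := degree_divisorOf (K := L) gT
    rw [hdivT, map_nsmul, nsmul_eq_mul, mul_eq_zero] at h
    exact h.resolve_left (by exact_mod_cast hq.ne')
  obtain ⟨ζ, hζ, hpow⟩ := N.exists_hasJump hq hdeg hgT hdivT (t := 1) (t' := 1) one_ne_zero
    one_ne_zero (by rwa [map_one]) (by rwa [map_one])
  have : Fact q.Prime := ⟨S.side.prime⟩
  obtain rfl : ζ = 1 := funext fun j => frobenius_inj k q (by
    simpa [frobenius_def] using hpow j)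
  set n := N.c + Fintype.card ι + 1
  have hb : N.Big n 0 := by simp [NodeSystem.Big, n]
  obtain ⟨p, hp, hpt⟩ := N.exists_mem_nspace 1 hb 1
  have hpT := hp
  rw [← hζ n 0 hb] at hpT
  have hp0 := hp
  rw [← N.hasJump_zero n 0 hb, add_zero] at hp0
  have := finite_riemannRochSpace (N.Bd n 0 + Tt)
  have := finite_riemannRochSpace (N.Bd n 0)
  obtain ⟨w, hwK, hw, hwa, hwb⟩ := R₁.exists_rat_red hA (riemannRochSpace (N.Bd n 0 + Tt))
    (R₁.span_rat _ fun γ => by
      rw [smul_add, fix_Bd R₁ γ n, fix_of_rat R₁.toGalStr hq hTK hdivT γ]) hpT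
  obtain ⟨Y, hYK, hY, hYa, hYb⟩ := R₁.exists_rat_red hA (riemannRochSpace (N.Bd n 0))
    (R₁.span_rat _ fun γ => fix_Bd R₁ γ n) hp0
  have hval : valAt (S.x i) p.1 ≠ 0 := by
    rw [show valAt (S.x i) p.1 = (1 : ι → k) i from hpt i, Pi.one_apply]; exact one_ne_zero
  have hp1 : p.1 ≠ 0 := fun h0 => hval (by rw [h0, valAt_zero])
  refine ⟨w, Y, p.1, p.2, hwa.ne_zero hp1, fun P hP => ?_, fun P hP => ?_, hYa, hYb, hval,
    (close_fst R₁.toRatStr hwK hYK hwa hYa).mono hu,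
    (close_snd R₁.toRatStr hwK hYK hwb hYb).mono hu⟩
  · have h1 := (mem_rr_iff.1 hw P).le_ord (hwa.ne_zero hp1)
    rw [Finsupp.add_apply, Bd_apply i n hP, zero_add] at h1
    rw [Finsupp.add_apply, divisorOf_apply]
    omega
  · have h1 := mem_rr_iff.1 hY P
    rwa [Bd_apply i n hP, neg_zero] at h1

/-- A class moved by `σ` by a flat tame class has orders divisible by `q`. -/
theorem dvd_wild (hA : IsRankOne A) (hq : (q : L) ≠ 0) (hq0 : 0 < q) {T : Twisting R R'}
    {Ax : AuxLevel S R R₁ frob q} {Ax' : AuxLevel S R' R₁' frob q} (AT : AuxTwist T Ax Ax')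
    {X Tt : Divisor L F} {g gT : F} (hg : g ∈ R.FK) (hdiv : divisorOf g = q • X)
    (hTK : gT ∈ R'.FK) (hdivT : divisorOf gT = q • Tt) (hT : D.Red gT 1) (hT' : D'.Red gT 1)
    {a b : C} (ha0 : a ≠ 0) (hb0 : b ≠ 0) (ha : D.Red g a) (hb : D'.Red g b)
    (hnorm : ∀ w, frob w = b ^ q → PowConst k q (a * w))
    {G : F} (hG0 : G ≠ 0) (hdivG : divisorOf G = T.σ • X - X - Tt)
    (hG : Close D (unifOf R.toRatStr * unifOf R.toRatStr) G 1)
    (hG' : Close D' (unifOf R.toRatStr * unifOf R.toRatStr) G 1) :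
    (∀ v : Place k C, (q : ℤ) ∣ v.ord a) ∧ ∀ v : Place k C, (q : ℤ) ∣ v.ord b := by
  refine Ax.descend ha0 hb0 hnorm ?_
  have hclose : ∀ {Dx : RedDatum A π F C} {Dy : RedDatum A π F₁ C₁},
      (∀ f z, Dx.Red f z → Dy.Red (algebraMap F F₁ f) (algebraMap C C₁ z)) →
      ∀ {c : A} {y z : F}, Close Dx c y z → Close Dy c (algebraMap F F₁ y) (algebraMap F F₁ z) := by
    intro Dx Dy hred c y z ⟨r, hr, e⟩
    obtain ⟨zr, hzr⟩ := exists_red hr
    exact ⟨algebraMap F F₁ r, (hred _ _ hzr).mem, by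
      rw [← map_sub, e, Algebra.smul_def, map_mul, ← IsScalarTower.algebraMap_apply,
        Algebra.smul_def]⟩
  have hsmul : ∀ {Y : Divisor L F} {f : F}, divisorOf f = q • Y →
      Divisor.pullback F₁ (T.σ • Y) = AT.mover.σ • Divisor.pullback F₁ Y := fun {Y f} hf => by
    refine nsmul_cancel hq0 ?_
    rw [← map_nsmul, ← smul_comm T.σ, ← hf, ← divisorOf_toRingAut, ← divisorOf_algebraMap,
      AT.comm, divisorOf_toRingAut, divisorOf_algebraMap, hf, map_nsmul, smul_comm]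
  have hg₁ : divisorOf (K := L) (algebraMap F F₁ g) = q • Divisor.pullback F₁ X := by
    rw [divisorOf_algebraMap, hdiv, map_nsmul]
  have hgT₁ : divisorOf (K := L) (algebraMap F F₁ gT) = q • Divisor.pullback F₁ Tt := by
    rw [divisorOf_algebraMap, hdivT, map_nsmul]
  have hdeg : Divisor.degree (Divisor.pullback F₁ X) = 0 := by
    have h := degree_divisorOf (K := L) (algebraMap F F₁ g)
    rw [hg₁, map_nsmul, nsmul_eq_mul, mul_eq_zero] at h
    exact h.resolve_left (by exact_mod_cast hq0.ne')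
  refine dvd_ord_of_mover R₁ AT.mover hA hq hq0 hdeg
    (fun γ => fix_of_rat R₁.toGalStr hq0 (Ax.map_mem g hg) hg₁ γ)
    ((map_ne_zero _).2 (ha.ne_zero ha0)) hg₁ (Ax.red _ _ ha) (Ax.red' _ _ hb)
    ((map_ne_zero _).2 ha0) ((map_ne_zero _).2 hb0) (Ax.pair ha0 hb0 hnorm)
    (G := algebraMap F F₁ G) (Tt := Divisor.pullback F₁ Tt) ((map_ne_zero _).2 hG0) ?_ ?_ ?_
    fun i => exists_comparison hA R₁' AT.unif_dvd hq0 (Ax'.map_mem gT hTK) hgT₁
      (by simpa using Ax'.red _ _ hT) (by simpa using Ax'.red' _ _ hT') i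
  · rw [divisorOf_algebraMap, hdivG, map_sub, map_sub, hsmul hdiv]
  · rw [AT.unif]; simpa using hclose Ax.red hG
  · rw [AT.unif]; simpa using hclose Ax.red' hG'

end FLTAgent.MazurP
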