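import Fermat.Agent.MazurP.Position
import Fermat.Agent.LevelLower.AuxData

/-!
# The witnesses over the crossings of level `M q`

At every crossing some rational function `u` of level `M`, regular off the cusps, reduces to a
uniformiser up to a constant.  Its `(u(X^q) - u(X)^q)/q` has a simple pole there, is regular over
the tube, and its multiple by `q` has a simple zero on the other branch.
-/

set_option autoImplicit false
set_option linter.style.haveILetI false
set_option linter.unusedSectionVars false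
set_option synthInstance.maxHeartbeats 100000

noncomputable section

open ModularCurve AlgebraicCurve SemilinearAut IsLocalRing

namespace FLTAgent.MazurP

open FLTAgent.GoodRed FLTAgent.GoodRed.RedDatum FLTAgent.Semistable FLTAgent.FunctionField
  FLTAgent.Hecke FLTAgent.LevelLower

local notation "Qbar" => AlgebraicClosure ℚ
local notation "Γℚ" => AlgebraicClosure ℚ ≃ₐ[ℚ] AlgebraicClosure ℚ

local instance (priority := high) instAlgebraFullCWitness {K : Type*} [Field K] (N : ℕ) :
    Algebra K (modularFunctionFieldFullC K N) :=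
  SubalgebraClass.toAlgebra (modularFunctionFieldFullC K N)

local instance (priority := high) instAlgebraLevelWitness (N : ℕ) :
    Algebra Qbar (Hecke.MF Qbar N) :=
  SubalgebraClass.toAlgebra (Hecke.MF Qbar N)

section general

variable {k C : Type*} [Field k] [IsAlgClosed k] [Field C] [Algebra k C] [IsFunctionField k C]

/-- An element regular with nonzero value is a unit. -/
theorem ord_eq_zero_of_valAt {v : Place k C} {z : C} (h : OrdGe v 0 z) (hv : valAt v z ≠ 0) :
    z ≠ 0 ∧ v.ord z = 0 := by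
  have hz : z ≠ 0 := fun h0 => hv (by rw [h0, valAt_zero])
  refine ⟨hz, le_antisymm ?_ (h.le_ord hz)⟩
  by_contra hlt
  push Not at hlt
  have h1 := valAt_spec (v := v) (f := z) h
  have h2 : OrdGe v 1 (algebraMap k C (valAt v z)) := by
    simpa using (ordGe_of_le_ord (v := v) (f := z) (n := 1) hlt).sub h1
  have := h2.le_ord ((map_ne_zero _).2 hv)
  rw [ord_algebraMap] at this
  omega

/-- Frobenius moves the order of a function fixed up to the power. -/
theorem ord_eq_of_frob {q : ℕ} (hq : 0 < q) (frob : C →ₐ[k] C) (frP : Place k C ≃ Place k C)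
    (hord : ∀ v z, v.ord (frob z) = (q : ℤ) * (frP v).ord z) {z : C} (h : frob z = z ^ q)
    (v : Place k C) : (frP.symm v).ord z = v.ord z := by
  have e := hord (frP.symm v) z
  rw [h, FunctionField.ord_pow, Equiv.apply_symm_apply] at e
  exact mul_left_cancel₀ (by exact_mod_cast hq.ne') e

end general

variable {A : ValuationSubring (AlgebraicClosure ℚ)} {q : ℕ} [Fact q.Prime]
  {hA : A.LiesOverPrime q} [CharP (ResidueField A) q] [IsAlgClosed (ResidueField A)]
  {M : ℕ} [NeZero M] {hqM : ¬ q ∣ M}
  [IsFunctionField (ResidueField A) (modularFunctionFieldFullC (ResidueField A) M)]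

local instance instNeZeroQWitness : NeZero q := ⟨(Fact.out : q.Prime).ne_zero⟩
local instance instNeZeroLevelWitness : NeZero (M * q) :=
  ⟨Nat.mul_ne_zero (NeZero.ne M) (Fact.out : q.Prime).ne_zero⟩

/-- `F_{Mq}` as an extension of `F_M` along the first degeneracy map. -/
local instance algAlphaWitness : Algebra (MF Qbar M) (MF Qbar (M * q)) :=
  algebraAlong (alphaMap Qbar M q)

local instance towerAlphaWitness : IsScalarTower Qbar (MF Qbar M) (MF Qbar (M * q)) :=
  isScalarTower_along (alphaMap Qbar M q)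

local instance finiteAlphaWitness : Module.Finite (MF Qbar M) (MF Qbar (M * q)) :=
  finite_alongAlpha M

/-- The reduction of a rational function regular off the cusps is regular off the cusps. -/
theorem ordGe_red_regRat (R : PlaceRed (x0Datum A hA M hqM))
    {x : Place (ResidueField A) (modularFunctionFieldFullC (ResidueField A) M)}
    (hx : 0 ≤ x.ord (x0Jb A hA M hqM)) (u : RegRat M q)
    {ub : modularFunctionFieldFullC (ResidueField A) M}
    (hu : (x0Datum A hA M hqM).Red u.fn ub) : OrdGe x 0 ub := by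
  rcases eq_or_ne ub 0 with rfl | hub
  · exact ordGe_zero _
  have hn : 0 ≤ divisorOf u.fn + u.n • zeroDivisor (K := Qbar) (jMF Qbar M)⁻¹ := fun v => by
    have h := (mem_rr_iff.1 u.reg v).le_ord (hu.ne_zero hub)
    rw [Finsupp.add_apply, divisorOf_apply]
    change 0 ≤ (ratMF u.hu |> v.ord) + _
    omega
  have h := GoodRed.mapDomain_nonneg R.r hn x
  rw [Finsupp.mapDomain_add, R.map_divisorOf _ _ hu hub, Finsupp.mapDomain_smul, Finsupp.add_apply,
    Finsupp.smul_apply, mapDomain_polar_j_apply hA hqM R hx, smul_zero, add_zero,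
    divisorOf_apply] at h
  exact ordGe_of_le_ord h

theorem galAct_TU (u : RegRat M q) (σ : Γℚ) :
    toRingAut (galAct (M * q) σ) (TU u.fn) = TU u.fn := by
  rw [TU, map_div₀, map_sub, map_pow, map_natCast, galAct_betaMap, galAct_alphaMap,
    galAct_ratFun_fn]

variable {ι : Type*} [Fintype ι]
  (X : CrossData (x0Datum A hA M hqM) (redInf A hA M hqM) (redZero A hA M hqM)
    (frobC (K := ResidueField A) q M) q ι)

set_option maxHeartbeats 1600000 in
-- the statement mentions several large fields
/-- A witness at a crossing, fixed by all of the Galois group. -/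
theorem exists_witness (i : ι) (hx : X.x i ∈ crossingSet A hA hqM) :
    ∃ (T : MF Qbar (M * q)) (z u : modularFunctionFieldFullC (ResidueField A) M),
      (∀ σ : Γℚ, toRingAut (galAct (M * q) σ) T = T) ∧ RegTube X i T ∧
      (redInf A hA M hqM).Red T z ∧ (redZero A hA M hqM).Red ((q : Qbar) • T) u ∧
      (X.x i).ord z = -1 ∧ (X.frP.symm (X.x i)).ord u = 1 := by
  classical
  have hq : q.Prime := Fact.out
  obtain ⟨g, c, hL, hk⟩ := exists_rrLarge_x0 A hA M hqM
  have hjfr := frobC_x0Jb hA hqM
  have hx' := hx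
  obtain ⟨hxj, u, Tu, hTu, hpole⟩ := hx
  set x := X.x i with hxdef
  set y := X.frP.symm x with hydef
  have hord : ∀ {z : modularFunctionFieldFullC (ResidueField A) M},
      frobC (K := ResidueField A) q M z = z ^ q → y.ord z = x.ord z := fun h =>
    ord_eq_of_frob hq.pos _ X.frP X.ord_frob h x
  have hyj : 0 ≤ y.ord (x0Jb A hA M hqM) := by rw [hord hjfr]; exact hxj
  obtain ⟨ub, T', hub, -, hufr, hTu', -⟩ := exists_red_TU hA hqM u
  obtain rfl := hTu'.unique hTu
  obtain ⟨u₀, ub₀, a₀, hub₀, ha₀⟩ := exists_regRat_uniformiser hA hqM X.R hL hk hxj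
  obtain ⟨ub₀', T₀, hub₀', -, hu₀fr, hT₀, -⟩ := exists_red_TU hA hqM u₀
  obtain rfl := hub₀'.unique hub₀
  -- the pole at `x` is simple
  have hfix₀ := crossing_value hA hqM X.R hx' hub₀ (ordGe_of_le_ord ha₀.ge)
  have hTge := ordGe_neg_one (ordGe_red_mul hA hqM X.R
    (mapDomain_polar_j_apply hA hqM X.R hxj) u u₀ hTu hub₀) ha₀ hfix₀
  have hT0 : T' ≠ 0 := fun h => hpole (h ▸ ordGe_zero _)
  have hTord : x.ord T' = -1 := by
    have h1 := hTge.le_ord hT0
    by_contra h2
    exact hpole (ordGe_of_le_ord (by omega))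
  -- the two functions `v - v ^ q²`
  set p := ub - ub ^ (q ^ 2) with hp
  set p₀ := ub₀' - ub₀' ^ (q ^ 2) with hp₀
  haveI : CharP (modularFunctionFieldFullC (ResidueField A) M) q :=
    charP_of_injective_ringHom (algebraMap (ResidueField A) _).injective q
  have hpfr : frobC (K := ResidueField A) q M p = p ^ q := by
    rw [hp, map_sub, map_pow, hufr, sub_pow_char, pow_right_comm]
  have hpx : OrdGe x 1 p := by
    obtain ⟨a, ha⟩ := exists_value (ordGe_red_regRat X.R hxj u hub)
    rw [hp, sub_pow_eq ub a, crossing_value hA hqM X.R hx' hub ha, sub_self, map_zero, add_zero]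
    refine ha.sub ((ordGe_pow ha (q ^ 2)).mono ?_)
    have : 0 < q ^ 2 := pow_pos hq.pos 2
    omega
  have hp₀ord : x.ord p₀ = 1 ∧ p₀ ≠ 0 := by
    have hne : ub₀' - algebraMap (ResidueField A) _ a₀ ≠ 0 := fun h => by
      rw [h, Place.ord_zero] at ha₀; omega
    have h2 : 1 < q ^ 2 := Nat.one_lt_pow two_ne_zero hq.one_lt
    obtain ⟨hs, ho⟩ := ord_add_eq_left hne (g := -(ub₀' - algebraMap (ResidueField A) _ a₀) ^
      (q ^ 2)) ((ordGe_pow (ordGe_of_le_ord (n := 1) ha₀.ge) (q ^ 2)).neg.mono
        (by rw [ha₀]; omega))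
    rw [hp₀, sub_pow_eq ub₀' a₀, hfix₀, sub_self, map_zero, add_zero, sub_eq_add_neg]
    exact ⟨ho.trans ha₀, hs⟩
  -- values at the two branches of the product
  obtain ⟨ha, hb⟩ := red_TT hA hqM u u₀ hub hufr hub₀ hu₀fr hTu hT₀
  obtain ⟨⟨N, hN⟩, N', hN'⟩ := exists_TU_mem_rr u u₀
  have hcusp : ∀ n : ℕ, X.red₁ (n • zeroDivisor (K := Qbar) (jMF Qbar M)⁻¹) x = 0 := fun n => by
    rw [X.red₁_nsmul, Finsupp.smul_apply,
      show X.red₁ _ x = _ from mapDomain_polar_j_apply hA hqM X.R hxj, smul_zero]
  have hregT : RegTube X i (TU u.fn) := fun P hP =>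
    regular_above X (nsmul_nonneg (zeroDivisor_nonneg _) _) (hcusp N) hN hP
  have hregTT : RegTube X i (TT u u₀) := fun P hP =>
    regular_above X (nsmul_nonneg (zeroDivisor_nonneg _) _) (hcusp N') hN' hP
  obtain ⟨-, hbreg, hagree⟩ := regTube_agree hregTT ha hb
  have hval : valAt y (p * T₀) ≠ 0 := by
    rw [← hagree]
    refine valAt_ne_zero_of_ord_eq_zero (mul_ne_zero hT0 hp₀ord.2) ?_
    rw [x.ord_mul hT0 hp₀ord.2, hTord, hp₀ord.1]; norm_num
  obtain ⟨hpT, hpTord⟩ := ord_eq_zero_of_valAt hbreg hval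
  rw [mul_ne_zero_iff] at hpT
  rw [y.ord_mul hpT.1 hpT.2, ← hp] at hpTord
  have hpe : y.ord p = x.ord p := hord hpfr
  have he : 1 ≤ x.ord p := hpx.le_ord hpT.1
  -- the pole on the other branch is simple too
  have hy : y ∈ crossingSet A hA hqM :=
    ⟨hyj, u₀, T₀, hT₀, fun h => by have := h.le_ord hpT.2; omega⟩
  obtain ⟨u₁, ub₁, a₁, hub₁, ha₁⟩ := exists_regRat_uniformiser hA hqM X.R hL hk hyj
  have hT₀ge := (ordGe_neg_one (ordGe_red_mul hA hqM X.R
    (mapDomain_polar_j_apply hA hqM X.R hyj) u₀ u₁ hT₀ hub₁) ha₁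
    (crossing_value hA hqM X.R hy hub₁ (ordGe_of_le_ord ha₁.ge))).le_ord hpT.2
  refine ⟨TU u.fn, T', p, galAct_TU u, hregT, hTu, ?_, hTord, by omega⟩
  rw [redZero_iff, Algebra.smul_def, map_natCast, natCast_mul_TU, map_sub, map_pow, swapW_beta,
    swapW_alpha]
  exact red_sub_frob (D := redInf A hA M hqM) (redInf_alpha hA hqM hub) (redInf_beta hA hqM hub)
    hufr

/-- The witness as a `TubeWit` for any field containing the Galois invariant functions. -/
def tubeWit (hx : Set.range X.x = crossingSet A hA hqM) (K : Subfield (MF Qbar (M * q)))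
    (hK : ∀ f, (∀ σ : Γℚ, toRingAut (galAct (M * q) σ) f = f) → f ∈ K) (i : ι) :
    TubeWit X K i :=
  let h := exists_witness X i (hx ▸ Set.mem_range_self i)
  { T := h.choose
    mem := hK _ h.choose_spec.choose_spec.choose_spec.1
    reg := h.choose_spec.choose_spec.choose_spec.2.1
    z := h.choose_spec.choose
    u := h.choose_spec.choose_spec.choose
    red := h.choose_spec.choose_spec.choose_spec.2.2.1
    red' := h.choose_spec.choose_spec.choose_spec.2.2.2.1
    ord_z := h.choose_spec.choose_spec.choose_spec.2.2.2.2.1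
    ord_u := h.choose_spec.choose_spec.choose_spec.2.2.2.2.2 }

theorem tubeWit_galAct (hx : Set.range X.x = crossingSet A hA hqM)
    (K : Subfield (MF Qbar (M * q)))
    (hK : ∀ f, (∀ σ : Γℚ, toRingAut (galAct (M * q) σ) f = f) → f ∈ K) (i : ι) (σ : Γℚ) :
    toRingAut (galAct (M * q) σ) (tubeWit X hx K hK i).T = (tubeWit X hx K hK i).T :=
  (exists_witness X i (hx ▸ Set.mem_range_self i)).choose_spec.choose_spec.choose_spec.1 σ

end FLTAgent.MazurP
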