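import Fermat.Agent.MazurP.RatSub
import Fermat.Agent.MazurP.Witness
import Fermat.Agent.MazurP.AuxLevel

/-!
# The auxiliary level as an instance

At an auxiliary level `M' q` with crossings, every ground gives rational tube data, and the twist
of a pair of grounds gives a mover.
-/

set_option autoImplicit false
set_option linter.style.haveILetI false
set_option linter.unusedSectionVars false
set_option synthInstance.maxHeartbeats 100000

noncomputable section

open ModularCurve AlgebraicCurve SemilinearAut IsLocalRing

namespace FLTAgent.MazurP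

open FLTAgent.GoodRed FLTAgent.GoodRed.RedDatum FLTAgent.Semistable FLTAgent.Hecke
  FLTAgent.FunctionField FLTAgent.LevelLower

local notation "Qbar" => AlgebraicClosure ℚ
local notation "Γℚ" => AlgebraicClosure ℚ ≃ₐ[ℚ] AlgebraicClosure ℚ

local instance (priority := high) instAlgebraFullCAuxInstance {K : Type*} [Field K] (N : ℕ) :
    Algebra K (modularFunctionFieldFullC K N) :=
  SubalgebraClass.toAlgebra (modularFunctionFieldFullC K N)

local instance (priority := high) instAlgebraLevelAuxInstance (N : ℕ) :
    Algebra Qbar (Hecke.MF Qbar N) :=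
  SubalgebraClass.toAlgebra (Hecke.MF Qbar N)

variable {A : ValuationSubring (AlgebraicClosure ℚ)} {q : ℕ} [Fact q.Prime]
  {hA : A.LiesOverPrime q} [CharP (ResidueField A) q] [IsAlgClosed (ResidueField A)]
  {M M' : ℕ} [NeZero M] [NeZero M'] {hqM : ¬ q ∣ M} {hqM' : ¬ q ∣ M'}
  [IsFunctionField (ResidueField A) (modularFunctionFieldFullC (ResidueField A) M')]

local instance instNeZeroQAuxInstance : NeZero q := ⟨(Fact.out : q.Prime).ne_zero⟩
local instance instNeZeroLevelAuxInstance : NeZero (M * q) :=
  ⟨Nat.mul_ne_zero (NeZero.ne M) (NeZero.ne q)⟩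
local instance instNeZeroLevelAuxInstance' : NeZero (M' * q) :=
  ⟨Nat.mul_ne_zero (NeZero.ne M') (NeZero.ne q)⟩

/-- `F_{M' q}` as an extension of `F_{M'}` along the first degeneracy map. -/
local instance algAlphaAuxInstance : Algebra (MF Qbar M') (MF Qbar (M' * q)) :=
  algebraAlong (alphaMap Qbar M' q)

local instance towerAlphaAuxInstance : IsScalarTower Qbar (MF Qbar M') (MF Qbar (M' * q)) :=
  isScalarTower_along (alphaMap Qbar M' q)

local instance finiteAlphaAuxInstance : Module.Finite (MF Qbar M') (MF Qbar (M' * q)) :=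
  finite_alongAlpha M'

variable {ι : Type*} [Fintype ι]
  (X : CrossData (x0Datum A hA M' hqM') (redInf A hA M' hqM') (redZero A hA M' hqM')
    (frobC (K := ResidueField A) q M') q ι)
  (hx : Set.range X.x = crossingSet A hA hqM') (hG₁ : ∀ σ : Γℚ, galAct M' σ • X.G₁ = X.G₁)

/-- The rational tube data of a ground. -/
def subTube (P : Ground A) : TubeRat X where
  toGalStr := subRat hA hqM' P
  mem_K a h := fun σ hσ => h ⟨σ, hσ⟩
  tube γ i Q hQ := by
    show below X (galAct (M' * q) γ.1 • Q) = X.x i
    rw [below_galAct X (P.le γ.2), hQ]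
  fix_G₁ γ := by
    show galAct (M' * q) γ.1 • _ = _
    rw [pullback_smul_of_intertwines (galAct M' γ.1) (galAct (M' * q) γ.1)
      (galAct_alphaMap M' γ.1), hG₁]
  wit i := tubeWit X hx (subFun P (M' * q)) (fun _ hf σ _ => hf σ) i

theorem coe_unif_subTube (P : Ground A) : ((subTube X hx hG₁ P).unif : Qbar) = P.ϖ := rfl

variable (P : Ground A) {σ : Γℚ}

include hA in
theorem residue_sq_eq_zero :
    residue A ((subTube X hx hG₁ P).unif * (subTube X hx hG₁ P).unif) = 0 := by
  rw [map_mul, show residue A (subTube X hx hG₁ P).unif = 0 from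
    ((isResidueMap_residue A).eq_zero_iff _).2 P.ϖ_nonunit, zero_mul]

/-- An element of inertia moving the constants to second order and the possible positions exactly
to first order is a mover. -/
def subMover (hσI : σ ∈ A.inertiaSubgroupIn ℚ)
    (hσ : ∀ a : A, (a : Qbar) ∈ P.field →
      ∃ b : A, σ (a : Qbar) = (a : Qbar) + P.ϖ * P.ϖ * b)
    (hmove : ∀ τ : Qbar, τ ∈ P.field → ∀ β : ℕ, 0 < β → β < q →
      A.valuation τ ^ q * A.valuation (q : Qbar) ^ β = 1 →
        ∃ a : A, A.valuation (a : Qbar) = 1 ∧ σ τ = τ * (1 + P.ϖ * a)) :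
    Mover (subTube X hx hG₁ P) q where
  σ := galAct (M' * q) σ
  tube i Q := by rw [below_galAct X hσI]
  fix_wit i := tubeWit_galAct X hx (subFun P (M' * q)) (fun _ hf τ _ => hf τ) i σ
  cong y hy hyV := close_galAct hA hqM'
    (u := (subTube X hx hG₁ P).unif * (subTube X hx hG₁ P).unif)
    (mul_ne_zero P.ϖ_ne P.ϖ_ne)
    (((isResidueMap_residue A).eq_zero_iff _).1 (residue_sq_eq_zero X hx hG₁ P)) hσ hy hyV
  cong' y hy hyV := close_galAct' hA hqM'
    (u := (subTube X hx hG₁ P).unif * (subTube X hx hG₁ P).unif)
    (mul_ne_zero P.ϖ_ne P.ϖ_ne)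
    (((isResidueMap_residue A).eq_zero_iff _).1 (residue_sq_eq_zero X hx hG₁ P)) hσ hy hyV
  natCast_mem τ _ := map_natCast τ q
  move τ hτ β h1 h2 h3 := by
    obtain ⟨a, ha, e⟩ := hmove τ hτ β h1 h2 h3
    exact ⟨a, ((isResidueMap_residue A).ne_zero_iff _).2 ha, e⟩

section map

variable [IsFunctionField (ResidueField A) (modularFunctionFieldFullC (ResidueField A) M)]

set_option maxHeartbeats 1600000 in
-- the statement mentions several large fields
/-- The auxiliary level of a ground. -/
theorem subAuxLevel (h : M ∣ M') {m : ℕ}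
    (hcop : Nat.Coprime m (finrankAlong (ResidueField A) (upBar (ResidueField A) h))) :
    letI := algebraAlong (upMap q h)
    letI := algebraAlong (upBar (ResidueField A) h)
    haveI := isScalarTower_along (upMap q h)
    haveI := isScalarTower_along (upBar (ResidueField A) h)
    haveI : Module.Finite (MF Qbar (M * q)) (MF Qbar (M' * q)) :=
      finiteAlong_of_isFunctionField (upMap q h)
    haveI : Module.Finite (modularFunctionFieldFullC (ResidueField A) M)
      (modularFunctionFieldFullC (ResidueField A) M') :=
      finiteAlong_of_isFunctionField (upBar (ResidueField A) h)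
    AuxLevel X (subRat hA hqM P) (subTube X hx hG₁ P)
      (frobC (K := ResidueField A) q M) m := by
  letI := algebraAlong (upMap q h)
  letI := algebraAlong (upBar (ResidueField A) h)
  haveI := isScalarTower_along (upMap q h)
  haveI := isScalarTower_along (upBar (ResidueField A) h)
  haveI : Module.Finite (MF Qbar (M * q)) (MF Qbar (M' * q)) :=
    finiteAlong_of_isFunctionField (upMap q h)
  have red : ∀ f z, (redInf A hA M hqM).Red f z →
      (redInf A hA M' hqM').Red (upMap q h f) (upBar (ResidueField A) h z) := fun f z hr => by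
    rw [redInf_iff, coe_upMap, coe_upBar, ← redInf_iff hA hqM]
    exact hr
  refine { red := red, red' := fun f z hr => ?_, frob_comm := fun z => ?_,
           map_mem := fun f hf => ?_, hpow := exists_frobC_eq_pow q M, coprime := hcop }
  · show (redZero A hA M' hqM').Red (upMap q h f) (upBar (ResidueField A) h z)
    rw [redZero_iff, ← upMap_swapW h hqM hqM']
    exact red _ _ ((redZero_iff hA hqM).1 hr)
  · refine Subtype.ext ?_
    show (upBar (ResidueField A) h (frobC (K := ResidueField A) q M z) : LaurentSeries (ResidueField A)) = _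
    rw [coe_upBar]
    show _ = (frobC (K := ResidueField A) q M' (upBar (ResidueField A) h z) : LaurentSeries (ResidueField A))
    rw [coe_frobC, coe_frobC, coe_upBar]
  · intro τ hτ
    show toRingAut (galAct (M' * q) τ) (upMap q h f) = upMap q h f
    rw [upMap_galAct, hf τ hτ]

end map

end FLTAgent.MazurP
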