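import Fermat.Agent.LevelLower.Flatten
import Fermat.Agent.Semistable.PTorsClose

/-!
# Congruences between rational functions

A rational function with reduction zero on a component is divisible there by the uniformiser,
so rational functions with constant reduction are congruent to constants.  A principal divisor
fixed by the automorphisms is the divisor of a rational function.
-/

set_option autoImplicit false
set_option linter.unusedSectionVars false

noncomputable section

open AlgebraicCurve SemilinearAut

namespace FLTAgent.MazurP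

open FLTAgent.GoodRed FLTAgent.GoodRed.RedDatum FLTAgent.FunctionField FLTAgent.Semistable
  FLTAgent.LevelLower

variable {L k : Type*} [Field L] [Field k] {A : ValuationSubring L} {π : A →+* k}
  {F C C' : Type*} [Field F] [Algebra L F] [Field C] [Algebra k C] [Field C'] [Algebra k C']
  {D : RedDatum A π F C} {D' : RedDatum A π F C'}

/-- The uniformiser as an integral constant. -/
def unifOf (R : RatStr D D') : A := ⟨R.ϖ, A.nonunits_subset R.ϖ_nonunit⟩

variable (R : RatStr D D')

theorem coe_unifOf : ((unifOf R : A) : L) = R.ϖ := rfl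

theorem unifOf_nonunit : ((unifOf R : A) : L) ∈ A.nonunits := R.ϖ_nonunit

theorem red_unifOf : π (unifOf R) = 0 := (D.isResidue.eq_zero_iff _).2 R.ϖ_nonunit

theorem close_zero_fst {f : F} (hf : f ∈ R.FK) (h : D.Red f 0) : Close D (unifOf R) f 0 := by
  rcases eq_or_ne f 0 with rfl | hf0
  · exact Close.refl 0
  obtain ⟨c, hcK, hc, z, hz, hr⟩ := R.scale f hf hf0
  exact ⟨R.ϖ⁻¹ • f, R.div_mem_aux D hcK hc hz hr h,
    by rw [sub_zero, coe_unifOf, smul_inv_smul₀ R.ϖ_ne]⟩

theorem close_zero_snd {f : F} (hf : f ∈ R.FK) (h : D'.Red f 0) : Close D' (unifOf R) f 0 := by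
  rcases eq_or_ne f 0 with rfl | hf0
  · exact Close.refl 0
  obtain ⟨c, hcK, hc, z, hz, hr⟩ := R.scale' f hf hf0
  exact ⟨R.ϖ⁻¹ • f, R.div_mem_aux D' hcK hc hz hr h,
    by rw [sub_zero, coe_unifOf, smul_inv_smul₀ R.ϖ_ne]⟩

theorem close_fst {f g : F} (hf : f ∈ R.FK) (hg : g ∈ R.FK) {z : C} (h : D.Red f z)
    (h' : D.Red g z) : Close D (unifOf R) f g := by
  simpa using (close_zero_fst R (sub_mem hf hg) (by simpa using h.sub h')).add (Close.refl g)

theorem close_snd {f g : F} (hf : f ∈ R.FK) (hg : g ∈ R.FK) {z : C'} (h : D'.Red f z)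
    (h' : D'.Red g z) : Close D' (unifOf R) f g := by
  simpa using (close_zero_snd R (sub_mem hf hg) (by simpa using h.sub h')).add (Close.refl g)

/-- A rational scalar lifting a residue, as an element of `A`. -/
theorem exists_lift_mem (t : k) : ∃ a : A, (a : L) ∈ R.K ∧ π a = t := R.lift t

theorem algebraMap_mem_FK {a : L} (ha : a ∈ R.K) : algebraMap L F a ∈ R.FK :=
  R.algebraMap_mem a ha

section principal

variable [IsFunctionField L F] [IsAlgClosed L]

/-- A principal fixed divisor has a rational function. -/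
theorem exists_rat_of_fixed (G : GalStr D D') {e : F} (he : e ≠ 0)
    (hfix : ∀ γ, G.act γ • divisorOf (K := L) e = divisorOf e) :
    ∃ e' ∈ G.FK, e' ≠ 0 ∧ divisorOf (K := L) e' = divisorOf e := by
  by_contra hall
  push Not at hall
  have hle := G.span_rat (-divisorOf e) fun γ => by rw [smul_neg, hfix]
  have hmem : e ∈ riemannRochSpace (-divisorOf (K := L) e) :=
    mem_rr_iff.2 fun v => ordGe_of_le_ord (by simp)
  have hzero : Submodule.span L
      ((riemannRochSpace (-divisorOf (K := L) e) : Set F) ∩ G.FK) = ⊥ := by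
    refine Submodule.span_eq_bot.2 fun f ⟨hf, hfK⟩ => ?_
    by_contra hf0
    refine hall f hfK hf0 (FLTAgent.GoodRed.eq_of_le_of_degree_eq (fun v => ?_)
      (by rw [degree_divisorOf, degree_divisorOf])).symm
    have := (mem_rr_iff.1 hf v).le_ord hf0
    simpa using this
  rw [hzero] at hle
  exact he (Submodule.mem_bot L |>.1 (hle hmem))


/-- A function with constant power is constant. -/
theorem exists_const_of_pow {n : ℕ} (hn : 0 < n) {x : F} {c : L} (hc : c ≠ 0)
    (h : x ^ n = algebraMap L F c) : ∃ k₀ : L, k₀ ≠ 0 ∧ x = algebraMap L F k₀ := by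
  have hx : x ≠ 0 := fun h0 => (map_ne_zero (algebraMap L F)).2 hc (by
    rw [← h, h0, zero_pow hn.ne'])
  have hd : divisorOf (K := L) x = 0 := nsmul_cancel hn (by
    rw [← divisorOf_pow, h, smul_zero]
    exact Finsupp.ext fun v => by rw [divisorOf_apply, ord_algebraMap, Finsupp.zero_apply])
  obtain ⟨a, ha⟩ := exists_eq_algebraMap_of_divisorOf_eq_zero hd
  exact ⟨a, fun h0 => hx (by rw [← ha, h0, map_zero]), ha.symm⟩

end principal

end FLTAgent.MazurP
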