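import Fermat.Agent.Reduction.Peu.Resolvent
import Fermat.Agent.Reduction.Inertia
import Fermat.Agent.LevelSq.Setting
import Fermat.Agent.Char.Rational

/-!
# The fields cut out by a peu ramifié Kummer class

Inertia at a place over `p` moves `ζ` and a unit `x` with `x ^ p` fixed.  If some element fixing
`ζ` moves `x`, then after dividing `x` by a fixed unit, `ϖ = (ζ - 1) / (x - 1)` is a uniformiser
of the field fixed by the stabiliser of `ζ` and `x`, and such an element moves `ϖ` exactly to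
first order and the integers to second order.
-/

set_option autoImplicit false
set_option linter.unusedSectionVars false

noncomputable section

namespace FLTAgent.MazurP

open FLTAgent.Reduction FLTAgent.Reduction.Peu

local notation "Qbar" => AlgebraicClosure ℚ
local notation "Γℚ" => AlgebraicClosure ℚ ≃ₐ[ℚ] AlgebraicClosure ℚ

variable {p : ℕ} [hp : Fact p.Prime] {A : ValuationSubring Qbar}

variable (A) in
/-- The elements of inertia fixing `u` and `w`. -/
def stabPair (u w : Qbar) : Subgroup Γℚ where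
  carrier := {σ | σ ∈ A.inertiaSubgroupIn ℚ ∧ σ u = u ∧ σ w = w}
  one_mem' := ⟨one_mem _, rfl, rfl⟩
  mul_mem' := fun {σ τ} hσ hτ => ⟨mul_mem hσ.1 hτ.1, by
    rw [AlgEquiv.mul_apply, hτ.2.1, hσ.2.1], by rw [AlgEquiv.mul_apply, hτ.2.2, hσ.2.2]⟩
  inv_mem' := fun {σ} hσ => ⟨inv_mem hσ.1,
    σ.injective (by rw [← AlgEquiv.mul_apply, mul_inv_cancel, AlgEquiv.one_apply, hσ.2.1]),
    σ.injective (by rw [← AlgEquiv.mul_apply, mul_inv_cancel, AlgEquiv.one_apply, hσ.2.2])⟩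

theorem mem_stabPair {u w : Qbar} {σ : Γℚ} :
    σ ∈ stabPair A u w ↔ σ ∈ A.inertiaSubgroupIn ℚ ∧ σ u = u ∧ σ w = w := Iff.rfl

variable (A) in
/-- The field fixed by `stabPair A u w`. -/
def pairField (u w : Qbar) : IntermediateField ℚ Qbar :=
  IntermediateField.fixedField (stabPair A u w)

theorem mem_pairField {u w a : Qbar} :
    a ∈ pairField A u w ↔ ∀ σ ∈ stabPair A u w, σ a = a :=
  IntermediateField.mem_fixedField_iff _ _

theorem urField_le_pairField (u w : Qbar) : LevelSq.urField A ≤ pairField A u w := fun _ ha =>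
  mem_pairField.2 fun σ hσ => (IntermediateField.mem_fixedField_iff _ _).1 ha σ hσ.1

theorem apply_eq_of_agree {u w a : Qbar} (ha : a ∈ pairField A u w) {σ σ' : Γℚ}
    (hσ : σ ∈ A.inertiaSubgroupIn ℚ) (hσ' : σ' ∈ A.inertiaSubgroupIn ℚ) (hu : σ u = σ' u)
    (hw : σ w = σ' w) : σ a = σ' a := by
  have hinv : ∀ y, σ'⁻¹ (σ' y) = y := fun y => by
    rw [← AlgEquiv.mul_apply, inv_mul_cancel, AlgEquiv.one_apply]
  have h : (σ'⁻¹ * σ) a = a := mem_pairField.1 ha _ ⟨mul_mem (inv_mem hσ') hσ,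
    by rw [AlgEquiv.mul_apply, hu, hinv], by rw [AlgEquiv.mul_apply, hw, hinv]⟩
  apply (σ'⁻¹ : Γℚ).injective
  rw [hinv, ← AlgEquiv.mul_apply, h]

theorem v_p_lt_one (hA : A.LiesOverPrime p) : A.valuation (p : Qbar) < 1 :=
  GalChar.valuation_natCast_lt_one hA

theorem v_p_pos : 0 < A.valuation (p : Qbar) :=
  zero_lt_iff.2 ((map_ne_zero _).2 (Nat.cast_ne_zero.2 hp.out.ne_zero))

theorem v_p_zpow_inj (hA : A.LiesOverPrime p) {a b : ℤ}
    (h : A.valuation (p : Qbar) ^ a = A.valuation (p : Qbar) ^ b) : a = b :=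
  zpow_right_injective₀ v_p_pos (v_p_lt_one hA).ne (by simpa using h)

/-- The valuation of an element fixed by the stabiliser, from the number of conjugate pairs. -/
theorem exists_pow_card (hA : A.LiesOverPrime p) {u w a : Qbar} (S : Finset (Qbar × Qbar))
    (hS : ∀ s, s ∈ S ↔ ∃ σ ∈ A.inertiaSubgroupIn ℚ, (σ u, σ w) = s) (ha : a ∈ pairField A u w)
    (ha0 : a ≠ 0) : ∃ m : ℤ, A.valuation a ^ S.card = A.valuation (p : Qbar) ^ m := by
  classical
  have hch : ∀ s ∈ S, ∃ σ ∈ A.inertiaSubgroupIn ℚ, (σ u, σ w) = s := fun s hs => (hS s).1 hs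
  choose rep hrep hreps using hch
  set P : Qbar := ∏ s ∈ S.attach, rep s.1 s.2 a with hP
  have hP0 : P ≠ 0 := Finset.prod_ne_zero_iff.2 fun s _ =>
    (map_ne_zero (rep s.1 s.2)).2 ha0
  have hfix : ∀ τ ∈ A.inertiaSubgroupIn ℚ, τ P = P := by
    intro τ hτ
    rw [hP, map_prod]
    have hmap : ∀ s ∈ S, (τ s.1, τ s.2) ∈ S := fun s hs => (hS _).2
      ⟨τ * rep s hs, mul_mem hτ (hrep s hs), by
        rw [AlgEquiv.mul_apply, AlgEquiv.mul_apply]
        exact Prod.ext (congrArg τ (congrArg Prod.fst (hreps s hs) :))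
          (congrArg τ (congrArg Prod.snd (hreps s hs) :))⟩
    refine Finset.prod_bij (fun s _ => (⟨_, hmap s.1 s.2⟩ : {x // x ∈ S}))
      (fun _ _ => Finset.mem_attach _ _) ?_ ?_ ?_
    · intro s _ t _ hst
      have h1 := congrArg (fun x : {x // x ∈ S} => x.1.1) hst
      have h2 := congrArg (fun x : {x // x ∈ S} => x.1.2) hst
      exact Subtype.ext (Prod.ext (τ.injective h1) (τ.injective h2))
    · intro t _
      obtain ⟨t, ht⟩ := t
      have hm : (τ⁻¹ t.1, τ⁻¹ t.2) ∈ S := (hS _).2 ⟨τ⁻¹ * rep t ht,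
        mul_mem (inv_mem hτ) (hrep t ht), by
          rw [AlgEquiv.mul_apply, AlgEquiv.mul_apply]
          exact Prod.ext (congrArg (τ⁻¹ : Γℚ) (congrArg Prod.fst (hreps t ht)) :)
            (congrArg (τ⁻¹ : Γℚ) (congrArg Prod.snd (hreps t ht)) :)⟩
      exact ⟨⟨_, hm⟩, Finset.mem_attach _ _, Subtype.ext (Prod.ext
        (τ.apply_symm_apply _) (τ.apply_symm_apply _))⟩
    · intro s _
      have e1 := congrArg Prod.fst (hreps s.1 s.2)
      have e2 := congrArg Prod.snd (hreps s.1 s.2)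
      have e3 := congrArg Prod.fst (hreps _ (hmap s.1 s.2))
      have e4 := congrArg Prod.snd (hreps _ (hmap s.1 s.2))
      simp only at e1 e2 e3 e4
      rw [← AlgEquiv.mul_apply]
      exact apply_eq_of_agree ha (mul_mem hτ (hrep s.1 s.2)) (hrep _ _)
        (by rw [AlgEquiv.mul_apply, e1, e3]) (by rw [AlgEquiv.mul_apply, e2, e4])
  obtain ⟨m, hm⟩ := Peu.valuation_eq_zpow_of_fixed hp.out hA hP0 hfix
  refine ⟨m, ?_⟩
  rw [← hm, hP, map_prod, Finset.prod_congr rfl fun s _ =>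
    v_map_eq_qbar (inertia_le_decomposition (hrep s.1 s.2)) a, Finset.prod_const,
    Finset.card_attach]

/-- Every valuation of the pair field is a power of that of a uniformiser. -/
theorem exists_zpow_unif (hA : A.LiesOverPrime p) {u w ϖ : Qbar} (S : Finset (Qbar × Qbar))
    (hS : ∀ s, s ∈ S ↔ ∃ σ ∈ A.inertiaSubgroupIn ℚ, (σ u, σ w) = s) {e : ℕ} (he : 0 < e)
    (hcard : S.card ≤ e) (hϖ : ϖ ∈ pairField A u w)
    (hv : A.valuation ϖ ^ e = A.valuation (p : Qbar)) {a : Qbar} (ha : a ∈ pairField A u w)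
    (ha0 : a ≠ 0) : ∃ m : ℤ, A.valuation a = A.valuation ϖ ^ m := by
  have hϖ0 : ϖ ≠ 0 := fun h => (v_p_pos (A := A)).ne' (by
    rw [← hv, h, map_zero, zero_pow he.ne'])
  obtain ⟨m₀, hm₀⟩ := exists_pow_card hA S hS hϖ hϖ0
  have hcard' : (S.card : ℤ) = m₀ * e := v_p_zpow_inj hA (by
    rw [zpow_mul, ← hm₀, zpow_natCast, zpow_natCast]
    conv_lhs => rw [← hv]
    rw [← pow_mul, ← pow_mul, mul_comm])
  have hpos : 0 < S.card := Finset.card_pos.2 ⟨(u, w), (hS _).2 ⟨1, one_mem _, rfl⟩⟩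
  have hSe : S.card = e := by
    have h1 : 1 ≤ m₀ := by
      by_contra h
      have : m₀ * (e : ℤ) ≤ 0 :=
        mul_nonpos_of_nonpos_of_nonneg (by omega) (Int.natCast_nonneg _)
      omega
    have h2 : (e : ℤ) ≤ S.card := by
      rw [hcard']; exact le_mul_of_one_le_left (Int.natCast_nonneg _) h1
    omega
  obtain ⟨m, hm⟩ := exists_pow_card hA S hS ha ha0
  refine ⟨m, (pow_left_inj₀ zero_le zero_le he.ne').1 ?_⟩
  rw [← hSe, hm, hSe, ← hv, ← zpow_natCast, ← zpow_natCast, ← zpow_mul, ← zpow_mul, mul_comm]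

/-- A unit of a uniformised field divided by the uniformiser. -/
theorem div_mem_of_lt_one {u w ϖ : Qbar} (hϖ0 : ϖ ≠ 0) (hϖ : A.valuation ϖ < 1)
    (hval : ∀ a ∈ pairField A u w, a ≠ 0 → ∃ m : ℤ, A.valuation a = A.valuation ϖ ^ m)
    {a : Qbar} (ha : a ∈ pairField A u w) (han : a ∈ A.nonunits) : a / ϖ ∈ A := by
  rcases eq_or_ne a 0 with rfl | ha0
  · rw [zero_div]; exact zero_mem _
  obtain ⟨m, hm⟩ := hval a ha ha0
  have hpos : 0 < A.valuation ϖ := zero_lt_iff.2 ((map_ne_zero _).2 hϖ0)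
  have hm1 : 1 ≤ m := by
    by_contra h
    have := A.mem_nonunits_iff.1 han
    rw [hm] at this
    exact not_le.2 this (one_le_zpow_of_nonpos₀ hpos hϖ.le (by omega))
  rw [← A.valuation_le_one_iff, map_div₀, div_le_one₀ hpos, hm]
  simpa using zpow_right_anti₀ hpos hϖ.le hm1

section cyclo

variable {ε : AddChar (ZMod p) Qbar}

theorem addChar_fixed {σ : Γℚ} (h : σ (ε 1) = ε 1) (j : ZMod p) : σ (ε j) = ε j := by
  rw [← ZMod.natCast_zmod_val j, ← nsmul_one j.val, AddChar.map_nsmul_eq_pow, map_pow, h]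

theorem v_lam_lt_one (hA : A.LiesOverPrime p) (hε : ε 1 ≠ 1) : A.valuation (ε 1 - 1) < 1 := by
  by_contra h
  push Not at h
  exact (v_p_lt_one hA).not_ge (v_addChar_sub_one_pow (A := A) hε ▸ one_le_pow₀ h)

theorem v_lam_pos (hε : ε 1 ≠ 1) : 0 < A.valuation (ε 1 - 1) :=
  zero_lt_iff.2 ((map_ne_zero _).2 (sub_ne_zero.2 hε))

open Classical in
/-- The conjugate pairs of `(ζ, x)`. -/
def pairSet (A : ValuationSubring Qbar) (ε : AddChar (ZMod p) Qbar) (x : Qbar) :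
    Finset (Qbar × Qbar) :=
  ((((Finset.univ.filter fun a : ZMod p => a ≠ 0) ×ˢ (Finset.univ : Finset (ZMod p))).image
    fun ac => (ε ac.1, ε ac.2 * x)).filter
    fun s => ∃ σ ∈ A.inertiaSubgroupIn ℚ, (σ (ε 1), σ x) = s)

open Classical in
/-- The conjugates of `ζ`, as pairs. -/
def tameSet (A : ValuationSubring Qbar) (ε : AddChar (ZMod p) Qbar) : Finset (Qbar × Qbar) :=
  (((Finset.univ.filter fun a : ZMod p => a ≠ 0).image fun a => (ε a, ε a)).filter
    fun s => ∃ σ ∈ A.inertiaSubgroupIn ℚ, (σ (ε 1), σ (ε 1)) = s)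

theorem ne_zero_of_cyc (hε : ε 1 ≠ 1) {σ : Γℚ} {a : ZMod p}
    (h : ∀ j, σ (ε j) = ε (a * j)) : a ≠ 0 := fun h0 => hε (σ.injective (by
  rw [h, h0, zero_mul, map_one σ, AddChar.map_zero_eq_one]))

theorem card_units_zmod : (Finset.univ.filter fun a : ZMod p => a ≠ 0).card ≤ p - 1 := by
  classical
  rw [Finset.filter_ne', Finset.card_erase_of_mem (Finset.mem_univ _), Finset.card_univ,
    ZMod.card]

variable (hA : A.LiesOverPrime p) (hε : ε 1 ≠ 1)
include hA hε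

/-- The valuations of the tame field. -/
theorem tame_zpow (hcyc : ∀ σ ∈ A.inertiaSubgroupIn ℚ, ∃ a : ZMod p, ∀ j, σ (ε j) = ε (a * j))
    {a : Qbar} (ha : a ∈ pairField A (ε 1) (ε 1)) (ha0 : a ≠ 0) :
    ∃ m : ℤ, A.valuation a = A.valuation (ε 1 - 1) ^ m := by
  classical
  have h2 := hp.out.two_le
  refine exists_zpow_unif hA (tameSet A ε) (fun s => ?_) (e := p - 1) (by omega) ?_
    (mem_pairField.2 fun σ hσ => by rw [map_sub, map_one σ, hσ.2.1])
    (v_addChar_sub_one_pow hε) ha ha0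
  · simp only [tameSet, Finset.mem_filter, Finset.mem_image, Finset.mem_univ, true_and]
    refine ⟨fun h => h.2, fun ⟨σ, hσ, hs⟩ => ⟨?_, σ, hσ, hs⟩⟩
    obtain ⟨a, ha⟩ := hcyc σ hσ
    exact ⟨a, ne_zero_of_cyc hε ha, by rw [← hs, ha, mul_one]⟩
  · exact ((Finset.card_filter_le _ _).trans Finset.card_image_le).trans card_units_zmod

/-- In the tame field no element has the valuation of a crossing point. -/
theorem tame_none (hcyc : ∀ σ ∈ A.inertiaSubgroupIn ℚ, ∃ a : ZMod p, ∀ j, σ (ε j) = ε (a * j))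
    {τ : Qbar} (hτ : τ ∈ pairField A (ε 1) (ε 1)) {β : ℕ} (hβ : 0 < β) (hβp : β < p) :
    A.valuation τ ^ p * A.valuation (p : Qbar) ^ β ≠ 1 := by
  intro h
  have hτ0 : τ ≠ 0 := fun h0 => zero_ne_one (by
    rw [h0, map_zero, zero_pow hp.out.ne_zero, zero_mul] at h; exact h)
  obtain ⟨m, hm⟩ := tame_zpow hA hε hcyc hτ hτ0
  rw [hm, ← v_addChar_sub_one_pow (A := A) hε, ← pow_mul, ← zpow_natCast, ← zpow_mul,
    ← zpow_natCast, ← zpow_add₀ (v_lam_pos hε).ne'] at h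
  have h1 : m * p + (((p - 1) * β : ℕ) : ℤ) = 0 :=
    zpow_right_injective₀ (v_lam_pos (A := A) hε) (v_lam_lt_one hA hε).ne
      (by simp only; rw [zpow_zero]; exact h)
  have h2 := hp.out.two_le
  have h3 : (p : ℤ) ∣ ((p - 1) * β : ℕ) := ⟨-m, by linarith⟩
  rcases hp.out.dvd_mul.1 (Int.natCast_dvd_natCast.1 h3) with h4 | h4
  · have := Nat.le_of_dvd (by omega) h4; omega
  · have := Nat.le_of_dvd hβ h4; omega

/-- A unit moved by an element fixing `ζ`, divided by a fixed unit, is close to one at the exact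
rate `|p| ^ (1 / p)`. -/
theorem exists_normalised_unit (hp2 : p ≠ 2) {x : Qbar} (hx : A.valuation x = 1)
    (hkum : ∀ σ ∈ A.inertiaSubgroupIn ℚ, ∃ a c : ZMod p,
      (∀ j, σ (ε j) = ε (a * j)) ∧ σ x = ε c * x)
    {σ₁ : Γℚ} (hσ₁ : σ₁ ∈ A.inertiaSubgroupIn ℚ) (hσζ : σ₁ (ε 1) = ε 1) (hσx : σ₁ x ≠ x) :
    ∃ t : Qbar, (∀ σ ∈ A.inertiaSubgroupIn ℚ, σ t = t) ∧ t ≠ 0 ∧ A.valuation (x / t) = 1 ∧
      A.valuation (x / t - 1) ^ p = A.valuation (p : Qbar) := by
  have h2 := hp.out.two_le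
  obtain ⟨r, hr⟩ := LevelSq.urRes_surjective hA
    (IsLocalRing.residue A ⟨x, (A.valuation_le_one_iff x).1 hx.le⟩)
  set t : Qbar := (LevelSq.urIncl A r : Qbar) with ht
  have htfix : ∀ σ ∈ A.inertiaSubgroupIn ℚ, σ t = t := fun σ hσ =>
    (IntermediateField.mem_fixedField_iff _ _).1 (r : LevelSq.urField A).2 σ hσ
  have hclose : A.valuation (x - t) < 1 := by
    rw [LevelSq.urRes_apply, eq_comm, ← sub_eq_zero, ← map_sub,
      IsLocalRing.residue_eq_zero_iff] at hr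
    exact (A.valuation_lt_one_iff _).1 hr
  have hvt : A.valuation t = 1 := by
    have h := A.valuation.map_sub_eq_of_lt_left (x := x) (y := x - t) (hclose.trans_le hx.ge)
    rwa [sub_sub_cancel, hx] at h
  have ht0 : t ≠ 0 := fun h => zero_ne_one (by rw [← hvt, h, map_zero])
  set y := x / t with hy
  set z := y - 1 with hz
  have hvy : A.valuation y = 1 := by rw [hy, map_div₀, hx, hvt, div_one]
  have hzn : A.valuation z < 1 := by
    rw [hz, hy, div_sub_one ht0, map_div₀, hvt, div_one]; exact hclose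
  obtain ⟨-, c, -, hc⟩ := hkum σ₁ hσ₁
  have hc0 : c ≠ 0 := fun h => hσx (by rw [hc, h, AddChar.map_zero_eq_one, one_mul])
  have hσy : σ₁ y = ε c * y := by rw [hy, map_div₀, hc, htfix σ₁ hσ₁, mul_div_assoc]
  set lam := ε 1 - 1 with hlam
  have hlam0 : lam ≠ 0 := sub_ne_zero.2 hε
  have hlz : A.valuation lam < A.valuation z := by
    by_contra hle
    push Not at hle
    have hw : z / lam ∈ A := by
      rw [← A.valuation_le_one_iff, map_div₀, div_le_one₀ (v_lam_pos hε)]; exact hle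
    have h := v_map_sub_lt_one hσ₁ hw
    rw [map_div₀, show σ₁ lam = lam by rw [hlam, map_sub, map_one σ₁, hσζ], ← sub_div,
      show σ₁ z - z = (ε c - 1) * y by rw [hz, map_sub, map_one, hσy]; ring, map_div₀, map_mul,
      hvy, mul_one, v_addChar_sub_one hc0, div_self (v_lam_pos hε).ne'] at h
    exact lt_irrefl _ h
  refine ⟨t, htfix, ht0, hvy, ?_⟩
  -- the fixed element `y ^ p - 1`
  have hzA : z ∈ A := (A.valuation_le_one_iff z).1 hzn.le
  obtain ⟨r', hr'⟩ : ∃ r' : A, (z + 1) ^ p = z ^ p + 1 + (p : Qbar) * z * r' := by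
    refine ⟨∑ k ∈ Finset.Ioo 0 p, (⟨z, hzA⟩ : A) ^ (k - 1) * 1 ^ (p - k - 1) *
      ((p.choose k / p : ℕ) : A), ?_⟩
    have h := congrArg Subtype.val (add_pow_prime_eq hp.out (⟨z, hzA⟩ : A) 1)
    simpa using h
  have hlt : A.valuation ((p : Qbar) * z * r') < A.valuation (z ^ p) := by
    have h1 : A.valuation (p : Qbar) < A.valuation z ^ (p - 1) := by
      rw [← v_addChar_sub_one_pow (A := A) hε]
      exact pow_lt_pow_left₀ hlz zero_le (by omega)
    have hzpos : 0 < A.valuation z := lt_of_le_of_lt zero_le hlz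
    rw [map_mul, map_mul, map_pow, show p = p - 1 + 1 by omega, pow_succ,
      ← show p = p - 1 + 1 by omega]
    calc _ ≤ A.valuation (p : Qbar) * A.valuation z :=
          mul_le_of_le_one_right' (A.valuation_le_one r')
      _ < _ := mul_lt_mul_of_pos_right h1 hzpos
  have hval : A.valuation (y ^ p - 1) = A.valuation z ^ p := by
    rw [show y = z + 1 by rw [hz, sub_add_cancel], hr', show z ^ p + 1 + (p : Qbar) * z * r' - 1 =
      z ^ p + (p : Qbar) * z * r' by ring, A.valuation.map_add_eq_of_lt_left hlt, map_pow]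
  have hne : y ^ p - 1 ≠ 0 := fun h => by
    rw [h, map_zero] at hval
    exact (lt_of_le_of_lt zero_le hlz).ne' (eq_zero_of_pow_eq_zero hval.symm)
  obtain ⟨m, hm⟩ := Peu.valuation_eq_zpow_of_fixed hp.out hA hne fun σ hσ => by
    obtain ⟨-, c, -, hc⟩ := hkum σ hσ
    rw [map_sub, map_one, map_pow, hy, map_div₀, hc, htfix σ hσ, mul_div_assoc, mul_pow,
      addChar_pow_card, one_mul]
  rw [hval] at hm
  have hm1 : m = 1 := by
    have ha : 0 < m := by
      by_contra h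
      have h' := one_le_zpow_of_nonpos₀ (v_p_pos (A := A)) (v_p_lt_one hA).le (n := m) (by omega)
      rw [← hm] at h'
      exact (pow_lt_one₀ zero_le hzn hp.out.ne_zero).not_ge h'
    have hb : m < 2 := by
      by_contra h
      have h' := zpow_right_anti₀ (v_p_pos (A := A)) (v_p_lt_one hA).le (show (2 : ℤ) ≤ m by omega)
      simp only at h'
      rw [← hm] at h'
      refine lt_irrefl _ ((lt_of_le_of_lt h' ?_).trans
        (pow_lt_pow_left₀ hlz zero_le hp.out.ne_zero))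
      rw [zpow_two, show A.valuation lam ^ p = A.valuation (p : Qbar) * A.valuation lam by
        rw [← v_addChar_sub_one_pow (A := A) hε, ← pow_succ]; congr 1; omega]
      refine mul_lt_mul_of_pos_left ?_ v_p_pos
      rw [← v_addChar_sub_one_pow (A := A) hε]
      exact pow_lt_self_of_lt_one₀ (v_lam_pos hε) (v_lam_lt_one hA hε)
        (by have := hp.out.two_le; omega)
    omega
  rw [hm, hm1, zpow_one]

/-- The uniformiser of the wild field and its motion. -/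
theorem exists_unif (hp2 : p ≠ 2) {x : Qbar} (hx : A.valuation x = 1)
    (hkum : ∀ σ ∈ A.inertiaSubgroupIn ℚ, ∃ a c : ZMod p,
      (∀ j, σ (ε j) = ε (a * j)) ∧ σ x = ε c * x)
    {σ₁ : Γℚ} (hσ₁ : σ₁ ∈ A.inertiaSubgroupIn ℚ) (hσζ : σ₁ (ε 1) = ε 1) (hσx : σ₁ x ≠ x) :
    ∃ ϖ : Qbar, ϖ ∈ pairField A (ε 1) x ∧ ϖ ≠ 0 ∧ ϖ ∈ A.nonunits ∧
      (∀ a ∈ pairField A (ε 1) x, a ∈ A.nonunits → a / ϖ ∈ A) ∧
      (ε 1 - 1) / ϖ ^ 2 ∈ A ∧
      (∀ σ ∈ A.inertiaSubgroupIn ℚ, ∀ a ∈ pairField A (ε 1) x, σ a ∈ pairField A (ε 1) x) ∧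
      (∀ a ∈ pairField A (ε 1) x, a ∈ A → (σ₁ a - a) / ϖ ^ 2 ∈ A) ∧
      ∀ τ ∈ pairField A (ε 1) x, ∀ β : ℕ, 0 < β → β < p →
        A.valuation τ ^ p * A.valuation (p : Qbar) ^ β = 1 →
          ∃ a : A, A.valuation (a : Qbar) = 1 ∧ σ₁ τ = τ * (1 + ϖ * a) := by
  classical
  obtain ⟨t, htfix, ht0, hvy, hvz⟩ := exists_normalised_unit hA hε hp2 hx hkum hσ₁ hσζ hσx
  have h2 := hp.out.two_le
  set y := x / t with hy
  set z := y - 1 with hz
  set lam := ε 1 - 1 with hlam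
  set ϖ := lam / z with hϖ
  have hlam0 : lam ≠ 0 := sub_ne_zero.2 hε
  have hz0 : z ≠ 0 := fun h => (v_p_pos (A := A)).ne' (by
    rw [← hvz, h, map_zero, zero_pow hp.out.ne_zero])
  have hϖ0 : ϖ ≠ 0 := div_ne_zero hlam0 hz0
  set K := pairField A (ε 1) x with hK
  have htK : t ∈ K := mem_pairField.2 fun σ hσ => htfix σ hσ.1
  have hlamK : lam ∈ K := mem_pairField.2 fun σ hσ => by rw [hlam, map_sub, map_one σ, hσ.2.1]
  have hzK : z ∈ K :=
    sub_mem (div_mem (mem_pairField.2 fun σ hσ => hσ.2.2) htK) (one_mem _)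
  have hϖK : ϖ ∈ K := div_mem hlamK hzK
  have hvϖ : A.valuation ϖ ^ (p * (p - 1)) = A.valuation (p : Qbar) := by
    rw [hϖ, map_div₀, div_pow, mul_comm p, pow_mul, v_addChar_sub_one_pow hε, mul_comm (p - 1),
      pow_mul, hvz, div_eq_iff (pow_ne_zero _ v_p_pos.ne'), ← pow_succ']
    congr 1
    omega
  have hϖlt : A.valuation ϖ < 1 := by
    by_contra h
    push Not at h
    exact (v_p_lt_one hA).not_ge (hvϖ ▸ one_le_pow₀ h)
  have hϖpos : 0 < A.valuation ϖ := zero_lt_iff.2 ((map_ne_zero _).2 hϖ0)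
  have hval : ∀ a ∈ K, a ≠ 0 → ∃ m : ℤ, A.valuation a = A.valuation ϖ ^ m := fun a ha ha0 => by
    refine exists_zpow_unif hA (pairSet A ε x) (fun s => ?_) (Nat.mul_pos hp.out.pos (by omega))
      ?_ hϖK hvϖ ha ha0
    · simp only [pairSet, Finset.mem_filter, Finset.mem_image, Finset.mem_product,
        Finset.mem_univ, true_and, and_true]
      refine ⟨fun h => h.2, fun ⟨σ, hσ, hs⟩ => ⟨?_, σ, hσ, hs⟩⟩
      obtain ⟨a, c, ha, hc⟩ := hkum σ hσ
      exact ⟨(a, c), ne_zero_of_cyc hε ha, by rw [← hs, ha, mul_one, hc]⟩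
    · refine ((Finset.card_filter_le _ _).trans Finset.card_image_le).trans ?_
      rw [Finset.card_product, Finset.card_univ, ZMod.card, mul_comm]
      exact Nat.mul_le_mul_left _ card_units_zmod
  have hgap : ∀ a ∈ K, a ∈ A.nonunits → a / ϖ ∈ A := fun a ha han =>
    div_mem_of_lt_one hϖ0 hϖlt hval ha han
  have hstab : ∀ σ ∈ A.inertiaSubgroupIn ℚ, ∀ a ∈ K, σ a ∈ K := by
    intro σ hσ a ha
    obtain ⟨i, j, hi, hj⟩ := hkum σ hσ
    refine mem_pairField.2 fun τ hτ => ?_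
    rw [← AlgEquiv.mul_apply]
    refine apply_eq_of_agree ha (mul_mem hτ.1 hσ) hσ ?_ ?_
    · rw [AlgEquiv.mul_apply, hi, addChar_fixed hτ.2.1]
    · rw [AlgEquiv.mul_apply, hj, map_mul, addChar_fixed hτ.2.1, hτ.2.2]
  have hsq : lam / ϖ ^ 2 ∈ A := by
    rw [← A.valuation_le_one_iff, map_div₀, map_pow, div_le_one₀ (pow_pos hϖpos 2)]
    have h : A.valuation lam = A.valuation ϖ ^ p :=
      (pow_left_inj₀ zero_le zero_le (by omega : p - 1 ≠ 0)).1
        (by rw [← pow_mul, hvϖ, v_addChar_sub_one_pow hε])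
    rw [h]
    exact pow_le_pow_right_of_le_one' hϖlt.le h2
  -- the motion of `ϖ`
  obtain ⟨-, c, -, hc⟩ := hkum σ₁ hσ₁
  have hc0 : c ≠ 0 := fun h => hσx (by rw [hc, h, AddChar.map_zero_eq_one, one_mul])
  set κ := (ε c - 1) * y / lam with hκ
  have hvκ : A.valuation κ = 1 := by
    rw [hκ, map_div₀, map_mul, v_addChar_sub_one hc0, hvy, mul_one,
      div_self (v_lam_pos hε).ne']
  have hone : A.valuation (1 + ϖ * κ) = 1 :=
    A.valuation.map_one_add_of_lt (by rw [map_mul, hvκ, mul_one]; exact hϖlt)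
  have hone0 : (1 : Qbar) + ϖ * κ ≠ 0 := fun h => zero_ne_one (by rw [← hone, h, map_zero])
  set a₁ := -κ / (1 + ϖ * κ) with ha₁
  have hva₁ : A.valuation a₁ = 1 := by rw [ha₁, map_div₀, Valuation.map_neg, hvκ, hone, div_one]
  have hσϖ : σ₁ ϖ = ϖ * (1 + ϖ * a₁) := by
    have hz1 : σ₁ z = z * (1 + ϖ * κ) := by
      rw [hz, map_sub, map_one, hy, map_div₀, hc, htfix σ₁ hσ₁, hκ, hϖ, ← hy, ← hz]
      rw [show ε c * x / t = ε c * y by rw [hy]; ring]
      field_simp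
      rw [hz]; ring
    rw [show σ₁ ϖ = lam / σ₁ z by rw [hϖ, map_div₀, hlam, map_sub, map_one σ₁, hσζ], hz1, ha₁]
    rw [show lam / (z * (1 + ϖ * κ)) = ϖ / (1 + ϖ * κ) by rw [hϖ, div_div]]
    field_simp
    ring
  -- second order motion of the integers
  have hcong : ∀ a ∈ K, a ∈ A → (σ₁ a - a) / ϖ ^ 2 ∈ A := by
    intro a ha haA
    obtain ⟨r, hr⟩ := LevelSq.urRes_surjective hA (IsLocalRing.residue A ⟨a, haA⟩)
    set l : Qbar := (LevelSq.urIncl A r : Qbar) with hl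
    have hlfix : σ₁ l = l :=
      (IntermediateField.mem_fixedField_iff _ _).1 (r : LevelSq.urField A).2 σ₁ hσ₁
    have hlK : l ∈ K := urField_le_pairField _ _ (r : LevelSq.urField A).2
    have hn : a - l ∈ A.nonunits := by
      rw [LevelSq.urRes_apply, eq_comm, ← sub_eq_zero, ← map_sub,
        IsLocalRing.residue_eq_zero_iff] at hr
      exact A.mem_nonunits_iff.2 ((A.valuation_lt_one_iff _).1 hr)
    set a' := (a - l) / ϖ with ha'
    have ha'K : a' ∈ K := div_mem (sub_mem ha hlK) hϖK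
    have ha'A : a' ∈ A := hgap _ (sub_mem ha hlK) hn
    have hd : σ₁ a' - a' ∈ K := sub_mem (hstab σ₁ hσ₁ a' ha'K) ha'K
    have hdA : (σ₁ a' - a') / ϖ ∈ A :=
      hgap _ hd (A.mem_nonunits_iff.2 (v_map_sub_lt_one hσ₁ ha'A))
    have e : (σ₁ a - a) / ϖ ^ 2 = a₁ * σ₁ a' + (σ₁ a' - a') / ϖ := by
      have ea : a = l + ϖ * a' := by rw [ha', mul_div_cancel₀ _ hϖ0]; ring
      rw [ea, map_add, map_mul, hlfix, hσϖ]
      field_simp
      ring
    rw [e]
    exact add_mem (mul_mem ((A.valuation_le_one_iff _).1 hva₁.le)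
      (map_mem_of_mem_decomposition (inertia_le_decomposition hσ₁) ha'A)) hdA
  refine ⟨ϖ, hϖK, hϖ0, A.mem_nonunits_iff.2 hϖlt, hgap, hsq, hstab, hcong, ?_⟩
  intro τ hτ β hβ hβp h
  have hτ0 : τ ≠ 0 := fun h0 => zero_ne_one (by
    rw [h0, map_zero, zero_pow hp.out.ne_zero, zero_mul] at h; exact h)
  obtain ⟨m, hm⟩ := hval τ hτ hτ0
  set n := β * (p - 1) with hn
  have hmn : m = -(n : ℤ) := by
    rw [hm, ← hvϖ, ← pow_mul, ← zpow_natCast, ← zpow_mul, ← zpow_natCast,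
      ← zpow_add₀ hϖpos.ne'] at h
    have h1 : m * p + ((p * (p - 1) * β : ℕ) : ℤ) = 0 :=
      zpow_right_injective₀ hϖpos hϖlt.ne (by simp only; rw [zpow_zero]; exact h)
    have hp0 : (p : ℤ) ≠ 0 := by exact_mod_cast hp.out.ne_zero
    apply mul_right_cancel₀ hp0
    rw [hn]
    push_cast at h1 ⊢
    linarith
  set w := τ * ϖ ^ n with hw
  have hwK : w ∈ K := mul_mem hτ (pow_mem hϖK n)
  have hvw : A.valuation w = 1 := by
    rw [hw, map_mul, map_pow, hm, hmn, ← zpow_natCast, ← zpow_add₀ hϖpos.ne', neg_add_cancel,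
      zpow_zero]
  have hw0 : w ≠ 0 := mul_ne_zero hτ0 (pow_ne_zero _ hϖ0)
  have hwA : w ∈ A := (A.valuation_le_one_iff w).1 hvw.le
  set r : A := ⟨(σ₁ w - w) / ϖ ^ 2, hcong w hwK hwA⟩ with hr
  set P : A := ⟨ϖ, (A.valuation_le_one_iff ϖ).1 hϖlt.le⟩ with hP
  set a₁' : A := ⟨a₁, (A.valuation_le_one_iff a₁).1 hva₁.le⟩ with ha₁'
  obtain ⟨s, hs⟩ : ∃ s : A, (1 + P * a₁') ^ n = 1 + (n : A) * (P * a₁') + P ^ 2 * s := by
    clear_value P a₁'
    clear hn hmn hw hwK hvw hw0 hwA hr r w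
    induction n with
    | zero => exact ⟨0, by simp⟩
    | succ n ih =>
      obtain ⟨s, hs⟩ := ih
      refine ⟨s * (1 + P * a₁') + (n : A) * a₁' * a₁', ?_⟩
      rw [pow_succ, hs]
      push_cast
      ring
  have hone₁ : A.valuation ((1 + P * a₁' : A) : Qbar) = 1 := by
    show A.valuation (1 + ϖ * a₁) = 1
    exact A.valuation.map_one_add_of_lt (by rw [map_mul, hva₁, mul_one]; exact hϖlt)
  set den := ((1 + P * a₁' : A) : Qbar) ^ n with hden
  have hvden : A.valuation den = 1 := by rw [hden, map_pow, hone₁, one_pow]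
  have hden0 : den ≠ 0 := fun h => zero_ne_one (by rw [← hvden, h, map_zero])
  set a := (ϖ * ((r : Qbar) / w) - (n : Qbar) * a₁ - ϖ * (s : Qbar)) / den with ha
  have hva : A.valuation a = 1 := by
    rw [ha, map_div₀, hvden, div_one]
    have hn1 : A.valuation ((n : Qbar) * a₁) = 1 := by
      rw [map_mul, hva₁, mul_one, ← Int.cast_natCast]
      refine GalChar.valuation_intCast_eq_one hA hp.out fun hd => ?_
      rcases hp.out.dvd_mul.1 (Int.natCast_dvd_natCast.1 hd) with h4 | h4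
      · have := Nat.le_of_dvd hβ h4; omega
      · have := Nat.le_of_dvd (by omega) h4; omega
    have hsmall : A.valuation (ϖ * ((r : Qbar) / w) - ϖ * (s : Qbar)) < 1 := by
      rw [← mul_sub, map_mul]
      refine lt_of_le_of_lt (mul_le_of_le_one_right' ?_) hϖlt
      refine A.valuation.map_sub_le ?_ (A.valuation_le_one s)
      rw [map_div₀, hvw, div_one]; exact A.valuation_le_one r
    rw [show ϖ * ((r : Qbar) / w) - (n : Qbar) * a₁ - ϖ * (s : Qbar) =
      -((n : Qbar) * a₁) + (ϖ * ((r : Qbar) / w) - ϖ * (s : Qbar)) by ring,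
      A.valuation.map_add_eq_of_lt_left (by rw [Valuation.map_neg, hn1]; exact hsmall),
      Valuation.map_neg, hn1]
  refine ⟨⟨a, (A.valuation_le_one_iff a).1 hva.le⟩, hva, ?_⟩
  have hσw : σ₁ w = w + ϖ ^ 2 * (r : Qbar) := by
    rw [hr]
    show _ = w + ϖ ^ 2 * ((σ₁ w - w) / ϖ ^ 2)
    rw [mul_div_cancel₀ _ (pow_ne_zero _ hϖ0)]; ring
  have hdens : den = 1 + (n : Qbar) * (ϖ * a₁) + ϖ ^ 2 * (s : Qbar) := by
    have := congrArg Subtype.val hs
    simpa [hden, hP, ha₁'] using this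
  have hτw : τ = w / ϖ ^ n := by rw [hw, mul_div_assoc, div_self (pow_ne_zero _ hϖ0), mul_one]
  have hstep : σ₁ τ = (w + ϖ ^ 2 * (r : Qbar)) / (ϖ ^ n * den) := by
    rw [hτw, map_div₀, map_pow, hσw, hσϖ, mul_pow]
    rfl
  show σ₁ τ = τ * (1 + ϖ * a)
  rw [hstep, hτw, ha]
  field_simp
  rw [hdens]
  ring

end cyclo

end FLTAgent.MazurP
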