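import Fermat.Agent.LevelLower.MazurEigen
import Fermat.Agent.MazurP.Kummer
import Fermat.Agent.FlatModel.InertiaBase

/-!
# Galois on the eigen classes at a peu ramifié prime

On a nonzero group of eigen classes through which Galois acts by `ρ`, the stabiliser of `ζ` and of
the Kummer unit acts trivially and the motion by the stabiliser of `ζ` is fixed by it.  If inertia
acts on every such class by the cyclotomic character then `ρ` is scalar at an element moving `ζ`,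
which it is not.
-/

set_option autoImplicit false
set_option linter.style.haveILetI false
set_option synthInstance.maxHeartbeats 100000

noncomputable section

open ModularCurve AlgebraicCurve

namespace FLTAgent.MazurP

open FLTAgent.LevelLower GalRep

local notation "Qbar" => AlgebraicClosure ℚ
local notation "Γℚ" => AlgebraicClosure ℚ ≃ₐ[ℚ] AlgebraicClosure ℚ

/-- The local shape of a peu ramifié representation at `A`: inertia moves `ε` and `t` as it moves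
an upper triangular basis. -/
structure KummerShape {p : ℕ} (A : ValuationSubring (AlgebraicClosure ℚ))
    (ρ : (AlgebraicClosure ℚ ≃ₐ[ℚ] AlgebraicClosure ℚ) →* Matrix (Fin 2) (Fin 2) (ZMod p)) where
  /-- the roots of unity -/
  ε : AddChar (ZMod p) (AlgebraicClosure ℚ)
  /-- the unit -/
  t : AlgebraicClosure ℚ
  /-- the diagonal entry -/
  a : (AlgebraicClosure ℚ ≃ₐ[ℚ] AlgebraicClosure ℚ) → ZMod p
  /-- the upper entry -/
  c : (AlgebraicClosure ℚ ≃ₐ[ℚ] AlgebraicClosure ℚ) → ZMod p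
  ε_ne : ε 1 ≠ 1
  t_unit : A.valuation t = 1
  cyc : ∀ σ ∈ A.inertiaSubgroupIn ℚ, ∀ j, σ (ε j) = ε (a σ * j)
  kum : ∀ σ ∈ A.inertiaSubgroupIn ℚ, σ t = ε (c σ) * t
  trace_eq : ∀ σ ∈ A.inertiaSubgroupIn ℚ, (ρ σ).trace = a σ + 1
  det_eq : ∀ σ ∈ A.inertiaSubgroupIn ℚ, (ρ σ).det = a σ
  eq_one : ∀ σ ∈ A.inertiaSubgroupIn ℚ, a σ = 1 → c σ = 0 → ρ σ = 1

variable {p : ℕ} [Fact p.Prime] {A : ValuationSubring (AlgebraicClosure ℚ)}
  {ρ : (AlgebraicClosure ℚ ≃ₐ[ℚ] AlgebraicClosure ℚ) →* Matrix (Fin 2) (Fin 2) (ZMod p)}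

theorem addChar_eq_pow (ε : AddChar (ZMod p) Qbar) (j : ZMod p) : ε j = ε 1 ^ j.val := by
  rw [← AddChar.map_nsmul_eq_pow, nsmul_one, ZMod.natCast_zmod_val]

theorem isPrimitiveRoot_eps (K : KummerShape A ρ) : IsPrimitiveRoot (K.ε 1) p := by
  refine IsPrimitiveRoot.iff_orderOf.2 (orderOf_eq_prime ?_ K.ε_ne)
  rw [← AddChar.map_nsmul_eq_pow, nsmul_one, ZMod.natCast_self, AddChar.map_zero_eq_one]

theorem eps_injective (K : KummerShape A ρ) : Function.Injective K.ε := fun i j h => by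
  rw [addChar_eq_pow K.ε i, addChar_eq_pow K.ε j] at h
  exact ZMod.val_injective p ((isPrimitiveRoot_eps K).pow_inj (ZMod.val_lt i) (ZMod.val_lt j) h)

/-- The stabiliser of `ζ` and the unit is killed by `ρ`. -/
theorem KummerShape.rho_eq_one (K : KummerShape A ρ) {σ : Γℚ}
    (h : σ ∈ stabPair A (K.ε 1) K.t) : ρ σ = 1 := by
  obtain ⟨hI, hζ, ht⟩ := h
  refine K.eq_one σ hI ?_ ?_
  · refine eps_injective K ?_
    rw [← mul_one (K.a σ), ← K.cyc σ hI, hζ]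
  · refine eps_injective K (mul_right_cancel₀
      (show K.t ≠ 0 from fun h0 => zero_ne_one (by rw [← K.t_unit, h0, map_zero])) ?_)
    rw [← K.kum σ hI, ht, AddChar.map_zero_eq_one, one_mul]

/-- `ζ` generates the roots of unity. -/
theorem KummerShape.apply_eps (K : KummerShape A ρ) {σ : Γℚ} (h : σ (K.ε 1) = K.ε 1)
    (j : ZMod p) : σ (K.ε j) = K.ε j := by
  rw [addChar_eq_pow K.ε j, map_pow, h]

/-- An element fixing `ζ` and moving the unit generates the stabiliser of `ζ` over the stabiliser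
of both. -/
theorem KummerShape.exists_zpow_mul (K : KummerShape A ρ) {σ₁ τ : Γℚ}
    (h₁ : σ₁ ∈ stabPair A (K.ε 1) (K.ε 1)) (hne : σ₁ K.t ≠ K.t)
    (hτ : τ ∈ stabPair A (K.ε 1) (K.ε 1)) :
    ∃ k : ℕ, τ * (σ₁ ^ k)⁻¹ ∈ stabPair A (K.ε 1) K.t := by
  have hc : K.c σ₁ ≠ 0 := fun h => hne (by rw [K.kum σ₁ h₁.1, h, AddChar.map_zero_eq_one, one_mul])
  set k := (K.c τ * (K.c σ₁)⁻¹).val with hk
  have hpow : ∀ n : ℕ, (σ₁ ^ n) (K.ε 1) = K.ε 1 ∧
      (σ₁ ^ n) K.t = K.ε (n • K.c σ₁) * K.t := by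
    intro n
    induction n with
    | zero => simp
    | succ n ih =>
      refine ⟨by rw [pow_succ, AlgEquiv.mul_apply, h₁.2.1, ih.1], ?_⟩
      rw [pow_succ, AlgEquiv.mul_apply, K.kum σ₁ h₁.1, map_mul, K.apply_eps ih.1, ih.2,
        succ_nsmul, AddChar.map_add_eq_mul]
      ring
  refine ⟨k, mul_mem hτ.1 (inv_mem (pow_mem h₁.1 k)), ?_, ?_⟩
  · have e : (σ₁ ^ k)⁻¹ (K.ε 1) = K.ε 1 := (σ₁ ^ k).injective (by
      rw [← AlgEquiv.mul_apply, mul_inv_cancel, AlgEquiv.one_apply, (hpow k).1])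
    rw [AlgEquiv.mul_apply, e, hτ.2.1]
  · have e : (σ₁ ^ k)⁻¹ K.t = K.ε (-(k • K.c σ₁)) * K.t := (σ₁ ^ k).injective (by
      rw [← AlgEquiv.mul_apply, mul_inv_cancel, AlgEquiv.one_apply, map_mul,
        K.apply_eps (hpow k).1, (hpow k).2, ← mul_assoc, ← AddChar.map_add_eq_mul,
        neg_add_cancel, AddChar.map_zero_eq_one, one_mul])
    rw [AlgEquiv.mul_apply, e, map_mul, K.apply_eps hτ.2.1, K.kum τ hτ.1, ← mul_assoc,
      ← AddChar.map_add_eq_mul,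
      show -(k • K.c σ₁) + K.c τ = 0 by
        rw [nsmul_eq_mul, hk, ZMod.natCast_zmod_val, mul_assoc, inv_mul_cancel₀ hc, mul_one,
          neg_add_cancel],
      AddChar.map_zero_eq_one, one_mul]

/-- The cyclotomic exponent is the diagonal entry. -/
theorem KummerShape.cyclo_val (K : KummerShape A ρ) {σ : Γℚ}
    (hσ : σ ∈ A.inertiaSubgroupIn ℚ) :
    ((((cyclo p σ : ℤ_[p]).toZModPow 1).val : ℕ) : ZMod p) = K.a σ := by
  have h := toZModPow_cyclo_eq_natCast p σ (n := 1) (j := (K.a σ).val) (ζ := K.ε 1)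
    (by rw [pow_one]; exact isPrimitiveRoot_eps K)
    (by rw [K.cyc σ hσ, mul_one, addChar_eq_pow K.ε (K.a σ)])
  rw [h, ZMod.val_natCast, pow_one, ← ZMod.natCast_mod, ← ZMod.natCast_mod]
  simp

variable {N : ℕ} [NeZero N] {a : ℕ → ℕ} {S : ℕ} [NeZero S]

set_option maxHeartbeats 1600000 in
-- the classes live in a large quotient
/-- If inertia is cyclotomic on every suitably fixed eigen class then there is none. -/
theorem eigenSub_eq_bot (hp2 : p ≠ 2) (hA : A.LiesOverPrime p) (hS : N * p ∣ S)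
    (hspan : Submodule.span (ZMod p) (Set.range ρ) = ⊤)
    (hker : ∃ L : IntermediateField ℚ Qbar, FiniteDimensional ℚ L ∧
      ∀ σ : Γℚ, (∀ x ∈ L, σ x = x) → ρ σ = 1)
    (hfrob : ∀ l : ℕ, l.Prime → ¬ l ∣ S → ∀ A : ValuationSubring Qbar, A.LiesOverPrime l →
      ∀ σ : Γℚ, A.IsFrobeniusAt σ l → (ρ σ).trace = (a l : ZMod p) ∧ (ρ σ).det = (l : ZMod p))
    (K : KummerShape A ρ)
    (hcyclo : ∀ x ∈ eigenSub N p a S, (∀ τ ∈ stabPair A (K.ε 1) K.t, τ • x = x) →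
      (∀ σ₁ ∈ stabPair A (K.ε 1) (K.ε 1), ∀ τ ∈ stabPair A (K.ε 1) (K.ε 1),
        τ • (σ₁ • x - x) = σ₁ • x - x) →
      ∀ σ ∈ A.inertiaSubgroupIn ℚ, σ • x = ((cyclo p σ : ℤ_[p]).toZModPow 1).val • x) :
    ∀ x ∈ eigenSub N p a S, x = 0 := by
  by_contra hx
  push Not at hx
  obtain ⟨x₀, hx₀, hx₀0⟩ := hx
  haveI : Nontrivial (eigenSub N p a S) := ⟨⟨⟨x₀, hx₀⟩, 0, fun h => hx₀0 (congrArg Subtype.val h)⟩⟩
  have hkill := killedBy_eigenRep (N := N) hS ρ hker hfrob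
  obtain ⟨V, hfac, hscal⟩ := exists_factor_scalar hp2 hspan hkill
  obtain ⟨g, hg, hg1⟩ := FlatModel.exists_cyclo_ne_one hp2 hA
  set χ := ((cyclo p g : ℤ_[p]).toZModPow 1).val with hχ
  have hVfix : ∀ v ∈ V, ∀ τ : Γℚ, ρ τ = 1 →
      τ • (v : JZero N) = (v : JZero N) := fun v hv τ hτ => by
    rw [← coe_eigenRep, hfac τ hτ v hv]
  have hconj : ∀ v ∈ V, ∀ (σ τ : Γℚ), ρ τ = 1 →
      τ • σ • (v : JZero N) = σ • (v : JZero N) := fun v hv σ τ hτ => by
    have h1 : ρ (σ⁻¹ * τ * σ) = 1 := by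
      rw [map_mul, map_mul, hτ, mul_one, ← map_mul, inv_mul_cancel, map_one]
    conv_lhs => rw [← mul_smul, show τ * σ = σ * (σ⁻¹ * τ * σ) by group, mul_smul,
      hVfix v hv _ h1]
  have hpair : ∀ v ∈ V, ∀ σ₁ ∈ stabPair A (K.ε 1) (K.ε 1), ∀ τ ∈ stabPair A (K.ε 1) (K.ε 1),
      τ • (σ₁ • (v : JZero N) - (v : JZero N)) = σ₁ • (v : JZero N) - (v : JZero N) := by
    intro v hv σ₁ h₁ τ hτ
    by_cases hne : σ₁ K.t = K.t
    · rw [hVfix v hv σ₁ (K.rho_eq_one ⟨h₁.1, h₁.2.1, hne⟩), sub_self, GalRep.smul_zero_jZero]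
    set y := σ₁ • (v : JZero N) - (v : JZero N) with hy
    have ha1 : K.a σ₁ = 1 := eps_injective K (by
      rw [← mul_one (K.a σ₁), ← K.cyc σ₁ h₁.1, h₁.2.1])
    have hσy : σ₁ • y = y := by
      have h := congrArg (fun z : eigenSub N p a S => (z : JZero N)) (hkill σ₁ v)
      simp only [K.trace_eq σ₁ h₁.1, K.det_eq σ₁ h₁.1, ha1, one_smul] at h
      rw [show ((1 : ZMod p) + 1) = ((2 : ℕ) : ZMod p) by norm_num, Nat.cast_smul_eq_nsmul,
        AddSubgroup.coe_add, AddSubgroupClass.coe_sub, AddSubgroup.coe_nsmul, coe_eigenRep,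
        coe_eigenRep, AddSubgroup.coe_zero, two_nsmul] at h
      rw [hy, smul_sub, ← sub_eq_zero, ← h]
      abel
    have hpow : ∀ n : ℕ, σ₁ ^ n • y = y := fun n => by
      induction n with
      | zero => rw [pow_zero, one_smul]
      | succ n ih => rw [pow_succ, mul_smul, hσy, ih]
    obtain ⟨k, hk⟩ := K.exists_zpow_mul h₁ hne hτ
    have hρ := K.rho_eq_one hk
    calc τ • y = (τ * (σ₁ ^ k)⁻¹) • σ₁ ^ k • y := by rw [← mul_smul, inv_mul_cancel_right]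
      _ = y := by rw [hpow, hy, smul_sub, hconj v hv σ₁ _ hρ, hVfix v hv _ hρ]
  have hscal' : ∀ v ∈ V, eigenRep g v = (χ : ℤ) • v := fun v hv => Subtype.ext (by
    rw [coe_eigenRep, AddSubgroup.coe_zsmul, natCast_zsmul]
    exact hcyclo _ v.2 (fun τ hτ => hVfix v hv τ (K.rho_eq_one hτ)) (hpair v hv) g hg)
  have hρg := hscal g χ hscal'
  rw [Int.cast_natCast] at hρg
  have hχa : (χ : ZMod p) = K.a g := K.cyclo_val hg
  have htr := K.trace_eq g hg
  rw [hρg, hχa, Matrix.trace_smul, Matrix.trace_one, Fintype.card_fin, smul_eq_mul] at htr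
  have ha : K.a g = 1 := by push_cast at htr; linear_combination htr
  refine hg1 ?_
  rw [← ZMod.natCast_zmod_val ((cyclo p g : ℤ_[p]).toZModPow 1), ← hχ]
  have h1 : (χ : ZMod p) = ((1 : ℕ) : ZMod p) := by rw [hχa, ha, Nat.cast_one]
  rw [ZMod.natCast_eq_natCast_iff] at h1
  have h2 : (χ : ZMod (p ^ 1)) = ((1 : ℕ) : ZMod (p ^ 1)) := by
    rw [ZMod.natCast_eq_natCast_iff, pow_one]; exact h1
  rw [h2, Nat.cast_one]

end FLTAgent.MazurP
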