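import Fermat.Agent.MazurP.NormBase
import Fermat.Agent.FlatModel.FlatKernel

/-!
# Inertia on flat classes through an auxiliary level

A flat class of level `M q` killed by `q` with both push-forwards zero stays so at the auxiliary
level `M' q`, where inertia acts by the cyclotomic character; the degree prime to `q` brings this
back to level `M q`.
-/

set_option autoImplicit false
set_option linter.style.haveILetI false
set_option linter.unusedSectionVars false
set_option synthInstance.maxHeartbeats 100000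

noncomputable section

open ModularCurve AlgebraicCurve IsLocalRing

namespace FLTAgent.MazurP

open FLTAgent.GoodRed FLTAgent.GoodRed.RedDatum FLTAgent.Semistable FLTAgent.LevelLower
  FLTAgent.Hecke FLTAgent.FunctionField GalRep

local notation "Qbar" => AlgebraicClosure ℚ
local notation "Γℚ" => AlgebraicClosure ℚ ≃ₐ[ℚ] AlgebraicClosure ℚ

local instance (priority := high) instAlgebraFullCDescend {K : Type*} [Field K] (N : ℕ) :
    Algebra K (modularFunctionFieldFullC K N) :=
  SubalgebraClass.toAlgebra (modularFunctionFieldFullC K N)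

local instance (priority := high) instAlgebraLevelDescend (N : ℕ) :
    Algebra Qbar (Hecke.MF Qbar N) :=
  SubalgebraClass.toAlgebra (Hecke.MF Qbar N)

variable {A : ValuationSubring (AlgebraicClosure ℚ)} {q : ℕ} [Fact q.Prime]
  {hA : A.LiesOverPrime q} [CharP (ResidueField A) q] [IsAlgClosed (ResidueField A)]
  {M M' : ℕ} [NeZero M] [NeZero M'] {hqM : ¬ q ∣ M} {hqM' : ¬ q ∣ M'}

local instance instNeZeroQDescend : NeZero q := ⟨(Fact.out : q.Prime).ne_zero⟩
local instance instNeZeroLevelDescend : NeZero (M * q) :=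
  ⟨Nat.mul_ne_zero (NeZero.ne M) (NeZero.ne q)⟩
local instance instNeZeroLevelDescend' : NeZero (M' * q) :=
  ⟨Nat.mul_ne_zero (NeZero.ne M') (NeZero.ne q)⟩
local instance instAlgebraDescend : Algebra (MF Qbar M') (MF Qbar (M' * q)) :=
  algebraAlong (alphaMap Qbar M' q)
local instance instTowerDescend : IsScalarTower Qbar (MF Qbar M') (MF Qbar (M' * q)) :=
  isScalarTower_along (alphaMap Qbar M' q)
local instance instFiniteDescend : Module.Finite (MF Qbar M') (MF Qbar (M' * q)) :=
  finite_alongAlpha M'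

/-- A push-forward that vanishes still vanishes after pulling back to the auxiliary level. -/
theorem pushPic_pullPic_eq_zero {d : ℕ} [NeZero d] (hd : M * d ∣ M * q) (hd' : M' * d ∣ M' * q)
    (h : M ∣ M')
    (hnorm : ∀ f : MF Qbar (M * q), normAlong (degMap Qbar d hd') (upMap q h f) =
      degMap Qbar 1 (show M * 1 ∣ M' by rwa [mul_one]) (normAlong (degMap Qbar d hd) f))
    {x : JZero (M * q)} (hx : LevelSq.pushPic d hd x = 0) :
    LevelSq.pushPic d hd' (Eisen.pullPic 1
      (show M * q * 1 ∣ M' * q by rw [mul_one]; exact Nat.mul_dvd_mul_right h q) x) = 0 := by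
  have H := levelFacts Qbar
  haveI := H.principal M'
  haveI := H.principal (M * q)
  haveI := H.principal (M' * q)
  have hM : M * 1 ∣ M' := by rwa [mul_one]
  have hu : M * q * 1 ∣ M' * q := by rw [mul_one]; exact Nat.mul_dvd_mul_right h q
  have key : LevelSq.pushPic d hd' (Eisen.pullPic 1 hu x) =
      Eisen.pullPic 1 hM (LevelSq.pushPic d hd x) := by
    obtain ⟨D, rfl⟩ := Pic0.mk_surjective x
    rw [Eisen.pullPic_mk, LevelSq.pushPic_mk, LevelSq.pushPic_mk, Eisen.pullPic_mk]
    refine congrArg Pic0.mk (Subtype.ext ?_)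
    exact (pullbackAlong_pushforwardAlong (degMap Qbar 1 hM) (degMap Qbar d hd) (degMap Qbar 1 hu)
      (degMap Qbar d hd') (degMap_comm Qbar 1 d d 1 _ _ _ _ (by ring)) (H.integral 1 hM)
      (H.integral d hd) (H.integral 1 hu) (H.integral d hd') (H.finite _ _ d hd)
      (H.norm _ _ d hd _) (H.finite _ _ d hd') (H.norm _ _ d hd' _) hnorm
      (D : Divisor Qbar (MF Qbar (M * q)))).symm
  rw [key, hx, map_zero]

variable [IsFunctionField (ResidueField A) (modularFunctionFieldFullC (ResidueField A) M')]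
  {ι : Type} [Fintype ι]
  (X : CrossData (x0Datum A hA M' hqM') (redInf A hA M' hqM') (redZero A hA M' hqM')
    (frobC (K := ResidueField A) q M') q ι)

set_option maxHeartbeats 1600000 in
-- the statement mentions several large fields
/-- Inertia is cyclotomic on flat classes with both push-forwards zero. -/
theorem smul_eq_of_flat (h : M ∣ M') (hfr : X.frP = frPlace q M')
    (hx : Set.range X.x = crossingSet A hA hqM')
    (hG₁ : ∀ σ : Γℚ, galAct M' σ • X.G₁ = X.G₁) (hG₂ : ∀ σ : Γℚ, galAct M' σ • X.G₂ = X.G₂)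
    (hdeg : Nat.Coprime q (finrankAlong Qbar (upMap q h)))
    {Y : Divisor.degZero (K := Qbar) (F := MF Qbar (M * q))}
    (hY : NodeSystem.IsFlat (D := redInf A hA M hqM) (D' := redZero A hA M hqM) q
      (Y : Divisor Qbar (MF Qbar (M * q))))
    (hq : q • Pic0.mk Y = 0) (ha : FlatModel.alphaPush M q (Pic0.mk Y) = 0)
    (hb : FlatModel.betaPush M q (Pic0.mk Y) = 0) {σ : Γℚ} (hσ : σ ∈ A.inertiaSubgroupIn ℚ) :
    σ • Pic0.mk Y = ((cyclo q σ : ℤ_[q]).toZModPow 1).val • Pic0.mk Y := by
  have hu : M * q * 1 ∣ M' * q := by rw [mul_one]; exact Nat.mul_dvd_mul_right h q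
  set y := Pic0.mk Y with hy
  set z := Eisen.pullPic 1 hu y with hz
  haveI : IsFunctionField Qbar (MF Qbar (M' * q)) := GoodRed.instIsFunctionFieldBar (M' * q)
  haveI : IsFunctionField Qbar (MF Qbar (M * q)) := GoodRed.instIsFunctionFieldBar (M * q)
  have hzmem : z ∈ FlatModel.flatClasses (hpM := hqM') hA 1 := by
    refine ⟨Eisen.pullDegZero 1 hu Y, (Eisen.pullPic_mk 1 hu Y).symm, ?_⟩
    letI := algebraAlong (upMap q h)
    haveI := isScalarTower_along (upMap q h)
    haveI : Module.Finite (MF Qbar (M * q)) (MF Qbar (M' * q)) :=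
      finiteAlong_of_isFunctionField (upMap q h)
    obtain ⟨hdeg0, f, hf, hdiv, t, t', ht, ht', hr, hr'⟩ := hY
    have red : ∀ f z, (redInf A hA M hqM).Red f z →
        (redInf A hA M' hqM').Red (upMap q h f) (upBar (ResidueField A) h z) := fun f z hr => by
      rw [redInf_iff, coe_upMap, coe_upBar, ← redInf_iff hA hqM]
      exact hr
    refine ⟨Divisor.mem_degZero.1 (Eisen.pullDegZero 1 hu Y).2, upMap q h f,
      (map_ne_zero _).2 hf, ?_, t, t', ht, ht', ?_, ?_⟩
    · show divisorOf (K := Qbar) (algebraMap (MF Qbar (M * q)) (MF Qbar (M' * q)) f) =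
        q ^ 1 • Divisor.pullback (MF Qbar (M' * q)) (Y : Divisor Qbar (MF Qbar (M * q)))
      rw [divisorOf_algebraMap, hdiv, pow_one, map_nsmul]
    · rw [← (upBar (ResidueField A) h).commutes t]
      exact red _ _ hr
    · rw [redZero_iff, ← upMap_swapW h hqM hqM', ← (upBar (ResidueField A) h).commutes t']
      exact red _ _ ((redZero_iff hA hqM).1 hr')
  have hza : FlatModel.alphaPush M' q z = 0 :=
    pushPic_pullPic_eq_zero (d := 1) _ _ h
      (fun f => normAlong_alpha_upMap h hqM hqM' f) ha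
  have hzb : FlatModel.betaPush M' q z = 0 :=
    pushPic_pullPic_eq_zero (d := q) _ _ h
      (fun f => normAlong_beta_upMap h hqM hqM' f) hb
  obtain ⟨T, hTs, hT⟩ := exists_inertial_nodeAut hfr hx hG₁ hG₂ hσ
  have e := FlatModel.smul_eq_of_mem_flatClasses (n := 1) X.nodeSystem T hTs hT hzmem hza hzb
  set χ := ((cyclo q σ : ℤ_[q]).toZModPow 1).val
  have e' : Eisen.pullPic 1 hu (σ • y - χ • y) = 0 := by
    rw [map_sub, map_nsmul, Eisen.pullPic_smul, ← hz, e, sub_self]
  have e1 : finrankAlong Qbar (upMap q h) • (σ • y - χ • y) = 0 := by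
    have := congrArg (LevelSq.pushPic 1 hu) e'
    rwa [Eisen.pushPic_pullPic, map_zero] at this
  have e2 : q • (σ • y - χ • y) = 0 := by
    rw [nsmul_sub, smul_comm q χ, ← GalRep.smul_nsmul_jZero, hq, GalRep.smul_zero_jZero, nsmul_zero,
      sub_zero]
  refine sub_eq_zero.1 (AddMonoid.addOrderOf_eq_one_iff.1 ?_)
  exact Nat.dvd_one.1 (hdeg ▸ Nat.dvd_gcd (addOrderOf_dvd_of_nsmul_eq_zero e2)
    (addOrderOf_dvd_of_nsmul_eq_zero e1))

set_option maxHeartbeats 1600000 in
-- the statement mentions several large fields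
/-- Inertia is cyclotomic on the motions of classes with both push-forwards zero. -/
theorem smul_smul_sub_eq (h : M ∣ M') (hfr : X.frP = frPlace q M')
    (hx : Set.range X.x = crossingSet A hA hqM')
    (hG₁ : ∀ σ : Γℚ, galAct M' σ • X.G₁ = X.G₁) (hG₂ : ∀ σ : Γℚ, galAct M' σ • X.G₂ = X.G₂)
    (hdeg : Nat.Coprime q (finrankAlong Qbar (upMap q h))) (hqM : ¬ q ∣ M) {y : JZero (M * q)}
    (hq : q • y = 0) (ha : FlatModel.alphaPush M q y = 0) (hb : FlatModel.betaPush M q y = 0)
    {σ τ : Γℚ} (hσ : σ ∈ A.inertiaSubgroupIn ℚ) (hτ : τ ∈ A.inertiaSubgroupIn ℚ) :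
    σ • (τ • y - y) = ((cyclo q σ : ℤ_[q]).toZModPow 1).val • (τ • y - y) := by
  have hu : M * q * 1 ∣ M' * q := by rw [mul_one]; exact Nat.mul_dvd_mul_right h q
  set z := Eisen.pullPic 1 hu y with hz
  have hza : FlatModel.alphaPush M' q z = 0 :=
    pushPic_pullPic_eq_zero (d := 1) _ _ h (fun f => normAlong_alpha_upMap h hqM hqM' f) ha
  have hzb : FlatModel.betaPush M' q z = 0 :=
    pushPic_pullPic_eq_zero (d := q) _ _ h (fun f => normAlong_beta_upMap h hqM hqM' f) hb
  obtain ⟨T, hTs, hT⟩ := exists_inertial_nodeAut hfr hx hG₁ hG₂ hσ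
  obtain ⟨T', hTs', hT'⟩ := exists_inertial_nodeAut hfr hx hG₁ hG₂ hτ
  have e := FlatModel.smul_eq_of_mem_flatClasses (n := 1) X.nodeSystem T hTs hT
    (FlatModel.smul_sub_mem_flatClasses (n := 1) X.nodeSystem T' hTs' hT'
      (y := z) (by rw [pow_one, hz, ← map_nsmul, hq, map_zero]))
    (by
      rw [map_sub, FlatModel.alphaPush, LevelSq.pushPic_smul, ← FlatModel.alphaPush, hza,
        GalRep.smul_zero_jZero, sub_zero])
    (by
      rw [map_sub, FlatModel.betaPush, LevelSq.pushPic_smul, ← FlatModel.betaPush, hzb,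
        GalRep.smul_zero_jZero, sub_zero])
  set χ := ((cyclo q σ : ℤ_[q]).toZModPow 1).val
  set d := τ • y - y with hd
  have hdz : Eisen.pullPic 1 hu d = τ • z - z := by rw [hd, map_sub, Eisen.pullPic_smul, ← hz]
  have e' : Eisen.pullPic 1 hu (σ • d - χ • d) = 0 := by
    rw [map_sub, map_nsmul, Eisen.pullPic_smul, hdz, e, sub_self]
  have e1 : finrankAlong Qbar (upMap q h) • (σ • d - χ • d) = 0 := by
    have := congrArg (LevelSq.pushPic 1 hu) e'
    rwa [Eisen.pushPic_pullPic, map_zero] at this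
  have hqd : q • d = 0 := by
    rw [hd, nsmul_sub, ← GalRep.smul_nsmul_jZero, hq, GalRep.smul_zero_jZero, sub_zero]
  have e2 : q • (σ • d - χ • d) = 0 := by
    rw [nsmul_sub, smul_comm q χ, ← GalRep.smul_nsmul_jZero, hqd, GalRep.smul_zero_jZero,
      nsmul_zero, sub_zero]
  refine sub_eq_zero.1 (AddMonoid.addOrderOf_eq_one_iff.1 ?_)
  exact Nat.dvd_one.1 (hdeg ▸ Nat.dvd_gcd (addOrderOf_dvd_of_nsmul_eq_zero e2)
    (addOrderOf_dvd_of_nsmul_eq_zero e1))

end FLTAgent.MazurP
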