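import Fermat.Agent.MazurP.RatSub
import Fermat.Agent.MazurP.Classes
import Fermat.Agent.LevelSq.Rational
import Fermat.Agent.FlatModel.FlatKernel

/-!
# Rational classes from eigen torsion classes

An eigen class killed by `q` with both push-forwards zero and fixed by a subgroup of inertia is
given by a fixed divisor with a rational function whose two norms are powers.
-/

set_option autoImplicit false
set_option linter.style.haveILetI false
set_option linter.unusedSectionVars false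
set_option synthInstance.maxHeartbeats 100000

noncomputable section

open ModularCurve AlgebraicCurve SemilinearAut IsLocalRing

namespace FLTAgent.MazurP

open FLTAgent.GoodRed FLTAgent.GoodRed.RedDatum FLTAgent.Semistable FLTAgent.Hecke
  FLTAgent.FunctionField FLTAgent.LevelLower

local notation "Qbar" => AlgebraicClosure ℚ
local notation "Γℚ" => AlgebraicClosure ℚ ≃ₐ[ℚ] AlgebraicClosure ℚ

variable {A : ValuationSubring (AlgebraicClosure ℚ)} {q : ℕ} [Fact q.Prime]
  (hA : A.LiesOverPrime q) [CharP (ResidueField A) q] [IsAlgClosed (ResidueField A)]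
  {M : ℕ} [NeZero M] (hqM : ¬ q ∣ M)

local instance instNeZeroQEigenClass : NeZero q := ⟨(Fact.out : q.Prime).ne_zero⟩
local instance instNeZeroLevelEigenClass : NeZero (M * q) :=
  ⟨Nat.mul_ne_zero (NeZero.ne M) (NeZero.ne q)⟩
local instance instAlgebraEigenClass : Algebra (MF Qbar M) (MF Qbar (M * q)) :=
  algebraAlong (alphaMap Qbar M q)
local instance instTowerEigenClass : IsScalarTower Qbar (MF Qbar M) (MF Qbar (M * q)) :=
  isScalarTower_along (alphaMap Qbar M q)
local instance instAlgebraEigenClassBeta : Algebra (FlatModel.BetaBase M q) (MF Qbar (M * q)) :=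
  algebraAlong (FlatModel.betaBaseMap M q)
local instance instTowerEigenClassBeta :
    IsScalarTower Qbar (FlatModel.BetaBase M q) (MF Qbar (M * q)) :=
  isScalarTower_along (FlatModel.betaBaseMap M q)

/-- The primes not dividing `S`. -/
abbrev AwayFrom (S : ℕ) : Type := {l : Nat.Primes // ¬ (l : ℕ) ∣ S}

include hqM in
theorem awayFrom_not_dvd {S : ℕ} (hS : M * q ∣ S) (l : AwayFrom S) :
    ¬ (l.1 : ℕ) ∣ M ∧ (l.1 : ℕ) ≠ q :=
  ⟨fun h => l.2 ((h.trans (dvd_mul_right M q)).trans hS),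
    fun h => l.2 (by rw [h]; exact (dvd_mul_left q M).trans hS)⟩

/-- The good Hecke operators on the functions fixed by the subgroup. -/
def heckeFam (P : Ground A) {S : ℕ} (hS : M * q ∣ S) (l : AwayFrom S) :
    HeckeOp (redInf A hA M hqM) (redZero A hA M hqM) (subRat hA hqM P).FK :=
  haveI : NeZero (l.1 : ℕ) := ⟨l.1.2.ne_zero⟩
  haveI : NeZero (M * q * (l.1 : ℕ)) := ⟨Nat.mul_ne_zero (NeZero.ne _) l.1.2.ne_zero⟩
  haveI := (levelFacts Qbar).principal (M * q * (l.1 : ℕ))
  subHecke hA hqM P (l.1 : ℕ) l.1.2 (awayFrom_not_dvd hqM hS l).1 (awayFrom_not_dvd hqM hS l).2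

theorem heckeFam_T (P : Ground A) {S : ℕ} (hS : M * q ∣ S) (l : AwayFrom S)
    (f : MF Qbar (M * q)) :
    haveI : NeZero (l.1 : ℕ) := ⟨l.1.2.ne_zero⟩
    (heckeFam hA hqM P hS l).T f = heckeFun (M * q) (l.1 : ℕ) f := rfl

theorem heckeFam_d (P : Ground A) {S : ℕ} (hS : M * q ∣ S) (l : AwayFrom S) :
    (heckeFam hA hqM P hS l).d = (l.1 : ℕ) + 1 := rfl

set_option maxHeartbeats 800000 in
-- the classes live in a large quotient
/-- The rational class of an eigen class. -/
theorem exists_ratClass (P Q : Ground A) {S : ℕ} (hS : M * q ∣ S) (a : ℕ → ℕ)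
    {x : JZero (M * q)} (hfix : ∀ σ ∈ P.H, σ • x = x) (hx : q • x = 0)
    (ha : FlatModel.alphaPush M q x = 0) (hb : FlatModel.betaPush M q x = 0)
    (heig : ∀ l : AwayFrom S, heckeOperatorBar (M * q) l.1 x = a l.1 • x) :
    ∃ Y : Divisor.degZero (K := Qbar) (F := MF Qbar (M * q)), Pic0.mk Y = x ∧
      Nonempty (RatClass (subRat hA hqM P) (MF Qbar M) (FlatModel.BetaBase M q)
        (heckeFam hA hqM Q hS) (fun l => a l.1) q (Y : Divisor Qbar (MF Qbar (M * q)))) := by
  have H := levelFacts Qbar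
  haveI : IsFunctionField Qbar (MF Qbar (M * q)) := GoodRed.instIsFunctionFieldBar (M * q)
  haveI : IsFunctionField Qbar (MF Qbar M) := GoodRed.instIsFunctionFieldBar M
  haveI : IsFunctionField Qbar (FlatModel.BetaBase M q) := GoodRed.instIsFunctionFieldBar M
  obtain ⟨D, rfl⟩ := Pic0.mk_surjective x
  obtain ⟨O, hO, -⟩ := LevelSq.exists_cusp (M * q)
  obtain ⟨D', hdeg, hfixD, hprinc⟩ := LevelSq.exists_fixed_representative
    (G := (galAct (M * q)) '' (P.H : Set Γℚ)) (O := O)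
    (by rintro _ ⟨σ, -, rfl⟩; exact LevelSq.gal_smul_cusp hO σ) (Divisor.mem_degZero.1 D.2)
    (by
      rintro _ ⟨σ, hσ, rfl⟩
      have h := hfix σ hσ
      rw [galois_smul_pic0_def, SemilinearAut.pic0_smul_mk, Eisen.mk_eq_mk_iff] at h
      exact h)
  set Y : Divisor.degZero (K := Qbar) (F := MF Qbar (M * q)) :=
    ⟨D', Divisor.mem_degZero.2 hdeg⟩ with hY
  have hmk : Pic0.mk Y = Pic0.mk D := Eisen.mk_eq_mk_iff.2 hprinc
  rw [← hmk, ← Eisen.mk_nsmul] at hx
  have hq0 := (Eisen.mk_eq_mk_iff (E := 0)).1 hx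
  rw [ZeroMemClass.coe_zero, sub_zero, AddSubmonoidClass.coe_nsmul] at hq0
  obtain ⟨e, he, hdiv⟩ := Eisen.exists_divisorOf_of_principal hq0
  have hfixY : ∀ σ : P.H, galAct (M * q) (σ : Γℚ) • (D' : Divisor Qbar (MF Qbar (M * q))) = D' :=
    fun σ => hfixD _ ⟨σ, σ.2, rfl⟩
  obtain ⟨g, hgK, hg0, hgdiv⟩ := exists_rat_of_fixed (subRat hA hqM P) he fun (γ : P.H) => by
    show galAct (M * q) (γ : Γℚ) • divisorOf e = divisorOf e
    rw [← hdiv, smul_comm, hfixY γ]
  have hg : divisorOf g = q • (Y : Divisor Qbar (MF Qbar (M * q))) := hgdiv.trans hdiv.symm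
  rw [← hmk, FlatModel.alphaPush, LevelSq.pushPic_mk] at ha
  rw [← hmk, FlatModel.betaPush, LevelSq.pushPic_mk] at hb
  have ha' := (Eisen.mk_eq_mk_iff (E := 0)).1 ha
  have hb' := (Eisen.mk_eq_mk_iff (E := 0)).1 hb
  rw [ZeroMemClass.coe_zero, sub_zero] at ha' hb'
  refine ⟨Y, hmk, ⟨{ g := g, mem := hgK, ne := hg0, div := hg, norm := ?_, norm' := ?_,
                     eig := fun l => ?_ }⟩⟩
  · exact FlatModel.exists_norm_eq_of_push (alphaMap Qbar M q)
      (H.integral 1 (FlatModel.alphaLevel M q)) (H.finite _ _ 1 (FlatModel.alphaLevel M q))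
      (H.norm _ _ 1 (FlatModel.alphaLevel M q) _) ha' hg0 hg
  · exact FlatModel.exists_norm_eq_of_push (FlatModel.betaBaseMap M q)
      (H.integral q (dvd_refl (M * q))) (H.finite _ _ q (dvd_refl (M * q)))
      (H.norm _ _ q (dvd_refl (M * q)) _) hb' hg0 hg
  · haveI : NeZero (l.1 : ℕ) := ⟨l.1.2.ne_zero⟩
    haveI : NeZero (M * q * (l.1 : ℕ)) := ⟨Nat.mul_ne_zero (NeZero.ne _) l.1.2.ne_zero⟩
    haveI := H.principal (M * q * (l.1 : ℕ))
    have hα := Hecke.alphaBarIntegral_of_facts H (M * q) (l.1 : ℕ)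
    have hβ := Hecke.betaBarIntegral_of_facts H (M * q) (l.1 : ℕ)
    have hmem := Hecke.heckeDivBar_mem_degZero H (M * q) (l.1 : ℕ) hα hβ Y
    have h1 := heig l
    rw [← hmk] at h1
    have h2 : heckeOperatorBar (M * q) l.1 (Pic0.mk Y) = Pic0.mk ⟨_, hmem⟩ :=
      Hecke.heckeOperatorAlong_mk H (M * q) (l.1 : ℕ) Y hα hβ hmem
    rw [h2, ← Eisen.mk_nsmul, Eisen.mk_eq_mk_iff, AddSubmonoidClass.coe_nsmul] at h1
    obtain ⟨e', he', h3⟩ := Eisen.exists_divisorOf_of_principal h1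
    exact ⟨e', he', h3⟩

end FLTAgent.MazurP
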