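import Fermat.Agent.MazurP.Congr
import Fermat.Agent.Semistable.PTorsNorm

/-!
# The first order part of the comparison function

Let `σ g = t • g * gT * G ^ q` with `G` congruent to one on both components.  Norms to the lower
level, which are `q`-th powers, show that `G ≡ 1 + ϖ l` to second order on each component with
constants `l`, and a Hecke operator of degree `d` acting by `c` shows that `d - c` kills their
difference.  So some multiple of `G` is congruent to one to second order on both components.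
-/

set_option autoImplicit false
set_option linter.unusedSectionVars false

noncomputable section

open AlgebraicCurve SemilinearAut

namespace FLTAgent.MazurP

open FLTAgent.GoodRed FLTAgent.GoodRed.RedDatum FLTAgent.FunctionField FLTAgent.Semistable
  FLTAgent.LevelLower

variable {L k : Type*} [Field L] [Field k] {A : ValuationSubring L} {π : A →+* k}
  {F C : Type*} [Field F] [Algebra L F] [Field C] [Algebra k C]

/-- An element congruent to a scalar is one plus `u` times an integral constant. -/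
theorem red_of_one_add_close {D : RedDatum A π F C} {u : A} (hun : (u : L) ∈ A.nonunits)
    (hu0 : (u : L) ≠ 0) {κ : L} {y : F} {z : C} (hy : D.Red y z)
    (h : Close D (u * u) (1 + (u : L) • y) (algebraMap L F κ)) :
    ∃ l : A, κ = 1 + (u : L) * l ∧ z = algebraMap k C (π l) := by
  obtain ⟨w, hw, e⟩ := h
  obtain ⟨v, hv⟩ := exists_red hw
  have he : algebraMap L F ((κ - 1) / (u : L)) = y - (u : L) • w := by
    have e' : algebraMap L F κ = 1 + (u : L) • y - ((u * u : A) : L) • w := by rw [← e]; abel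
    rw [map_div₀, map_sub, map_one, e']
    simp only [Algebra.smul_def, MulMemClass.coe_mul, map_mul]
    have := (map_ne_zero (algebraMap L F)).2 hu0
    field_simp
    ring
  have hred : D.Red (algebraMap L F ((κ - 1) / (u : L))) z := by
    rw [he]
    simpa [(D.isResidue.eq_zero_iff _).2 hun] using hy.sub (red_smul u hv)
  have hA : (κ - 1) / (u : L) ∈ A := (D.mem_iff _).1 hred.mem
  refine ⟨⟨_, hA⟩, ?_, hred.unique (red_algebraMap (D := D) ⟨_, hA⟩)⟩
  show κ = 1 + (u : L) * ((κ - 1) / (u : L))
  field_simp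
  ring

/-- What is used of one component: `σ` moves rational functions to second order, and rational
functions over the smaller field with constant reduction are congruent to constants. -/
structure Side (D : RedDatum A π F C) (FK FK' : Subfield F) (u : A) (σ : SemilinearAut L F) :
    Prop where
  cong : ∀ y ∈ FK, y ∈ D.V → Close D (u * u) (toRingAut σ y) y
  rigid : ∀ y ∈ FK', ∀ z : k, D.Red y (algebraMap k C z) →
    ∃ l : A, π l = z ∧ Close D (u * u) y (algebraMap L F l)
  scale : ∀ y ∈ FK, y ≠ 0 → ∃ (c : L) (z : C), c ≠ 0 ∧ z ≠ 0 ∧ c • y ∈ FK ∧ D.Red (c • y) z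
  scale' : ∀ y ∈ FK', y ≠ 0 → ∃ (c : L) (z : C), c ≠ 0 ∧ z ≠ 0 ∧ c • y ∈ FK' ∧ D.Red (c • y) z

variable [IsFunctionField L F] [IsAlgClosed L]
  {E : Type*} [Field E] [Algebra L E] [Algebra E F] [IsScalarTower L E F]
  {DE : RedDatum A π E C} {D D' : RedDatum A π F C} {frob : C →ₐ[k] C} {q : ℕ}

/-- The first order part on the first component is constant. -/
theorem exists_const_first_order (hS : OneSide DE D D' frob q) [CharP C q]
    (hpow : ∀ z : C, ∃ w, frob w = z ^ q) {FK FK' : Subfield F} {u : A} {σ : SemilinearAut L F}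
    (hun : (u : L) ∈ A.nonunits) (hu0 : (u : L) ≠ 0) (hside : Side D FK FK' u σ)
    (hσN : ∀ f, toRingAut σ (algebraMap E F (Algebra.norm E f))
      = algebraMap E F (Algebra.norm E (toRingAut σ f)))
    {g gT G : F} {t : L} (ht : t ≠ 0) (hrel : toRingAut σ g = t • (g * gT * G ^ q))
    {y : F} {z z' : C} (hG : G = 1 + (u : L) • y) (hy : D.Red y z) (hy' : D'.Red y z')
    {c₀ cT : L} (hc₀ : c₀ ≠ 0) (hcT : cT ≠ 0) {e eT : F} (he : e ∈ FK) (he0 : e ≠ 0)
    (heT : eT ∈ FK') (heT0 : eT ≠ 0)
    (hn : algebraMap E F (Algebra.norm E g) = c₀ • e ^ q)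
    (hnT : algebraMap E F (Algebra.norm E gT) = cT • eT ^ q) :
    ∃ r : k, z = algebraMap k C r := by
  have hπu : π u = 0 := (D.isResidue.eq_zero_iff _).2 hun
  have hG1 : D.Red G 1 := by rw [hG]; simpa [hπu] using red_one.add (red_smul u hy)
  have hG1' : D'.Red G 1 := by rw [hG]; simpa [hπu] using red_one.add (red_smul u hy')
  obtain ⟨w, hw⟩ := hpow 1
  have hw1 : w = 1 := hS.frob_injective (by rw [hw, one_pow, map_one])
  have hN : D.Red (algebraMap E F (Algebra.norm E G)) 1 := by
    simpa [hw1] using hS.red _ _ (hS.red_norm hG1 hG1' hw)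
  set NG := algebraMap E F (Algebra.norm E G) with hNG
  -- the relation between the norms
  set s := baseAut σ c₀ with hs
  have hs0 : s ≠ 0 := (map_ne_zero _).2 hc₀
  have hrelN : (toRingAut σ e / (e * eT * NG)) ^ q
      = algebraMap L F (t ^ (q + 1) * c₀ * cT / s) := by
    have h1 := hσN g
    rw [hn, hrel, Algebra.smul_def, map_mul, SemilinearAut.commutes, map_pow, ← hs,
      Algebra.smul_def, map_mul (Algebra.norm E), IsScalarTower.algebraMap_apply L E F t,
      Algebra.norm_algebraMap, hS.degree] at h1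
    simp only [map_mul, map_pow, hn, hnT, ← hNG, ← IsScalarTower.algebraMap_apply L E F,
      Algebra.smul_def] at h1
    have := (map_ne_zero (algebraMap L F)).2 hs0
    have hne : e * eT * NG ≠ 0 := mul_ne_zero (mul_ne_zero he0 heT0) (hN.ne_zero one_ne_zero)
    rw [div_pow, div_eq_iff (pow_ne_zero _ hne), map_div₀, div_mul_eq_mul_div, eq_div_iff this,
      mul_comm _ (algebraMap L F s), h1, map_mul, map_mul, map_pow, mul_pow, mul_pow]
    ring
  obtain ⟨κ, hκ, hx⟩ := exists_const_of_pow hS.prime.pos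
    (div_ne_zero (mul_ne_zero (mul_ne_zero (pow_ne_zero _ ht) hc₀) hcT) hs0) hrelN
  -- scaling
  obtain ⟨a, ze, ha, hze, heK, her⟩ := hside.scale e he he0
  obtain ⟨b, zT, hb, hzT, hTK, hTr⟩ := hside.scale' eT heT heT0
  set ρ := toRingAut σ (a • e) / (a • e) with hρ
  have hρc : Close D (u * u) ρ 1 := by
    have h := hside.cong _ heK her.mem
    refine Close.of_mul_right (u := a • e) ?_ her hze
    rwa [hρ, div_mul_cancel₀ _ (her.ne_zero hze), one_mul]
  have huun : ((u * u : A) : L) ∈ A.nonunits := by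
    rw [← D.isResidue.eq_zero_iff, map_mul, hπu, zero_mul]
  set K₀ := baseAut σ a / a * κ / b with hK₀
  have heq : ρ = K₀ • (b • eT * NG) := by
    have hne : e * eT * NG ≠ 0 := mul_ne_zero (mul_ne_zero he0 heT0) (hN.ne_zero one_ne_zero)
    rw [hρ, Algebra.smul_def, map_mul, SemilinearAut.commutes, (div_eq_iff hne).1 hx, hK₀,
      Algebra.smul_def, Algebra.smul_def, map_div₀, map_mul, map_div₀]
    have := (map_ne_zero (algebraMap L F)).2 ha
    have := (map_ne_zero (algebraMap L F)).2 hb
    field_simp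
  have hρ1 : D.Red ρ 1 := hρc.red huun red_one
  have hP : D.Red (b • eT * NG) zT := by simpa using hTr.mul hN
  rw [heq] at hρ1
  have hKA : K₀ ∈ A := mem_of_smul_mem_of_red D hP hzT hρ1.mem
  have hres := hρ1.unique (red_smul (⟨K₀, hKA⟩ : A) hP)
  have hπK : π ⟨K₀, hKA⟩ ≠ 0 := fun h => one_ne_zero (by rw [hres, h, zero_smul])
  have hzTc : zT = algebraMap k C (π ⟨K₀, hKA⟩)⁻¹ := by
    rw [Algebra.smul_def] at hres
    rw [map_inv₀]
    exact eq_inv_of_mul_eq_one_right hres.symm
  obtain ⟨lT, hlT, hclT⟩ := hside.rigid _ hTK _ (by rwa [← hzTc])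
  -- `NG` is congruent to a constant
  have hl0 : (lT : L) ≠ 0 := fun h => by
    rw [show lT = 0 from Subtype.ext h, map_zero] at hlT
    exact inv_ne_zero hπK hlT.symm
  have hlTr : D.Red (algebraMap L F (lT : L)) zT := by
    rw [hzTc, ← hlT]; exact red_algebraMap lT
  have hK0 : K₀ ≠ 0 := by
    rw [hK₀]
    exact div_ne_zero (mul_ne_zero (div_ne_zero ((map_ne_zero _).2 ha) ha) hκ) hb
  have hNc : Close D (u * u) NG (algebraMap L F ((K₀ * (lT : L))⁻¹)) := by
    have h1 : Close D (u * u) ((K₀ • algebraMap L F (lT : L)) * NG) 1 := by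
      refine Close.trans ?_ hρc
      rw [heq, ← smul_mul_assoc]
      refine Close.mul_right ?_ hN.mem
      obtain ⟨r, hr, e'⟩ := hclT.symm
      exact ⟨((⟨K₀, hKA⟩ : A) : L) • r, smul_mem_V D _ hr, by
        rw [← smul_sub, e', smul_comm]⟩
    have hA' : (K₀ * (lT : L))⁻¹ ∈ A := by
      have h2 : π (⟨K₀, hKA⟩ * lT) ≠ 0 := by
        rw [map_mul, hlT]; exact mul_ne_zero hπK (inv_ne_zero hπK)
      have h3 := (D.isResidue.ne_zero_iff _).1 h2
      rw [MulMemClass.coe_mul] at h3
      rw [← A.valuation_le_one_iff, map_inv₀, h3, inv_one]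
    have h2 := h1.mul_left (u := algebraMap L F ((K₀ * (lT : L))⁻¹)) ((D.mem_iff _).2 hA')
    have e2 : algebraMap L F ((K₀ * (lT : L))⁻¹) * (K₀ • algebraMap L F (lT : L) * NG) = NG := by
      rw [Algebra.smul_def, ← map_mul (algebraMap L F) K₀, ← mul_assoc, ← map_mul,
        inv_mul_cancel₀ (mul_ne_zero hK0 hl0), map_one, one_mul]
    rwa [e2, mul_one] at h2
  -- the trace
  have htr := hS.red _ _ (hS.red_trace hpow hy hy')
  have h1 := (hS.close_algebraMap (hS.norm_one_add_smul hy hy' u)).1
  rw [← hG, map_add, map_one, algebraMap_smul_tower, ← hNG] at h1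
  obtain ⟨l, -, hl⟩ := red_of_one_add_close hun hu0 htr (h1.symm.trans hNc)
  exact ⟨π l, hl⟩

end FLTAgent.MazurP
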