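import Fermat.Agent.LevelLower.RatDescent

/-!
# Fixed elements as quotients of combinations of rational series

As `exists_fixed_frac`, keeping that the series of the combinations have rational coefficients.
-/

set_option autoImplicit false
set_option linter.unusedSectionVars false

noncomputable section

open ModularCurve

namespace FLTAgent.MazurP

open FLTAgent.GoodRed FLTAgent.Semistable FLTAgent.LevelLower

local notation "Qbar" => AlgebraicClosure ℚ

variable {q : ℕ} [Fact q.Prime] {k : Type*} [Field k] [CharP k q]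
  {A : ValuationSubring (AlgebraicClosure ℚ)} {π : A →+* k}
  {K₀ : IntermediateField ℚ (LaurentSeries ℚ)}

theorem coeffMap_coeffEmb (τ : Qbar →+* Qbar) (f : LaurentSeries ℚ) :
    coeffMap τ (coeffEmb Qbar f) = coeffEmb Qbar f :=
  HahnSeries.ext (funext fun m =>
    show τ ((algebraMap ℚ Qbar) _) = _ from
      RingHom.congr_fun (RingHom.ext_rat (τ.comp (algebraMap ℚ Qbar)) (algebraMap ℚ Qbar)) _)

/-- A fixed element is a quotient of combinations, with fixed coefficients, of rational series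
with independent reductions. -/
theorem exists_fixed_frac_rat (hA : A.LiesOverPrime q) (hK : ∀ x ∈ K₀, x ∈ Igusa.boundedField q)
    {Γ : Type*} (σ : Γ → Qbar →+* Qbar) {x : LaurentSeries Qbar}
    (hx : x ∈ laurentBaseChange Qbar K₀) (hfix : ∀ γ, coeffMap (σ γ) x = x) :
    ∃ (n : ℕ) (e : Fin n → LaurentSeries Qbar) (eb : Fin n → LaurentSeries k) (a b : Fin n → Qbar),
      (∀ i, SRed π (e i) (eb i)) ∧ LinearIndependent k eb ∧
      (∀ (τ : Qbar →+* Qbar) i, coeffMap τ (e i) = e i) ∧
      (∀ γ i, σ γ (a i) = a i) ∧ (∀ γ i, σ γ (b i) = b i) ∧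
      ∑ i, b i • e i ≠ 0 ∧ x * ∑ i, b i • e i = ∑ i, a i • e i := by
  classical
  obtain ⟨a₀, ha₀, b₀, hb₀, hb0, hab⟩ := JTors.exists_frac_rationalSpan K₀ hx
  obtain ⟨Ta, hTa, haT⟩ := Submodule.mem_span_finite_of_mem_span ha₀
  obtain ⟨Tb, hTb, hbT⟩ := Submodule.mem_span_finite_of_mem_span hb₀
  obtain ⟨Ta', hTa', rfl⟩ := Finset.subset_set_image_iff.1 hTa
  obtain ⟨Tb', hTb', rfl⟩ := Finset.subset_set_image_iff.1 hTb
  obtain ⟨n, f, -, hind, hspan⟩ := exists_rat_frame q (k := k) (Ta' ∪ Tb') fun y hy => hK y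
    ((Finset.mem_union.1 hy).elim (fun h => hTa' h) fun h => hTb' h)
  set e : Fin n → LaurentSeries Qbar := fun i => coeffEmb Qbar (f i : LaurentSeries ℚ)
  have hmem : ∀ T : Finset (LaurentSeries ℚ), T ⊆ Ta' ∪ Tb' → ∀ y ∈ Submodule.span Qbar
      ((T.image (coeffEmb Qbar) : Finset _) : Set (LaurentSeries Qbar)),
      y ∈ Submodule.span Qbar (Set.range e) := fun T hT y hy => by
    refine Submodule.span_le.2 ?_ hy
    intro z hz
    obtain ⟨u, hu, rfl⟩ := Finset.mem_image.1 (Finset.mem_coe.1 hz)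
    have h1 := coeffEmb_mem_span (hspan (Finset.mem_coe.2 (hT hu)))
    rwa [← Set.range_comp] at h1
  obtain ⟨α, hα⟩ := (Submodule.mem_span_range_iff_exists_fun Qbar).1
    (hmem Ta' Finset.subset_union_left a₀ haT)
  obtain ⟨β, hβ⟩ := (Submodule.mem_span_range_iff_exists_fun Qbar).1
    (hmem Tb' Finset.subset_union_right b₀ hbT)
  let Φ : (Fin n ⊕ Fin n → Qbar) →ₗ[Qbar] LaurentSeries Qbar :=
    { toFun := fun w => x * ∑ i, w (Sum.inl i) • e i - ∑ i, w (Sum.inr i) • e i
      map_add' := fun v w => by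
        simp only [Pi.add_apply, add_smul, Finset.sum_add_distrib, mul_add]; abel
      map_smul' := fun c w => by
        simp only [Pi.smul_apply, smul_eq_mul, mul_smul, ← Finset.smul_sum, RingHom.id_apply,
          smul_sub]
        simp only [smul_series]
        ring }
  have hΦσ : ∀ γ w, Φ (fun i => σ γ (w i)) = coeffMap (σ γ) (Φ w) := fun γ w => by
    show _ = coeffMap (σ γ) (x * _ - _)
    simp only [map_sub, map_mul, map_sum, hfix, smul_series, coeffMap_algebraMap, e,
      coeffMap_coeffEmb]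
    simp [Φ, smul_series, e]
  have hstab : ∀ γ, ∀ w ∈ LinearMap.ker Φ, (fun i => σ γ (w i)) ∈ LinearMap.ker Φ := fun γ w hw => by
    rw [LinearMap.mem_ker] at hw ⊢
    rw [hΦσ, hw, map_zero]
  have h0 : Sum.elim β α ∈ LinearMap.ker Φ := by
    show x * ∑ i, β i • e i - ∑ i, α i • e i = 0
    rw [hα, hβ, hab, sub_self]
  obtain ⟨w, ⟨hw, hwfix⟩, hwne⟩ : ∃ w, (w ∈ LinearMap.ker Φ ∧ ∀ γ i, σ γ (w i) = w i) ∧
      ∃ i, w (Sum.inl i) ≠ 0 := by
    by_contra hall
    push Not at hall
    have hle : LinearMap.ker Φ ≤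
        LinearMap.ker (LinearMap.funLeft Qbar Qbar (Sum.inl : Fin n → Fin n ⊕ Fin n)) :=
      (le_span_fixed σ _ hstab).trans (Submodule.span_le.2 fun w hw =>
        funext fun i => hall w hw i)
    refine hb0 ?_
    rw [← hβ]
    refine Finset.sum_eq_zero fun i _ => ?_
    rw [show β i = 0 from congrFun (hle h0) i, zero_smul]
  refine ⟨n, e, fun i => ratRed q k (f i), fun i => w (Sum.inr i), fun i => w (Sum.inl i),
    fun i => sRed_coeffEmb q hA (f i), hind, fun τ i => coeffMap_coeffEmb τ _,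
    fun γ i => hwfix γ _, fun γ i => hwfix γ _, ?_, sub_eq_zero.1 hw⟩
  intro hz
  obtain ⟨i, hi⟩ := hwne
  exact hi (Fintype.linearIndependent_iff.1
    (linearIndependent_of_sRed (π := π) (fun i => sRed_coeffEmb q hA (f i)) hind) _ hz i)

end FLTAgent.MazurP
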