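import Fermat.Agent.MazurP.RatSub

/-!
# Hecke norms preserve congruences to one

If `f` is one modulo `c` on a component, so is `T l f`: the series of `T l f` is a product of
conjugates of the series of `f`, each one modulo `c`.
-/

set_option autoImplicit false
set_option linter.style.haveILetI false
set_option linter.unusedSectionVars false
set_option synthInstance.maxHeartbeats 100000

noncomputable section

open ModularCurve AlgebraicCurve IsLocalRing SemilinearAut

namespace FLTAgent.MazurP

open FLTAgent.GoodRed FLTAgent.GoodRed.RedDatum FLTAgent.Semistable FLTAgent.ModPoly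
  FLTAgent.FunctionField FLTAgent.LevelLower FLTAgent.Hecke

local notation "Qbar" => AlgebraicClosure ℚ

section product

variable {L k : Type*} [Field L] [Field k] {A : ValuationSubring L} {π : A →+* k}

/-- A product of series which are one modulo `c` is one modulo `c`. -/
theorem exists_prod_one_add {ι : Type*} (t : Finset ι) (c : A) {s : ι → LaurentSeries L}
    (h : ∀ i ∈ t, ∃ z, SRed π (s i) z) :
    ∃ W z, SRed π W z ∧ ∏ i ∈ t, (1 + algebraMap L (LaurentSeries L) c * s i) =
      1 + algebraMap L (LaurentSeries L) c * W := by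
  classical
  induction t using Finset.induction with
  | empty => exact ⟨0, 0, sRed_zero, by simp⟩
  | insert a t ha ih =>
    obtain ⟨z₁, h₁⟩ := h a (Finset.mem_insert_self a t)
    obtain ⟨W, z₂, h₂, e⟩ := ih fun i hi => h i (Finset.mem_insert_of_mem hi)
    refine ⟨_, _, (h₁.add h₂).add (((sRed_algebraMap c).mul h₁).mul h₂), ?_⟩
    rw [Finset.prod_insert ha, e]
    ring

theorem qExpand_const (n : ℕ) [NeZero n] (c : L) :
    qExpand L n (algebraMap L (LaurentSeries L) c) = algebraMap L (LaurentSeries L) c := by
  rw [algebraMap_laurentSeries_eq_single, qExpand_single, mul_zero]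

theorem twist_const (u : Lˣ) (c : L) :
    twist u (algebraMap L (LaurentSeries L) c) = algebraMap L (LaurentSeries L) c := by
  rw [algebraMap_laurentSeries_eq_single, twist_single, zpow_zero, Units.val_one, one_mul]

end product

section level

variable {A : ValuationSubring (AlgebraicClosure ℚ)} {q : ℕ} [Fact q.Prime]
  (hA : A.LiesOverPrime q) [CharP (ResidueField A) q] [IsAlgClosed (ResidueField A)]
  {M : ℕ} [NeZero M] (hqM : ¬ q ∣ M) {l : ℕ} [NeZero l] (hl : l.Prime) (hlM : ¬ l ∣ M)
  (hlq : l ≠ q)

local instance instNeZeroLevelClose : NeZero (M * q) :=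
  ⟨Nat.mul_ne_zero (NeZero.ne M) (Fact.out : q.Prime).ne_zero⟩

include hA hl hlM hlq in
/-- The Hecke norm preserves being one modulo `c` on the first component. -/
theorem close_heckeFun {c : A} {f : MF Qbar (M * q)}
    (h : Close (redInf A hA M hqM) c f 1) :
    Close (redInf A hA M hqM) c (heckeFun (M * q) l f) 1 := by
  classical
  obtain ⟨r, hr, e⟩ := h
  obtain ⟨z, hz⟩ := exists_red hr
  have hlN := not_dvd_level M l hl hlM hlq
  haveI : NeZero (l * l) := ⟨Nat.mul_ne_zero (NeZero.ne l) (NeZero.ne l)⟩
  rcases eq_or_ne (c : Qbar) 0 with hc | hc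
  · rw [Algebra.smul_def, hc, map_zero, zero_mul, sub_eq_zero] at e
    exact ⟨0, zero_mem _, by rw [e, map_one, sub_self, smul_zero]⟩
  have hf : (f : LaurentSeries Qbar) = 1 + algebraMap Qbar (LaurentSeries Qbar) c * r := by
    rw [sub_eq_iff_eq_add'.1 e, AddMemClass.coe_add, OneMemClass.coe_one, coe_smul_eq]
  set s : Option (ZMod l) → LaurentSeries Qbar := fun o =>
    o.elim (qExpand Qbar (l * l) r) fun j => twist (rootExp l ^ j.val) r with hsdef
  have hs : ∀ o, ∃ w, SRed (residue A) (s o) w := by
    rintro (_ | j)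
    · exact ⟨_, ((redInf_iff hA hqM).1 hz).qExpand (l * l)⟩
    · exact ⟨_, by
        have := sRed_twist ((redInf_iff hA hqM).1 hz) (rootA A l ^ j.val)
        rwa [map_pow, map_rootA] at this⟩
  obtain ⟨W, w, hW, eW⟩ := exists_prod_one_add (π := residue A) Finset.univ c fun o _ => hs o
  simp only [Fintype.prod_option, hsdef, Option.elim_none, Option.elim_some] at eW
  set y : MF Qbar (M * q) := (c : Qbar)⁻¹ • (heckeFun (M * q) l f - 1) with hy
  have hy' : qExpand Qbar l (y : LaurentSeries Qbar) = W := by
    rw [hy, coe_smul_eq, map_mul, qExpand_const, AddSubgroupClass.coe_sub, map_sub,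
      series_heckeFun hl hlN, hf, OneMemClass.coe_one, map_one]
    simp only [map_add, map_one, map_mul, qExpand_const, twist_const]
    rw [eW, add_sub_cancel_left, ← mul_assoc, ← map_mul, inv_mul_cancel₀ hc, map_one,
      one_mul]
  have hy1 : ∃ v, SRed (residue A) (y : LaurentSeries Qbar) v := by
    rcases eq_or_ne w 0 with rfl | hw
    · obtain ⟨v, hv, -⟩ := exists_sRed_of_qExpand (isResidueMap_residue A)
        (hasOrth_MF A hA (M * q)) (n := l) (add_mem y.2 (one_mem _))
        (P := 1) (by rw [map_add, hy', map_one]; simpa using hW.add sRed_one) one_ne_zero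
      exact ⟨v - 1, by simpa using hv.sub sRed_one⟩
    · obtain ⟨v, hv, -⟩ := exists_sRed_of_qExpand (isResidueMap_residue A)
        (hasOrth_MF A hA (M * q)) (n := l) y.2 (P := w) (hy' ▸ hW) hw
      exact ⟨v, hv⟩
  exact ⟨y, mem_V_of_sRed hA hqM hy1.choose_spec, by rw [hy, smul_inv_smul₀ hc]⟩

include hA hl hlM hlq in
/-- The Hecke norm preserves being one modulo `c` on the second component. -/
theorem close_heckeFun' {c : A} {f : MF Qbar (M * q)}
    (h : Close (redZero A hA M hqM) c f 1) :
    Close (redZero A hA M hqM) c (heckeFun (M * q) l f) 1 := by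
  refine close_redZero_of_swapW hA hqM ?_
  obtain ⟨r, hr, e⟩ := h
  have h' : Close (redInf A hA M hqM) c (swapW M hqM f) 1 :=
    ⟨swapW M hqM r, swapW_mem_V hA hqM hr, by
      rw [← map_one (swapW M hqM), ← map_sub, e, Algebra.smul_def, map_mul, AlgEquiv.commutes,
        ← Algebra.smul_def]⟩
  rw [map_one, ← heckeFun_swapW M hqM fun hd =>
      hlq ((Nat.prime_dvd_prime_iff_eq Fact.out hl).1 hd).symm]
  exact close_heckeFun hA hqM hl hlM hlq h'

end level

end FLTAgent.MazurP
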