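import Fermat.Agent.MazurP.RatSub

/-!
# Rational functions with given reductions on the two components

The Galois orbit of a function is finite, so its span is spanned by functions fixed by inertia,
some of which then have any given pair of reductions.
-/

set_option autoImplicit false
set_option linter.style.haveILetI false
set_option linter.unusedSectionVars false
set_option synthInstance.maxHeartbeats 100000

noncomputable section

open ModularCurve AlgebraicCurve SemilinearAut IsLocalRing

namespace FLTAgent.MazurP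

open FLTAgent.GoodRed FLTAgent.GoodRed.RedDatum FLTAgent.Semistable FLTAgent.Hecke
  FLTAgent.FunctionField FLTAgent.LevelLower

local notation "Qbar" => AlgebraicClosure ℚ
local notation "Γℚ" => AlgebraicClosure ℚ ≃ₐ[ℚ] AlgebraicClosure ℚ

/-- An algebraic number has finitely many conjugates. -/
theorem finite_orbit (x : Qbar) : (Set.range fun τ : Γℚ => τ x).Finite := by
  have hx : IsIntegral ℚ x := (AlgebraicClosure.isAlgebraic ℚ).isAlgebraic x |>.isIntegral
  refine Set.Finite.subset ((minpoly ℚ x).rootSet_finite Qbar) ?_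
  rintro _ ⟨τ, rfl⟩
  rw [Polynomial.mem_rootSet]
  refine ⟨minpoly.ne_zero hx, ?_⟩
  show Polynomial.aeval (τ x) (minpoly ℚ x) = 0
  rw [show τ x = τ.toAlgHom x from rfl, Polynomial.aeval_algHom_apply, minpoly.aeval, map_zero]

variable {A : ValuationSubring (AlgebraicClosure ℚ)} {q : ℕ} [Fact q.Prime]
  (hA : A.LiesOverPrime q) [CharP (ResidueField A) q] [IsAlgClosed (ResidueField A)]
  {M : ℕ} [NeZero M] (hqM : ¬ q ∣ M)

local instance instNeZeroQPairs : NeZero q := ⟨(Fact.out : q.Prime).ne_zero⟩
local instance instNeZeroLevelPairs : NeZero (M * q) :=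
  ⟨Nat.mul_ne_zero (NeZero.ne M) (NeZero.ne q)⟩

include hA in
/-- The conjugates of a function form a finite set. -/
theorem finite_orbit_series (y : MF Qbar (M * q)) :
    (Set.range fun τ : Γℚ => coeffMap (τ : Qbar →+* Qbar) (y : LaurentSeries Qbar)).Finite := by
  classical
  obtain ⟨n, e, eb, a, b, he, -, hrat, -, -, hb0, hab⟩ :=
    exists_fixed_frac_rat (π := residue A) hA
      (fun _ hx => Igusa.modularFunctionFieldFull_le_boundedField q (M * q) hx)
      (fun _ : PUnit.{1} => RingHom.id Qbar) y.2 fun _ =>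
        HahnSeries.ext (funext fun m => by rw [coeffMap_coeff]; rfl)
  have hfin : (Set.univ.pi fun i => Set.range fun τ : Γℚ => τ (a i)).Finite ∧
      (Set.univ.pi fun i => Set.range fun τ : Γℚ => τ (b i)).Finite :=
    ⟨Set.Finite.pi' (fun i => finite_orbit (a i)) |>.subset (fun f hf i => hf i trivial),
      Set.Finite.pi' (fun i => finite_orbit (b i)) |>.subset (fun f hf i => hf i trivial)⟩
  refine ((hfin.1.prod hfin.2).image fun w : (Fin n → Qbar) × (Fin n → Qbar) =>
    (∑ i, w.1 i • e i) / ∑ i, w.2 i • e i).subset ?_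
  rintro _ ⟨τ, rfl⟩
  refine ⟨(fun i => τ (a i), fun i => τ (b i)), ⟨fun i _ => ⟨τ, rfl⟩, fun i _ => ⟨τ, rfl⟩⟩, ?_⟩
  have hτ : ∀ c : Fin n → Qbar, coeffMap (τ : Qbar →+* Qbar) (∑ i, c i • e i) =
      ∑ i, τ (c i) • e i := fun c => by
    simp only [map_sum, smul_series, map_mul, coeffMap_algebraMap, hrat]
    rfl
  show (∑ i, τ (a i) • e i) / ∑ i, τ (b i) • e i = coeffMap (τ : Qbar →+* Qbar) (y : LaurentSeries Qbar)
  rw [← hτ, ← hτ, ← map_div₀, (eq_div_iff hb0).2 hab]

include hA in
/-- Every pair of reductions is that of a function fixed by inertia. -/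
theorem exists_rat_pair (P : Ground A) (a b : modularFunctionFieldFullC (ResidueField A) M) :
    ∃ y ∈ subFun P (M * q), (redInf A hA M hqM).Red y a ∧ (redZero A hA M hqM).Red y b := by
  classical
  have hrk := Semistable.isRankOne_of_liesOverPrime hA (Fact.out : q.Prime)
  obtain ⟨y₀, h₁, h₂⟩ := exists_pair_lift hrk (red_sepFun hA hqM).1 (red_sepFun hA hqM).2 a b
  set O : Set (MF Qbar (M * q)) := Set.range fun τ : Γℚ => toRingAut (galAct (M * q) τ) y₀
    with hO
  have hOfin : O.Finite := by
    refine Set.Finite.of_finite_image (f := fun z : MF Qbar (M * q) => (z : LaurentSeries Qbar))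
      ((finite_orbit_series hA y₀).subset ?_) Subtype.val_injective.injOn
    rintro _ ⟨_, ⟨τ, rfl⟩, rfl⟩
    exact ⟨τ, (coe_galAct τ y₀).symm⟩
  set W : Submodule Qbar (MF Qbar (M * q)) := Submodule.span Qbar O with hW
  haveI : Module.Finite Qbar W := Module.Finite.span_of_finite Qbar hOfin
  let v : MF Qbar (M * q) →ₗ[Qbar] LaurentSeries Qbar :=
    { toFun := fun u => (u : LaurentSeries Qbar)
      map_add' := fun _ _ => rfl
      map_smul' := fun c u => by
        rw [RingHom.id_apply, coe_smul_eq, smul_series] }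
  have hv : Function.Injective v := Subtype.val_injective
  have hstab : ∀ σ : P.H, ∀ w ∈ W.map v,
      coeffMap ((σ : Γℚ) : Qbar →+* Qbar) w ∈ W.map v := by
    rintro σ _ ⟨u, hu, rfl⟩
    refine ⟨toRingAut (galAct (M * q) σ) u, ?_, coe_galAct _ u⟩
    induction hu using Submodule.span_induction with
    | mem x hx =>
      obtain ⟨τ, rfl⟩ := hx
      refine Submodule.subset_span ⟨(σ : Γℚ) * τ, Subtype.ext ?_⟩
      rw [coe_galAct, coe_galAct, coe_galAct]
      exact HahnSeries.ext (funext fun m => by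
        rw [coeffMap_coeff, coeffMap_coeff, coeffMap_coeff]; rfl)
    | zero => rw [map_zero]; exact zero_mem _
    | add x y _ _ hx hy => rw [map_add]; exact add_mem hx hy
    | smul c x _ hx =>
      rw [Algebra.smul_def, map_mul, commutes, ← Algebra.smul_def]
      exact W.smul_mem _ hx
  have hsp : W ≤ Submodule.span Qbar ((W : Set (MF Qbar (M * q))) ∩ subFun P (M * q)) := by
    intro f hf
    have h1 := le_span_fixed_series (fun σ : P.H => ((σ : Γℚ) : Qbar →+* Qbar)) (W.map v) hstab
      ⟨f, hf, rfl⟩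
    have h2 : Submodule.span Qbar {w | w ∈ W.map v ∧
        ∀ σ : P.H, coeffMap ((σ : Γℚ) : Qbar →+* Qbar) w = w} ≤
        (Submodule.span Qbar ((W : Set (MF Qbar (M * q))) ∩ subFun P (M * q))).map v := by
      refine Submodule.span_le.2 ?_
      rintro _ ⟨⟨u, hu, rfl⟩, hfix⟩
      exact ⟨u, Submodule.subset_span ⟨hu, fun σ hσ => Subtype.ext (hfix ⟨σ, hσ⟩)⟩, rfl⟩
    obtain ⟨u, hu, hue⟩ := h2 h1
    rwa [← hv hue]
  obtain ⟨y, hyK, -, hya, hyb⟩ := (subRat hA hqM P).toRatStr.exists_rat_red hrk W hsp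
    (p := (a, b)) ⟨y₀, Submodule.subset_span ⟨1, by simp⟩, h₁, h₂⟩
  exact ⟨y, hyK, hya, hyb⟩

end FLTAgent.MazurP
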