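import Fermat.Agent.MazurP.AllFlat
import Fermat.Agent.MazurP.AuxInstance
import Fermat.Agent.MazurP.EigenClass
import Fermat.Agent.MazurP.HeckeClose
import Fermat.Agent.MazurP.RatPairs

/-!
# The eigen classes of the representation are flat

An eigen class of level `M q` with both push-forwards zero which is fixed by a tame ground, or
which is moved by an element of inertia by a class fixed by one, has a flat representative.
-/

set_option autoImplicit false
set_option linter.style.haveILetI false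
set_option linter.unusedSectionVars false
set_option synthInstance.maxHeartbeats 100000

noncomputable section

open ModularCurve AlgebraicCurve SemilinearAut IsLocalRing

namespace FLTAgent.MazurP

open FLTAgent.GoodRed FLTAgent.GoodRed.RedDatum FLTAgent.Semistable FLTAgent.Hecke
  FLTAgent.FunctionField FLTAgent.LevelLower

local notation "Qbar" => AlgebraicClosure ℚ
local notation "Γℚ" => AlgebraicClosure ℚ ≃ₐ[ℚ] AlgebraicClosure ℚ

local instance (priority := high) instAlgebraFullCFlatClass {K : Type*} [Field K] (N : ℕ) :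
    Algebra K (modularFunctionFieldFullC K N) :=
  SubalgebraClass.toAlgebra (modularFunctionFieldFullC K N)

local instance (priority := high) instAlgebraLevelFlatClass (N : ℕ) :
    Algebra Qbar (Hecke.MF Qbar N) :=
  SubalgebraClass.toAlgebra (Hecke.MF Qbar N)

variable {A : ValuationSubring (AlgebraicClosure ℚ)} {q : ℕ} [Fact q.Prime]
  (hA : A.LiesOverPrime q) [CharP (ResidueField A) q] [IsAlgClosed (ResidueField A)]
  {M M' : ℕ} [NeZero M] [NeZero M'] (hqM : ¬ q ∣ M) {hqM' : ¬ q ∣ M'}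
  [IsFunctionField (ResidueField A) (modularFunctionFieldFullC (ResidueField A) M)]
  [IsFunctionField (ResidueField A) (modularFunctionFieldFullC (ResidueField A) M')]

local instance instNeZeroQFlatClass : NeZero q := ⟨(Fact.out : q.Prime).ne_zero⟩
local instance instNeZeroLevelFlatClass : NeZero (M * q) :=
  ⟨Nat.mul_ne_zero (NeZero.ne M) (NeZero.ne q)⟩
local instance instNeZeroLevelFlatClass' : NeZero (M' * q) :=
  ⟨Nat.mul_ne_zero (NeZero.ne M') (NeZero.ne q)⟩
local instance instFunctionFieldFlatClass : IsFunctionField Qbar (MF Qbar (M * q)) :=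
  GoodRed.instIsFunctionFieldBar (M * q)
local instance instAlgebraFlatClass : Algebra (MF Qbar M) (MF Qbar (M * q)) :=
  algebraAlong (alphaMap Qbar M q)
local instance instTowerFlatClass : IsScalarTower Qbar (MF Qbar M) (MF Qbar (M * q)) :=
  isScalarTower_along (alphaMap Qbar M q)
local instance instFiniteFlatClass : Module.Finite (MF Qbar M) (MF Qbar (M * q)) :=
  finite_alongAlpha M
local instance instFunctionFieldBetaFlatClass : IsFunctionField Qbar (FlatModel.BetaBase M q) :=
  GoodRed.instIsFunctionFieldBar M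
local instance instAlgebraFlatClassBeta : Algebra (FlatModel.BetaBase M q) (MF Qbar (M * q)) :=
  algebraAlong (FlatModel.betaBaseMap M q)
local instance instTowerFlatClassBeta :
    IsScalarTower Qbar (FlatModel.BetaBase M q) (MF Qbar (M * q)) :=
  isScalarTower_along (FlatModel.betaBaseMap M q)
local instance instFiniteFlatClassBeta :
    Module.Finite (FlatModel.BetaBase M q) (MF Qbar (M * q)) := finite_alongBeta M
local instance instAlgebraFlatClass' : Algebra (MF Qbar M') (MF Qbar (M' * q)) :=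
  algebraAlong (alphaMap Qbar M' q)
local instance instTowerFlatClass' : IsScalarTower Qbar (MF Qbar M') (MF Qbar (M' * q)) :=
  isScalarTower_along (alphaMap Qbar M' q)
local instance instFiniteFlatClass' : Module.Finite (MF Qbar M') (MF Qbar (M' * q)) :=
  finite_alongAlpha M'

/-- No eigen function of the component has orders divisible by `q` without being a power. -/
def KillData (S : ℕ) (hS : M * q ∣ S) (a : ℕ → ℕ) : Prop :=
  ∀ z : modularFunctionFieldFullC (ResidueField A) M, z ≠ 0 →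
    (∀ v : Place (ResidueField A) (modularFunctionFieldFullC (ResidueField A) M),
      (q : ℤ) ∣ v.ord z) →
    (∀ l : AwayFrom S, PowConst (ResidueField A) q
      ((haveI : NeZero (l.1 : ℕ) := ⟨l.1.2.ne_zero⟩
        heckeC A hA M hqM (l.1 : ℕ) l.1.2 (awayFrom_not_dvd hqM hS l).1 z) / z ^ a l.1)) →
    PowConst (ResidueField A) q z

theorem eigenData (P Q : Ground A) {S : ℕ} (hS : M * q ∣ S) {a : ℕ → ℕ}
    (hkill : KillData hA hqM S hS a)
    (hne : ∃ l : ℕ, l.Prime ∧ ¬ l ∣ S ∧ IsCoprime ((l : ℤ) + 1 - a l) q) :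
    EigenData (subRat hA hqM P) (heckeFam hA hqM Q hS) (fun l => a l.1) q where
  hkill := hkill
  mem' l f hf := by
    haveI : NeZero (l.1 : ℕ) := ⟨l.1.2.ne_zero⟩
    rw [heckeFam_T]
    exact heckeFun_mem_subFun hf
  ne := by
    obtain ⟨l, hl, hlS, h⟩ := hne
    refine ⟨⟨⟨l, hl⟩, hlS⟩, ?_⟩
    rw [heckeFam_d]
    push_cast
    exact h

variable {ι : Type} [Fintype ι]
  (X : CrossData (x0Datum A hA M' hqM') (redInf A hA M' hqM') (redZero A hA M' hqM')
    (frobC (K := ResidueField A) q M') q ι)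
  (hx : Set.range X.x = crossingSet A hA hqM') (hG₁ : ∀ σ : Γℚ, galAct M' σ • X.G₁ = X.G₁)
  (h : M ∣ M') (hcop : Nat.Coprime q (finrankAlong (ResidueField A) (upBar (ResidueField A) h)))
  {S : ℕ} (hS : M * q ∣ S) {a : ℕ → ℕ}

include hA in
theorem exists_separating (P : Ground A) :
    ∃ e ∈ subFun P (M * q), (redInf A hA M hqM).Red e 1 ∧ (redZero A hA M hqM).Red e 0 :=
  exists_rat_pair hA hqM P 1 0

set_option maxHeartbeats 1600000 in
-- the classes live in a large quotient
/-- A class with a flat representative. -/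
theorem exists_flat_of_flatRep {R : GalStr (redInf A hA M hqM) (redZero A hA M hqM)}
    {FK : Subfield (MF Qbar (M * q))} {Λ : Type*}
    {H : Λ → HeckeOp (redInf A hA M hqM) (redZero A hA M hqM) FK} {c : Λ → ℕ}
    (Y : Divisor.degZero (K := Qbar) (F := MF Qbar (M * q)))
    (P : FlatRep R (MF Qbar M) (FlatModel.BetaBase M q) H c q
      (Y : Divisor Qbar (MF Qbar (M * q)))) :
    ∃ Z : Divisor.degZero (K := Qbar) (F := MF Qbar (M * q)), Pic0.mk Z = Pic0.mk Y ∧
      NodeSystem.IsFlat (D := redInf A hA M hqM) (D' := redZero A hA M hqM) q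
        (Z : Divisor Qbar (MF Qbar (M * q))) := by
  have hq : 0 < q := (Fact.out : q.Prime).pos
  refine ⟨⟨_, Divisor.mem_degZero.2 (P.cls.degree_eq_zero hq)⟩, Eisen.mk_eq_mk_iff.2 ?_,
    P.isFlat hq⟩
  show ((Y : Divisor Qbar (MF Qbar (M * q))) + divisorOf P.h) -
    (Y : Divisor Qbar (MF Qbar (M * q))) ∈ _
  rw [add_sub_cancel_left]
  exact Eisen.mem_principal_divisorOf P.h_ne

include hx hG₁ h hcop in
set_option maxHeartbeats 3200000 in
-- the classes live in a large quotient
/-- The classes fixed by a tame ground are flat. -/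
theorem exists_flat_tame (P : Ground A)
    (hnone : ∀ τ : Qbar, (∀ σ ∈ P.H, σ τ = τ) → ∀ β : ℕ, 0 < β → β < q →
      A.valuation τ ^ q * A.valuation (q : Qbar) ^ β ≠ 1)
    (hkill : KillData hA hqM S hS a)
    (hne : ∃ l : ℕ, l.Prime ∧ ¬ l ∣ S ∧ IsCoprime ((l : ℤ) + 1 - a l) q)
    {x : JZero (M * q)} (hfix : ∀ σ ∈ P.H, σ • x = x) (hxq : q • x = 0)
    (ha : FlatModel.alphaPush M q x = 0) (hb : FlatModel.betaPush M q x = 0)
    (heig : ∀ l : AwayFrom S, heckeOperatorBar (M * q) l.1 x = a l.1 • x) :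
    ∃ Z : Divisor.degZero (K := Qbar) (F := MF Qbar (M * q)), Pic0.mk Z = x ∧
      NodeSystem.IsFlat (D := redInf A hA M hqM) (D' := redZero A hA M hqM) q
        (Z : Divisor Qbar (MF Qbar (M * q))) := by
  letI := algebraAlong (upMap q h)
  letI := algebraAlong (upBar (ResidueField A) h)
  haveI := isScalarTower_along (upMap q h)
  haveI := isScalarTower_along (upBar (ResidueField A) h)
  haveI : Module.Finite (MF Qbar (M * q)) (MF Qbar (M' * q)) :=
    finiteAlong_of_isFunctionField (upMap q h)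
  haveI : Module.Finite (modularFunctionFieldFullC (ResidueField A) M)
      (modularFunctionFieldFullC (ResidueField A) M') :=
    finiteAlong_of_isFunctionField (upBar (ResidueField A) h)
  obtain ⟨Y, rfl, ⟨K⟩⟩ := exists_ratClass hA hqM P P hS a hfix hxq ha hb heig
  obtain ⟨e, he, he1, he0⟩ := exists_separating hA hqM P
  obtain ⟨R⟩ := exists_flatRep_tame (oneSide_alpha hA hqM)
    (subAuxLevel X hx hG₁ P h hcop) (Nat.cast_ne_zero.2 (Fact.out : q.Prime).ne_zero)
    hnone he he1 he0 (exists_rat_pair hA hqM P) (eigenData hA hqM P P hS hkill hne) K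
  exact exists_flat_of_flatRep hA hqM Y R

include hx hG₁ h hcop in
set_option maxHeartbeats 6400000 in
-- the classes live in a large quotient
/-- The classes moved by classes of a tame ground are flat. -/
theorem exists_flat_wild (P P' : Ground A) (hle : P.H ≤ P'.H) (hsq : P'.ϖ / P.ϖ ^ 2 ∈ A)
    {σ : Γℚ} (hσI : σ ∈ A.inertiaSubgroupIn ℚ) (hnorm : ∀ τ ∈ P.H, σ⁻¹ * τ * σ ∈ P.H)
    (hσ : ∀ b : A, (b : Qbar) ∈ P.field →
      ∃ c : A, σ (b : Qbar) = (b : Qbar) + P.ϖ * P.ϖ * c)
    (hmove : ∀ τ : Qbar, τ ∈ P.field → ∀ β : ℕ, 0 < β → β < q →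
      A.valuation τ ^ q * A.valuation (q : Qbar) ^ β = 1 →
        ∃ b : A, A.valuation (b : Qbar) = 1 ∧ σ τ = τ * (1 + P.ϖ * b))
    (hnone : ∀ τ : Qbar, (∀ τ' ∈ P'.H, τ' τ = τ) → ∀ β : ℕ, 0 < β → β < q →
      A.valuation τ ^ q * A.valuation (q : Qbar) ^ β ≠ 1)
    (hkill : KillData hA hqM S hS a)
    (hne : ∃ l : ℕ, l.Prime ∧ ¬ l ∣ S ∧ IsCoprime ((l : ℤ) + 1 - a l) q)
    {x : JZero (M * q)} (hfix : ∀ τ ∈ P.H, τ • x = x)
    (hfix' : ∀ τ ∈ P'.H, τ • (σ • x - x) = σ • x - x) (hxq : q • x = 0)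
    (ha : FlatModel.alphaPush M q x = 0) (hb : FlatModel.betaPush M q x = 0)
    (heig : ∀ l : AwayFrom S, heckeOperatorBar (M * q) l.1 x = a l.1 • x)
    (hyq : q • (σ • x - x) = 0)
    (hya : FlatModel.alphaPush M q (σ • x - x) = 0)
    (hyb : FlatModel.betaPush M q (σ • x - x) = 0)
    (hyeig : ∀ l : AwayFrom S,
      heckeOperatorBar (M * q) l.1 (σ • x - x) = a l.1 • (σ • x - x)) :
    ∃ Z : Divisor.degZero (K := Qbar) (F := MF Qbar (M * q)), Pic0.mk Z = x ∧
      NodeSystem.IsFlat (D := redInf A hA M hqM) (D' := redZero A hA M hqM) q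
        (Z : Divisor Qbar (MF Qbar (M * q))) := by
  letI := algebraAlong (upMap q h)
  letI := algebraAlong (upBar (ResidueField A) h)
  haveI := isScalarTower_along (upMap q h)
  haveI := isScalarTower_along (upBar (ResidueField A) h)
  haveI : Module.Finite (MF Qbar (M * q)) (MF Qbar (M' * q)) :=
    finiteAlong_of_isFunctionField (upMap q h)
  haveI : Module.Finite (modularFunctionFieldFullC (ResidueField A) M)
      (modularFunctionFieldFullC (ResidueField A) M') :=
    finiteAlong_of_isFunctionField (upBar (ResidueField A) h)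
  obtain ⟨Y, rfl, ⟨K⟩⟩ := exists_ratClass hA hqM P P hS a hfix hxq ha hb heig
  obtain ⟨T₀, hT₀, ⟨K₀⟩⟩ := exists_ratClass hA hqM P' P hS a hfix' hyq hya hyb hyeig
  obtain ⟨e, he, he1, he0⟩ := exists_separating hA hqM P'
  have hG : Pic0.mk (SemilinearAut.degZeroSMulHom (galAct (M * q) σ) Y - Y) = Pic0.mk T₀ := by
    rw [hT₀, galois_smul_pic0_def, SemilinearAut.pic0_smul_mk]
    rfl
  obtain ⟨G₀, hG₀, hdivG⟩ := Eisen.exists_divisorOf_of_principal (Eisen.mk_eq_mk_iff.1 hG)
  rw [AddSubgroup.coe_sub, SemilinearAut.coe_degZeroSMulHom] at hdivG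
  have hdvd : ∀ u u' : A, (u : Qbar) = P.ϖ → (u' : Qbar) = P'.ϖ → u * u ∣ u' := by
    intro u u' hu hu'
    refine ⟨⟨_, hsq⟩, Subtype.ext ?_⟩
    show (u' : Qbar) = (u : Qbar) * (u : Qbar) * (P'.ϖ / P.ϖ ^ 2)
    rw [hu, hu', ← pow_two, mul_div_cancel₀ _ (pow_ne_zero _ P.ϖ_ne)]
  set T := subTwisting hA hqM hle (hdvd _ _ rfl rfl) σ hnorm hσ with hT
  let DB : RedDatum A (residue A) (FlatModel.BetaBase M q)
      (modularFunctionFieldFullC (ResidueField A) M) := x0Datum A hA M hqM
  have hS' : OneSide DB (redZero A hA M hqM) (redInf A hA M hqM)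
      (frobC (K := ResidueField A) q M) q := oneSide_beta hA hqM
  have hNE' : NormCompat T (FlatModel.BetaBase M q) := normCompat_beta hA hqM T rfl
  obtain ⟨R⟩ := exists_flatRep_wild (oneSide_alpha hA hqM) hS'
    (exists_frobC_eq_pow q M) (exists_frobC_eq_pow q M)
    (normCompat_alpha hA hqM T rfl) hNE'
    (AT := { mover := subMover X hx hG₁ P hσI hσ hmove
             comm := fun f => (upMap_galAct h σ f).symm
             unif := Subtype.ext rfl
             unif_dvd := hdvd _ _ rfl rfl :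
      AuxTwist T (subAuxLevel X hx hG₁ P h hcop) (subAuxLevel X hx hG₁ P' h hcop) })
    (Nat.cast_ne_zero.2 (Fact.out : q.Prime).ne_zero) hnone he he1 he0
    (exists_rat_pair hA hqM P') (eigenData hA hqM P' P hS hkill hne)
    (fun l f => by
      haveI : NeZero (l.1 : ℕ) := ⟨l.1.2.ne_zero⟩
      rw [heckeFam_T, heckeFam_T]
      exact heckeFun_galois σ f)
    (fun l f hf => by
      haveI : NeZero (l.1 : ℕ) := ⟨l.1.2.ne_zero⟩
      rw [heckeFam_T]
      exact close_heckeFun hA hqM l.1.2 (awayFrom_not_dvd hqM hS l).1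
        (awayFrom_not_dvd hqM hS l).2 hf)
    (fun l f hf => by
      haveI : NeZero (l.1 : ℕ) := ⟨l.1.2.ne_zero⟩
      rw [heckeFam_T]
      exact close_heckeFun' hA hqM l.1.2 (awayFrom_not_dvd hqM hS l).1
        (awayFrom_not_dvd hqM hS l).2 hf)
    K K₀ hG₀ hdivG.symm
  exact exists_flat_of_flatRep hA hqM Y R

end FLTAgent.MazurP
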