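import Fermat.Agent.MazurP.RatSub
import Fermat.Agent.MazurP.Core

/-!
# The tame and the wild field of a peu ramifié shape
-/

set_option autoImplicit false
set_option linter.style.haveILetI false

noncomputable section

namespace FLTAgent.MazurP

local notation "Qbar" => AlgebraicClosure ℚ
local notation "Γℚ" => AlgebraicClosure ℚ ≃ₐ[ℚ] AlgebraicClosure ℚ

variable {p : ℕ} [Fact p.Prime] {A : ValuationSubring (AlgebraicClosure ℚ)}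
  {ρ : (AlgebraicClosure ℚ ≃ₐ[ℚ] AlgebraicClosure ℚ) →* Matrix (Fin 2) (Fin 2) (ZMod p)}

/-- The field of `ζ` over the unramified field. -/
theorem exists_tameGround (hA : A.LiesOverPrime p) (K : KummerShape A ρ) :
    ∃ P : Ground A, P.H = stabPair A (K.ε 1) (K.ε 1) ∧ P.ϖ = K.ε 1 - 1 ∧
      ∀ τ : Qbar, (∀ σ ∈ P.H, σ τ = τ) → ∀ β : ℕ, 0 < β → β < p →
        A.valuation τ ^ p * A.valuation (p : Qbar) ^ β ≠ 1 := by
  have hcyc : ∀ σ ∈ A.inertiaSubgroupIn ℚ, ∃ a : ZMod p, ∀ j, σ (K.ε j) = K.ε (a * j) :=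
    fun σ hσ => ⟨K.a σ, K.cyc σ hσ⟩
  have hlt := v_lam_lt_one (A := A) hA K.ε_ne
  refine ⟨{ H := stabPair A (K.ε 1) (K.ε 1), le := fun σ h => h.1, ϖ := K.ε 1 - 1,
            ϖ_fix := fun σ h => by rw [map_sub, map_one σ, h.2.1],
            ϖ_ne := sub_ne_zero.2 K.ε_ne, ϖ_nonunit := A.mem_nonunits_iff.2 hlt,
            gap := fun a ha hn => ?_ }, rfl, rfl,
    fun τ hτ β h1 h2 => tame_none hA K.ε_ne hcyc (mem_pairField.2 hτ) h1 h2⟩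
  rcases eq_or_ne a 0 with rfl | ha0
  · rw [zero_div]; exact zero_mem _
  obtain ⟨m, hm⟩ := tame_zpow hA K.ε_ne hcyc (mem_pairField.2 ha) ha0
  have h1 : A.valuation a < 1 := A.mem_nonunits_iff.1 hn
  have hpos := v_lam_pos (A := A) K.ε_ne
  have hm1 : 1 ≤ m := by
    by_contra h
    rw [hm] at h1
    exact (one_le_zpow_of_nonpos₀ hpos hlt.le (n := m) (by omega)).not_gt h1
  rw [← A.valuation_le_one_iff, map_div₀, div_le_one₀ hpos, hm]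
  exact (zpow_right_anti₀ hpos hlt.le hm1).trans (le_of_eq (zpow_one _))

/-- The field of `ζ` and the unit, with the motion of an element moving the unit. -/
theorem exists_wildGround (hA : A.LiesOverPrime p) (hp2 : p ≠ 2) (K : KummerShape A ρ) {σ₁ : Γℚ}
    (h₁ : σ₁ ∈ stabPair A (K.ε 1) (K.ε 1)) (hne : σ₁ K.t ≠ K.t) :
    ∃ P : Ground A, P.H = stabPair A (K.ε 1) K.t ∧ (K.ε 1 - 1) / P.ϖ ^ 2 ∈ A ∧
      (∀ τ ∈ P.H, σ₁⁻¹ * τ * σ₁ ∈ P.H) ∧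
      (∀ a : A, (a : Qbar) ∈ P.field → ∃ b : A, σ₁ (a : Qbar) = (a : Qbar) + P.ϖ * P.ϖ * b) ∧
      ∀ τ : Qbar, τ ∈ P.field → ∀ β : ℕ, 0 < β → β < p →
        A.valuation τ ^ p * A.valuation (p : Qbar) ^ β = 1 →
          ∃ a : A, A.valuation (a : Qbar) = 1 ∧ σ₁ τ = τ * (1 + P.ϖ * a) := by
  obtain ⟨ϖ, hϖK, hϖ0, hϖn, hgap, hsq, -, hcong, hmove⟩ := exists_unif hA K.ε_ne hp2 K.t_unit
    (fun σ hσ => ⟨K.a σ, K.c σ, K.cyc σ hσ, K.kum σ hσ⟩) h₁.1 h₁.2.1 hne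
  refine ⟨{ H := stabPair A (K.ε 1) K.t, le := fun σ h => h.1, ϖ := ϖ,
            ϖ_fix := mem_pairField.1 hϖK, ϖ_ne := hϖ0, ϖ_nonunit := hϖn,
            gap := fun a ha hn => hgap a (mem_pairField.2 ha) hn }, rfl, hsq, ?_, ?_,
    fun τ hτ => hmove τ (mem_pairField.2 hτ)⟩
  · rintro τ ⟨hI, hζ, ht⟩
    have hi : σ₁⁻¹ (K.ε 1) = K.ε 1 := σ₁.injective (by
      rw [← AlgEquiv.mul_apply, mul_inv_cancel, AlgEquiv.one_apply, h₁.2.1])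
    refine ⟨mul_mem (mul_mem (inv_mem h₁.1) hI) h₁.1, ?_, ?_⟩
    · rw [AlgEquiv.mul_apply, AlgEquiv.mul_apply, h₁.2.1, hζ, hi]
    · refine σ₁.injective ?_
      rw [← AlgEquiv.mul_apply, ← mul_assoc, ← mul_assoc, mul_inv_cancel, one_mul,
        AlgEquiv.mul_apply, K.kum σ₁ h₁.1, map_mul, K.apply_eps hζ, ht]
  · intro a ha
    refine ⟨⟨_, hcong _ (mem_pairField.2 ha) a.2⟩, ?_⟩
    show σ₁ (a : Qbar) = (a : Qbar) + ϖ * ϖ * ((σ₁ (a : Qbar) - a) / ϖ ^ 2)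
    rw [← pow_two, mul_div_cancel₀ _ (pow_ne_zero _ hϖ0), add_sub_cancel]

end FLTAgent.MazurP
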