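import Fermat.Agent.MazurP.KillFinite
import Fermat.Agent.LevelLower.Kill
import Fermat.Agent.LevelLower.Endgame.EigenTorsion
import Fermat.Agent.GoodRed.HeckeKernelAll
import Fermat.Agent.GoodRed.LiftTools
import Fermat.Agent.FlatModel.X0Curve
import Fermat.Agent.CommAlg.FrobeniusExists
import Fermat.Agent.Hecke.Inputs
import Fermat.Agent.GalRep.OpenStab
import Fermat.Agent.JTors.Divisible

/-!
# Eigenclasses of orders divisible by the residue characteristic

Reduction is not injective on `p`-torsion in characteristic `p`.  If no eigen torsion class exists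
at level `M`, some combination of the Hecke operators kills the `p`-power torsion and fixes a
given eigenclass `y` of the reduction; then `y` is divisible by every power of `p` among the
classes fixed by a power of Frobenius, which are finite, so `y = 0`.
-/

set_option autoImplicit false
set_option linter.style.haveILetI false
set_option linter.unusedSectionVars false
set_option synthInstance.maxHeartbeats 100000

noncomputable section

open ModularCurve AlgebraicCurve IsLocalRing

namespace FLTAgent.MazurP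

open FLTAgent.GoodRed FLTAgent.GoodRed.RedDatum FLTAgent.FunctionField FLTAgent.LevelLower
  FLTAgent.Semistable

local notation "Qbar" => AlgebraicClosure ℚ
local notation "Γℚ" => AlgebraicClosure ℚ ≃ₐ[ℚ] AlgebraicClosure ℚ

local instance (priority := high) instAlgebraFullCKillChar {K : Type*} [Field K] (N : ℕ) :
    Algebra K (modularFunctionFieldFullC K N) :=
  SubalgebraClass.toAlgebra (modularFunctionFieldFullC K N)

local instance (priority := high) instAlgebraLevelKillChar (N : ℕ) :
    Algebra Qbar (Hecke.MF Qbar N) :=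
  SubalgebraClass.toAlgebra (Hecke.MF Qbar N)

/-- The place of the series is fixed by automorphisms acting on coefficients. -/
theorem fullAut_smul_infPlace {k : Type} [Field k] [IsAlgClosed k] {M : ℕ}
    [IsFunctionField k (modularFunctionFieldFullC k M)] (s : k ≃+* k)
    {v : Place k (modularFunctionFieldFullC k M)} (hv : FlatModel.IsInfPlace v) :
    fullAut s M • v = v := by
  refine Eq.symm (place_eq_of_le fun f hf => ?_)
  rcases eq_or_ne f 0 with rfl | hf0
  · exact zero_mem _
  rw [mem_iff_ord_nonneg hf0] at hf ⊢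
  obtain ⟨y, rfl⟩ : ∃ y, fullAut s M • y = f := ⟨(fullAut s M)⁻¹ • f, smul_inv_smul _ _⟩
  have hy : y ≠ 0 := fun h => hf0 (by rw [h, smul_zero])
  rw [SemilinearAut.ord_smul, hv y hy]
  rw [hv _ hf0] at hf
  refine hf.trans (le_of_eq ?_)
  have hne : (y : LaurentSeries k) ≠ 0 := fun h => hy (Subtype.ext h)
  have hne' : ((fullAut s M • y : modularFunctionFieldFullC k M) : LaurentSeries k) ≠ 0 :=
    fun h => hf0 (Subtype.ext h)
  refine le_antisymm (HahnSeries.order_le_of_coeff_ne_zero ?_)
    (HahnSeries.order_le_of_coeff_ne_zero ?_)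
  · show s ((y : LaurentSeries k).coeff _) ≠ 0
    exact (map_ne_zero s).2 (HahnSeries.coeff_order_eq_zero.not.2 hne)
  · intro h
    have h1 := HahnSeries.coeff_order_eq_zero.not.2 hne'
    exact h1 (show s ((y : LaurentSeries k).coeff _) = 0 by rw [h, map_zero])

/-- Some positive power of an automorphism fixes a given finite extension. -/
theorem exists_pow_fix (σ : Γℚ) (L : IntermediateField ℚ Qbar) [FiniteDimensional ℚ L] :
    ∃ f, 0 < f ∧ ∀ a ∈ L, (σ ^ f) a = a := by
  obtain ⟨i, j, hne, hij⟩ := Finite.exists_ne_map_eq_of_infinite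
    (fun i : ℕ => ((σ ^ i : Γℚ) : Qbar →ₐ[ℚ] Qbar).comp L.val)
  wlog hlt : i < j generalizing i j
  · exact this j i hne.symm hij.symm (by omega)
  refine ⟨j - i, by omega, fun a ha => ?_⟩
  have h : (σ ^ i) a = (σ ^ j) a := AlgHom.congr_fun hij ⟨a, ha⟩
  rw [← Nat.add_sub_cancel' hlt.le, pow_add, AlgEquiv.mul_apply] at h
  exact ((σ ^ i).injective h).symm

variable {A : ValuationSubring (AlgebraicClosure ℚ)} {p : ℕ} [Fact p.Prime]
  (hA : A.LiesOverPrime p) [CharP (ResidueField A) p] [IsAlgClosed (ResidueField A)]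
  {M : ℕ} [NeZero M] (hpM : ¬ p ∣ M)

include hA in
theorem baseAut_frobAut_pow (n : ℕ) (a : ResidueField A) :
    SemilinearAut.baseAut (frobAut hA M ^ n) a = a ^ p ^ n := by
  induction n generalizing a with
  | zero => rw [pow_zero, SemilinearAut.baseAut_one, pow_zero, pow_one]; rfl
  | succ n ih =>
    rw [pow_succ, SemilinearAut.baseAut_mul]
    show SemilinearAut.baseAut (frobAut hA M ^ n) (SemilinearAut.baseAut (frobAut hA M) a) = _
    rw [ih]
    show (frobRes hA a) ^ p ^ n = _
    rw [frobRes_apply, ← pow_mul, ← pow_succ']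

include hA hpM in
/-- The classes fixed by a power of Frobenius are finite. -/
theorem finite_fixed_frobAut_pow {f : ℕ} (hf : 0 < f) :
    {z : JZeroC (ResidueField A) M | frobAut hA M ^ f • z = z}.Finite := by
  haveI := isFunctionField_fullC A hA M hpM
  let j : modularFunctionFieldFullC (ResidueField A) M :=
    ⟨jqModC (ResidueField A), by
      simpa [qExpand_one_apply] using jqModCd_mem_full (ResidueField A) M (one_dvd M)⟩
  have hj : (jqModC (ResidueField A)).order = -1 := FlatModel.jqModC_order _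
  obtain ⟨O, hO⟩ := FlatModel.exists_isInfPlace (f := j⁻¹) (by
    show ((jqModC (ResidueField A))⁻¹).order = 1
    exact FlatModel.order_inv_of_order_eq hj)
  have hjtr : Transcendental (ResidueField A) j := by
    rw [← transcendental_algebraMap_iff (A := LaurentSeries (ResidueField A))
      Subtype.val_injective]
    exact GoodRed.transcendental_jqModC (ResidueField A)
  have hfix : frobAut hA M • j = j := Subtype.ext (coeffMap_jqModC _)
  have hfixO : frobAut hA M • O = O := fullAut_smul_infPlace _ hO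
  refine finite_fixed_classes (frobAut hA M ^ f) (O := O) (smul_pow_eq hfixO f) hjtr
    (smul_pow_eq hfix f) fun N hN => ?_
  have h1 : 1 < p ^ (f * N) :=
    Nat.one_lt_pow (Nat.mul_pos hf hN).ne' (Fact.out : p.Prime).one_lt
  classical
  refine ((Polynomial.X ^ p ^ (f * N) - Polynomial.X :
    Polynomial (ResidueField A)).roots.toFinset.finite_toSet).subset fun a ha => ?_
  have ha' : SemilinearAut.baseAut ((frobAut hA M ^ f) ^ N) a = a := ha
  rw [← pow_mul, baseAut_frobAut_pow hA] at ha'
  rw [Finset.mem_coe, Multiset.mem_toFinset, Polynomial.mem_roots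
    (FiniteField.X_pow_card_sub_X_ne_zero _ h1)]
  simp [ha']

set_option maxHeartbeats 800000 in
include hA hpM in
/-- Reduction of the Hecke correspondence depends only on the reduction of the divisor. -/
theorem mapDomain_heckeDiv_congr
    [IsFunctionField (ResidueField A) (modularFunctionFieldFullC (ResidueField A) M)]
    (R : PlaceRed (x0Datum A hA M hpM)) (l : ℕ) [NeZero l]
    [HasPrincipalDivisors Qbar (Hecke.MF Qbar (M * l))] (hl : l.Prime)
    {E E' : Divisor Qbar (modularFunctionFieldBar M)}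
    (h : Finsupp.mapDomain R.r E = Finsupp.mapDomain R.r E') :
    Finsupp.mapDomain R.r (heckeDiv M l E) = Finsupp.mapDomain R.r (heckeDiv M l E') := by
  by_cases hlp : l = p
  · subst hlp
    exact (mapDomain_heckeDivBar_char hA hpM _ _ R E).trans
      ((congrArg (fun Z => frobAut hA M • Z + l • ((frobAut hA M)⁻¹ • Z)) h).trans
        (mapDomain_heckeDivBar_char hA hpM _ _ R E').symm)
  · have hpMl : ¬ p ∣ M * l := fun hd => ((Fact.out : p.Prime).dvd_mul.1 hd).elim hpM fun h' =>
      hlp ((Nat.prime_dvd_prime_iff_eq Fact.out hl).1 h').symm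
    haveI := isFunctionField_fullC A hA (M * l) hpMl
    exact (mapDomain_heckeDivBar A hA hl hpM hpMl _ _ R E).trans
      ((congrArg (fun Z => Divisor.pushforwardAlong
        (degBarK (ResidueField A) 1 (mul_dvd_mul_left M (one_dvd l)))
        (GoodRed.isIntegral_of_isFunctionField _)
        (Divisor.pullbackAlong (degBarK (ResidueField A) l (dvd_refl (M * l)))
          (GoodRed.isIntegral_of_isFunctionField _) Z)) h).trans
        (mapDomain_heckeDivBar A hA hl hpM hpMl _ _ R E').symm)

set_option maxHeartbeats 800000 in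
include hA hpM in
theorem reductionModL_pow_smul {σ : Γℚ} (hσ : A.IsFrobeniusAt σ p) (n : ℕ) (w : JZero M) :
    reductionModL A M (σ ^ n • w) = frobAut hA M ^ n • reductionModL A M w := by
  induction n generalizing w with
  | zero =>
    have e1 : σ ^ 0 • w = w := (congrArg (· • w) (pow_zero σ)).trans (one_smul Γℚ w)
    rw [e1, pow_zero]
    exact (one_smul _ _).symm
  | succ n ih =>
    have e1 : σ ^ (n + 1) • w = σ ^ n • (σ • w) :=
      (congrArg (· • w) (pow_succ σ n)).trans (mul_smul (σ ^ n) σ w)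
    rw [e1, ih, reductionModL_frobenius_smul hA hpM hσ, pow_succ]
    exact (mul_smul _ _ _).symm

/-- An endomorphism realising a Hecke element on the `p`-power torsion. -/
structure IsTorsOp (t : GalRep.awayHecke M) (φ : JZero M →+ JZero M) : Prop where
  galois : ∀ (σ : Γℚ) (z : JZero M), φ (σ • z) = σ • φ z
  kernel : ∀ z, reductionModL A M z = 0 → reductionModL A M (φ z) = 0
  torsion : ∀ n h, φ ((JTors.torsionModel M p).proj n h) =
    (JTors.torsionModel M p).proj n ((JTors.torsionModel M p).act t h)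

include hA hpM in
theorem exists_isTorsOp {Λ : Type*} (ℓ : Λ → Nat.Primes) (hℓ : ∀ i, ¬ (ℓ i : ℕ) ∣ M)
    {t : GalRep.awayHecke M}
    (ht : t ∈ Algebra.adjoin ℤ (Set.range fun i => GalRep.awayT M (ℓ i).2 (hℓ i))) :
    ∃ φ, IsTorsOp (A := A) (p := p) t φ := by
  induction ht using Algebra.adjoin_induction with
  | mem t ht =>
    obtain ⟨i, rfl⟩ := ht
    exact ⟨heckeOperatorBar M (ℓ i),
      fun σ z => GalRep.smul_hecke_of_smulCommClass M (Hecke.heckeOperatorsCommuteBar M)
        (Hecke.smulCommClass_heckeModuleBar M) (ℓ i) σ z,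
      fun z hz => reductionModL_heckeOperatorBar_eq_zero hA hpM (ℓ i) hz,
      fun n h => ((JTors.torsionModel M p).proj_act n _ (ℓ i).2 (hℓ i) h).symm⟩
  | algebraMap m =>
    refine ⟨(m • AddMonoidHom.id (JZero M) : JZero M →+ JZero M), fun σ z => ?_, fun z hz => ?_, fun n h => ?_⟩
    · exact (map_zsmul (DistribSMul.toAddMonoidHom (JZero M) σ) m z).symm
    · show reductionModL A M (m • z) = 0
      rw [map_zsmul, hz]
      exact zsmul_zero m
    · show m • (JTors.torsionModel M p).proj n h = _
      rw [algebraMap_int_eq, eq_intCast, map_intCast, Module.End.intCast_apply, map_zsmul]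
  | add s t _ _ hs ht =>
    obtain ⟨φ, hφ⟩ := hs
    obtain ⟨ψ, hψ⟩ := ht
    exact ⟨φ + ψ,
      fun σ z => by
        rw [AddMonoidHom.add_apply, AddMonoidHom.add_apply, hφ.galois, hψ.galois, smul_add],
      fun z hz => by rw [AddMonoidHom.add_apply, map_add, hφ.kernel z hz, hψ.kernel z hz, add_zero],
      fun n h => by
        rw [AddMonoidHom.add_apply, hφ.torsion, hψ.torsion, map_add, LinearMap.add_apply, map_add]⟩
  | mul s t _ _ hs ht =>
    obtain ⟨φ, hφ⟩ := hs
    obtain ⟨ψ, hψ⟩ := ht
    exact ⟨φ.comp ψ,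
      fun σ z => by
        rw [AddMonoidHom.comp_apply, AddMonoidHom.comp_apply, hψ.galois, hφ.galois],
      fun z hz => by rw [AddMonoidHom.comp_apply]; exact hφ.kernel _ (hψ.kernel z hz),
      fun n h => by
        rw [AddMonoidHom.comp_apply, hψ.torsion, hφ.torsion, map_mul, Module.End.mul_apply]⟩

/-- An element of order `p` of a finite subgroup divisible in it by all powers of `p` is zero. -/
theorem eq_zero_of_divisible {Z : Type*} [AddCommGroup Z] (G : AddSubgroup Z) [Finite G] {q : ℕ}
    (hq : q.Prime) {y : Z} (hy : q • y = 0) (h : ∀ n : ℕ, ∃ g ∈ G, q ^ n • g = y) : y = 0 := by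
  obtain ⟨g, hgG, hg⟩ := h (Nat.card G)
  set g' : G := ⟨g, hgG⟩
  have h1 : addOrderOf g' ∣ q ^ (Nat.card G + 1) :=
    addOrderOf_dvd_iff_nsmul_eq_zero.2 (Subtype.ext (by
      show q ^ (Nat.card G + 1) • g = 0
      rw [pow_succ', mul_nsmul', hg]
      exact hy))
  obtain ⟨k, -, hord⟩ := (Nat.dvd_prime_pow hq).1 h1
  have h2 : q ^ k ≤ Nat.card G := by
    rw [← hord]
    exact Nat.le_of_dvd Nat.card_pos (addOrderOf_dvd_natCard g')
  have hk : k ≤ Nat.card G := le_trans (Nat.lt_pow_self hq.one_lt).le h2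
  have h3 : q ^ Nat.card G • g' = 0 :=
    addOrderOf_dvd_iff_nsmul_eq_zero.1 (hord ▸ pow_dvd_pow q hk)
  rw [← hg]
  exact congrArg Subtype.val h3

include hA hpM in
/-- A class killed by `p` lifted by an equivariant endomorphism killing torsion is zero. -/
theorem reductionModL_eq_zero_of_killing (z : JZero M →+ JZero M)
    (hgal : ∀ (σ : Γℚ) (w : JZero M), z (σ • w) = σ • z w)
    (htors : ∀ (n : ℕ) (w : JZero M), p ^ n • w = 0 → z w = 0) (x : JZero M)
    (hx : p • reductionModL A M (z x) = 0) : reductionModL A M (z x) = 0 := by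
  have hp : p.Prime := Fact.out
  obtain ⟨σ, hσ⟩ := CommAlg.exists_isFrobeniusAt hp hA
  obtain ⟨L, hLfin, hLfix⟩ := GalRep.isFiniteLevel_jZero M x
  obtain ⟨f, hf, hσf⟩ := exists_pow_fix σ L
  have hxfix : σ ^ f • x = x := hLfix _ hσf
  let T := DistribSMul.toAddMonoidHom (JZeroC (ResidueField A) M) (frobAut hA M ^ f)
  let G : AddSubgroup (JZeroC (ResidueField A) M) := (T - AddMonoidHom.id _).ker
  have hG : ∀ w, w ∈ G ↔ frobAut hA M ^ f • w = w := fun w => by
    rw [AddMonoidHom.mem_ker, AddMonoidHom.sub_apply, sub_eq_zero]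
    rfl
  haveI : Finite G :=
    (((finite_fixed_frobAut_pow hA hpM hf)).subset fun w hw => (hG w).1 hw).to_subtype
  refine eq_zero_of_divisible G hp hx fun n => ?_
  obtain ⟨w, hw⟩ : ∃ w : JZero M, p ^ n • w = x := by
    suffices ∀ m : ℕ, ∀ x' : JZero M, ∃ w : JZero M, p ^ m • w = x' from this n x
    intro m
    induction m with
    | zero => exact fun x' => ⟨x', by rw [pow_zero, one_nsmul]⟩
    | succ m ih =>
      intro x'
      obtain ⟨w, hw⟩ := ih x'
      obtain ⟨w', hw'⟩ := JTors.exists_nsmul_eq_jZero_of_prime M hp w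
      exact ⟨w', by rw [pow_succ, mul_nsmul', hw', hw]⟩
  have h1 : z (σ ^ f • w) = z w := by
    have e : p ^ n • (σ ^ f • w - w) = 0 := by
      rw [nsmul_sub, ← GalRep.smul_nsmul_jZero, hw, hxfix, sub_self]
    have := htors n _ e
    rwa [map_sub, sub_eq_zero] at this
  refine ⟨reductionModL A M (z w), (hG _).2 ?_, ?_⟩
  · exact (reductionModL_pow_smul hA hpM hσ f (z w)).symm.trans
      (congrArg (reductionModL A M) ((hgal _ w).symm.trans h1))
  · rw [← hw, map_nsmul, map_nsmul]

set_option maxHeartbeats 1600000 in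
include hA hpM in
/-- A function on the component with orders divisible by `p`, eigen for the reduced operators,
is a constant times a power, if there is no eigen torsion class at level `M`: the case where `p`
is the residue characteristic. -/
theorem powConst_of_eigen {Λ : Type*} (ℓ : Λ → Nat.Primes) (hℓ : ∀ i, ¬ (ℓ i : ℕ) ∣ M)
    (c : Λ → ℕ)
    (habs : ∀ x : JZero M, p • x = 0 →
      (∀ i, heckeOperatorBar M (ℓ i) x = c i • x) → x = 0)
    {a : modularFunctionFieldFullC (ResidueField A) M} (ha : a ≠ 0)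
    (hdvd : ∀ v : Place (ResidueField A) (modularFunctionFieldFullC (ResidueField A) M),
      (p : ℤ) ∣ v.ord a)
    (heig : ∀ i, PowConst (ResidueField A) p
      ((haveI : NeZero (ℓ i : ℕ) := ⟨(ℓ i).2.ne_zero⟩
        heckeC A hA M hpM (ℓ i) (ℓ i).2 (hℓ i) a) / a ^ c i)) :
    PowConst (ResidueField A) p a := by
  classical
  haveI := isFunctionField_fullC A hA M hpM
  have hp : p.Prime := Fact.out
  haveI : NeZero p := ⟨hp.ne_zero⟩
  have h := reductionInputsModL_x0 hA hpM
  obtain ⟨R, hR⟩ := exists_placeRed_of_isPlaceReductionModL hA hpM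
    (isPlaceReductionModL_placeReductionModL h)
  set Y : Divisor (ResidueField A) (modularFunctionFieldFullC (ResidueField A) M) :=
    floorDiv p a with hYdef
  have hY : p • Y = divisorOf a := Finsupp.ext fun v => by
    rw [Finsupp.smul_apply, hYdef, floorDiv_apply, divisorOf_apply, nsmul_eq_mul]
    exact Int.mul_ediv_cancel' (hdvd v)
  have hYdeg : Divisor.degree Y = 0 := by
    have := congrArg Divisor.degree hY
    rw [map_nsmul, degree_divisorOf, nsmul_eq_mul] at this
    exact (mul_eq_zero.1 this).resolve_left (by exact_mod_cast hp.ne_zero)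
  set y : Divisor.degZero (K := ResidueField A)
      (F := modularFunctionFieldFullC (ResidueField A) M) := ⟨Y, Divisor.mem_degZero.2 hYdeg⟩
  have hyp : p • Pic0.mk y = 0 := by
    refine (QuotientAddGroup.mk_nsmul _ y p).symm.trans ((QuotientAddGroup.eq_zero_iff _).2 ?_)
    exact ⟨a, ha, fun v => by
      show ((p • y : Divisor.degZero (K := ResidueField A)
        (F := modularFunctionFieldFullC (ResidueField A) M)) : Divisor (ResidueField A)
        (modularFunctionFieldFullC (ResidueField A) M)) v = _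
      rw [coe_degZero_nsmul]
      exact (congrArg (fun E : Divisor (ResidueField A) _ => E v) hY).trans (divisorOf_apply a v)⟩
  -- a lift of the class
  obtain ⟨_, _, hL, hk⟩ := exists_rrLarge_x0 A hA M hpM
  choose sec hsec using exists_r_eq R hL hk
  set X₀ := Finsupp.mapDomain sec Y with hX₀def
  have hX₀ : Finsupp.mapDomain R.r X₀ = Y := by
    rw [hX₀def, ← Finsupp.mapDomain_comp, show R.r ∘ sec = id from funext hsec,
      Finsupp.mapDomain_id]
  have hX₀deg : Divisor.degree X₀ = 0 := by
    rw [← GoodRed.degree_mapDomain R.r, hX₀, hYdeg]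
  set X : Divisor.degZero (K := Qbar) (F := modularFunctionFieldBar M) :=
    ⟨X₀, Divisor.mem_degZero.2 hX₀deg⟩ with hXdef
  set x : JZero M := Pic0.mk X with hx
  have hredx : reductionModL A M x = Pic0.mk y := by
    rw [hx, reductionModL_mk h]
    refine congrArg Pic0.mk (Subtype.ext ?_)
    show Finsupp.mapDomain (placeReductionModL h) X₀ = Y
    rw [← hR, hX₀]
  have hTx : ∀ i, reductionModL A M (heckeOperatorBar M (ℓ i) x) = c i • Pic0.mk y := by
    intro i
    haveI : NeZero (ℓ i : ℕ) := ⟨(ℓ i).2.ne_zero⟩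
    haveI := Hecke.hasPrincipalDivisors_level Qbar (M * (ℓ i : ℕ))
    have hα := Hecke.alphaBarIntegral_of_facts (Hecke.levelFacts Qbar) M (ℓ i : ℕ)
    have hβ := Hecke.betaBarIntegral_of_facts (Hecke.levelFacts Qbar) M (ℓ i : ℕ)
    have hdmem := Hecke.heckeDivBar_mem_degZero (Hecke.levelFacts Qbar) M (ℓ i : ℕ) hα hβ X
    rw [hx, show heckeOperatorBar M (ℓ i) (Pic0.mk X) = Pic0.mk ⟨_, hdmem⟩ from
      Hecke.heckeOperatorAlong_mk (Hecke.levelFacts Qbar) M (ℓ i : ℕ) X hα hβ hdmem,
      reductionModL_mk h]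
    obtain ⟨u, w₀, hu, hw₀, he⟩ := heig i
    have hTa : heckeC A hA M hpM (ℓ i) (ℓ i).2 (hℓ i) a =
        algebraMap _ _ u * w₀ ^ p * a ^ c i := by
      rw [← he, div_mul_cancel₀ _ (pow_ne_zero _ ha)]
    obtain ⟨f, hf⟩ := (x0Datum A hA M hpM).exists_lift a
    have hTr := x0_red_heckeFun A hA M hpM (ℓ i) (ℓ i).2 (hℓ i) hf ha
    have h1 := R.map_divisorOf _ _ hTr ((map_ne_zero _).2 ha)
    rw [divisorOf_heckeFun (N := M) (l := (ℓ i : ℕ)) _ (hf.ne_zero ha)] at h1
    have hcongr : Finsupp.mapDomain R.r (p • X₀) =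
        Finsupp.mapDomain R.r (divisorOf (K := Qbar) f) := by
      rw [Finsupp.mapDomain_smul, hX₀, hY, R.map_divisorOf _ _ hf ha]
    rw [← mapDomain_heckeDiv_congr hA hpM R (ℓ i : ℕ) (ℓ i).2 hcongr, map_nsmul,
      Finsupp.mapDomain_smul, hTa, Algebra.algebraMap_eq_smul_one, smul_mul_assoc, one_mul,
      smul_mul_assoc, divisorOf_smul hu (mul_ne_zero (pow_ne_zero _ hw₀) (pow_ne_zero _ ha)),
      divisorOf_mul (pow_ne_zero _ hw₀) (pow_ne_zero _ ha), divisorOf_pow, divisorOf_pow, ← hY,
      ← mul_nsmul', mul_comm (c i) p, mul_nsmul', ← nsmul_add] at h1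
    have h2 : Finsupp.mapDomain R.r (heckeDiv M (ℓ i) X₀) = divisorOf w₀ + c i • Y :=
      nsmul_cancel hp.pos h1
    rw [show c i • Pic0.mk y = Pic0.mk (c i • y) from (QuotientAddGroup.mk_nsmul _ y _).symm]
    refine QuotientAddGroup.eq_iff_sub_mem.2 ⟨w₀, hw₀, fun v => ?_⟩
    show (Finsupp.mapDomain (placeReductionModL h) (heckeDiv M (ℓ i) X₀) -
      ((c i • y : Divisor.degZero (K := ResidueField A)
        (F := modularFunctionFieldFullC (ResidueField A) M)) : Divisor (ResidueField A)
        (modularFunctionFieldFullC (ResidueField A) M))) v = v.ord w₀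
    rw [← hR, h2, coe_degZero_nsmul, add_sub_cancel_right, divisorOf_apply]
  -- the ideal of operators vanishing on the class
  let M' := JTors.torsionModel M p
  haveI := IntegralStructure.moduleFinite_heckeAlgebra (N := M) 2 (GalRep.levelPrimes M)
  set S := Algebra.adjoin ℤ (Set.range fun i => GalRep.awayT M (ℓ i).2 (hℓ i)) with hS
  haveI : IsNoetherian ℤ (GalRep.awayHecke M) := isNoetherian_of_isNoetherianRing_of_finite ℤ _
  haveI : Module.Finite ℤ S := Module.Finite.iff_fg.2 (IsNoetherian.noetherian (Subalgebra.toSubmodule S))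
  have hcast : ∀ m : ℕ, (((m : S) : S) : GalRep.awayHecke M) = m := fun m => map_natCast S.val m
  let gen : Λ → S := fun i => ⟨GalRep.awayT M (ℓ i).2 (hℓ i), Algebra.subset_adjoin ⟨i, rfl⟩⟩
  let J : Ideal S :=
    { carrier := {t | ∃ φ, IsTorsOp (A := A) (p := p) (t : GalRep.awayHecke M) φ ∧
        ∀ z, reductionModL A M z = Pic0.mk y → reductionModL A M (φ z) = 0}
      add_mem' := by
        rintro s t ⟨φ, hφ, hφy⟩ ⟨ψ, hψ, hψy⟩
        refine ⟨φ + ψ, ⟨fun σ z => ?_, fun z hz => ?_, fun n g => ?_⟩, fun z hz => ?_⟩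
        · rw [AddMonoidHom.add_apply, AddMonoidHom.add_apply, hφ.galois, hψ.galois, smul_add]
        · rw [AddMonoidHom.add_apply, map_add, hφ.kernel z hz, hψ.kernel z hz, add_zero]
        · rw [AddMonoidHom.add_apply, hφ.torsion, hψ.torsion, Subalgebra.coe_add, map_add,
            LinearMap.add_apply, map_add]
        · rw [AddMonoidHom.add_apply, map_add, hφy z hz, hψy z hz, add_zero]
      zero_mem' := ⟨0, ⟨fun σ z => (smul_zero (A := JZero M) σ).symm, fun z _ => map_zero _,
        fun n g => by simp⟩, fun z _ => map_zero _⟩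
      smul_mem' := by
        rintro s t ⟨φ, hφ, hφy⟩
        obtain ⟨ψ, hψ⟩ := exists_isTorsOp (p := p) hA hpM ℓ hℓ s.2
        refine ⟨ψ.comp φ, ⟨fun σ z => ?_, fun z hz => ?_, fun n g => ?_⟩, fun z hz => ?_⟩
        · rw [AddMonoidHom.comp_apply, AddMonoidHom.comp_apply, hφ.galois, hψ.galois]
        · rw [AddMonoidHom.comp_apply]; exact hψ.kernel _ (hφ.kernel z hz)
        · rw [AddMonoidHom.comp_apply, hφ.torsion, hψ.torsion, smul_eq_mul, Subalgebra.coe_mul,
            map_mul, Module.End.mul_apply]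
        · rw [AddMonoidHom.comp_apply]; exact hψ.kernel _ (hφy z hz) }
  have hgen : Ideal.span (insert (p : S) (Set.range fun i => gen i - (c i : S))) ≤ J := by
    refine Ideal.span_le.2 (Set.insert_subset ?_ (Set.range_subset_iff.2 fun i => ?_))
    · refine ⟨nsmulAddMonoidHom p, ⟨fun σ z => ?_, fun z hz => ?_, fun n g => ?_⟩, fun z hz => ?_⟩
      · exact (GalRep.smul_nsmul_jZero σ p z).symm
      · show reductionModL A M (p • z) = 0
        rw [map_nsmul, hz]
        exact nsmul_zero p
      · show p • M'.proj n g = _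
        rw [hcast, map_natCast, Module.End.natCast_apply, map_nsmul]
      · show reductionModL A M (p • z) = 0
        rw [map_nsmul, hz]
        exact hyp
    · refine ⟨heckeOperatorBar M (ℓ i) - c i • AddMonoidHom.id (JZero M),
        ⟨fun σ z => ?_, fun z hz => ?_, fun n g => ?_⟩, fun z hz => ?_⟩
      · show heckeOperatorBar M (ℓ i) (σ • z) - c i • (σ • z) =
          σ • (heckeOperatorBar M (ℓ i) z - c i • z)
        rw [GalRep.smul_hecke_of_smulCommClass M (Hecke.heckeOperatorsCommuteBar M)
          (Hecke.smulCommClass_heckeModuleBar M), smul_sub, GalRep.smul_nsmul_jZero]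
      · show reductionModL A M (heckeOperatorBar M (ℓ i) z - c i • z) = 0
        rw [map_sub, map_nsmul, hz, reductionModL_heckeOperatorBar_eq_zero hA hpM _ hz]
        simp
      · show heckeOperatorBar M (ℓ i) (M'.proj n g) - c i • M'.proj n g = _
        rw [Subalgebra.coe_sub, hcast, map_sub, map_natCast, LinearMap.sub_apply,
          Module.End.natCast_apply, map_sub, map_nsmul]
        exact congrArg (· - _) (M'.proj_act n _ (ℓ i).2 (hℓ i) g).symm
      · show reductionModL A M (heckeOperatorBar M (ℓ i) z - c i • z) = 0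
        have h0 : reductionModL A M (z - x) = 0 := by rw [map_sub, hz, hredx, sub_self]
        have e : heckeOperatorBar M (ℓ i) z =
            heckeOperatorBar M (ℓ i) (z - x) + heckeOperatorBar M (ℓ i) x := by
          rw [← map_add, sub_add_cancel]
        rw [e, map_sub, map_add, map_nsmul, hz,
          reductionModL_heckeOperatorBar_eq_zero hA hpM _ h0, hTx, zero_add, sub_self]
  by_cases htop : Ideal.span (insert (p : S) (Set.range fun i => gen i - (c i : S))) = ⊤
  swap
  · -- an eigen torsion class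
    exfalso
    obtain ⟨P₀, hP₀, hle⟩ := Ideal.exists_le_maximal _ htop
    letI : Module S M'.H := Module.compHom M'.H (M'.act.comp S.val.toRingHom)
    obtain ⟨g, hne, hg⟩ := Endgame.exists_eigen_mod_prime (H := M'.H)
      (fun t ht => Subtype.ext (M'.act_injective ((LinearMap.ext fun g => ht g).trans
        (map_zero _).symm))) hp P₀ (hle (Ideal.subset_span (Set.mem_insert _ _)))
    refine hne ?_
    have h0 : M'.proj 1 g = 0 := by
      refine habs _ ?_ fun i => ?_
      · rw [← map_nsmul]
        exact (M'.proj_eq_zero_iff 1 _).2 ⟨g, by rw [pow_one]⟩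
      · obtain ⟨g', hg'⟩ := hg _ (hle (Ideal.subset_span (Set.mem_insert_of_mem _ ⟨i, rfl⟩)))
        have h1 : M'.proj 1 (M'.act (((gen i - (c i : S) : S)) : GalRep.awayHecke M) g) = 0 :=
          (M'.proj_eq_zero_iff 1 _).2 ⟨g', by rw [pow_one]; exact hg'⟩
        rw [Subalgebra.coe_sub, hcast, map_sub, map_natCast, LinearMap.sub_apply,
          map_sub, Module.End.natCast_apply, map_nsmul, sub_eq_zero] at h1
        exact (M'.proj_act 1 _ (ℓ i).2 (hℓ i) g).symm.trans h1
    obtain ⟨g', hg'⟩ := (M'.proj_eq_zero_iff 1 _).1 h0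
    exact ⟨g', by rwa [pow_one] at hg'⟩
  -- an operator killing torsion and fixing the class
  obtain ⟨φ, hφ, hφy⟩ : (1 : S) ∈ J := hgen (htop ▸ Submodule.mem_top)
  let z : JZero M →+ JZero M := AddMonoidHom.id (JZero M) - φ
  have hztors : ∀ (n : ℕ) (w : JZero M), p ^ n • w = 0 → z w = 0 := by
    intro n w hw
    obtain ⟨g, rfl⟩ := M'.exists_proj n w hw
    show M'.proj n g - φ (M'.proj n g) = 0
    rw [hφ.torsion, Subalgebra.coe_one, map_one, Module.End.one_apply, sub_self]
  have hzy : reductionModL A M (z x) = Pic0.mk y := by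
    show reductionModL A M (x - φ x) = _
    rw [map_sub, hφy x hredx, sub_zero, hredx]
  have hgal : ∀ (σ : Γℚ) (w : JZero M), z (σ • w) = σ • z w := fun σ w =>
    (congrArg (fun v => σ • w - v) (hφ.galois σ w)).trans
      (map_sub (DistribSMul.toAddMonoidHom (JZero M) σ) w (φ w)).symm
  have hy0 : Pic0.mk y = 0 :=
    hzy.symm.trans (reductionModL_eq_zero_of_killing hA hpM z hgal hztors x
      ((congrArg (p • ·) hzy).trans hyp))
  obtain ⟨g, hg, hgv⟩ := (QuotientAddGroup.eq_zero_iff _).1 hy0
  have hY' : Y = divisorOf g :=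
    Finsupp.ext fun v => (hgv v).trans (divisorOf_apply g v).symm
  obtain ⟨r, hr0, hra⟩ := exists_smul_of_divisorOf_eq (K := ResidueField A) ha (pow_ne_zero p hg)
    (hY.symm.trans ((congrArg (p • ·) hY').trans (divisorOf_pow g p).symm))
  exact ⟨r, g, hr0, hg, hra.trans (Algebra.smul_def _ _)⟩

end FLTAgent.MazurP

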