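import Fermat.Agent.MW.Galois
import Fermat.Agent.GoodRed.RRTools
import Fermat.Agent.GoodRed.DualSpace
import Mathlib.Data.Fintype.Pigeonhole

/-!
# Divisor classes fixed by an automorphism with finitely many fixed constants are finite

A fixed class has a fixed effective representative of degree at most the genus, its places are
fixed by a power of the automorphism, and such places lie over finitely many values of a fixed
transcendental function.
-/

set_option autoImplicit false
set_option linter.unusedSectionVars false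

noncomputable section

namespace FLTAgent.MazurP

open AlgebraicCurve Module FLTAgent.FunctionField

variable {K F : Type*} [Field K] [Field F] [Algebra K F] [IsFunctionField K F] [IsAlgClosed K]

/-- A fixed class has a fixed effective representative. -/
theorem exists_fixed_effective (σ : SemilinearAut K F) {O : Place K F} (hO : σ • O = O)
    {D : Divisor K F} (hdeg : Divisor.degree D = 0)
    (hD : ∃ h : F, h ≠ 0 ∧ σ • D - D = divisorOf h) :
    ∃ (r : ℕ) (f : F), r ≤ genusFF K F ∧ f ≠ 0 ∧
      0 ≤ D + Finsupp.single O (r : ℤ) + divisorOf f ∧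
      σ • (D + Finsupp.single O (r : ℤ) + divisorOf f) =
        D + Finsupp.single O (r : ℤ) + divisorOf f := by
  classical
  have hdegO : ∀ n : ℤ, Divisor.degree (Finsupp.single O n : Divisor K F) = n := fun n => by
    rw [Divisor.degree_single, deg_eq_one, Nat.cast_one, mul_one]
  have hg : 0 < ell (D + Finsupp.single O (genusFF K F : ℤ)) := by
    have := riemann_inequality (D + Finsupp.single O (genusFF K F : ℤ))
    rw [map_add, hdeg, hdegO] at this
    omega
  have hex : ∃ r : ℕ, 0 < ell (D + Finsupp.single O (r : ℤ)) := ⟨_, hg⟩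
  have hrle : Nat.find hex ≤ genusFF K F := Nat.find_le hg
  set r := Nat.find hex
  have hr : 0 < ell (D + Finsupp.single O (r : ℤ)) := Nat.find_spec hex
  set Dr := D + Finsupp.single O (r : ℤ) with hDr
  have h1 : ell Dr ≤ 1 := by
    have h := MW.ell_pred_le (Dr - Finsupp.single O 1) O
    rw [sub_add_cancel] at h
    suffices ell (Dr - Finsupp.single O 1) ≤ 0 by omega
    rcases Nat.eq_zero_or_pos r with h0 | h0
    · refine le_of_eq (MW.ell_eq_zero_of_degree_neg ?_)
      rw [map_sub, hDr, map_add, hdeg, hdegO, hdegO, h0]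
      simp
    · have h2 := Nat.find_min hex (Nat.sub_lt h0 one_pos)
      rw [not_lt, Nat.cast_sub (by omega), Nat.cast_one, Finsupp.single_sub,
        add_sub_assoc'] at h2
      exact h2
  simp only [ell] at hr h1
  obtain ⟨⟨f, hf⟩, hne⟩ :=
    Module.finrank_pos_iff_exists_ne_zero.1 (show 0 < finrank K (riemannRochSpace Dr) by omega)
  have hf0 : f ≠ 0 := fun h => hne (Subtype.ext h)
  have h3 : finrank K (riemannRochSpace Dr) = 1 := by omega
  refine ⟨r, f, hrle, hf0, fun R => MW.effective_add_divisorOf hf hf0 R, ?_⟩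
  obtain ⟨h, hh0, hdh⟩ := hD
  have hsf0 : σ • f ≠ 0 := by rwa [smul_ne_zero_iff_ne]
  have key : σ • (Dr + divisorOf (K := K) f) = Dr + divisorOf (K := K) (h * (σ • f)) := by
    rw [hDr, smul_add, smul_add, MW.smul_divisorOf, divisorOf_mul hh0 hsf0, ← hdh,
      SemilinearAut.smul_single, hO]
    abel
  have hmem : h * (σ • f) ∈ riemannRochSpace Dr := by
    refine (MW.mem_L_iff (mul_ne_zero hh0 hsf0)).2 fun R => ?_
    have h2 : (0 : ℤ) ≤ (σ • (Dr + divisorOf (K := K) f)) R := by
      rw [SemilinearAut.divisor_smul_apply]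
      exact MW.effective_add_divisorOf hf hf0 _
    rw [key, Finsupp.add_apply, divisorOf_apply] at h2
    omega
  obtain ⟨c, hc⟩ := (finrank_eq_one_iff_of_nonzero' (⟨f, hf⟩ : riemannRochSpace Dr)
    (fun h => hf0 (congrArg Subtype.val h))).1 h3 ⟨_, hmem⟩
  have hc' : c • f = h * (σ • f) := congrArg Subtype.val hc
  have hc0 : c ≠ 0 := fun h2 => mul_ne_zero hh0 hsf0 (by rw [← hc', h2, zero_smul])
  rw [key, ← hc', MW.divisorOf_smul hc0]

/-- The places fixed by an automorphism with finitely many fixed constants are finite. -/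
theorem finite_fixed_places (τ : SemilinearAut K F) {x : F} (hx : Transcendental K x)
    (hxτ : τ • x = x) (hfin : {a : K | SemilinearAut.baseAut τ a = a}.Finite) :
    {v : Place K F | τ • v = v}.Finite := by
  refine ((divisorOf (K := K) x).support.finite_toSet.union
    (hfin.biUnion fun a _ => (divisorOf (K := K) (x - algebraMap K F a)).support.finite_toSet)).subset
    fun v hv => ?_
  rcases lt_or_ge (v.ord x) 0 with h | h
  · left
    rw [Finset.mem_coe, Finsupp.mem_support_iff, divisorOf_apply]
    omega
  right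
  obtain ⟨a, ha⟩ := GoodRed.exists_value (ordGe_of_le_ord (f := x) h)
  have hx0 : ∀ c : K, x - algebraMap K F c ≠ 0 := fun c hc =>
    hx (by rw [sub_eq_zero.1 hc]; exact isAlgebraic_algebraMap c)
  have hpos : 0 < v.ord (x - algebraMap K F a) := by
    have := ha.le_ord (hx0 a)
    omega
  refine Set.mem_biUnion (x := a) ?_ (by
    rw [Finset.mem_coe, Finsupp.mem_support_iff, divisorOf_apply]; omega)
  show SemilinearAut.baseAut τ a = a
  by_contra hne
  have hpos' : 0 < v.ord (x - algebraMap K F (SemilinearAut.baseAut τ a)) := by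
    have h1 := SemilinearAut.ord_smul τ v (x - algebraMap K F a)
    rw [hv, smul_sub, hxτ, SemilinearAut.smul_algebraMap] at h1
    omega
  have hd : algebraMap K F (SemilinearAut.baseAut τ a - a) ≠ 0 :=
    (map_ne_zero _).2 (sub_ne_zero.2 hne)
  have h2 : 1 ≤ v.ord (algebraMap K F (SemilinearAut.baseAut τ a - a)) := by
    rw [map_sub]
    rw [map_sub] at hd
    have h3 : algebraMap K F (SemilinearAut.baseAut τ a) - algebraMap K F a =
        (x - algebraMap K F a) - (x - algebraMap K F (SemilinearAut.baseAut τ a)) := by ring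
    rw [h3] at hd ⊢
    exact (ordGe_of_le_ord (by omega)).sub
      (ordGe_of_le_ord (by omega)) |>.le_ord hd
  rw [ord_algebraMap] at h2
  omega

theorem smul_pow_eq {G α : Type*} [Monoid G] [MulAction G α] {g : G} {a : α} (h : g • a = a) :
    ∀ k : ℕ, g ^ k • a = a
  | 0 => by rw [pow_zero, one_smul]
  | k + 1 => by rw [pow_succ, mul_smul, h, smul_pow_eq h k]

/-- The classes fixed by an automorphism are finite. -/
theorem finite_fixed_classes (σ : SemilinearAut K F) {O : Place K F} (hO : σ • O = O) {x : F}
    (hx : Transcendental K x) (hxσ : σ • x = x)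
    (hfin : ∀ N : ℕ, 0 < N → {a : K | SemilinearAut.baseAut (σ ^ N) a = a}.Finite) :
    {z : Pic0 K F | σ • z = z}.Finite := by
  classical
  set g := genusFF K F
  have hpow : ∀ n : ℕ, σ ^ n • x = x := fun n => by
    induction n with
    | zero => rw [pow_zero, one_smul]
    | succ n ih => rw [pow_succ, mul_smul, hxσ, ih]
  set Pl := {v : Place K F | σ ^ g.factorial • v = v} with hPl
  have hPlfin : Pl.Finite := finite_fixed_places _ hx (hpow _) (hfin _ (Nat.factorial_pos g))
  set 𝓔 := {E : Divisor K F | 0 ≤ E ∧ Divisor.degree E ≤ g ∧ σ • E = E}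
  have hsupp : ∀ E ∈ 𝓔, ∀ v, E v ≠ 0 → v ∈ Pl := by
    rintro E ⟨hE0, hEd, hEσ⟩ v hv
    have hv1 : 1 ≤ E v := by
      have h0 : (0 : ℤ) ≤ E v := hE0 v
      omega
    have horb : ∀ i : ℕ, E (σ ^ i • v) = E v := by
      intro i
      induction i with
      | zero => rw [pow_zero, one_smul]
      | succ i ih =>
        rw [pow_succ', mul_smul]
        conv_lhs => rw [← hEσ]
        rw [SemilinearAut.divisor_smul_apply_smul, ih]
    have hcard : E.support.card ≤ g := by
      have h1 : (E.support.card : ℤ) ≤ Divisor.degree E := by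
        rw [GoodRed.degree_eq_sum_apply, Finset.cast_card]
        refine Finset.sum_le_sum fun w hw => ?_
        have h0 : (0 : ℤ) ≤ E w := hE0 w
        have := Finsupp.mem_support_iff.1 hw
        omega
      omega
    obtain ⟨i, hi, j, hj, hne, hij⟩ := Finset.exists_ne_map_eq_of_card_lt_of_maps_to
      (s := Finset.range (g + 1)) (t := E.support) (f := fun i => σ ^ i • v)
      (by rw [Finset.card_range]; omega)
      (fun i _ => Finsupp.mem_support_iff.2 (by rw [horb]; omega))
    wlog hlt : i < j generalizing i j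
    · exact this j hj i hi hne.symm hij.symm (by omega)
    have hfix : σ ^ (j - i) • v = v := by
      refine smul_left_cancel (σ ^ i) ?_
      rw [← mul_smul, ← pow_add, show i + (j - i) = j by omega]
      exact hij.symm
    rw [Finset.mem_range] at hj
    obtain ⟨k, hk⟩ := Nat.dvd_factorial (show 0 < j - i by omega) (show j - i ≤ g by omega)
    show σ ^ g.factorial • v = v
    rw [hk, pow_mul]
    exact smul_pow_eq hfix k
  have h𝓔 : 𝓔.Finite := by
    have := hPlfin.to_subtype
    refine Set.Finite.of_finite_image (f := fun E => fun v : Pl => (E v).toNat) ?_ ?_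
    · refine (Set.finite_range (fun (u : Pl → Fin (g + 1)) => fun v => (u v : ℕ))).subset ?_
      rintro _ ⟨E, ⟨hE0, hEd, -⟩, rfl⟩
      exact ⟨fun v => ⟨(E v).toNat, by
        have := GoodRed.apply_le_degree hE0 (v : Place K F)
        omega⟩, rfl⟩
    · intro E hE E' hE' he
      refine Finsupp.ext fun v => ?_
      have h1 : (0 : ℤ) ≤ E v := hE.1 v
      have h2 : (0 : ℤ) ≤ E' v := hE'.1 v
      by_cases hv : v ∈ Pl
      · have := congrFun he ⟨v, hv⟩
        simp only at this
        omega
      · rw [not_not.1 (mt (hsupp E hE v) hv), not_not.1 (mt (hsupp E' hE' v) hv)]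
  -- a fixed class is given by its effective representative
  have hdegO : ∀ n : ℤ, Divisor.degree (Finsupp.single O n : Divisor K F) = n := fun n => by
    rw [Divisor.degree_single, deg_eq_one, Nat.cast_one, mul_one]
  refine ((Set.finite_Iic g).prod h𝓔).image
    (fun q : ℕ × Divisor K F =>
      if h : Divisor.degree (q.2 - Finsupp.single O (q.1 : ℤ)) = 0 then
        Pic0.mk (⟨q.2 - Finsupp.single O (q.1 : ℤ), Divisor.mem_degZero.2 h⟩ :
          Divisor.degZero (K := K) (F := F))
      else 0) |>.subset ?_
  intro z hz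
  obtain ⟨X, rfl⟩ := Pic0.mk_surjective z
  have hD : ∃ h : F, h ≠ 0 ∧ σ • (X : Divisor K F) - (X : Divisor K F) = divisorOf h := by
    have hz' : σ • Pic0.mk X = Pic0.mk X := hz
    rw [SemilinearAut.pic0_smul_mk] at hz'
    obtain ⟨h, hh0, hh⟩ := QuotientAddGroup.eq_iff_sub_mem.1 hz'
    exact ⟨h, hh0, Finsupp.ext fun v => (hh v).trans (divisorOf_apply h v).symm⟩
  have hX0 : Divisor.degree (X : Divisor K F) = 0 := Divisor.mem_degZero.1 X.2
  obtain ⟨r, f, hr, hf0, hpos, hfix⟩ := exists_fixed_effective σ hO hX0 hD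
  set E := (X : Divisor K F) + Finsupp.single O (r : ℤ) + divisorOf f with hE
  have hdegE : Divisor.degree E = r := by
    rw [hE, map_add, map_add, hX0, hdegO, degree_divisorOf]
    simp
  refine ⟨(r, E), ⟨hr, hpos, by rw [hdegE]; exact_mod_cast hr, hfix⟩, ?_⟩
  have h0 : Divisor.degree (E - Finsupp.single O (r : ℤ)) = 0 := by
    rw [map_sub, hdegE, hdegO, sub_self]
  simp only [dif_pos h0]
  refine QuotientAddGroup.eq_iff_sub_mem.2 ⟨f, hf0, fun v => ?_⟩
  show (E - Finsupp.single O (r : ℤ) - (X : Divisor K F)) v = v.ord f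
  rw [hE, Finsupp.sub_apply, Finsupp.sub_apply, Finsupp.add_apply, Finsupp.add_apply,
    divisorOf_apply]
  ring

end FLTAgent.MazurP
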