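import Fermat.Agent.FlatModel.Trivial
import Mathlib.Algebra.Group.ForwardDiff
import Mathlib.Data.ZMod.Basic
import Mathlib.Algebra.Field.ZMod

/-!
# A connected line of a model is cyclotomic

For a model over an unramified base, the values of the functions on a connected point `x` of
order `p` are compared by finite differences: the largest difference `f x - f 0` has the absolute
value of `ζ - 1`, so a character through which inertia moves `x` is the cyclotomic one.
-/

set_option autoImplicit false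

namespace FLTAgent.MazurP.Local

open FLTAgent.FlatModel
open scoped fwdDiff

variable {K : Type*} [Field K] {p : ℕ} {A : ValuationSubring K} {I : Subgroup (K ≃+* K)}

lemma v_intCast_eq_one (hI : IsUnramifiedBase p A I) {z : ℤ} (hz : ¬ (p : ℤ) ∣ z) :
    A.valuation (z : K) = 1 := by
  have hle : ∀ n : ℤ, A.valuation (n : K) ≤ 1 := fun n =>
    (A.valuation_le_one_iff _).mpr (intCast_mem A n)
  refine le_antisymm (hle z) (le_of_not_gt fun hlt => ?_)
  obtain ⟨u, w, huw⟩ := ((Nat.prime_iff_prime_int.1 hI.prime).coprime_iff_not_dvd.2 hz)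
  have h := congrArg (fun t : ℤ => A.valuation (t : K)) huw
  simp only [Int.cast_add, Int.cast_mul, Int.cast_natCast, Int.cast_one, map_one] at h
  refine h.not_lt ((A.valuation.map_add _ _).trans_lt (max_lt ?_ ?_)) <;> rw [map_mul]
  · exact (mul_le_of_le_one_left' (hle u)).trans_lt hI.natCast_lt
  · exact (mul_le_of_le_one_left' (hle w)).trans_lt hlt

lemma v_natCast_eq_one (hI : IsUnramifiedBase p A I) {k : ℕ} (hk : ¬ p ∣ k) :
    A.valuation (k : K) = 1 := by
  simpa using v_intCast_eq_one hI (z := k) (by exact_mod_cast hk)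

variable {X : Type*} [AddCommGroup X] {ρ : I →* AddMonoid.End X}
  {H : Submodule (baseRing A I) (X → K)}

/-- Iterated differences of functions in a model are small to the order of the difference. -/
lemma v_fwdDiff_iter_le (hH : IsModel ρ H) (x : X) {μ : A.ValueGroup}
    (hμ : ∀ f ∈ H, A.valuation (f x - f 0) ≤ μ) (j : ℕ) :
    ∀ f ∈ H, A.valuation ((fwdDiff x)^[j + 1] f 0) ≤ μ ^ (j + 1) := by
  induction j with
  | zero =>
    intro f hf
    simpa [fwdDiff] using hμ f hf
  | succ j ih =>
    intro f hf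
    obtain ⟨n, a, b, ha, hb, hab⟩ := hH.coprod f hf
    have hd : fwdDiff x f = ∑ i, (b i x - b i 0) • a i := by
      funext z
      rw [fwdDiff, show f z = ∑ i, a i z * b i 0 by rw [← hab, add_zero], hab, Finset.sum_apply,
        ← Finset.sum_sub_distrib]
      exact Finset.sum_congr rfl fun i _ => by rw [Pi.smul_apply, smul_eq_mul]; ring
    rw [Function.iterate_succ_apply, hd, fwdDiff_iter_finsetSum, Finset.sum_apply]
    refine A.valuation.map_sum_le fun i _ => ?_
    rw [fwdDiff_iter_const_smul, Pi.smul_apply, smul_eq_mul, map_mul, pow_succ' μ (j + 1)]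
    exact mul_le_mul' (hμ _ (hb i)) (ih _ (ha i))

/-- `f (k x) - f 0` to first order. -/
lemma v_nsmul_sub_le (hH : IsModel ρ H) (x : X) {μ : A.ValueGroup} (hμ1 : μ ≤ 1)
    (hμ : ∀ f ∈ H, A.valuation (f x - f 0) ≤ μ) {f : X → K} (hf : f ∈ H) (k : ℕ) :
    A.valuation (f (k • x) - f 0 - (k : K) * (f x - f 0)) ≤ μ ^ 2 := by
  have h := shift_eq_sum_fwdDiff_iter x f k 0
  rw [zero_add] at h
  rcases k with _ | k
  · simp
  rw [Finset.sum_range_succ', Finset.sum_range_succ'] at h
  rw [h]
  simp only [Nat.choose_zero_right, one_smul, Function.iterate_zero, id_eq, zero_add,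
    Nat.choose_one_right, Function.iterate_one, fwdDiff, nsmul_eq_mul,
    add_sub_cancel_right]
  refine A.valuation.map_sum_le fun i _ => ?_
  rw [map_mul]
  refine (mul_le_of_le_one_left' (valuation_natCast_le_one A _)).trans
    ((v_fwdDiff_iter_le hH x hμ (i + 1) f hf).trans ?_)
  exact pow_le_pow_right_of_le_one' hμ1 (by omega)

variable [Finite X]

/-- The largest difference at a connected point of order `p` has absolute value `|ζ - 1|`, and the
character moving the point is cyclotomic. -/
theorem scalar_eq_of_connected [CharZero K] [hp : Fact p.Prime] (hI : IsUnramifiedBase p A I)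
    (hH : IsModel ρ H) {x : X} (hx : x ≠ 0) (hpx : p • x = 0) (hxc : x ∈ hH.connectedPart)
    (ψ : I → ZMod p) (hψ : ∀ τ, ρ τ x = (ψ τ).val • x) {lam : K}
    (hlam : A.valuation lam ^ (p - 1) = A.valuation (p : K)) (a : I → ZMod p)
    (ha : ∀ τ : I, A.valuation ((τ : K ≃+* K) lam - ((a τ).val : K) * lam) ≤
      A.valuation lam ^ 2) :
    (∀ τ, ψ τ = a τ) ∧ ∃ g ∈ H, A.valuation (g x - g 0) = A.valuation lam := by
  classical
  have hp2 := hp.out.two_le
  obtain ⟨s, hs⟩ := hH.fg
  have hsne : s.Nonempty := by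
    rw [Finset.nonempty_iff_ne_empty]
    rintro rfl
    have h := hH.one_mem
    rw [← hs, Finset.coe_empty, Submodule.span_empty, Submodule.mem_bot] at h
    exact one_ne_zero (α := K) (congrFun h 0)
  obtain ⟨g, hgs, hmax⟩ := s.exists_max_image (fun f => A.valuation (f x - f 0)) hsne
  have hgH : g ∈ H := hs ▸ Submodule.subset_span hgs
  set d := g x - g 0 with hd
  set μ := A.valuation d with hμdef
  have hμ : ∀ f ∈ H, A.valuation (f x - f 0) ≤ μ := by
    intro f hf
    rw [← hs] at hf
    induction hf using Submodule.span_induction with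
    | mem f hf => exact hmax f hf
    | zero => simp
    | add f₁ f₂ _ _ h₁ h₂ =>
      rw [Pi.add_apply, Pi.add_apply, add_sub_add_comm]
      exact (A.valuation.map_add _ _).trans (max_le h₁ h₂)
    | smul c f _ h =>
      rw [Pi.smul_apply, Pi.smul_apply, Subring.smul_def, Subring.smul_def, smul_eq_mul,
        smul_eq_mul, ← mul_sub, map_mul]
      exact (mul_le_of_le_one_left' ((A.valuation_le_one_iff _).mpr c.2.1)).trans h
  have hμ0 : 0 < μ := by
    refine zero_lt_iff.2 fun h0 => hx (hH.separates x 0 fun f hf => ?_)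
    have h := hμ f hf
    rw [h0] at h
    exact sub_eq_zero.1 ((map_eq_zero _).1 (le_zero_iff.1 h))
  have hμ1 : μ < 1 := hxc g hgH
  have hμ2 : μ ^ 2 < μ := by
    rw [pow_two]; exact mul_lt_of_lt_one_left hμ0 hμ1
  -- first order
  have hfirst : ∀ k : ℕ, A.valuation (g (k • x) - g 0 - (k : K) * d) < μ := fun k =>
    (v_nsmul_sub_le hH x hμ1.le hμ hgH k).trans_lt hμ2
  have hunit : ∀ k : ℕ, ¬ p ∣ k → A.valuation (g (k • x) - g 0) = μ := by
    intro k hk
    have hkd : A.valuation ((k : K) * d) = μ := by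
      rw [map_mul, v_natCast_eq_one hI hk, one_mul]
    rw [← hkd]
    exact A.valuation.map_eq_of_sub_lt (by rw [hkd]; exact hfirst k)
  -- at `k = p`
  have hlow : A.valuation (p : K) ≤ μ ^ (p - 1) := by
    by_contra hlt
    rw [not_le] at hlt
    have hvp : 0 < A.valuation (p : K) := hI.valuation_natCast_pos
    obtain ⟨m, hm⟩ : ∃ m, p = m + 1 := ⟨p - 1, by omega⟩
    have h := shift_eq_sum_fwdDiff_iter x g p 0
    rw [zero_add, hpx, hm, Finset.sum_range_succ', Finset.sum_range_succ'] at h
    simp only [Nat.choose_zero_right, one_smul, Function.iterate_zero, id_eq, zero_add,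
      Nat.choose_one_right, Function.iterate_one, fwdDiff, nsmul_eq_mul] at h
    have hsum : ((m + 1 : ℕ) : K) * d = -∑ i ∈ Finset.range m,
        (((m + 1).choose (i + 1 + 1) : ℕ) : K) * (fwdDiff x)^[i + 1 + 1] g 0 := by
      linear_combination -h
    have hvd : A.valuation (((m + 1 : ℕ) : K) * d) = A.valuation (p : K) * μ := by
      rw [← hm, map_mul]
    have hpos : A.valuation (p : K) * μ ≠ 0 := mul_ne_zero hvp.ne' hμ0.ne'
    refine hvd.not_lt ?_
    rw [hsum, A.valuation.map_neg]
    refine A.valuation.map_sum_lt hpos fun i hi => ?_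
    rw [Finset.mem_range] at hi
    rw [map_mul]
    have hD := v_fwdDiff_iter_le hH x hμ (i + 1) g hgH
    rcases eq_or_lt_of_le (show i + 2 ≤ p by omega) with hip | hip
    · refine (mul_le_of_le_one_left' (valuation_natCast_le_one A _)).trans_lt (hD.trans_lt ?_)
      rw [show i + 1 + 1 = (p - 1) + 1 by omega, pow_succ]
      exact mul_lt_mul_of_pos_right hlt hμ0
    · obtain ⟨q, hq⟩ : p ∣ p.choose (i + 1 + 1) :=
        hp.out.dvd_choose_self (by omega) (by omega)
      rw [← hm, hq, Nat.cast_mul, map_mul]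
      refine (mul_le_mul' (mul_le_of_le_one_right' (valuation_natCast_le_one A q))
        (hD.trans (pow_le_pow_right_of_le_one' hμ1.le (show 2 ≤ i + 1 + 1 by omega)))).trans_lt ?_
      exact mul_lt_mul_of_pos_left hμ2 hvp
  -- the product of the differences lies in the base
  have hnx : ∀ n : ℕ, (n % p) • x = n • x := fun n => by
    conv_rhs => rw [← Nat.mod_add_div n p, add_nsmul, mul_nsmul, hpx, smul_zero, add_zero]
  have hψ0 : ∀ τ, ψ τ ≠ 0 := fun τ h0 => hx (by
    have h := hψ τ
    rw [h0, ZMod.val_zero, zero_smul] at h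
    simpa [inv_apply_apply] using congrArg (ρ τ⁻¹) h)
  set S := (Finset.univ : Finset (ZMod p)).erase 0 with hS
  have hSdvd : ∀ k ∈ S, ¬ p ∣ k.val := fun k hk hd => by
    refine Finset.ne_of_mem_erase hk ?_
    rw [← ZMod.natCast_zmod_val k]
    exact (ZMod.natCast_eq_zero_iff _ _).2 hd
  set N := ∏ k ∈ S, (g (k.val • x) - g 0) with hN
  have hNv : A.valuation N = μ ^ (p - 1) := by
    rw [hN, map_prod, Finset.prod_congr rfl fun k hk => hunit _ (hSdvd k hk), Finset.prod_const,
      hS, Finset.card_erase_of_mem (Finset.mem_univ _), Finset.card_univ, ZMod.card]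
  have hNfix : ∀ τ ∈ I, τ N = N := by
    intro τ hτ
    rw [hN, map_prod]
    refine Finset.prod_equiv (Equiv.mulLeft₀ (ψ ⟨τ, hτ⟩) (hψ0 _)) (fun k => ?_) fun k _ => ?_
    · simp [hS, hψ0 ⟨τ, hτ⟩]
    · rw [map_sub, ← hH.apply_map hgH ⟨τ, hτ⟩, hH.map_zero_fixed hgH ⟨τ, hτ⟩]
      congr 2
      rw [map_nsmul, hψ, ← mul_nsmul, Equiv.mulLeft₀_apply, ZMod.val_mul, hnx]
  have hup : μ ^ (p - 1) ≤ A.valuation (p : K) := by
    rw [← hNv]
    exact hI.le_natCast N hNfix (hNv ▸ pow_lt_one₀ zero_le hμ1 (by omega))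
  have hμlam : μ = A.valuation lam :=
    (pow_left_inj₀ zero_le zero_le (by omega)).1 ((le_antisymm hup hlow).trans hlam.symm)
  refine ⟨fun τ => ?_, g, hgH, hμlam⟩
  -- the character
  have hlam0 : lam ≠ 0 := fun h => by
    rw [h, map_zero] at hμlam
    exact hμ0.ne' hμlam
  set z := d / lam with hz
  have hvz : A.valuation z = 1 := by rw [hz, map_div₀, ← hμlam, div_self hμ0.ne']
  have hzA : z ∈ A := (A.valuation_le_one_iff _).1 hvz.le
  have hdz : d = z * lam := by rw [hz, div_mul_cancel₀ _ hlam0]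
  have h1 : A.valuation ((τ : K ≃+* K) d - ((ψ τ).val : K) * d) < μ := by
    have e : (τ : K ≃+* K) d = g ((ψ τ).val • x) - g 0 := by
      rw [hd, map_sub ((τ : K ≃+* K)), ← hH.apply_map hgH τ, hH.map_zero_fixed hgH τ, hψ]
    rw [e]
    exact hfirst _
  have h2 : A.valuation ((τ : K ≃+* K) d - ((a τ).val : K) * d) < μ := by
    rw [hdz, map_mul, show (τ : K ≃+* K) z * (τ : K ≃+* K) lam - ((a τ).val : K) * (z * lam) =
      (τ : K ≃+* K) z * ((τ : K ≃+* K) lam - ((a τ).val : K) * lam) +
        ((a τ).val : K) * lam * ((τ : K ≃+* K) z - z) by ring]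
    refine (A.valuation.map_add _ _).trans_lt (max_lt ?_ ?_) <;> rw [map_mul]
    · rw [hI.valuation_map _ τ.2, hvz, one_mul]
      exact (ha τ).trans_lt (hμlam ▸ hμ2)
    · rw [map_mul, mul_assoc]
      refine (mul_le_of_le_one_left' (valuation_natCast_le_one A _)).trans_lt ?_
      rw [← hμlam]
      exact mul_lt_of_lt_one_right hμ0 (hI.map_sub_lt _ τ.2 z hzA)
  by_contra hne
  have hdiv : ¬ (p : ℤ) ∣ ((ψ τ).val : ℤ) - ((a τ).val : ℤ) := fun h => hne (by
    have := (ZMod.intCast_zmod_eq_zero_iff_dvd _ _).2 h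
    simpa [sub_eq_zero] using this)
  have h3 : A.valuation (((((ψ τ).val : ℤ) - ((a τ).val : ℤ) : ℤ) : K) * d) < μ := by
    rw [show ((((ψ τ).val : ℤ) - ((a τ).val : ℤ) : ℤ) : K) * d =
      ((τ : K ≃+* K) d - ((a τ).val : K) * d) - ((τ : K ≃+* K) d - ((ψ τ).val : K) * d) by
        push_cast; ring]
    exact A.valuation.map_sub_lt h2 h1
  rw [map_mul, v_intCast_eq_one hI hdiv, one_mul] at h3
  exact lt_irrefl _ h3

omit [Finite X] in
/-- A difference of the size of that at `2 x` occurs between two points differing by `2 x`. -/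
theorem exists_transverse (hH : IsModel ρ H) (x R : X) {g : X → K} (hg : g ∈ H)
    (μ : A.ValueGroup) (hμ : μ ≤ A.valuation (g (x + x) - g 0)) :
    ∃ h ∈ H, μ ≤ A.valuation (h (R + x) - h (R - x)) := by
  by_contra! hall
  obtain ⟨n, a, b, ha, hb, hab⟩ := hH.coprod g hg
  refine hμ.not_gt ?_
  have e : g (x + x) - g 0 = ∑ i, (a i (R + x) - a i (R - x)) * b i (x - R) := by
    rw [show x + x = (R + x) + (x - R) by abel, hab,
      show g 0 = g ((R - x) + (x - R)) by congr 1; abel, hab, ← Finset.sum_sub_distrib]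
    exact Finset.sum_congr rfl fun i _ => by ring
  rw [e]
  have hμ0 : μ ≠ 0 := fun h0 => by
    have := hall g hg
    rw [h0] at this
    exact not_lt_zero this
  refine A.valuation.map_sum_lt hμ0 fun i _ => ?_
  rw [map_mul]
  exact (mul_le_of_le_one_right' ((A.valuation_le_one_iff _).mpr (hH.integral _ (hb i) _))).trans_lt
    (hall _ (ha i))

end FLTAgent.MazurP.Local
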