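import Fermat.Agent.MazurP.LocalCyclo
import Fermat.Agent.Reduction.Peu.Good

/-!
# The local shape of `E[p]` at a prime of good reduction with a stable line

If `E[p]` has a model over the inertia base and inertia fixes a line, then it is an extension of
the trivial character by the cyclotomic one and the extension is the Kummer class of a unit.
-/

set_option autoImplicit false

noncomputable section

namespace FLTAgent.MazurP.Local

open WeierstrassCurve FLTAgent.Reduction FLTAgent.Reduction.Peu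
open WeierstrassCurve.Affine.Point (galoisRepModuleEnd galoisRepModuleEnd_apply)
open scoped WeierstrassCurve.Affine

local notation "Qbar" => AlgebraicClosure ℚ
local notation "Γℚ" => AlgebraicClosure ℚ ≃ₐ[ℚ] AlgebraicClosure ℚ

variable {W : WeierstrassCurve ℤ} {p : ℕ} [hp : Fact p.Prime] {A : ValuationSubring Qbar}

lemma inertiaLift_lift {σ : Γℚ} (hσ : σ ∈ A.inertiaSubgroupIn ℚ) :
    inertiaLift A ⟨toRingEquivHom σ, mem_inertiaRing hσ⟩ = σ :=
  AlgEquiv.ext fun _ => rfl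

omit hp in
lemma torsInertia_apply (τ : inertiaRing A) (v : TorsQ W p) :
    torsInertia W p A τ v = inertiaLift A τ • v := rfl

/-- Two independent torsion points form a basis. -/
lemma exists_basis_pair (hΔ0 : W.Δ ≠ 0) {v w : TorsQ W p} (hv : v ≠ 0)
    (hw : w ∉ Submodule.span (ZMod p) {v}) :
    ∃ b : Module.Basis (Fin 2) (ZMod p) (TorsQ W p), b 0 = v ∧ b 1 = w := by
  have := isElliptic_rat hΔ0
  have hli : LinearIndependent (ZMod p) ![v, w] := by
    rw [LinearIndependent.pair_iff' hv]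
    exact fun a ha => hw (Submodule.mem_span_singleton.2 ⟨a, ha⟩)
  have hcard : Fintype.card (Fin 2) = Module.finrank (ZMod p) (TorsQ W p) := by
    rw [Fintype.card_fin, Torsion.finrank_torsionBy_qbar (W.map (Int.castRingHom ℚ)) p]
  exact ⟨basisOfLinearIndependentOfCardEqFinrank hli hcard,
    by rw [coe_basisOfLinearIndependentOfCardEqFinrank]; rfl,
    by rw [coe_basisOfLinearIndependentOfCardEqFinrank]; rfl⟩

/-- `ε n - 1` to first order in `ε 1 - 1`. -/
lemma v_addChar_natCast_sub_le (ε : AddChar (ZMod p) Qbar) (n : ℕ) :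
    A.valuation (ε (n : ZMod p) - 1 - (n : Qbar) * (ε 1 - 1)) ≤ A.valuation (ε 1 - 1) ^ 2 := by
  induction n with
  | zero => simp
  | succ n ih =>
    rw [Nat.cast_succ, AddChar.map_add_eq_mul, Nat.cast_succ,
      show ε (n : ZMod p) * ε 1 - 1 - ((n : Qbar) + 1) * (ε 1 - 1) =
        (ε (n : ZMod p) - 1 - (n : Qbar) * (ε 1 - 1)) + (ε (n : ZMod p) - 1) * (ε 1 - 1) by ring]
    refine (A.valuation.map_add _ _).trans (max_le ih ?_)
    rw [map_mul, pow_two]
    exact mul_le_mul' (addChar_sub_one_le _) le_rfl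

/-- The Kummer data of `E[p]` from a model over the inertia base and a stable line. -/
theorem exists_kummer_data_of_isModel (hA : A.LiesOverPrime p) (h2 : p ≠ 2) (hΔ0 : W.Δ ≠ 0)
    {H : Submodule (FlatModel.baseRing A (inertiaRing A)) (TorsQ W p → Qbar)}
    (hH : FlatModel.IsModel (torsInertia W p A) H)
    (hline : ∃ v : TorsQ W p, v ≠ 0 ∧
      ∀ σ ∈ A.inertiaSubgroupIn ℚ, σ • v ∈ Submodule.span (ZMod p) {v}) :
    ∃ (b : Module.Basis (Fin 2) (ZMod p) (TorsQ W p)) (ε : AddChar (ZMod p) Qbar) (x : Qbar)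
      (a c : Γℚ → ZMod p),
      ε 1 ≠ 1 ∧ A.valuation x = 1 ∧ ∀ σ ∈ A.inertiaSubgroupIn ℚ,
        (∀ j, σ (ε j) = ε (a σ * j)) ∧ σ • b 0 = a σ • b 0 ∧ σ • b 1 = c σ • b 0 + b 1 ∧
          σ x = ε (c σ) * x := by
  classical
  have := isElliptic_rat hΔ0
  have : ((W.map (Int.castRingHom ℚ))⁄Qbar).IsElliptic :=
    WeilPairing.isElliptic_qbar (W.map (Int.castRingHom ℚ))
  have hfin : Finite (TorsQ W p) := Nat.finite_of_card_ne_zero (by
    rw [Torsion.natCard_torsionBy_qbar (W.map (Int.castRingHom ℚ)) hp.out.ne_zero]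
    exact pow_ne_zero 2 hp.out.ne_zero)
  have hI := isUnramifiedBase_inertiaRing hA hp.out
  have hp3 : 3 ≤ p := by have := hp.out.two_le; omega
  -- roots of unity and determinants
  obtain ⟨ζ, hζ⟩ := HasEnoughRootsOfUnity.exists_primitiveRoot Qbar p
  set ε : AddChar (ZMod p) Qbar := AddChar.zmodChar p hζ.pow_eq_one with hεdef
  have hεn : ∀ n : ℕ, ε (n : ZMod p) = ζ ^ n := fun n => AddChar.zmodChar_apply' _ n
  have hε : ε 1 ≠ 1 := by
    rw [← Nat.cast_one, hεn, pow_one]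
    exact hζ.ne_one hp.out.one_lt
  have hex : ∀ σ : Γℚ, ∃ i : ℕ, σ ζ = ζ ^ i := fun σ => by
    obtain ⟨i, -, hi⟩ := hζ.eq_pow_of_pow_eq_one
      (ξ := σ ζ) (by rw [← map_pow, hζ.pow_eq_one, map_one])
    exact ⟨i, hi.symm⟩
  choose i hi using hex
  set a : Γℚ → ZMod p := fun σ => (i σ : ZMod p) with ha
  have hσε : ∀ σ : Γℚ, ∀ j, σ (ε j) = ε (a σ * j) := by
    intro σ j
    rw [← ZMod.natCast_zmod_val j, hεn, map_pow, hi, ← pow_mul, ha]
    show _ = ε ((i σ : ZMod p) * _)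
    rw [← Nat.cast_mul, hεn]
  have hdet : ∀ (σ : Γℚ) (b : Module.Basis (Fin 2) (ZMod p) (TorsQ W p)) (α β γ : ZMod p),
      σ • b 0 = α • b 0 → σ • b 1 = β • b 0 + γ • b 1 → a σ = α * γ := by
    intro σ b α β γ h0 h1
    have hd := WeilPairing.det_galoisRepModuleEnd_eq_of_forall_pow
      (W.map (Int.castRingHom ℚ)) p (Nat.cast_ne_zero.2 hp.out.ne_zero) σ (i σ) fun μ hμ => by
        obtain ⟨k, -, rfl⟩ := hζ.eq_pow_of_pow_eq_one hμ
        rw [map_pow, hi, ← pow_mul, ← pow_mul, mul_comm]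
    rw [← LinearMap.det_toMatrix b, Matrix.det_fin_two] at hd
    simp only [LinearMap.toMatrix_apply, galoisRepModuleEnd_apply, h0, h1, map_add, map_smul,
      Module.Basis.repr_self, Finsupp.add_apply, Finsupp.smul_apply, Finsupp.single_apply,
      smul_eq_mul] at hd
    simp at hd
    exact hd.symm
  set lam : Qbar := ε 1 - 1 with hlamdef
  have hlam : A.valuation lam ^ (p - 1) = A.valuation (p : Qbar) := v_addChar_sub_one_pow hε
  have hlama : ∀ τ : inertiaRing A,
      A.valuation ((τ : Qbar ≃+* Qbar) lam - ((a (inertiaLift A τ)).val : Qbar) * lam) ≤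
        A.valuation lam ^ 2 := by
    intro τ
    have e : (τ : Qbar ≃+* Qbar) lam = ε (((a (inertiaLift A τ)).val : ℕ) : ZMod p) - 1 := by
      rw [ZMod.natCast_zmod_val, hlamdef, ← inertiaLift_apply, map_sub, map_one (inertiaLift A τ),
        hσε, mul_one]
    rw [e]
    exact v_addChar_natCast_sub_le ε _
  -- the connected part
  set C := hH.connectedPart with hC
  have hmove : ∀ σ ∈ A.inertiaSubgroupIn ℚ, ∀ v : TorsQ W p, σ • v - v ∈ C := fun σ hσ v => by
    have h := hH.map_sub_mem_connectedPart hI ⟨toRingEquivHom σ, mem_inertiaRing hσ⟩ v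
    rwa [torsInertia_apply, inertiaLift_lift hσ] at h
  have hstab : ∀ σ ∈ A.inertiaSubgroupIn ℚ, ∀ v ∈ C, σ • v ∈ C := fun σ hσ v hv => by
    have h := hH.map_mem_connectedPart hI ⟨toRingEquivHom σ, mem_inertiaRing hσ⟩ hv
    rwa [torsInertia_apply, inertiaLift_lift hσ] at h
  have hsmul : ∀ (t : ZMod p), ∀ v ∈ C, t • v ∈ C := fun t v hv => by
    rw [← ZMod.natCast_zmod_val t, Nat.cast_smul_eq_nsmul]
    exact C.nsmul_mem hv _
  have hnval : ∀ (t : ZMod p) (v : TorsQ W p), t.val • v = t • v := fun t v => by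
    conv_rhs => rw [← ZMod.natCast_zmod_val t, Nat.cast_smul_eq_nsmul]
  have hpv : ∀ v : TorsQ W p, p • v = 0 := fun v => by
    rw [← Nat.cast_smul_eq_nsmul (ZMod p), ZMod.natCast_self, zero_smul]
  -- the connected part is not everything
  have hCtop : ∃ w, w ∉ C := by
    by_contra! hall
    obtain ⟨v, hv0, hv⟩ := hline
    obtain ⟨w, hw⟩ : ∃ w, w ∉ Submodule.span (ZMod p) {v} := by
      by_contra! h
      have h1 := finrank_span_singleton (K := ZMod p) hv0
      rw [Submodule.eq_top_iff'.2 h, finrank_top,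
        Torsion.finrank_torsionBy_qbar (W.map (Int.castRingHom ℚ)) p] at h1
      omega
    obtain ⟨b, rfl, rfl⟩ := exists_basis_pair hΔ0 hv0 hw
    choose ψ hψ using fun τ : inertiaRing A =>
      Submodule.mem_span_singleton.1 (hv _ (inertiaLift_mem τ))
    obtain ⟨hψa, -⟩ := scalar_eq_of_connected hI hH hv0 (hpv _) (hall _) ψ
      (fun τ => by rw [torsInertia_apply, hnval, hψ]) hlam (fun τ => a (inertiaLift A τ)) hlama
    let U : AddSubgroup (TorsQ W p) := (Submodule.span (ZMod p) {b 0}).toAddSubgroup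
    have hle := hH.le_of_connected_trivial hI h2 ⊤ U (fun _ _ _ => trivial)
      (fun τ u hu => by
        obtain ⟨t, rfl⟩ := Submodule.mem_span_singleton.1 hu
        rw [torsInertia_apply, smul_comm, ← hψ]
        exact Submodule.mem_span_singleton.2 ⟨_, mul_smul t _ _⟩)
      (fun u _ => hall u)
      (fun τ u _ => ?_) (fun u _ => by rw [hpv]; exact U.zero_mem)
    · exact hw (hle (x := b 1) trivial)
    · set σ := inertiaLift A τ with hσdef
      have h1 : σ • b 1 = b.repr (σ • b 1) 0 • b 0 + b.repr (σ • b 1) 1 • b 1 := by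
        conv_lhs => rw [← b.sum_repr (σ • b 1), Fin.sum_univ_two]
      have hd := hdet σ b _ _ _ (hψ τ).symm h1
      have hγ : b.repr (σ • b 1) 1 = 1 := by
        have hψ0 : ψ τ ≠ 0 := fun h0 => by
          have h := hψ τ
          rw [h0, zero_smul] at h
          exact hv0 ((smul_eq_zero_iff_eq σ).1 h.symm)
        rw [← hψa τ] at hd
        exact mul_left_cancel₀ hψ0 (by rw [mul_one, ← hd])
      rw [hγ, one_smul] at h1
      rw [torsInertia_apply, ← hσdef, ← b.sum_repr u, Fin.sum_univ_two, smul_add,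
        smul_comm σ, smul_comm σ, ← hψ τ, h1]
      refine Submodule.mem_span_singleton.2
        ⟨b.repr u 0 * ψ τ + b.repr u 1 * b.repr (σ • b 1) 0 - b.repr u 0, ?_⟩
      rw [sub_smul, add_smul, mul_smul, mul_smul, smul_add]
      abel
  -- nor trivial
  have hCbot : ∃ v ∈ C, v ≠ 0 := by
    by_contra! hall
    obtain ⟨v, hv0, -⟩ := hline
    obtain ⟨w, hw⟩ : ∃ w, w ∉ Submodule.span (ZMod p) {v} := by
      by_contra! h
      have h1 := finrank_span_singleton (K := ZMod p) hv0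
      rw [Submodule.eq_top_iff'.2 h, finrank_top,
        Torsion.finrank_torsionBy_qbar (W.map (Int.castRingHom ℚ)) p] at h1
      omega
    obtain ⟨b, -, -⟩ := exists_basis_pair hΔ0 hv0 hw
    have hfix : ∀ τ ∈ inertiaRing A, τ lam = lam := by
      intro τ hτ
      have hσ := inertiaLift_mem (⟨τ, hτ⟩ : inertiaRing A)
      have h : ∀ u : TorsQ W p, inertiaLift A ⟨τ, hτ⟩ • u = u := fun u =>
        sub_eq_zero.1 (hall _ (hmove _ hσ u))
      have ha1 := hdet (inertiaLift A ⟨τ, hτ⟩) b 1 0 1 (by rw [one_smul, h])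
        (by rw [zero_smul, zero_add, one_smul, h])
      rw [mul_one] at ha1
      show (inertiaLift A ⟨τ, hτ⟩) (ε 1 - 1) = ε 1 - 1
      rw [map_sub, map_one (inertiaLift A ⟨τ, hτ⟩), hσε, ha1, mul_one]
    have hv1 : 0 < A.valuation lam := zero_lt_iff.2 ((map_ne_zero _).2 (sub_ne_zero.2 hε))
    have hlt : A.valuation lam < 1 :=
      (pow_lt_one_iff (show p - 1 ≠ 0 by omega)).1 (hlam.trans_lt hI.natCast_lt)
    have hle := hI.le_natCast lam hfix hlt
    rw [← hlam] at hle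
    refine absurd hle (not_le.2 ?_)
    calc A.valuation lam ^ (p - 1) ≤ A.valuation lam ^ 2 :=
          pow_le_pow_right_of_le_one' hlt.le (by omega)
      _ < A.valuation lam := by rw [pow_two]; exact mul_lt_of_lt_one_left hv1 hlt
  -- the basis
  obtain ⟨v, hvC, hv0⟩ := hCbot
  obtain ⟨w, hwC⟩ := hCtop
  have hwv : w ∉ Submodule.span (ZMod p) {v} := fun h => by
    obtain ⟨t, rfl⟩ := Submodule.mem_span_singleton.1 h
    exact hwC (hsmul t v hvC)
  obtain ⟨b, rfl, rfl⟩ := exists_basis_pair hΔ0 hv0 hwv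
  have hcoord : ∀ u ∈ C, u = b.repr u 0 • b 0 := by
    intro u hu
    have hs : u = b.repr u 0 • b 0 + b.repr u 1 • b 1 := by
      conv_lhs => rw [← b.sum_repr u, Fin.sum_univ_two]
    by_cases h1 : b.repr u 1 = 0
    · rwa [h1, zero_smul, add_zero] at hs
    · refine absurd ?_ hwC
      have hm : b.repr u 1 • b 1 ∈ C := by
        rw [← sub_eq_of_eq_add' hs]
        exact C.sub_mem hu (hsmul _ _ hvC)
      simpa [smul_smul, h1] using hsmul (b.repr u 1)⁻¹ _ hm
  set c : Γℚ → ZMod p := fun σ => b.repr (σ • b 1 - b 1) 0 with hc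
  have hact : ∀ σ ∈ A.inertiaSubgroupIn ℚ,
      σ • b 0 = a σ • b 0 ∧ σ • b 1 = c σ • b 0 + b 1 := by
    intro σ hσ
    have h1 : σ • b 1 = c σ • b 0 + b 1 := sub_eq_iff_eq_add.1 (hcoord _ (hmove σ hσ _))
    have h0 := hcoord _ (hstab σ hσ _ hvC)
    have hd := hdet σ b _ (c σ) 1 h0 (by rw [one_smul]; exact h1)
    rw [mul_one] at hd
    exact ⟨by rw [hd]; exact h0, h1⟩
  have hact' : ∀ σ ∈ A.inertiaSubgroupIn ℚ, ∀ k : ZMod p,
      σ • (b 1 + k • b 0) = b 1 + (c σ + a σ * k) • b 0 := by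
    intro σ hσ k
    rw [smul_add, smul_comm σ k, (hact σ hσ).1, (hact σ hσ).2, smul_smul, add_smul, mul_comm k]
    abel
  -- a function moving enough
  have hb2 : b 0 + b 0 ≠ 0 := by
    intro h
    have h' : (2 : ZMod p) • b 0 = 0 := by rw [two_smul]; exact h
    have h2' : (2 : ZMod p) = 0 := (smul_eq_zero.1 h').resolve_right hv0
    rw [← Nat.cast_two, ZMod.natCast_eq_zero_iff] at h2'
    have := Nat.le_of_dvd (by norm_num) h2'
    omega
  obtain ⟨-, g, hgH, hg⟩ := scalar_eq_of_connected hI hH hb2 (hpv _) (C.add_mem hvC hvC)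
    (fun τ => a (inertiaLift A τ)) (fun τ => by
      rw [torsInertia_apply, hnval, smul_add, (hact _ (inertiaLift_mem τ)).1, ← smul_add])
    hlam (fun τ => a (inertiaLift A τ)) hlama
  obtain ⟨h, hhH, hhd⟩ := exists_transverse hH (b 0) (b 1) hgH _ hg.ge
  -- the units
  set t : ℕ := if A.valuation (h (b 1)) < 1 then 1 else 0 with ht
  have ht1 : A.valuation (h (b 1) + (t : Qbar)) = 1 := by
    rw [ht]
    split_ifs with hlt
    · rw [Nat.cast_one, add_comm, A.valuation.map_one_add_of_lt hlt]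
    · rw [Nat.cast_zero, add_zero]
      exact le_antisymm ((A.valuation_le_one_iff _).2 (hH.integral h hhH _)) (not_lt.1 hlt)
  set y : ZMod p → Qbar := fun k => h (b 1 + k • b 0) + (t : Qbar) with hy
  have hy1 : ∀ k, A.valuation (y k) = 1 := by
    intro k
    obtain ⟨n, a', b', ha', hb', hab⟩ := hH.coprod h hhH
    have hcl : A.valuation (h (b 1 + k • b 0) - h (b 1)) < 1 := by
      rw [hab, show h (b 1) = ∑ j, a' j (b 1) * b' j 0 by rw [← hab, add_zero],
        ← Finset.sum_sub_distrib]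
      refine A.valuation.map_sum_lt' one_pos fun j _ => ?_
      rw [← mul_sub, map_mul]
      exact (mul_le_of_le_one_left' ((A.valuation_le_one_iff _).2
        (hH.integral _ (ha' j) _))).trans_lt (hsmul k _ hvC _ (hb' j))
    rw [← ht1]
    exact A.valuation.map_eq_of_sub_lt (by rw [hy, add_sub_add_right_eq_sub, ht1]; exact hcl)
  have hσy : ∀ σ ∈ A.inertiaSubgroupIn ℚ, ∀ k, σ (y k) = y (c σ + a σ * k) := by
    intro σ hσ k
    simp only [hy]
    rw [map_add, map_natCast, ← hact' σ hσ k]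
    have e := hH.apply_map hhH ⟨toRingEquivHom σ, mem_inertiaRing hσ⟩ (b 1 + k • b 0)
    rw [torsInertia_apply, inertiaLift_lift hσ] at e
    rw [e]
    rfl
  have hdiff : A.valuation (ε 1 - 1) ≤ A.valuation (y 1 - y (-1)) := by
    simp only [hy]
    rw [add_sub_add_right_eq_sub, one_smul, neg_smul, one_smul, ← sub_eq_add_neg]
    exact hhd
  obtain ⟨x, hx, hxσ⟩ := exists_kummer_generator hA hε hy1 a c (fun σ _ => hσε σ) hσy hdiff
  exact ⟨b, ε, x, a, c, hε, hx, fun σ hσ =>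
    ⟨hσε σ, (hact σ hσ).1, (hact σ hσ).2, hxσ σ hσ⟩⟩

/-- The Kummer data at a good odd prime with a stable line (the ordinary case). -/
theorem exists_kummer_data_of_good (hA : A.LiesOverPrime p) (h2 : p ≠ 2) (hΔ0 : W.Δ ≠ 0)
    (hgood : W.IsGoodPrimeFor p)
    (hline : ∃ v : TorsQ W p, v ≠ 0 ∧
      ∀ σ ∈ A.inertiaSubgroupIn ℚ, σ • v ∈ Submodule.span (ZMod p) {v}) :
    ∃ (b : Module.Basis (Fin 2) (ZMod p) (TorsQ W p)) (ε : AddChar (ZMod p) Qbar) (x : Qbar)
      (a c : Γℚ → ZMod p),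
      ε 1 ≠ 1 ∧ A.valuation x = 1 ∧ ∀ σ ∈ A.inertiaSubgroupIn ℚ,
        (∀ j, σ (ε j) = ε (a σ * j)) ∧ σ • b 0 = a σ • b 0 ∧ σ • b 1 = c σ • b 0 + b 1 ∧
          σ x = ε (c σ) * x := by
  obtain ⟨H, hH⟩ := exists_isModel_of_good (p := p) hA hgood hΔ0
  exact exists_kummer_data_of_isModel hA h2 hΔ0 hH hline

/-- The Kummer data at an odd semistable prime where `E[p]` is finite, away from the case
without stable line. -/
theorem exists_kummer_data_of_semistable (hA : A.LiesOverPrime p) (h2 : p ≠ 2) (hΔ0 : W.Δ ≠ 0)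
    (hsemi : (p : ℤ) ∣ W.Δ → ¬(p : ℤ) ∣ W.c₄)
    (hfin : (p : ℤ) ∣ W.Δ → (W.map (Int.castRingHom ℚ)).IsPeuRamifieeAt p p)
    (hline : W.IsGoodPrimeFor p → ∃ v : TorsQ W p, v ≠ 0 ∧
      ∀ σ ∈ A.inertiaSubgroupIn ℚ, σ • v ∈ Submodule.span (ZMod p) {v}) :
    ∃ (b : Module.Basis (Fin 2) (ZMod p) (TorsQ W p)) (ε : AddChar (ZMod p) Qbar) (x : Qbar)
      (a c : Γℚ → ZMod p),
      ε 1 ≠ 1 ∧ A.valuation x = 1 ∧ ∀ σ ∈ A.inertiaSubgroupIn ℚ,
        (∀ j, σ (ε j) = ε (a σ * j)) ∧ σ • b 0 = a σ • b 0 ∧ σ • b 1 = c σ • b 0 + b 1 ∧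
          σ x = ε (c σ) * x := by
  by_cases hbad : (p : ℤ) ∣ W.Δ
  · exact exists_kummer_data hA h2 hΔ0 hbad (hsemi hbad)
      (dvd_padicValInt_of_isPeuRamifiee (hfin hbad))
  · exact exists_kummer_data_of_good hA h2 hΔ0 hbad (hline hbad)

end FLTAgent.MazurP.Local
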