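import Fermat.Agent.MazurP.Shape
import Fermat.Agent.LevelLower.Endgame.Rep
import Fermat.Agent.Frey.Model
import Fermat.Agent.Wiring.FreyDescent

/-!
# Lowering at `p` for Frey packages from Mazur's principle at `p`
-/

set_option autoImplicit false
set_option linter.style.haveILetI false

noncomputable section

open WeierstrassCurve ModularCurve
open scoped WeierstrassCurve.Affine

namespace FLTAgent.MazurP

open FLTAgent.LevelLower FLTAgent.LevelLower.Endgame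

local notation "Qbar" => AlgebraicClosure ℚ
local notation "Γℚ" => AlgebraicClosure ℚ ≃ₐ[ℚ] AlgebraicClosure ℚ

/-- Mazur's principle at `p ≥ 5`, and at `p = 3` for `M` even: a peu ramifié system occurring in
`J₀(M p)[p]` occurs in `J₀(M)[p]`. -/
def PrincipleAtP : Prop :=
  ∀ {M p : ℕ} [NeZero M] [Fact p.Prime], (5 ≤ p ∨ (p = 3 ∧ 2 ∣ M)) → ¬ p ∣ M →
    ∀ (ρ : Γℚ →* Matrix (Fin 2) (Fin 2) (ZMod p)),
      Submodule.span (ZMod p) (Set.range ρ) = ⊤ →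
      (∃ L : IntermediateField ℚ Qbar, FiniteDimensional ℚ L ∧
        ∀ σ : Γℚ, (∀ x ∈ L, σ x = x) → ρ σ = 1) →
      ∀ (a : ℕ → ℕ),
        (∀ l : ℕ, l.Prime → ¬ l ∣ M * p * p →
          ∀ A : ValuationSubring Qbar, A.LiesOverPrime l → ∀ σ : Γℚ, A.IsFrobeniusAt σ l →
            (ρ σ).trace = (a l : ZMod p) ∧ (ρ σ).det = (l : ZMod p)) →
        (∃ A : ValuationSubring Qbar, A.LiesOverPrime p ∧ Nonempty (KummerShape A ρ)) →
        (∃ l : ℕ, l.Prime ∧ ¬ l ∣ M * p * p ∧ (a l : ZMod p) ≠ (l : ZMod p) + 1) →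
        (∃ x : JZero (M * p), x ≠ 0 ∧ p • x = 0 ∧ ∀ (l : ℕ) (hl : l.Prime), ¬ l ∣ M * p * p →
          heckeOperatorBar (M * p) ⟨l, hl⟩ x = a l • x) →
        ∃ x : JZero M, x ≠ 0 ∧ p • x = 0 ∧ ∀ (l : ℕ) (hl : l.Prime), ¬ l ∣ M * p * p →
          heckeOperatorBar M ⟨l, hl⟩ x = a l • x

/-- A prime above `p`. -/
theorem exists_over (p : ℕ) (hp : p.Prime) :
    ∃ A : ValuationSubring Qbar, A.LiesOverPrime p := by
  obtain ⟨A, -, hA, -⟩ := Frobenius.exists_liesOverPrime_isFrobeniusAt hp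
  exact ⟨A, hA⟩

/-- The Frey form of lowering at `p`. -/
theorem freyLowerAtP_of_principle (hcore : PrincipleAtP) (P : FreyPackage) :
    Wiring.FreyLowerAtP P := by
  intro N hcond hpN hirr hmod
  haveI : Fact P.p.Prime := ⟨P.pp⟩
  have hp5 := P.hp5
  have hp2 : P.p ≠ 2 := by omega
  have hΔ := Frey.freyCurveInt_Δ_ne_zero P
  have hirr' : P.freyCurveInt.ModRepIsIrreducible P.p := by
    rw [ModRepIsIrreducible, Frey.freyCurveInt_map]; exact hirr
  obtain ⟨M, rfl⟩ := hpN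
  have hM : 0 < M := Nat.pos_of_ne_zero fun h => (hcond.pos.ne' (by rw [h, mul_zero]))
  haveI : NeZero M := ⟨hM.ne'⟩
  haveI : NeZero (M * P.p) := ⟨Nat.mul_ne_zero hM.ne' P.pp.ne_zero⟩
  have hpM : ¬ P.p ∣ M := fun h => hcond.sq_not_dvd P.pp (by rw [pow_two]; exact Nat.mul_dvd_mul_left _ h)
  have hbad : (P.p : ℤ) ∣ P.freyCurveInt.Δ := by
    have h1 : (P.p : ℤ) ∣ 256 * P.freyCurveInt.Δ := by
      rw [Frey.freyCurveInt_Δ]
      exact dvd_pow (hcond.p_dvd_abc (dvd_mul_right _ _))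
        (Nat.mul_ne_zero two_ne_zero P.pp.ne_zero)
    refine ((Nat.prime_iff_prime_int.1 P.pp).dvd_or_dvd h1).resolve_left fun h => hp2 ?_
    have h2 : P.p ∣ 2 ^ 8 := by exact_mod_cast (h.trans (by norm_num : (256 : ℤ) ∣ 2 ^ 8))
    exact (Nat.prime_dvd_prime_iff_eq P.pp Nat.prime_two).1 (P.pp.dvd_of_dvd_pow h2)
  obtain ⟨A, hA⟩ := exists_over P.p P.pp
  have hK := nonempty_kummerShape hΔ hA hp2 hbad
    (Frey.freyCurveInt_isSemistableModel P P.p P.pp hbad)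
    (Frey.p_dvd_padicValInt_Δ P P.pp hp2)
  have hmod' := isResiduallyModularOfLevel_of_modularRepOfLevel P hcond.pos hmod
  rw [Nat.mul_comm] at hmod'
  have hK0 : M * P.p * P.p ≠ 0 := mul_ne_zero (NeZero.ne (M * P.p)) P.pp.ne_zero
  obtain ⟨l, hl, hlS, hne⟩ := exists_frobTrace_ne hΔ P.p hp2 hirr' (M * P.p * P.p).primeFactors
  obtain ⟨x, h1, h2, h3⟩ := exists_eigenTorsion_of_isResiduallyModularOfLevel hΔ hmod'
  obtain ⟨y, hy, hpy, hT⟩ := hcore (Or.inl hp5) hpM (torsMat hΔ P.p)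
    (span_torsMat_eq_top hΔ P.p hp2 hirr') (exists_fixing_torsMat_eq_one hΔ P.p)
    (frobTrace hΔ P.p)
    (fun k hk hkK => torsMat_of_isResiduallyModularOfLevel hΔ hmod' hk
      (fun h => hkK (h.mul_right _)) (fun h => hkK (h ▸ dvd_mul_left P.p (M * P.p))))
    ⟨A, hA, hK⟩ ⟨l, hl, fun h => hlS (Nat.mem_primeFactors.2 ⟨hl, h, hK0⟩), hne⟩
    ⟨x, h1, h2, fun k hk hkK => h3 k hk (fun h => hkK (h.mul_right _))
      (fun h => hkK (h ▸ dvd_mul_left P.p (M * P.p)))⟩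
  refine ⟨M, dvd_mul_left M _, hpM, (modularRepOfLevel_iff P hM).2 ?_⟩
  refine isResiduallyModularOfLevel_of_eigenTorsion hΔ hy hpy {P.p}
    fun k hk hkM hkS => hT k hk fun h => ?_
  rw [Finset.mem_singleton] at hkS
  rcases hk.dvd_mul.1 h with h' | h'
  · rcases hk.dvd_mul.1 h' with h'' | h''
    · exact hkM h''
    · exact hkS ((Nat.prime_dvd_prime_iff_eq hk P.pp).1 h'')
  · exact hkS ((Nat.prime_dvd_prime_iff_eq hk P.pp).1 h')

end FLTAgent.MazurP
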