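import Fermat.Agent.MazurP.Supersingular
import Fermat.Agent.MazurP.LocalGood
import Fermat.Agent.RT.Lower.Away

/-!
# Lowering at `p` for curves semistable at `p`
-/

set_option autoImplicit false
set_option linter.style.haveILetI false

noncomputable section

open WeierstrassCurve ModularCurve
open scoped WeierstrassCurve.Affine

namespace FLTAgent.MazurP

open FLTAgent.LevelLower FLTAgent.LevelLower.Endgame

local notation "Qbar" => AlgebraicClosure ℚ
local notation "Γℚ" => AlgebraicClosure ℚ ≃ₐ[ℚ] AlgebraicClosure ℚ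

variable {W : WeierstrassCurve ℤ} {p : ℕ} [Fact p.Prime]

set_option maxHeartbeats 1600000 in
-- the classes live in a large quotient
/-- A peu ramifié residual system of level `M p` has level `M`, for `p ≥ 5` and for `p = 3` with
`M` even. -/
theorem isResiduallyModularOfLevel_of_peu (hΔ : W.Δ ≠ 0) (hp2 : p ≠ 2)
    (hsemi : (p : ℤ) ∣ W.Δ → ¬ (p : ℤ) ∣ W.c₄) (hirr : W.ModRepIsIrreducible p)
    (hpeu : (W.map (Int.castRingHom ℚ)).IsPeuRamifieeAt p p) {M : ℕ} (hM : 0 < M)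
    (hp3 : 5 ≤ p ∨ (p = 3 ∧ 2 ∣ M)) (hpM : ¬ p ∣ M)
    (hmod : W.IsResiduallyModularOfLevel p (M * p)) : W.IsResiduallyModularOfLevel p M := by
  have hp : p.Prime := Fact.out
  haveI : NeZero M := ⟨hM.ne'⟩
  haveI : NeZero (M * p) := ⟨Nat.mul_ne_zero hM.ne' hp.ne_zero⟩
  haveI : NeZero (M * p * p) := ⟨Nat.mul_ne_zero (NeZero.ne (M * p)) hp.ne_zero⟩
  have hK0 : M * p * p ≠ 0 := NeZero.ne _
  set a := frobTrace hΔ p
  have of_eigen : ∀ y : JZero M, y ≠ 0 → p • y = 0 →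
      (∀ (k : ℕ) (hk : k.Prime), ¬ k ∣ M * p * p → heckeOperatorBar M ⟨k, hk⟩ y = a k • y) →
      W.IsResiduallyModularOfLevel p M := fun y hy hpy hT =>
    isResiduallyModularOfLevel_of_eigenTorsion hΔ hy hpy {p} fun k hk hkM hkS => hT k hk fun h => by
      rw [Finset.mem_singleton] at hkS
      rcases hk.dvd_mul.1 h with h' | h'
      · rcases hk.dvd_mul.1 h' with h'' | h''
        · exact hkM h''
        · exact hkS ((Nat.prime_dvd_prime_iff_eq hk hp).1 h'')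
      · exact hkS ((Nat.prime_dvd_prime_iff_eq hk hp).1 h')
  by_contra hno
  have habs : ∀ y ∈ eigenSub M p a (M * p * p), y = 0 := fun y hy => by
    by_contra hy0
    exact hno (of_eigen y hy0 hy.1 fun k hk hkS => hy.2 ⟨k, hk⟩ hkS)
  obtain ⟨A, hA⟩ := exists_over p hp
  haveI : CharP (IsLocalRing.ResidueField A) p :=
    WeilPairing.charP_residueField hp hA
  haveI := GoodRed.isAlgClosed_residue A
  obtain ⟨x, h1, h2, h3⟩ := exists_eigenTorsion_of_isResiduallyModularOfLevel hΔ hmod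
  have hfrob : ∀ k : ℕ, k.Prime → ¬ k ∣ M * p * p → ∀ A : ValuationSubring Qbar,
      A.LiesOverPrime k → ∀ σ : Γℚ, A.IsFrobeniusAt σ k →
        (torsMat hΔ p σ).trace = (a k : ZMod p) ∧ (torsMat hΔ p σ).det = (k : ZMod p) :=
    fun k hk hkK => torsMat_of_isResiduallyModularOfLevel hΔ hmod hk
      (fun h => hkK (h.mul_right _)) (fun h => hkK (h ▸ dvd_mul_left p (M * p)))
  have hTx : ∀ (k : ℕ) (hk : k.Prime), ¬ k ∣ M * p * p →
      heckeOperatorBar (M * p) ⟨k, hk⟩ x = a k • x := fun k hk hkK =>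
    h3 k hk (fun h => hkK (h.mul_right _)) (fun h => hkK (h ▸ dvd_mul_left p (M * p)))
  have hxE : x ∈ eigenSub (M * p) p a (M * p * p) := ⟨h2, fun l hl => hTx l.1 l.2 hl⟩
  have hshape := nonempty_kummerShape_of_data hΔ
    (Local.exists_kummer_data_of_semistable hA hp2 hΔ hsemi (fun _ => hpeu) fun _ =>
      exists_line_of_trace hA hΔ hp2 fun σ hσ =>
        trace_eq_cyclo_add_one hA hp3 hpM (det_torsMat_cyclo hΔ)
          (exists_fixing_torsMat_eq_one hΔ p) hfrob habs hxE h1 hσ)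
  obtain ⟨l, hl, hlS, hne⟩ := exists_frobTrace_ne hΔ p hp2 hirr (M * p * p).primeFactors
  obtain ⟨y, hy, hpy, hT⟩ := principleAtP hp3 hpM (torsMat hΔ p)
    (span_torsMat_eq_top hΔ p hp2 hirr) (exists_fixing_torsMat_eq_one hΔ p) a hfrob
    ⟨A, hA, hshape⟩ ⟨l, hl, fun h => hlS (Nat.mem_primeFactors.2 ⟨hl, h, hK0⟩), hne⟩
    ⟨x, h1, h2, hTx⟩
  exact hno (of_eigen y hy hpy hT)

/-- Lowering at `p ≥ 5`. -/
theorem lowerAtP_five (hΔ : W.Δ ≠ 0) (hp5 : 5 ≤ p) (hsemi : (p : ℤ) ∣ W.Δ → ¬ (p : ℤ) ∣ W.c₄)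
    (hirr : W.ModRepIsIrreducible p) (hpeu : (W.map (Int.castRingHom ℚ)).IsPeuRamifieeAt p p)
    {M : ℕ} (hM : 0 < M) (hpM : p ∣ M) (hp2M : ¬ p ^ 2 ∣ M)
    (hmod : W.IsResiduallyModularOfLevel p M) : W.IsResiduallyModularOfLevel p (M / p) := by
  obtain ⟨N, rfl⟩ := hpM
  have hp : p.Prime := Fact.out
  rw [Nat.mul_div_cancel_left _ hp.pos]
  exact isResiduallyModularOfLevel_of_peu hΔ (by omega) hsemi hirr hpeu
    (Nat.pos_of_ne_zero fun h => hM.ne' (by rw [h, mul_zero])) (Or.inl hp5)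
    (fun h => hp2M (by rw [pow_two]; exact Nat.mul_dvd_mul_left p h)) (mul_comm p N ▸ hmod)

/-- Lowering at `p` up to the prime `2`. -/
theorem lowerAtPAt (hp2 : p ≠ 2) (hΔ : W.Δ ≠ 0) (hss : W.IsSemistableModel)
    (hirr : W.ModRepIsIrreducible p) : RT.Lower.LowerAtPAt W p := by
  intro M hsq hpM hpeu hmod
  have hp : p.Prime := Fact.out
  obtain ⟨N, rfl⟩ := hpM
  rw [Nat.mul_div_cancel_left _ hp.pos]
  have hN : N ≠ 0 := fun h => hsq.ne_zero (by rw [h, mul_zero])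
  have hpN : ¬ p ∣ Nat.lcm 2 N := fun h => by
    rcases hp.dvd_mul.1 (h.trans (Nat.lcm_dvd_mul 2 N)) with h' | h'
    · exact hp2 ((Nat.prime_dvd_prime_iff_eq hp Nat.prime_two).1 h')
    · exact hp.not_isUnit (hsq p (Nat.mul_dvd_mul_left p h'))
  have hL : Nat.lcm 2 N ≠ 0 := Nat.lcm_ne_zero two_ne_zero hN
  haveI : NeZero (Nat.lcm 2 N * p) := ⟨Nat.mul_ne_zero hL hp.ne_zero⟩
  refine isResiduallyModularOfLevel_of_peu hΔ hp2 (hss p hp) hirr hpeu (Nat.pos_of_ne_zero hL)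
    ?_ hpN (isResiduallyModularOfLevel_mono (mul_comm p N ▸
      Nat.mul_dvd_mul_right (Nat.dvd_lcm_right 2 N) p) hmod)
  by_cases h5 : 5 ≤ p
  · exact Or.inl h5
  · exact Or.inr ⟨by
      by_contra h3
      exact h5 (hp.five_le_of_ne_two_of_ne_three hp2 h3), Nat.dvd_lcm_left 2 N⟩

end FLTAgent.MazurP
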