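import Fermat.Agent.LevelLower.AuxMap
import Fermat.Agent.FlatModel.X0Curve
import Fermat.Agent.Eisen.OrderSeries

/-!
# The norms to the lower level at an auxiliary level

For `M ∣ M'` and `q ∤ M'` the second degeneracy image of `j` generates level `M' q` over level
`M'`, so both norms to the lower level commute with the pullback of functions to level `M' q`.
-/

set_option autoImplicit false
set_option linter.style.haveILetI false
set_option linter.unusedSectionVars false
set_option synthInstance.maxHeartbeats 100000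

noncomputable section

open ModularCurve AlgebraicCurve

namespace FLTAgent.MazurP

open FLTAgent.Semistable FLTAgent.LevelLower FLTAgent.Hecke FLTAgent.FunctionField

local notation "Qbar" => AlgebraicClosure ℚ

/-- The norm along an embedding followed by an automorphism. -/
theorem normAlong_of_conj {L F B : Type*} [Field L] [Field F] [Field B] [Algebra L F] [Algebra L B]
    {φ ψ : F →ₐ[L] B} (w : B ≃ₐ[L] B) (h : ∀ u, w (φ u) = ψ u) (x : B) :
    normAlong ψ (w x) = normAlong φ x := by
  have h1 := @Algebra.norm_eq_of_equiv_equiv F B F B _ _ _ _ (algebraAlong φ) (algebraAlong ψ)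
    (RingEquiv.refl F) w.toRingEquiv (RingHom.ext fun u => (h u).symm) x
  exact h1.symm

/-- Series with pairwise distinct orders have a nonzero sum. -/
theorem sum_ne_zero_of_order {R : Type*} [Ring R] {ι : Type*} [DecidableEq ι] (s : Finset ι)
    (f : ι → LaurentSeries R) (hne : ∃ i ∈ s, f i ≠ 0)
    (hinj : ∀ i ∈ s, ∀ j ∈ s, f i ≠ 0 → f j ≠ 0 → (f i).order = (f j).order → i = j) :
    ∑ i ∈ s, f i ≠ 0 := by
  classical
  have hs : (s.filter fun i => f i ≠ 0).Nonempty := by
    obtain ⟨i, hi, h⟩ := hne
    exact ⟨i, Finset.mem_filter.2 ⟨hi, h⟩⟩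
  obtain ⟨i₀, hi₀, hmin⟩ := Finset.exists_min_image _ (fun i => (f i).order) hs
  rw [Finset.mem_filter] at hi₀
  intro h
  have h1 := congrArg (fun z : LaurentSeries R => z.coeff (f i₀).order) h
  simp only [HahnSeries.coeff_sum, HahnSeries.coeff_zero] at h1
  rw [Finset.sum_eq_single_of_mem i₀ hi₀.1 fun j hj hne' => ?_] at h1
  · exact hi₀.2 (HahnSeries.coeff_order_eq_zero.1 h1)
  · by_cases hj0 : f j = 0
    · simp [hj0]
    · refine HahnSeries.coeff_eq_zero_of_lt_order (lt_of_le_of_ne
        (hmin j (Finset.mem_filter.2 ⟨hj, hj0⟩)) fun he => hne' ?_)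
      exact (hinj i₀ hi₀.1 j hj hi₀.2 hj0 he).symm

variable {M M' : ℕ} [NeZero M] [NeZero M'] {q : ℕ} [Fact q.Prime]

local instance instNeZeroQNormBase : NeZero q := ⟨(Fact.out : q.Prime).ne_zero⟩
local instance instNeZeroLevelNormBase : NeZero (M * q) :=
  ⟨Nat.mul_ne_zero (NeZero.ne M) (NeZero.ne q)⟩
local instance instNeZeroLevelNormBase' : NeZero (M' * q) :=
  ⟨Nat.mul_ne_zero (NeZero.ne M') (NeZero.ne q)⟩

set_option maxHeartbeats 800000 in
/-- The second image of `j` generates level `M q` over level `M`. -/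
theorem adjoin_betaMap_j (hqM : ¬ q ∣ M) :
    letI := algebraAlong (alphaMap Qbar M q)
    Algebra.adjoin (MF Qbar M) {betaMap Qbar M q (jMF Qbar M)} = ⊤ := by
  letI := algebraAlong (alphaMap Qbar M q)
  haveI : Module.Finite (MF Qbar M) (MF Qbar (M * q)) := finite_alongAlpha M
  set x := betaMap Qbar M q (jMF Qbar M) with hx
  have hint : IsIntegral (MF Qbar M) x := IsIntegral.of_finite _ x
  have hd : (minpoly (MF Qbar M) x).natDegree ∣ q + 1 := by
    have h1 := Module.finrank_mul_finrank (MF Qbar M) (IntermediateField.adjoin (MF Qbar M) {x})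
      (MF Qbar (M * q))
    rw [IntermediateField.adjoin.finrank hint,
      show Module.finrank (MF Qbar M) (MF Qbar (M * q)) = q + 1 from
        finrankAlong_alphaMap Qbar M q Fact.out hqM] at h1
    exact Dvd.intro _ h1
  have hge : q ≤ (minpoly (MF Qbar M) x).natDegree := by
    by_contra hlt
    push Not at hlt
    set P := minpoly (MF Qbar M) x with hP
    have h0 : Polynomial.aeval x P = 0 := minpoly.aeval _ _
    rw [Polynomial.aeval_eq_sum_range] at h0
    have h1 := congrArg (fun z : MF Qbar (M * q) => ((swapW M hqM z : MF Qbar (M * q)) :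
      LaurentSeries Qbar)) h0
    simp only [map_sum, map_zero, AddSubmonoidClass.coe_finsetSum, ZeroMemClass.coe_zero] at h1
    have ej : swapW M hqM x = alphaMap Qbar M q (jMF Qbar M) := by
      rw [hx, swapW_beta]
    have e : ∀ i, ((swapW M hqM (P.coeff i • x ^ i) : MF Qbar (M * q)) : LaurentSeries Qbar) =
        qExpand Qbar q (P.coeff i : LaurentSeries Qbar) * jqModC Qbar ^ i := fun i => by
      show ((swapW M hqM (alphaMap Qbar M q (P.coeff i) * x ^ i) : MF Qbar (M * q)) :
        LaurentSeries Qbar) = _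
      rw [map_mul, map_pow, ej, swapW_alpha, MulMemClass.coe_mul, SubmonoidClass.coe_pow,
        coe_betaMap, coe_alphaMap, jMF_coe]
    simp only [e] at h1
    refine sum_ne_zero_of_order _ _ ⟨P.natDegree, Finset.self_mem_range_succ _, ?_⟩ ?_ h1
    · refine mul_ne_zero ?_ (pow_ne_zero _ ?_)
      · rw [Polynomial.coeff_natDegree, minpoly.monic hint, OneMemClass.coe_one, map_one]
        exact one_ne_zero
      · intro h
        have := FlatModel.jqModC_order Qbar
        rw [h, HahnSeries.order_zero] at this
        norm_num at this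
    · intro i hi j hj hi0 hj0 he
      rw [Finset.mem_range] at hi hj
      have hord : ∀ k : ℕ, qExpand Qbar q (P.coeff k : LaurentSeries Qbar) * jqModC Qbar ^ k ≠ 0 →
          ∃ t : ℤ, (qExpand Qbar q (P.coeff k : LaurentSeries Qbar) * jqModC Qbar ^ k).order =
            (q : ℤ) * t - k := fun k hk => by
        obtain ⟨h2, h3⟩ := mul_ne_zero_iff.1 hk
        refine ⟨(P.coeff k : LaurentSeries Qbar).order, ?_⟩
        rw [HahnSeries.order_mul h2 h3, HahnSeries.order_pow, FlatModel.jqModC_order,
          Eisen.order_qExpand' q fun h => h2 (by rw [h, map_zero])]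
        ring
      obtain ⟨s, hs⟩ := hord i hi0
      obtain ⟨t, ht⟩ := hord j hj0
      rw [hs, ht] at he
      have h4 : (q : ℤ) ∣ (i : ℤ) - j := ⟨s - t, by linear_combination -he⟩
      have h5 := Int.eq_zero_of_abs_lt_dvd h4 (by rw [abs_lt]; constructor <;> omega)
      omega
  have hdeg : (minpoly (MF Qbar M) x).natDegree = q + 1 := by
    obtain ⟨c, hc⟩ := hd
    have h2 := (Fact.out : q.Prime).two_le
    have hc0 : c ≠ 0 := fun h => by simp [h] at hc
    by_contra hne
    have hc2 : 2 ≤ c := by
      by_contra h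
      obtain rfl : c = 1 := by omega
      omega
    have : (minpoly (MF Qbar M) x).natDegree * 2 ≤ q + 1 := hc ▸ Nat.mul_le_mul_left _ hc2
    omega
  have htop : IntermediateField.adjoin (MF Qbar M) {x} = ⊤ := by
    refine IntermediateField.eq_of_le_of_finrank_eq le_top ?_
    rw [IntermediateField.adjoin.finrank hint, hdeg, IntermediateField.finrank_top']
    exact (finrankAlong_alphaMap Qbar M q Fact.out hqM).symm
  rw [← IntermediateField.adjoin_simple_toSubalgebra_of_isAlgebraic hint.isAlgebraic, htop,
    IntermediateField.top_toSubalgebra]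

set_option maxHeartbeats 800000 in
/-- The first norm commutes with the pullback to the auxiliary level. -/
theorem normAlong_alpha_upMap (h : M ∣ M') (hqM : ¬ q ∣ M) (hqM' : ¬ q ∣ M')
    (f : MF Qbar (M * q)) :
    normAlong (alphaMap Qbar M' q) (upMap q h f) =
      degMap Qbar 1 (show M * 1 ∣ M' by rwa [mul_one]) (normAlong (alphaMap Qbar M q) f) := by
  letI := algebraAlong (alphaMap Qbar M' q)
  refine normAlong_baseChange (degMap Qbar 1 (show M * 1 ∣ M' by rwa [mul_one]))
    (alphaMap Qbar M q) (upMap q h) (alphaMap Qbar M' q)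
    (fun x => Subtype.ext (by rw [coe_alphaMap, coe_upMap, coe_degMap, coe_alphaMap,
      qExpand_one_apply]))
    (finite_alongAlpha M) ?_ ?_ f
  · rw [finrankAlong_alphaMap Qbar M' q Fact.out hqM', finrankAlong_alphaMap Qbar M q Fact.out hqM]
  · refine eq_top_iff.2 ((adjoin_betaMap_j hqM').ge.trans (Algebra.adjoin_mono ?_))
    rw [Set.singleton_subset_iff]
    refine ⟨betaMap Qbar M q (jMF Qbar M), Subtype.ext ?_⟩
    rw [coe_upMap, coe_betaMap, coe_betaMap, jMF_coe, jMF_coe]

/-- The second norm is the first one of the exchanged function. -/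
theorem normAlong_beta_eq (hqM : ¬ q ∣ M) (f : MF Qbar (M * q)) :
    normAlong (betaMap Qbar M q) f = normAlong (alphaMap Qbar M q) (swapW M hqM f) :=
  (normAlong_of_conj (swapW M hqM) (fun u => swapW_beta M hqM u) f).symm

/-- The second norm commutes with the pullback to the auxiliary level. -/
theorem normAlong_beta_upMap (h : M ∣ M') (hqM : ¬ q ∣ M) (hqM' : ¬ q ∣ M')
    (f : MF Qbar (M * q)) :
    normAlong (betaMap Qbar M' q) (upMap q h f) =
      degMap Qbar 1 (show M * 1 ∣ M' by rwa [mul_one]) (normAlong (betaMap Qbar M q) f) := by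
  rw [normAlong_beta_eq hqM', normAlong_beta_eq hqM, ← upMap_swapW h hqM hqM',
    normAlong_alpha_upMap h hqM hqM']

end FLTAgent.MazurP
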