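import Fermat.Agent.LevelLower.Crossing
import Fermat.Agent.LevelLower.Flatten
import Fermat.Agent.Semistable.PTorsNorm

/-!
# Norms of functions with different scales on the two components

If `f` reduces to `a` on the first component and `c • f` to `b` on the second, then
`c ^ q • N f` reduces to `a` times the element whose image under `frob` is `b ^ q`.  Hence the
divisor of any function, pushed to the special fibre, is the sum of the divisors of its two
scaled reductions.
-/

set_option autoImplicit false
set_option linter.unusedSectionVars false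

noncomputable section

open AlgebraicCurve

namespace FLTAgent.MazurP

open FLTAgent.GoodRed FLTAgent.GoodRed.RedDatum FLTAgent.FunctionField FLTAgent.Semistable
  FLTAgent.LevelLower

variable {L k : Type*} [Field L] [Field k] {A : ValuationSubring L} {π : A →+* k}
  {E F C : Type*} [Field E] [Algebra L E] [Field F] [Algebra L F] [Algebra E F]
  [IsScalarTower L E F] [Field C] [Algebra k C]
  {DE : RedDatum A π E C} {D D' : RedDatum A π F C} {frob : C →ₐ[k] C} {q : ℕ}

/-- The norm of a scalar multiple. -/
theorem norm_smul_of_degree (hS : OneSide DE D D' frob q) (d : L) (y : F) :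
    Algebra.norm E (d • y) = (d ^ (q + 1)) • Algebra.norm E y := by
  rw [Algebra.smul_def, IsScalarTower.algebraMap_apply L E F, map_mul, Algebra.norm_algebraMap,
    hS.degree, Algebra.smul_def, map_pow]

omit [Algebra E F] [IsScalarTower L E F] in
/-- Division by `d` of an element close to `d`. -/
theorem red_inv_smul {d : A} (hd : (d : L) ∈ A.nonunits) (hd0 : (d : L) ≠ 0) {y : F}
    (h : Close D (d * d) y ((d : L) • (1 : F))) : D.Red ((d : L)⁻¹ • y) 1 := by
  obtain ⟨w, hw, e⟩ := h
  obtain ⟨z, hz⟩ := exists_red hw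
  have hy : (d : L)⁻¹ • y = 1 + (d : L) • w := by
    rw [show y = (d : L) • (1 : F) + ((d * d : A) : L) • w by rw [← e]; abel, smul_add,
      smul_smul, smul_smul, MulMemClass.coe_mul, inv_mul_cancel₀ hd0, inv_mul_cancel_left₀ hd0,
      one_smul]
  have h1 : D.Red ((d : L) • w) 0 := by
    have := red_smul d hz
    rwa [(D.isResidue.eq_zero_iff _).2 hd, zero_smul] at this
  rw [hy]
  simpa using red_one.add h1

variable [CharP C q]

/-- An element of size `d` on the first component and one on the second. -/
theorem exists_scaler (hS : OneSide DE D D' frob q) {d : A} (hd : (d : L) ∈ A.nonunits)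
    (hd0 : (d : L) ≠ 0) :
    ∃ ψ : F, D.Red ((d : L)⁻¹ • ψ) 1 ∧ D'.Red ψ 1 ∧
      DE.Red ((d : L)⁻¹ • Algebra.norm E ψ) 1 := by
  obtain ⟨e₀, he₀, he₀'⟩ := hS.sep
  have hN0 : ((d * d : A) : L) ≠ 0 := by simp [hd0]
  have hNn : ((d * d : A) : L) ∈ A.nonunits := by
    rw [← D.isResidue.eq_zero_iff, map_mul, (D.isResidue.eq_zero_iff _).2 hd, zero_mul]
  obtain ⟨e, he, he'⟩ := exists_sharp_idempotent hS.rankOne he₀ he₀' hN0 hNn
  set ψ := (d : L) • e + (1 - e) with hψ
  have h1 : Close D (d * d) ψ ((d : L) • (1 : F)) := by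
    have h := (((he.mul_left (smul_mem_V D d D.V.one_mem)).add
      ((Close.refl (D := D) (c := d * d) (1 : F)).sub he)))
    simpa [hψ] using h
  have h2 : Close D' (d * d) ψ 1 := by
    have h := ((he'.mul_left (smul_mem_V D' d D'.V.one_mem)).add
      ((Close.refl (D := D') (c := d * d) (1 : F)).sub he'))
    simpa [hψ] using h
  have hred : D.Red ψ 0 := by
    refine h1.red hNn ?_
    simpa [(D.isResidue.eq_zero_iff _).2 hd] using red_smul d (red_one (D := D))
  refine ⟨ψ, red_inv_smul hd hd0 h1, h2.red hNn red_one, red_inv_smul hd hd0 ?_⟩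
  have h3 := (hS.norm_close hNn he he' hred h2).trans h1
  have h4 : Close D (d * d)
      (algebraMap E F (Algebra.norm E ψ - (d : L) • (1 : E))) 0 := by
    rw [map_sub, algebraMap_smul_tower, map_one]
    simpa using h3.sub (Close.refl ((d : L) • (1 : F)))
  simpa using (hS.close_of_algebraMap h4).add (Close.refl ((d : L) • (1 : E)))

/-- The reduction of the norm of a function with reductions at different scales. -/
theorem red_norm_gap (hS : OneSide DE D D' frob q) {f : F} {a b w : C} {c : L} (hc : c ≠ 0)
    (ha : D.Red f a) (hb : D'.Red (c • f) b) (hw : frob w = b ^ q) :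
    DE.Red ((c ^ q) • Algebra.norm E f) (a * w) := by
  have := hS.finiteDimensional
  by_cases hcA : c ∈ A
  · by_cases hcn : c ∈ A.nonunits
    · obtain ⟨ψ, hψ, hψ', hN⟩ := exists_scaler hS (d := ⟨c, hcA⟩) hcn hc
      have hψ0 : ψ ≠ 0 := hψ'.ne_zero one_ne_zero
      have e : ∀ y : F, c • (y / ψ) = y / (c⁻¹ • ψ) := fun y => by
        rw [Algebra.smul_def, Algebra.smul_def, map_inv₀]
        field_simp
      have h1 : D.Red (c • (f / ψ)) a := by
        rw [e]; simpa using ha.div hψ one_ne_zero
      have h2 : D'.Red (c • (f / ψ)) b := by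
        simpa [smul_div_assoc] using hb.div hψ' one_ne_zero
      have h3 := (hS.red_norm h1 h2 hw).mul hN
      rw [mul_one] at h3
      convert h3 using 1
      have hn0 : Algebra.norm E ψ ≠ 0 := Algebra.norm_ne_zero_iff.2 hψ0
      rw [norm_smul_of_degree hS, div_eq_mul_inv, map_mul, Algebra.norm_inv, Algebra.smul_def,
        Algebra.smul_def, Algebra.smul_def, map_inv₀, map_pow, map_pow]
      have hcE : algebraMap L E c ≠ 0 := (map_ne_zero _).2 hc
      simp only
      field_simp
      ring
    · have hv : A.valuation c = 1 :=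
        le_antisymm ((A.valuation_le_one_iff c).2 hcA)
          (not_lt.1 fun h => hcn (A.mem_nonunits_iff.2 h))
      have hinv : c⁻¹ ∈ A := by
        rw [← A.valuation_le_one_iff, map_inv₀, hv, inv_one]
      have h1 := red_smul ⟨c, hcA⟩ ha
      have h3 := hS.red_norm h1 hb hw
      have h4 := red_smul (⟨c⁻¹, hinv⟩ : A) h3
      convert h4 using 1
      · show _ = c⁻¹ • Algebra.norm E (c • f)
        rw [norm_smul_of_degree hS, smul_smul, pow_succ', inv_mul_cancel_left₀ hc]
      · rw [smul_mul_assoc, smul_smul, ← map_mul,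
          show (⟨c⁻¹, hinv⟩ : A) * ⟨c, hcA⟩ = 1 from Subtype.ext (inv_mul_cancel₀ hc), map_one,
          one_smul]
  · have hdn : c⁻¹ ∈ A.nonunits := by
      rw [ValuationSubring.inv_mem_nonunits_iff]; exact Or.inr hcA
    obtain ⟨ψ, hψ, hψ', hN⟩ :=
      exists_scaler hS (d := ⟨c⁻¹, A.nonunits_subset hdn⟩) hdn (inv_ne_zero hc)
    simp only [inv_inv] at hψ hN
    have hψ0 : ψ ≠ 0 := hψ'.ne_zero one_ne_zero
    have h1 : D.Red (c • (f * ψ)) a := by
      rw [← mul_smul_comm]; simpa using ha.mul hψ
    have h2 : D'.Red (c • (f * ψ)) b := by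
      rw [← smul_mul_assoc]; simpa using hb.mul hψ'
    have h3 := (hS.red_norm h1 h2 hw).div hN one_ne_zero
    rw [div_one] at h3
    convert h3 using 1
    have hn0 : Algebra.norm E ψ ≠ 0 := Algebra.norm_ne_zero_iff.2 hψ0
    rw [norm_smul_of_degree hS, map_mul, Algebra.smul_def, Algebra.smul_def, Algebra.smul_def,
      map_pow, map_pow]
    have hcE : algebraMap L E c ≠ 0 := (map_ne_zero _).2 hc
    field_simp
    ring

omit [CharP C q] in
/-- The divisor of a function pushed to the special fibre, with reductions at different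
scales. -/
theorem mapDomain_divisorOf_gap [IsFunctionField L E] [IsFunctionField L F]
    [IsFunctionField k C] [IsAlgClosed L] [IsAlgClosed k] [Module.Finite E F] [CharP k q]
    {ι : Type*} [Fintype ι] (S : CrossData DE D D' frob q ι) {f : F} {α β : C} {c : L}
    (hc : c ≠ 0) (ha : D.Red f α) (hb : D'.Red (c • f) β) (ha0 : α ≠ 0) (hb0 : β ≠ 0)
    (v : Place k C) :
    Finsupp.mapDomain (below S) (divisorOf (K := L) f) v
      = v.ord α + (S.frP.symm v).ord β := by
  have : CharP C q := charP_of_injective_algebraMap (algebraMap k C).injective q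
  obtain ⟨w, hw⟩ := S.hpow β
  have hw0 : w ≠ 0 := fun h0 => pow_ne_zero q hb0 (by rw [← hw, h0, map_zero])
  have hN := red_norm_gap S.side hc ha hb hw
  have hf : f ≠ 0 := ha.ne_zero ha0
  have h1 := S.R.map_divisorOf _ _ hN (mul_ne_zero ha0 hw0)
  rw [divisorOf_smul (pow_ne_zero q hc) (Algebra.norm_ne_zero_iff.2 hf)] at h1
  rw [show below S = S.R.r ∘ (fun P : Place L F => P.restrict E) from rfl, Finsupp.mapDomain_comp,
    ← divisorOf_norm hf, h1, divisorOf_apply, v.ord_mul ha0 hw0, ord_w S hw]

end FLTAgent.MazurP
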