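import Fermat.Agent.MazurP.Regular

/-!
# The position of the point over a crossing

If the orders at a crossing of the two reductions of `g`, `div g = m • X`, are not multiples of
`m`, some rational `f` makes `div f + X` a single rational point `P` over the tube.  The value
`τ` of the witness at `P` then satisfies `|τ| ^ m * |q| ^ β = 1` for some `0 < β < m`.
-/

set_option autoImplicit false
set_option linter.unusedSectionVars false

noncomputable section

open AlgebraicCurve SemilinearAut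

namespace FLTAgent.MazurP

open FLTAgent.GoodRed FLTAgent.GoodRed.RedDatum FLTAgent.FunctionField FLTAgent.Semistable
  FLTAgent.LevelLower

variable {L k : Type*} [Field L] [Field k] {A : ValuationSubring L} {π : A →+* k}
  {E F C : Type*} [Field E] [Algebra L E] [Field F] [Algebra L F] [Algebra E F]
  [IsScalarTower L E F] [Field C] [Algebra k C]
  [IsFunctionField L E] [IsFunctionField L F] [IsFunctionField k C] [IsAlgClosed L]
  [IsAlgClosed k] [Module.Finite E F]
  {DE : RedDatum A π E C} {D D' : RedDatum A π F C} {frob : C →ₐ[k] C} {q : ℕ}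
  {ι : Type*} [Fintype ι] (S : CrossData DE D D' frob q ι)

/-- Rational constants and functions, with a witness at every crossing. -/
structure TubeRat extends GalStr D D' where
  mem_K : ∀ a, (∀ γ, baseAut (act γ) a = a) → a ∈ K
  tube : ∀ γ i P, below S P = S.x i → below S (act γ • P) = S.x i
  fix_G₁ : ∀ γ, act γ • Divisor.pullback F S.G₁ = Divisor.pullback F S.G₁
  /-- the witnesses -/
  wit : ∀ i, TubeWit S FK i

variable {S}

theorem valAt_ne_zero_of_ord_eq_zero {v : Place k C} {z : C} (hz : z ≠ 0) (h : v.ord z = 0) :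
    valAt v z ≠ 0 := fun h0 => by
  have h1 := valAt_spec (v := v) (f := z) (ordGe_of_le_ord (by omega))
  rw [h0, map_zero, sub_zero] at h1
  have := h1.le_ord hz
  omega

variable [CharP k q] (R : TubeRat S)

/-- At a place fixed by the automorphisms, regular rational functions take rational values. -/
theorem exists_rat_value {P : Place L F} (hPfix : ∀ γ, R.act γ • P = P) {f : F} (hf : f ∈ R.FK)
    (hreg : OrdGe P 0 f) : ∃ a ∈ R.K, OrdGe P 1 (f - algebraMap L F a) := by
  obtain ⟨a, ha⟩ := exists_value hreg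
  refine ⟨a, R.mem_K a fun γ => value_unique (v := P) (f := f) ?_ ha, ha⟩
  rcases eq_or_ne (f - algebraMap L F (baseAut (R.act γ) a)) 0 with h0 | h0
  · rw [h0]; exact ordGe_zero _
  refine ordGe_of_le_ord ?_
  have h1 : toRingAut (R.act γ) (f - algebraMap L F a)
      = f - algebraMap L F (baseAut (R.act γ) a) := by
    rw [map_sub, R.fix_FK γ f hf, commutes]
  have h2 : f - algebraMap L F a ≠ 0 := fun h => h0 (by rw [← h1, h, map_zero])
  have h3 := ord_smul (R.act γ) P (f - algebraMap L F a)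
  rw [hPfix, SemilinearAut.smul_def, h1] at h3
  rw [h3]
  exact ha.le_ord h2

/-- The auxiliary divisors of the count are fixed. -/
theorem fix_Bd (γ : R.Γ) (n : ℕ) :
    R.act γ • S.nodeSystem.Bd n 0 = S.nodeSystem.Bd n 0 := by
  rw [NodeSystem.Bd, zero_nsmul, add_zero, smul_comm]
  exact congrArg _ (R.fix_G₁ γ)

/-- The auxiliary divisors avoid the tubes. -/
theorem Bd_apply (i : ι) (n : ℕ) {P : Place L F} (hP : below S P = S.x i) :
    S.nodeSystem.Bd n 0 P = 0 := by
  have : S.nodeSystem.Bd n 0 = Divisor.pullback F (n • S.G₁) := by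
    rw [NodeSystem.Bd, zero_nsmul, add_zero, map_nsmul]; rfl
  rw [this]
  exact pullback_eq_zero S (nsmul_nonneg S.G₁_nonneg _)
    (by rw [S.red₁_nsmul, Finsupp.smul_apply,
      show S.red₁ S.G₁ (S.x i) = 0 from S.G₁_x i, smul_zero]) hP

/-- The data attached to a crossing with orders not divisible by `m`. -/
structure Position (m : ℕ) (X : Divisor L F) (i : ι) where
  /-- the function -/
  f : F
  f_mem : f ∈ R.FK
  /-- its first reduction -/
  a : C
  /-- its second reduction -/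
  b : C
  red : D.Red f a
  red' : D'.Red f b
  a_ne : a ≠ 0
  b_ne : b ≠ 0
  /-- the point -/
  P : Place L F
  below_P : below S P = S.x i
  /-- the value of the witness there -/
  τ : L
  τ_mem : τ ∈ R.K
  τ_large : τ ∉ A
  qτ_small : (q : L) * τ ∈ A.nonunits
  T_sub_ne : (R.wit i).T - algebraMap L F τ ≠ 0
  single : ∀ Q, below S Q = S.x i → (divisorOf (K := L) f + X : Divisor L F) Q
    = divisorOf (K := L) ((R.wit i).T - algebraMap L F τ) Q
  /-- the exponent -/
  β : ℕ
  β_pos : 0 < β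
  β_lt : β < m
  val : A.valuation τ ^ m * A.valuation (q : L) ^ β = 1

/-- A crossing with orders not divisible by `m` has a position. -/
theorem dvd_of_no_position (hA : IsRankOne A) (hq : (q : L) ≠ 0) {m : ℕ} (hm : 0 < m)
    {X : Divisor L F} (hX : Divisor.degree X = 0) (hXfix : ∀ γ, R.act γ • X = X) {g : F}
    (hg : g ≠ 0) (hdiv : divisorOf g = m • X) {a b : C} (ha : D.Red g a) (hb : D'.Red g b)
    (ha0 : a ≠ 0) (hb0 : b ≠ 0)
    (hpair : ∀ v, (m : ℤ) ∣ v.ord a + (S.frP.symm v).ord b)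
    (hnone : ∀ i, Position R m X i → False) :
    ∀ v : Place k C, (m : ℤ) ∣ v.ord a := by
  classical
  set N := S.nodeSystem
  obtain ⟨hoff, n, hmin⟩ :=
    dvd_ord_and_exists_minimal N hm hX hg hdiv ha hb ha0 hb0 S.frP.symm (fun _ => rfl) hpair
  intro v
  by_cases hv : ∀ i, N.x i ≠ v
  · exact hoff v hv
  push Not at hv
  obtain ⟨i, rfl⟩ := hv
  by_contra hnd
  obtain ⟨p, hp, hp1, hp2, ho1, ho2⟩ := hmin i hnd
  have := finite_riemannRochSpace (N.Bd n 0 + X)
  obtain ⟨f, hfK, hf, hfa, hfb⟩ := R.exists_rat_red hA (riemannRochSpace (N.Bd n 0 + X))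
    (R.span_rat _ fun γ => by rw [smul_add, fix_Bd R γ n, hXfix]) hp
  have hf0 : f ≠ 0 := hfa.ne_zero hp1
  set Z : Divisor L F := divisorOf f + X with hZ
  have hdivh : divisorOf (f ^ m * g) = m • Z := by
    ext w
    rw [divisorOf_apply, w.ord_mul (pow_ne_zero _ hf0) hg, FunctionField.ord_pow, hZ,
      ← divisorOf_apply (K := L) g, hdiv]
    simp
  have hnn : ∀ P, below S P = S.x i → 0 ≤ Z P := by
    intro P hP
    have h1 := (mem_rr_iff.1 hf P).le_ord hf0
    rw [Finsupp.add_apply, Bd_apply i n hP, zero_add] at h1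
    rw [hZ, Finsupp.add_apply, divisorOf_apply]
    omega
  set a₁ := p.1 ^ m * a with ha₁
  set b₁ := p.2 ^ m * b with hb₁
  have hr₁ : D.Red (f ^ m * g) a₁ := (hfa.pow m).mul ha
  have hr₁' : D'.Red (f ^ m * g) b₁ := (hfb.pow m).mul hb
  have ha₁0 : a₁ ≠ 0 := mul_ne_zero (pow_ne_zero _ hp1) ha0
  have hb₁0 : b₁ ≠ 0 := mul_ne_zero (pow_ne_zero _ hp2) hb0
  have hm' : (0 : ℤ) < m := by exact_mod_cast hm
  obtain ⟨hoa, hob, hαpos, hαlt, hβpos, hβlt, hsum, hab⟩ :
      (S.x i).ord a₁ = (S.x i).ord a % (m : ℤ) ∧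
      (S.frP.symm (S.x i)).ord b₁ = (S.frP.symm (S.x i)).ord b % (m : ℤ) ∧
      0 < (S.x i).ord a % (m : ℤ) ∧ (S.x i).ord a % (m : ℤ) < m ∧
      0 < (S.frP.symm (S.x i)).ord b % (m : ℤ) ∧ (S.frP.symm (S.x i)).ord b % (m : ℤ) < m ∧
      Finsupp.mapDomain (below S) Z (S.x i) = 1 ∧
      (S.x i).ord a % (m : ℤ) + (S.frP.symm (S.x i)).ord b % (m : ℤ) = m := by
    have h := mapDomain_divisorOf S hr₁ hr₁' ha₁0 hb₁0 (S.x i)
    rw [hdivh, ← Finsupp.mapDomain.addMonoidHom_apply, map_nsmul,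
      Finsupp.mapDomain.addMonoidHom_apply, Finsupp.smul_apply, nsmul_eq_mul] at h
    have e1 : (S.x i).ord a₁ = (S.x i).ord a % (m : ℤ) := by
      rw [ha₁, (S.x i).ord_mul (pow_ne_zero _ hp1) ha0, FunctionField.ord_pow,
        show (S.x i).ord p.1 = _ from ho1]
      have := Int.emod_add_mul_ediv ((S.x i).ord a) (m : ℤ)
      change (m : ℤ) * -((S.x i).ord a / (m : ℤ)) + _ = _
      linarith
    have e2 : (S.frP.symm (S.x i)).ord b₁ = (S.frP.symm (S.x i)).ord b % (m : ℤ) := by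
      rw [hb₁, (S.frP.symm (S.x i)).ord_mul (pow_ne_zero _ hp2) hb0, FunctionField.ord_pow,
        show (S.frP.symm (S.x i)).ord p.2 = _ from ho2]
      have := Int.emod_add_mul_ediv ((S.frP.symm (S.x i)).ord b) (m : ℤ)
      change (m : ℤ) * -((S.frP.symm (S.x i)).ord b / (m : ℤ)) + _ = _
      linarith
    rw [e1, e2] at h
    have hpx : (m : ℤ) ∣ (S.x i).ord a + (S.frP.symm (S.x i)).ord b := hpair (S.x i)
    have hndb : ¬(m : ℤ) ∣ (S.frP.symm (S.x i)).ord b := fun hd =>
      hnd ((dvd_add_left hd).1 hpx)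
    have f1 : 0 < (S.x i).ord a % (m : ℤ) := lt_of_le_of_ne (Int.emod_nonneg _ hm'.ne')
      fun h0 => hnd (Int.dvd_of_emod_eq_zero h0.symm)
    have f2 : 0 < (S.frP.symm (S.x i)).ord b % (m : ℤ) :=
      lt_of_le_of_ne (Int.emod_nonneg _ hm'.ne')
        fun h0 => hndb (Int.dvd_of_emod_eq_zero h0.symm)
    have g1 := Int.emod_lt_of_pos ((S.x i).ord a) hm'
    have g2 := Int.emod_lt_of_pos ((S.frP.symm (S.x i)).ord b) hm'
    set M := Finsupp.mapDomain (below S) Z (S.x i)
    have hpos : 0 < (m : ℤ) * M := by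
      rw [show ((m : ℕ) : ℤ) * M = _ from h]; omega
    have hlt : (m : ℤ) * M < (m : ℤ) * 2 := by
      rw [show ((m : ℕ) : ℤ) * M = _ from h]; omega
    have := pos_of_mul_pos_right hpos hm'.le
    have := lt_of_mul_lt_mul_left hlt hm'.le
    have hM1 : M = 1 := by omega
    refine ⟨e1, e2, f1, g1, f2, g2, hM1, ?_⟩
    rw [hM1, mul_one] at h
    exact h.symm
  obtain ⟨P, hP, hPZ⟩ := exists_preimage_of_apply_ne_zero (below S) (E := Z) (b := S.x i)
    (by rw [hsum]; exact one_ne_zero)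
  have hP1 : Z P = 1 := by
    have := mapDomain_le_apply (below S) hnn P hP
    have := hnn P hP
    omega
  have hZ1 : ∀ Q, below S Q = S.x i → Z Q = (Finsupp.single P (1 : ℤ) : Divisor L F) Q := by
    have hnn' : ∀ Q, below S Q = S.x i → 0 ≤ (Z - Finsupp.single P 1 : Divisor L F) Q := by
      intro Q hQ
      rw [Finsupp.sub_apply]
      rcases eq_or_ne Q P with rfl | hQP
      · rw [hP1, Finsupp.single_eq_same, sub_self]
      · rw [Finsupp.single_eq_of_ne hQP, sub_zero]; exact hnn Q hQ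
    intro Q hQ
    have h := mapDomain_le_apply (below S) hnn' Q hQ
    rw [Finsupp.mapDomain_sub, Finsupp.sub_apply, Finsupp.sub_apply, Finsupp.mapDomain_single, hP,
      Finsupp.single_eq_same, hsum] at h
    have h' := hnn' Q hQ
    rw [Finsupp.sub_apply] at h'
    omega
  have hPfix : ∀ γ, R.act γ • P = P := fun γ => by
    by_contra hne
    have hZfix : R.act γ • Z = Z := by
      rw [hZ, smul_add, hXfix, ← divisorOf_toRingAut, R.fix_FK γ f hfK]
    have h := hZ1 _ (R.tube γ i P hP)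
    rw [Finsupp.single_eq_of_ne hne] at h
    have h1 : Z (R.act γ • P) = 1 := by
      conv_lhs => rw [← hZfix]
      rw [divisor_smul_apply_smul, hP1]
    omega
  set W := R.wit i with hW
  obtain ⟨τ, hτK, hτ⟩ := exists_rat_value R hPfix W.mem (W.reg P hP)
  obtain ⟨hτA, hqτ, hsub0, hone⟩ := W.sub_value hq hP hτ
  have hτ0 : τ ≠ 0 := fun h => hτA (h ▸ zero_mem _)
  have hτn : τ⁻¹ ∈ A.nonunits := by
    rw [ValuationSubring.inv_mem_nonunits_iff]; exact Or.inr hτA
  have hsD : D.Red (τ⁻¹ • (W.T - algebraMap L F τ)) (-1) := by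
    have := (red_smul (⟨τ⁻¹, A.nonunits_subset hτn⟩ : A) W.red).sub (red_one (D := D))
    rw [(D.isResidue.eq_zero_iff _).2 hτn, zero_smul, zero_sub] at this
    convert this using 1
    rw [smul_sub, Algebra.smul_def τ⁻¹ (algebraMap L F τ), ← map_mul, inv_mul_cancel₀ hτ0, map_one]
  have hsD' : D'.Red ((q : L) • (W.T - algebraMap L F τ)) W.u := by
    have := W.red'.sub (red_algebraMap (D := D') ⟨_, A.nonunits_subset hqτ⟩)
    rw [(D'.isResidue.eq_zero_iff _).2 hqτ, map_zero, sub_zero] at this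
    rwa [smul_sub, Algebra.smul_def (q : L) (algebraMap L F τ), ← map_mul]
  -- the exponents
  set α := ((S.x i).ord a % (m : ℤ)).toNat with hα
  set β := ((S.frP.symm (S.x i)).ord b % (m : ℤ)).toNat with hβ
  have hαz : (α : ℤ) = (S.x i).ord a % (m : ℤ) := Int.toNat_of_nonneg hαpos.le
  have hβz : (β : ℤ) = (S.frP.symm (S.x i)).ord b % (m : ℤ) := Int.toNat_of_nonneg hβpos.le
  -- the unit in the tube
  set f₁ := f ^ m * g with hf₁
  set Θ := f₁ * W.T ^ α / (W.T - algebraMap L F τ) ^ m with hΘ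
  have hf₁0 : f₁ ≠ 0 := hr₁.ne_zero ha₁0
  have hT0 : W.T ≠ 0 := W.red.ne_zero W.z_ne
  have hreg : RegTube S i Θ := fun Q hQ => ordGe_of_le_ord (by
    rw [hΘ, FunctionField.ord_div (mul_ne_zero hf₁0 (pow_ne_zero _ hT0)) (pow_ne_zero _ hsub0),
      Q.ord_mul hf₁0 (pow_ne_zero _ hT0), FunctionField.ord_pow, FunctionField.ord_pow,
      W.ord_eq_zero hq hQ, hone Q hQ, ← divisorOf_apply (K := L) f₁, hdivh, Finsupp.smul_apply,
      hZ1 Q hQ, nsmul_eq_mul, mul_zero, add_zero, sub_self])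
  have hΘD : D.Red ((τ ^ m) • Θ) (a₁ * W.z ^ α / (-1) ^ m) := by
    have h := (hr₁.mul (W.red.pow α)).div (hsD.pow m) (pow_ne_zero _ (neg_ne_zero.2 one_ne_zero))
    convert h using 1
    rw [hΘ, Algebra.smul_def, Algebra.smul_def, mul_pow, map_pow, map_inv₀]
    field_simp
    rw [one_div_pow, one_div_one_div]
  have hΘD' : D'.Red (((q : L) ^ α / (q : L) ^ m) • Θ) (b₁ * W.u ^ α / W.u ^ m) := by
    have h := (hr₁'.mul (W.red'.pow α)).div (hsD'.pow m) (pow_ne_zero _ W.u_ne)
    convert h using 1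
    rw [hΘ, Algebra.smul_def, Algebra.smul_def, Algebra.smul_def, mul_pow, mul_pow, map_div₀,
      map_pow, map_pow]
    ring
  have hva : valAt (S.x i) (a₁ * W.z ^ α / (-1) ^ m) ≠ 0 := by
    refine valAt_ne_zero_of_ord_eq_zero (div_ne_zero (mul_ne_zero ha₁0 (pow_ne_zero _ W.z_ne))
      (pow_ne_zero _ (neg_ne_zero.2 one_ne_zero))) ?_
    rw [FunctionField.ord_div (mul_ne_zero ha₁0 (pow_ne_zero _ W.z_ne))
      (pow_ne_zero _ (neg_ne_zero.2 one_ne_zero)), (S.x i).ord_mul ha₁0 (pow_ne_zero _ W.z_ne),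
      FunctionField.ord_pow, FunctionField.ord_pow, W.ord_z, hoa,
      show (-1 : C) = algebraMap k C (-1) by simp, ord_algebraMap, hαz]
    ring
  have hvb : valAt (S.frP.symm (S.x i)) (b₁ * W.u ^ α / W.u ^ m) ≠ 0 := by
    refine valAt_ne_zero_of_ord_eq_zero (div_ne_zero (mul_ne_zero hb₁0 (pow_ne_zero _ W.u_ne))
      (pow_ne_zero _ W.u_ne)) ?_
    rw [FunctionField.ord_div (mul_ne_zero hb₁0 (pow_ne_zero _ W.u_ne)) (pow_ne_zero _ W.u_ne),
      (S.frP.symm (S.x i)).ord_mul hb₁0 (pow_ne_zero _ W.u_ne),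
      FunctionField.ord_pow, FunctionField.ord_pow, W.ord_u, hob]
    omega
  have hscale := scale_eq hreg (pow_ne_zero m hτ0)
    (div_ne_zero (pow_ne_zero α hq) (pow_ne_zero m hq)) hΘD hΘD' hva hvb
  have hval : A.valuation τ ^ m * A.valuation (q : L) ^ β = 1 := by
    have hvq : A.valuation (q : L) ≠ 0 := (map_ne_zero _).2 hq
    rw [map_pow, map_div₀, map_pow, map_pow] at hscale
    rw [hscale, div_mul_eq_mul_div, ← pow_add, show α + β = m by omega,
      div_self (pow_ne_zero _ hvq)]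
  exact hnone i ⟨f, hfK, p.1, p.2, hfa, hfb, hp1, hp2, P, hP, τ, hτK, hτA, hqτ, hsub0,
    fun Q hQ => by rw [show (divisorOf f + X : Divisor L F) = Z from rfl, hZ1 Q hQ, divisorOf_apply,
      hone Q hQ], β, by omega, by omega, hval⟩

/-- If no rational constant has the position, the orders are multiples of `m`. -/
theorem dvd_ord_of_no_value (hA : IsRankOne A) (hq : (q : L) ≠ 0) {m : ℕ} (hm : 0 < m)
    {X : Divisor L F} (hX : Divisor.degree X = 0) (hXfix : ∀ γ, R.act γ • X = X) {g : F}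
    (hg : g ≠ 0) (hdiv : divisorOf g = m • X) {a b : C} (ha : D.Red g a) (hb : D'.Red g b)
    (ha0 : a ≠ 0) (hb0 : b ≠ 0)
    (hpair : ∀ v, (m : ℤ) ∣ v.ord a + (S.frP.symm v).ord b)
    (hnone : ∀ τ ∈ R.K, ∀ β : ℕ, 0 < β → β < m →
      A.valuation τ ^ m * A.valuation (q : L) ^ β ≠ 1) :
    ∀ v : Place k C, (m : ℤ) ∣ v.ord a :=
  dvd_of_no_position R hA hq hm hX hXfix hg hdiv ha hb ha0 hb0 hpair fun _ Pos =>
    hnone Pos.τ Pos.τ_mem Pos.β Pos.β_pos Pos.β_lt Pos.val

end FLTAgent.MazurP
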