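import Fermat.Agent.MazurP.FlatClass
import Fermat.Agent.MazurP.Grounds
import Fermat.Agent.MazurP.Descend
import Fermat.Agent.MazurP.Lower
import Fermat.Agent.MazurP.KillChar
import Fermat.Agent.Semistable.Rep.Instance

/-!
# Mazur's principle at `p`
-/

set_option autoImplicit false
set_option linter.style.haveILetI false
set_option linter.unusedSectionVars false
set_option synthInstance.maxHeartbeats 100000

noncomputable section

open ModularCurve AlgebraicCurve IsLocalRing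

namespace FLTAgent.MazurP

open FLTAgent.GoodRed FLTAgent.GoodRed.RedDatum FLTAgent.Semistable FLTAgent.Hecke
  FLTAgent.FunctionField FLTAgent.LevelLower GalRep

local notation "Qbar" => AlgebraicClosure ℚ
local notation "Γℚ" => AlgebraicClosure ℚ ≃ₐ[ℚ] AlgebraicClosure ℚ

/-- An auxiliary level without elliptic points whose degree over `M` is prime to `p`. -/
theorem exists_auxLevel {M p : ℕ} (hM : M ≠ 0) (hp : p.Prime) (hp3 : 5 ≤ p ∨ (p = 3 ∧ 2 ∣ M))
    (hpM : ¬ p ∣ M) :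
    ∃ M' : ℕ, NeZero M' ∧ M ∣ M' ∧ ¬ p ∣ M' ∧ nuTwo M' = 0 ∧ nuThree M' = 0 ∧
      (p = 3 → 2 ∣ M') ∧ ∃ b, Nat.Coprime p b ∧ dedekindPsi M' = b * dedekindPsi M := by
  rcases hp3 with hp5 | ⟨rfl, h2⟩
  · have e : auxFactor p = 9 := if_neg (by omega)
    obtain ⟨b, hb, eb⟩ := coprime_psi_aux (q := p) hM hp hp5
    rw [e] at eb
    exact ⟨M * 9, ⟨Nat.mul_ne_zero hM (by norm_num)⟩, dvd_mul_right M 9,
      fun h => (hp.dvd_mul.1 h).elim hpM (e ▸ not_dvd_auxFactor hp),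
      nuTwo_eq_zero_of_dvd (d := 9) (dvd_mul_left 9 M) (by decide),
      nuThree_eq_zero_of_dvd (d := 9) (dvd_mul_left 9 M) (by decide),
      fun h => absurd h (by omega), b, hb, eb⟩
  · have h4 : 4 ∣ M * 2 := by obtain ⟨k, rfl⟩ := h2; exact ⟨k, by ring⟩
    exact ⟨M * 2, ⟨Nat.mul_ne_zero hM two_ne_zero⟩, dvd_mul_right M 2,
      fun h => (hp.dvd_mul.1 h).elim hpM (by norm_num),
      nuTwo_eq_zero_of_dvd (d := 4) h4 (by decide),
      nuThree_eq_zero_of_dvd (d := 4) h4 (by decide),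
      fun _ => dvd_mul_left 2 M, 2, by norm_num,
      dedekindPsi_mul_prime_of_dvd hM Nat.prime_two h2⟩

/-- A number not congruent to `l + 1` differs from it by a unit modulo `p`. -/
theorem isCoprime_of_ne {p l b : ℕ} [Fact p.Prime] (h : (b : ZMod p) ≠ (l : ZMod p) + 1) :
    IsCoprime ((l : ℤ) + 1 - b) (p : ℤ) := by
  refine IsCoprime.symm ((Nat.prime_iff_prime_int.1 Fact.out).coprime_iff_not_dvd.2 fun hd => h ?_)
  rw [← ZMod.intCast_zmod_eq_zero_iff_dvd] at hd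
  push_cast at hd
  exact (sub_eq_zero.1 hd).symm

section cyclo

variable {A : ValuationSubring (AlgebraicClosure ℚ)} {p : ℕ} [Fact p.Prime]
  (hA : A.LiesOverPrime p) [CharP (ResidueField A) p] [IsAlgClosed (ResidueField A)]
  {M : ℕ} [NeZero M]
  {ρ : (AlgebraicClosure ℚ ≃ₐ[ℚ] AlgebraicClosure ℚ) →* Matrix (Fin 2) (Fin 2) (ZMod p)}

local instance instNeZeroPPrinciple : NeZero p := ⟨(Fact.out : p.Prime).ne_zero⟩
local instance instNeZeroLevelPrinciple : NeZero (M * p) :=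
  ⟨Nat.mul_ne_zero (NeZero.ne M) (NeZero.ne p)⟩

include hA in
/-- The degrees of the two maps to the auxiliary level are prime to `p`. -/
theorem coprime_degrees {M' : ℕ} [NeZero M'] (hMM' : M ∣ M') (hpM : ¬ p ∣ M) (hpM' : ¬ p ∣ M')
    {b : ℕ} (hb : Nat.Coprime p b) (eb : dedekindPsi M' = b * dedekindPsi M) :
    Nat.Coprime p (finrankAlong (ResidueField A) (upBar (ResidueField A) hMM')) ∧
      Nat.Coprime p (finrankAlong Qbar (upMap p hMM')) := by
  have hp : p.Prime := Fact.out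
  have hψ : 0 < dedekindPsi M := dedekindPsi_pos (NeZero.ne M)
  have hcopC : Nat.Coprime p (finrankAlong (ResidueField A) (upBar (ResidueField A) hMM')) := by
    have e := finrankAlong_upBar (A := A) (q := p) hA hMM' hpM hpM'
    rw [eb, mul_comm b] at e
    rwa [Nat.eq_of_mul_eq_mul_left hψ e]
  have hcopF : Nat.Coprime p (finrankAlong Qbar (upMap p hMM')) := by
    have e := finrankAlong_degMap (degreeFacts Qbar)
      (show M * p * 1 ∣ M' * p by rw [mul_one]; exact Nat.mul_dvd_mul_right hMM' p)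
    rw [dedekindPsi_mul_prime_of_not_dvd (NeZero.ne M) hp hpM,
      dedekindPsi_mul_prime_of_not_dvd (NeZero.ne M') hp hpM', eb,
      show (p + 1) * (b * dedekindPsi M) = (p + 1) * dedekindPsi M * b by ring] at e
    rw [show finrankAlong Qbar (upMap p hMM') = b from
      Nat.eq_of_mul_eq_mul_left (Nat.mul_pos p.succ_pos hψ) e]
    exact hb
  exact ⟨hcopC, hcopF⟩

include hA in
set_option maxHeartbeats 3200000 in
-- the classes live in a large quotient
/-- Inertia is cyclotomic on the eigen classes which the representation fixes suitably. -/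
theorem smul_eq_cyclo (hp3 : 5 ≤ p ∨ (p = 3 ∧ 2 ∣ M)) (hpM : ¬ p ∣ M) (K : KummerShape A ρ)
    {a : ℕ → ℕ}
    (hne : ∃ l : ℕ, l.Prime ∧ ¬ l ∣ M * p * p ∧ (a l : ZMod p) ≠ (l : ZMod p) + 1)
    (habs : ∀ y ∈ eigenSub M p a (M * p * p), y = 0)
    {x : JZero (M * p)} (hx : x ∈ eigenSub (M * p) p a (M * p * p))
    (hfix : ∀ τ ∈ stabPair A (K.ε 1) K.t, τ • x = x)
    (hpair : ∀ σ₁ ∈ stabPair A (K.ε 1) (K.ε 1), ∀ τ ∈ stabPair A (K.ε 1) (K.ε 1),
      τ • (σ₁ • x - x) = σ₁ • x - x) {σ : Γℚ} (hσ : σ ∈ A.inertiaSubgroupIn ℚ) :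
    σ • x = ((cyclo p σ : ℤ_[p]).toZModPow 1).val • x := by
  have hp : p.Prime := Fact.out
  have hp2 : p ≠ 2 := by rcases hp3 with h | ⟨h, -⟩ <;> omega
  have hS : M * p ∣ M * p * p := dvd_mul_right (M * p) p
  obtain ⟨M', hM', hMM', hpM', h2, h3, hc3, b, hb, eb⟩ :=
    exists_auxLevel (NeZero.ne M) hp hp3 hpM
  haveI := GoodRed.isFunctionField_fullC A hA M hpM
  haveI := GoodRed.isFunctionField_fullC A hA M' hpM'
  obtain ⟨ι, _, X, hfr, hxX, hG₁, hG₂⟩ := exists_x0CrossData hA hpM' h2 h3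
    (mul_psi_le_card_crossingSet hA hpM' h2 h3 (fun h => absurd h hp2) hc3)
  obtain ⟨hcopC, hcopF⟩ := coprime_degrees hA hMM' hpM hpM' hb eb
  have hkill : KillData hA hpM (M * p * p) hS a := fun z hz hdvd he =>
    powConst_of_eigen hA hpM (fun l : AwayFrom (M * p * p) => l.1)
      (fun l => (awayFrom_not_dvd hpM hS l).1) (fun l => a l.1)
      (fun y hy hT => habs y ⟨hy, fun l hl => hT ⟨l, hl⟩⟩) hz hdvd he
  have hne' : ∃ l : ℕ, l.Prime ∧ ¬ l ∣ M * p * p ∧ IsCoprime ((l : ℤ) + 1 - a l) p := by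
    obtain ⟨l, hl, hlS, h⟩ := hne
    exact ⟨l, hl, hlS, isCoprime_of_ne h⟩
  have hpush : ∀ {y : JZero (M * p)}, y ∈ eigenSub (M * p) p a (M * p * p) →
      FlatModel.alphaPush M p y = 0 ∧ FlatModel.betaPush M p y = 0 := fun hy =>
    ⟨habs _ (pushPic_mem_eigenSub 1 _ (dvd_refl _) hy),
      habs _ (pushPic_mem_eigenSub p _ (dvd_refl _) hy)⟩
  obtain ⟨P', hP'H, hP'ϖ, hnone⟩ := exists_tameGround hA K
  obtain ⟨Z, hZ, hflat⟩ : ∃ Z : Divisor.degZero (K := Qbar) (F := MF Qbar (M * p)),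
      Pic0.mk Z = x ∧ NodeSystem.IsFlat (D := redInf A hA M hpM) (D' := redZero A hA M hpM) p
        (Z : Divisor Qbar (MF Qbar (M * p))) := by
    by_cases hmv : ∃ σ₁ ∈ stabPair A (K.ε 1) (K.ε 1), σ₁ K.t ≠ K.t
    · obtain ⟨σ₁, h₁, hne₁⟩ := hmv
      obtain ⟨P, hPH, hsq, hnorm, hcong, hmove⟩ := exists_wildGround hA hp2 K h₁ hne₁
      have hy : σ₁ • x - x ∈ eigenSub (M * p) p a (M * p * p) :=
        sub_mem (smul_mem_eigenSub hx σ₁) hx
      exact exists_flat_wild hA hpM X hxX hG₁ hMM' hcopC hS P P'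
        (fun τ hτ => by
          rw [hPH] at hτ
          rw [hP'H]
          exact ⟨hτ.1, hτ.2.1, hτ.2.1⟩)
        (hP'ϖ ▸ hsq) h₁.1 hnorm hcong hmove hnone hkill hne' (fun τ hτ => hfix τ (hPH ▸ hτ))
        (fun τ hτ => hpair σ₁ h₁ τ (hP'H ▸ hτ)) hx.1 (hpush hx).1 (hpush hx).2
        (fun l => hx.2 l.1 l.2) hy.1 (hpush hy).1 (hpush hy).2 (fun l => hy.2 l.1 l.2)
    · push Not at hmv
      exact exists_flat_tame hA hpM X hxX hG₁ hMM' hcopC hS P' hnone hkill hne'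
        (fun τ hτ => hfix τ ⟨(hP'H ▸ hτ).1, (hP'H ▸ hτ).2.1, hmv τ (hP'H ▸ hτ)⟩)
        hx.1 (hpush hx).1 (hpush hx).2 fun l => hx.2 l.1 l.2
  subst hZ
  exact smul_eq_of_flat X hMM' hfr hxX hG₁ hG₂ hcopF hflat hx.1 (hpush hx).1 (hpush hx).2 hσ

end cyclo

set_option maxHeartbeats 1600000 in
-- the classes live in a large quotient
/-- Mazur's principle at `p`. -/
theorem principleAtP : PrincipleAtP := by
  intro M p _ _ hp3 hpM ρ hspan hker a hfrob ⟨A, hA, ⟨K⟩⟩ hne ⟨x, hx0, hxp, hxT⟩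
  have hp : p.Prime := Fact.out
  haveI : NeZero (M * p) := ⟨Nat.mul_ne_zero (NeZero.ne M) hp.ne_zero⟩
  haveI : NeZero (M * p * p) := ⟨Nat.mul_ne_zero (NeZero.ne (M * p)) hp.ne_zero⟩
  haveI : CharP (ResidueField A) p := charP_residue (isResidueMap_residue A) hA hp
  haveI := GoodRed.isAlgClosed_residue A
  by_contra hno
  push Not at hno
  have habs : ∀ y ∈ eigenSub M p a (M * p * p), y = 0 := fun y hy => by
    by_contra hy0
    obtain ⟨l, hl, hlS, h⟩ := hno y hy0 hy.1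
    exact h (hy.2 ⟨l, hl⟩ hlS)
  have hp2 : p ≠ 2 := by rcases hp3 with h | ⟨h, -⟩ <;> omega
  refine hx0 (eigenSub_eq_bot hp2 hA (dvd_refl _) hspan hker hfrob K (fun y hy h1 h2 σ hσ =>
    smul_eq_cyclo hA hp3 hpM K hne habs hy h1 h2 hσ) x ⟨hxp, fun l hl => hxT l.1 l.2 hl⟩)

end FLTAgent.MazurP
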