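import Fermat.Agent.MazurP.FirstOrder
import Fermat.Agent.LevelLower.Flatten

/-!
# A comparison function congruent to one to second order

For a rational class `X` whose function has both reductions at the same scale, a flat class `Tt`
rational over the smaller field, and an automorphism `σ` with `σ X - X - Tt` principal, some
function with this divisor is congruent to one modulo the square of the uniformiser on both
components, as soon as some Hecke eigenvalue differs from the degree.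
-/

set_option autoImplicit false
set_option linter.unusedSectionVars false

noncomputable section

open AlgebraicCurve SemilinearAut

namespace FLTAgent.MazurP

open FLTAgent.GoodRed FLTAgent.GoodRed.RedDatum FLTAgent.FunctionField FLTAgent.Semistable
  FLTAgent.LevelLower

variable {L k : Type*} [Field L] [Field k] {A : ValuationSubring L} {π : A →+* k}
  {F C : Type*} [Field F] [Algebra L F] [Field C] [Algebra k C] [IsFunctionField L F]
  {D D' : RedDatum A π F C}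

/-- An automorphism moving rational functions to second order, with a smaller rational
structure whose uniformiser is divisible by the square of the uniformiser. -/
structure Twisting (R R' : GalStr D D') where
  le : R'.FK ≤ R.FK
  unif_dvd : unifOf R.toRatStr * unifOf R.toRatStr ∣ unifOf R'.toRatStr
  /-- the automorphism -/
  σ : SemilinearAut L F
  σ_FK : ∀ f ∈ R.FK, toRingAut σ f ∈ R.FK
  cong : ∀ y ∈ R.FK, y ∈ D.V →
    Close D (unifOf R.toRatStr * unifOf R.toRatStr) (toRingAut σ y) y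
  cong' : ∀ y ∈ R.FK, y ∈ D'.V →
    Close D' (unifOf R.toRatStr * unifOf R.toRatStr) (toRingAut σ y) y

variable {R R' : GalStr D D'} (T : Twisting R R')

theorem Twisting.side : Side D R.FK R'.FK (unifOf R.toRatStr) T.σ where
  cong := T.cong
  rigid y hy z hz := by
    obtain ⟨l, hl, hlz⟩ := R'.lift z
    exact ⟨l, hlz, (close_fst R'.toRatStr hy (R'.algebraMap_mem _ hl) hz
      (by rw [← hlz]; exact red_algebraMap l)).mono T.unif_dvd⟩
  scale y hy hy0 := by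
    obtain ⟨c, hcK, hc, z, hz, hr⟩ := R.scale y hy hy0
    exact ⟨c, z, hc, hz, R.smul_mem hcK hy, hr⟩
  scale' y hy hy0 := by
    obtain ⟨c, hcK, hc, z, hz, hr⟩ := R'.scale y hy hy0
    exact ⟨c, z, hc, hz, R'.smul_mem hcK hy, hr⟩

theorem Twisting.side' : Side D' R.FK R'.FK (unifOf R.toRatStr) T.σ where
  cong := T.cong'
  rigid y hy z hz := by
    obtain ⟨l, hl, hlz⟩ := R'.lift z
    exact ⟨l, hlz, (close_snd R'.toRatStr hy (R'.algebraMap_mem _ hl) hz
      (by rw [← hlz]; exact red_algebraMap l)).mono T.unif_dvd⟩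
  scale y hy hy0 := by
    obtain ⟨c, hcK, hc, z, hz, hr⟩ := R.scale' y hy hy0
    exact ⟨c, z, hc, hz, R.smul_mem hcK hy, hr⟩
  scale' y hy hy0 := by
    obtain ⟨c, hcK, hc, z, hz, hr⟩ := R'.scale' y hy hy0
    exact ⟨c, z, hc, hz, R'.smul_mem hcK hy, hr⟩

variable [IsAlgClosed L]

/-- The divisor class of a rational function with divisor a multiple is fixed. -/
theorem fix_of_rat (G : GalStr D D') {m : ℕ} (hm : 0 < m) {f : F} (hf : f ∈ G.FK)
    {X : Divisor L F} (h : divisorOf f = m • X) (γ : G.Γ) : G.act γ • X = X :=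
  nsmul_cancel hm (by rw [← smul_comm, ← h, ← divisorOf_toRingAut, G.fix_FK γ f hf])

/-- A rational function which is a constant times a power is so with a rational base. -/
theorem exists_rat_root (G : GalStr D D') {m : ℕ} (hm : 0 < m) {f h : F} (hf : f ∈ G.FK)
    (hf0 : f ≠ 0) {c : L} (heq : f = c • h ^ m) :
    ∃ (c' : L) (e : F), c' ≠ 0 ∧ e ∈ G.FK ∧ e ≠ 0 ∧ f = c' • e ^ m := by
  have hc : c ≠ 0 := fun h0 => hf0 (by rw [heq, h0, zero_smul])
  have hh : h ≠ 0 := fun h0 => hf0 (by rw [heq, h0, zero_pow hm.ne', smul_zero])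
  have hd : divisorOf (K := L) f = m • divisorOf (K := L) h := by
    rw [heq, divisorOf_smul hc (pow_ne_zero _ hh), divisorOf_pow]
  obtain ⟨e, heK, he, hde⟩ := exists_rat_of_fixed G hh fun γ => fix_of_rat G hm hf hd γ
  obtain ⟨c', hc', h'⟩ := exists_smul_of_divisorOf_eq (K := L) hf0 (pow_ne_zero m he)
    (by rw [hd, divisorOf_pow, hde])
  exact ⟨c', e, hc', heK, he, h'⟩

/-- Two residual values of `(1 + u l) ^ c = M (1 + u l) ^ d` modulo `u ^ 2`. -/
theorem residual_eq {u M l l' : A} (hu0 : (u : L) ≠ 0) (hu : π u = 0) (hM : π M = 1) {c d : ℕ}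
    (hcd : (d : k) ≠ c) (h : u * u ∣ (1 + u * l) ^ c - M * (1 + u * l) ^ d)
    (h' : u * u ∣ (1 + u * l') ^ c - M * (1 + u * l') ^ d) : π l = π l' := by
  have hexp : ∀ (x : A) (n : ℕ), u * u ∣ (1 + u * x) ^ n - (1 + (n : A) * (u * x)) := by
    intro x n
    induction n with
    | zero => simp
    | succ n ih =>
      obtain ⟨r, hr⟩ := ih
      refine ⟨r * (1 + u * x) + (n : A) * x * x, ?_⟩
      rw [pow_succ, show (1 + u * x) ^ n = 1 + (n : A) * (u * x) + u * u * r by rw [← hr]; ring]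
      push_cast
      ring
  have h1 : u * u ∣ u * (((c : A) - M * d) * (l - l')) := by
    have := dvd_sub (dvd_sub h (dvd_sub (hexp l c) (Dvd.dvd.mul_left (hexp l d) M)))
      (dvd_sub h' (dvd_sub (hexp l' c) (Dvd.dvd.mul_left (hexp l' d) M)))
    convert this using 1
    ring
  have h2 : u ∣ ((c : A) - M * d) * (l - l') := by
    obtain ⟨r, hr⟩ := h1
    refine ⟨r, mul_left_cancel₀ (fun h0 => hu0 (by rw [h0]; rfl) : u ≠ 0) ?_⟩
    rw [hr, mul_assoc]
  obtain ⟨r, hr⟩ := h2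
  have := congrArg π hr
  rw [map_mul, map_mul, hu, zero_mul, map_sub, map_sub, map_mul, hM, one_mul, map_natCast,
    map_natCast, mul_eq_zero, sub_eq_zero, sub_eq_zero] at this
  exact this.resolve_left fun h0 => hcd h0.symm

theorem dvd_of_close_algebraMap {Dx : RedDatum A π F C} {c x y : A} (hc : (c : L) ≠ 0)
    (h : Close Dx c (algebraMap L F x) (algebraMap L F y)) : c ∣ x - y := by
  obtain ⟨w, hw, e⟩ := h
  have hw' : w = algebraMap L F ((c : L)⁻¹ * ((x : L) - y)) := by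
    rw [map_mul, map_sub, e, Algebra.smul_def, ← mul_assoc, ← map_mul, inv_mul_cancel₀ hc, map_one,
      one_mul]
  rw [hw'] at hw
  exact ⟨⟨_, (Dx.mem_iff _).1 hw⟩, Subtype.ext (by
    simp only [AddSubgroupClass.coe_sub, MulMemClass.coe_mul]
    rw [mul_inv_cancel_left₀ hc])⟩

variable {E E' : Type*} [Field E] [Algebra L E] [Algebra E F] [IsScalarTower L E F]
  [Field E'] [Algebra L E'] [Algebra E' F] [IsScalarTower L E' F]
  {DE : RedDatum A π E C} {DE' : RedDatum A π E' C} {frob frob' : C →ₐ[k] C} {q : ℕ}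

/-- The equivariance of the norm to a lower level. -/
structure NormCompat (T : Twisting R R') (E : Type*) [Field E] [Algebra E F] : Prop where
  σ_norm : ∀ f, toRingAut T.σ (algebraMap E F (Algebra.norm E f))
    = algebraMap E F (Algebra.norm E (toRingAut T.σ f))
  mem : ∀ f ∈ R.FK, algebraMap E F (Algebra.norm E f) ∈ R.FK
  mem' : ∀ f ∈ R'.FK, algebraMap E F (Algebra.norm E f) ∈ R'.FK

/-- The roots of the two norms are rational. -/
theorem exists_roots {E : Type*} [Field E] [Algebra L E] [Algebra E F] [IsScalarTower L E F]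
    [Module.Finite E F] (T : Twisting R R') {q : ℕ} (hq : 0 < q) (hN : NormCompat T E) {g gT : F}
    (hgK : g ∈ R.FK) (hg : g ≠ 0) (hTK : gT ∈ R'.FK) (hgT : gT ≠ 0)
    (hn : ∀ f, f = g ∨ f = gT → ∃ (c : L) (h : E),
      Algebra.norm E f = algebraMap L E c * h ^ q) :
    ∃ (c₀ cT : L) (e eT : F), c₀ ≠ 0 ∧ cT ≠ 0 ∧ e ∈ R.FK ∧ e ≠ 0 ∧ eT ∈ R'.FK ∧ eT ≠ 0 ∧
      algebraMap E F (Algebra.norm E g) = c₀ • e ^ q ∧
      algebraMap E F (Algebra.norm E gT) = cT • eT ^ q := by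
  have hval : ∀ f, (f = g ∨ f = gT) → ∃ (c : L) (h : F),
      algebraMap E F (Algebra.norm E f) = c • h ^ q := fun f hfg => by
    obtain ⟨c, h, hch⟩ := hn f hfg
    exact ⟨c, algebraMap E F h, by
      rw [hch, map_mul, map_pow, ← IsScalarTower.algebraMap_apply, Algebra.smul_def]⟩
  obtain ⟨c, h, hch⟩ := hval g (Or.inl rfl)
  obtain ⟨c₀, e, hc₀, he, he0, hge⟩ := exists_rat_root R hq (hN.mem g hgK)
    ((map_ne_zero _).2 (Algebra.norm_ne_zero_iff.2 hg)) hch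
  obtain ⟨c', h', hch'⟩ := hval gT (Or.inr rfl)
  obtain ⟨cT, eT, hcT, heT, heT0, hgTe⟩ := exists_rat_root R' hq (hN.mem' gT hTK)
    ((map_ne_zero _).2 (Algebra.norm_ne_zero_iff.2 hgT)) hch'
  exact ⟨c₀, cT, e, eT, hc₀, hcT, he, he0, heT, heT0, hge, hgTe⟩

/-- A comparison function congruent to one to second order. -/
theorem exists_close_one [IsAlgClosed k] [CharP C q] (hS : OneSide DE D D' frob q)
    (hS' : OneSide DE' D' D frob' q) (hpow : ∀ z : C, ∃ w, frob w = z ^ q)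
    (hpow' : ∀ z : C, ∃ w, frob' w = z ^ q) (hNE : NormCompat T E) (hNE' : NormCompat T E')
    {X Tt : Divisor L F} {g gT : F} (hgK : g ∈ R.FK) (hdiv : divisorOf g = q • X)
    (hTK : gT ∈ R'.FK) (hdivT : divisorOf gT = q • Tt) {a b : C} (ha : D.Red g a)
    (hb : D'.Red g b) (ha0 : a ≠ 0) (hb0 : b ≠ 0) {tT : k} (htT : tT ≠ 0)
    (hT : D.Red gT (algebraMap k C tT)) (hT' : D'.Red gT (algebraMap k C tT))
    {G₀ : F} (hG₀ : G₀ ≠ 0) (hdivG : divisorOf G₀ = T.σ • X - X - Tt)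
    (hn : ∀ f, f = g ∨ f = gT → ∃ (c : L) (h : E),
      Algebra.norm E f = algebraMap L E c * h ^ q)
    (hn' : ∀ f, f = g ∨ f = gT → ∃ (c : L) (h : E'),
      Algebra.norm E' f = algebraMap L E' c * h ^ q)
    (H : HeckeOp D D' R.FK) (hHK : ∀ f ∈ R'.FK, H.T f ∈ R'.FK)
    (hHσ : ∀ f, H.T (toRingAut T.σ f) = toRingAut T.σ (H.T f))
    (hHc : ∀ f, Close D (unifOf R.toRatStr * unifOf R.toRatStr) f 1 →
      Close D (unifOf R.toRatStr * unifOf R.toRatStr) (H.T f) 1)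
    (hHc' : ∀ f, Close D' (unifOf R.toRatStr * unifOf R.toRatStr) f 1 →
      Close D' (unifOf R.toRatStr * unifOf R.toRatStr) (H.T f) 1)
    {c : ℕ} (hc : (H.d : k) ≠ c) (heig : ∃ e, e ≠ 0 ∧ H.Tdiv X - c • X = divisorOf e)
    (heigT : ∃ e, e ≠ 0 ∧ H.Tdiv Tt - c • Tt = divisorOf e) :
    ∃ G ∈ R.FK, G ≠ 0 ∧ divisorOf G = T.σ • X - X - Tt ∧
      Close D (unifOf R.toRatStr * unifOf R.toRatStr) G 1 ∧
      Close D' (unifOf R.toRatStr * unifOf R.toRatStr) G 1 := by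
  have hq : 0 < q := hS.prime.pos
  have : Fact q.Prime := ⟨hS.prime⟩
  set u := unifOf R.toRatStr with hu
  have hu0 : (u : L) ≠ 0 := R.ϖ_ne
  have hπu : π u = 0 := red_unifOf R.toRatStr
  have hun : (u : L) ∈ A.nonunits := R.ϖ_nonunit
  have huun : ((u * u : A) : L) ∈ A.nonunits := by
    rw [← D.isResidue.eq_zero_iff, map_mul, hπu, zero_mul]
  have hg : g ≠ 0 := ha.ne_zero ha0
  have hgT : gT ≠ 0 := hT.ne_zero ((map_ne_zero _).2 htT)
  have hgTK : gT ∈ R.FK := T.le hTK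
  have hσgK := T.σ_FK g hgK
  have hσg0 : toRingAut T.σ g ≠ 0 := (map_ne_zero _).2 hg
  have hσa : D.Red (toRingAut T.σ g) a := (T.cong g hgK ha.mem).red huun ha
  have hσb : D'.Red (toRingAut T.σ g) b := (T.cong' g hgK hb.mem).red huun hb
  -- a rational function with the divisor
  obtain ⟨G', hG'K, hG', hdG'⟩ := exists_rat_of_fixed R hG₀ fun γ => by
    have h1 : R.act γ • (T.σ • X) = T.σ • X := fix_of_rat R hq hσgK (by
      rw [divisorOf_toRingAut, hdiv, smul_comm]) γ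
    rw [hdivG, smul_sub, smul_sub, h1, fix_of_rat R hq hgK hdiv γ,
      fix_of_rat R hq hgTK hdivT γ]
  obtain ⟨t₀, ht₀, hrel₀⟩ := exists_smul_of_divisorOf_eq (K := L) hσg0
    (mul_ne_zero (mul_ne_zero hg hgT) (pow_ne_zero q hG')) (by
      rw [divisorOf_mul (mul_ne_zero hg hgT) (pow_ne_zero _ hG'), divisorOf_mul hg hgT,
        divisorOf_pow, divisorOf_toRingAut, hdiv, hdivT, hdG', hdivG, smul_comm T.σ, smul_sub,
        smul_sub]
      abel)
  -- its two scales agree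
  obtain ⟨cG, n, rG, rG', hcGK, hcG, hrG0, hrG0', hrG, hrG'⟩ := R.exists_gap hS.rankOne hG'K hG'
  have hgap0 : ∀ {f : F} {x x' : C}, D.Red f x → D'.Red f x' → x ≠ 0 → x' ≠ 0 → R.Gap f 0 :=
    fun {f x x'} h h' hx hx' => ⟨1, x, x', one_ne_zero, hx, hx', by rwa [one_smul],
      by rwa [zpow_zero, mul_one, one_smul]⟩
  have hTt0 : (algebraMap k C tT) ≠ 0 := (map_ne_zero _).2 htT
  have hn0 : (0 : ℤ) = 0 + 0 + (q : ℤ) * n := (hgap0 hσa hσb ha0 hb0).unique
    (hrel₀ ▸ (((hgap0 ha hb ha0 hb0).mul (hgap0 hT hT' hTt0 hTt0)).mul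
      (RatStr.Gap.pow (R := R.toRatStr) (f := G') (n := n)
        ⟨cG, rG, rG', hcG, hrG0, hrG0', hrG, hrG'⟩ q)).smul ht₀)
  obtain rfl : n = 0 := by
    rw [zero_add, zero_add] at hn0
    exact (mul_eq_zero.1 hn0.symm).resolve_left (by exact_mod_cast hq.ne')
  rw [zpow_zero, mul_one] at hrG'
  set G₂ := cG • G' with hG₂
  have hG₂K : G₂ ∈ R.FK := R.smul_mem hcGK hG'K
  set t₁ := t₀ / cG ^ q with ht₁def
  have ht₁ : t₁ ≠ 0 := div_ne_zero ht₀ (pow_ne_zero _ hcG)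
  have hrel₁ : toRingAut T.σ g = t₁ • (g * gT * G₂ ^ q) := by
    rw [hrel₀, hG₂, smul_pow, mul_smul_comm, smul_smul, ht₁def,
      div_mul_cancel₀ _ (pow_ne_zero _ hcG)]
  have hPa : D.Red (g * gT * G₂ ^ q) (a * algebraMap k C tT * rG ^ q) :=
    (ha.mul hT).mul (hrG.pow q)
  have hPb : D'.Red (g * gT * G₂ ^ q) (b * algebraMap k C tT * rG' ^ q) :=
    (hb.mul hT').mul (hrG'.pow q)
  have hPa0 : a * algebraMap k C tT * rG ^ q ≠ 0 :=
    mul_ne_zero (mul_ne_zero ha0 hTt0) (pow_ne_zero _ hrG0)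
  have ht₁A : t₁ ∈ A := mem_of_smul_mem_of_red D hPa hPa0 (hrel₁ ▸ hσa.mem)
  have ea := hσa.unique (by rw [hrel₁]; exact red_smul (⟨t₁, ht₁A⟩ : A) hPa)
  have eb := hσb.unique (by rw [hrel₁]; exact red_smul (⟨t₁, ht₁A⟩ : A) hPb)
  set s := π ⟨t₁, ht₁A⟩ with hs
  have hs0 : s ≠ 0 := fun h => ha0 (by rw [ea, h, zero_smul])
  obtain ⟨ρ, hρ⟩ := IsAlgClosed.exists_pow_nat_eq (k := k) (s * tT)⁻¹ hq
  have hρ0 : ρ ≠ 0 := fun h => inv_ne_zero (mul_ne_zero hs0 htT) (by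
    rw [← hρ, h, zero_pow hq.ne'])
  have hroot : ∀ {x r : C}, x ≠ 0 → x = s • (x * algebraMap k C tT * r ^ q) →
      r = algebraMap k C ρ := by
    intro x r hx h
    apply frobenius_inj C q
    rw [frobenius_def, frobenius_def, ← map_pow, hρ, map_inv₀]
    refine eq_inv_of_mul_eq_one_right (mul_left_cancel₀ hx ?_)
    rw [mul_one]
    conv_rhs => rw [h, Algebra.smul_def]
    rw [map_mul]
    ring
  have hrρ : rG = algebraMap k C ρ := hroot ha0 ea
  have hrρ' : rG' = algebraMap k C ρ := hroot hb0 eb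
  rw [hrρ] at hrG
  rw [hrρ'] at hrG'
  obtain ⟨l₀, hl₀K, hl₀⟩ := R.lift ρ
  have hl₀0 : (l₀ : L) ≠ 0 := fun h => hρ0 (by
    rw [← hl₀, show l₀ = 0 from Subtype.ext h, map_zero])
  set G₁ := (l₀ : L)⁻¹ • G₂ with hG₁
  have hG₁K : G₁ ∈ R.FK := R.smul_mem (inv_mem hl₀K) hG₂K
  have hone : ∀ {Dx : RedDatum A π F C}, Dx.Red G₂ (algebraMap k C ρ) → Dx.Red G₁ 1 := by
    intro Dx h
    have h1 : A.valuation (l₀ : L) = 1 := (Dx.isResidue.ne_zero_iff _).1 (by rwa [hl₀])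
    have hi : (l₀ : L)⁻¹ ∈ A := by rw [← A.valuation_le_one_iff, map_inv₀, h1, inv_one]
    have h2 := red_smul (⟨_, hi⟩ : A) h
    rw [Algebra.smul_def (π (⟨_, hi⟩ : A)) (algebraMap k C ρ), ← map_mul] at h2
    have h3 : π ⟨_, hi⟩ * ρ = 1 := by
      rw [← hl₀, ← map_mul, show (⟨_, hi⟩ : A) * l₀ = 1 from Subtype.ext (inv_mul_cancel₀ hl₀0),
        map_one]
    rwa [h3, map_one] at h2
  have h₁ := hone hrG
  have h₁' := hone hrG'
  -- the first order parts
  obtain ⟨hyV, hyV'⟩ := R.div_mem (f := G₁ - 1) (sub_mem hG₁K (one_mem _))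
    (by simpa using h₁.sub red_one) (by simpa using h₁'.sub red_one)
  set y := R.ϖ⁻¹ • (G₁ - 1) with hy
  obtain ⟨z, hz⟩ := exists_red hyV
  obtain ⟨z', hz'⟩ := exists_red hyV'
  have hGy : G₁ = 1 + (u : L) • y := by
    rw [hy, hu, coe_unifOf, smul_inv_smul₀ R.ϖ_ne]; abel
  have hyK : y ∈ R.FK := R.smul_mem (inv_mem R.ϖ_mem) (sub_mem hG₁K (one_mem _))
  set t₂ := t₁ * (l₀ : L) ^ q with ht₂def
  have ht₂ : t₂ ≠ 0 := mul_ne_zero ht₁ (pow_ne_zero _ hl₀0)
  have hrel : toRingAut T.σ g = t₂ • (g * gT * G₁ ^ q) := by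
    have e : G₂ ^ q = (l₀ : L) ^ q • G₁ ^ q := by
      rw [← smul_pow, hG₁, smul_inv_smul₀ hl₀0]
    rw [hrel₁, e, mul_smul_comm, smul_smul, ht₂def]
  haveI := hS.finiteDimensional
  haveI := hS'.finiteDimensional
  obtain ⟨c₀, cT, e, eT, hc₀, hcT, he, he0, heT, heT0, hne, hneT⟩ :=
    exists_roots T hq hNE hgK hg hTK hgT hn
  obtain ⟨r, hr⟩ := exists_const_first_order hS hpow hun hu0 T.side hNE.σ_norm ht₂ hrel hGy hz
    hz' hc₀ hcT he he0 heT heT0 hne hneT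
  obtain ⟨c₀', cT', e', eT', hc₀', hcT', he', he0', heT', heT0', hne', hneT'⟩ :=
    exists_roots T hq hNE' hgK hg hTK hgT hn'
  obtain ⟨r', hr'⟩ := exists_const_first_order hS' hpow' hun hu0 T.side' hNE'.σ_norm ht₂ hrel hGy
    hz' hz hc₀' hcT' he' he0' heT' heT0' hne' hneT'
  obtain ⟨l, hlK, hl⟩ := R.lift r
  obtain ⟨l', hlK', hl'⟩ := R.lift r'
  have hlin : ∀ {Dx : RedDatum A π F C} {l : A}, Close Dx u y (algebraMap L F l) →
      Close Dx (u * u) G₁ (algebraMap L F ((1 + u * l : A) : L)) := by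
    intro Dx l h
    rw [hGy]
    have h1 := (h.smul_left u).add (Close.refl (D := Dx) (c := u * u) (1 : F))
    convert h1 using 1
    · exact add_comm _ _
    · rw [Algebra.smul_def, AddMemClass.coe_add, OneMemClass.coe_one, MulMemClass.coe_mul, map_add,
        map_one, map_mul, add_comm]
  have hl1 := hlin (close_fst R.toRatStr hyK (R.algebraMap_mem _ hlK)
    (z := algebraMap k C r) (by rw [← hr]; exact hz) (by rw [← hl]; exact red_algebraMap l))
  have hl1' := hlin (close_snd R.toRatStr hyK (R.algebraMap_mem _ hlK')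
    (z := algebraMap k C r') (by rw [← hr']; exact hz') (by rw [← hl']; exact red_algebraMap l'))
  -- the Hecke operator
  have heq : ∀ {f : F} {Y : Divisor L F}, f ≠ 0 → divisorOf f = q • Y →
      (∃ e, e ≠ 0 ∧ H.Tdiv Y - c • Y = divisorOf e) → ∀ K : Subfield F,
      (∀ e : F, e ≠ 0 → (∃ f₁ ∈ K, divisorOf (K := L) f₁ = q • (c • Y + divisorOf e)) →
        ∃ e' ∈ K, e' ≠ 0 ∧ divisorOf (K := L) e' = divisorOf e) →
      H.T f ∈ K → ∃ (κ : L) (e : F), κ ≠ 0 ∧ e ∈ K ∧ e ≠ 0 ∧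
        H.T f = κ • (f ^ c * e ^ q) := by
    intro f Y hf hdf ⟨e, he, hee⟩ K hrat hTK
    have hTf : H.T f ≠ 0 := (map_ne_zero H.T).2 hf
    have hd : divisorOf (H.T f) = q • (c • Y + divisorOf e) := by
      rw [H.div_T f hf, hdf, map_nsmul, ← hee]; abel_nf
    obtain ⟨e', he'K, he', hde'⟩ := hrat e he ⟨_, hTK, hd⟩
    obtain ⟨κ, hκ, hκe⟩ := exists_smul_of_divisorOf_eq (K := L) hTf
      (mul_ne_zero (pow_ne_zero c hf) (pow_ne_zero q he')) (by
        rw [hd, divisorOf_mul (pow_ne_zero _ hf) (pow_ne_zero _ he'), divisorOf_pow,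
          divisorOf_pow, hdf, hde', smul_add, smul_comm q c])
    exact ⟨κ, e', hκ, he'K, he', hκe⟩
  obtain ⟨k₁, e₁, hk₁, he₁K, he₁, hTg⟩ := heq hg hdiv heig R.FK (fun e he ⟨f₁, hf₁, hd⟩ =>
    exists_rat_of_fixed R he fun γ => by
      have h1 := fix_of_rat R hq hf₁ hd γ
      rw [smul_add, smul_comm (R.act γ) c, fix_of_rat R hq hgK hdiv γ] at h1
      exact add_left_cancel h1) (H.T_FK g hgK)
  obtain ⟨k₂, e₂, hk₂, he₂K, he₂, hTgT⟩ := heq hgT hdivT heigT R'.FK (fun e he ⟨f₁, hf₁, hd⟩ =>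
    exists_rat_of_fixed R' he fun γ => by
      have h1 := fix_of_rat R' hq hf₁ hd γ
      rw [smul_add, smul_comm (R'.act γ) c, fix_of_rat R' hq hTK hdivT γ] at h1
      exact add_left_cancel h1) (hHK gT hTK)
  have hHG : H.T G₁ ≠ 0 := (map_ne_zero H.T).2 (h₁.ne_zero one_ne_zero)
  set se := baseAut T.σ k₁ with hse
  have hse0 : se ≠ 0 := (map_ne_zero _).2 hk₁
  have hpw : (toRingAut T.σ e₁ * G₁ ^ c / (e₁ * e₂ * H.T G₁)) ^ q
      = algebraMap L F (t₂ ^ H.d * k₁ * k₂ / (se * t₂ ^ c)) := by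
    have h1 := congrArg H.T hrel
    rw [hHσ, hTg, H.T_smul, map_mul, map_mul, map_pow H.T, hTg, hTgT, Algebra.smul_def, map_mul,
      SemilinearAut.commutes, ← hse, map_mul, map_pow, map_pow, hrel] at h1
    simp only [Algebra.smul_def, mul_pow] at h1
    have h3 : g ^ c * gT ^ c ≠ 0 := mul_ne_zero (pow_ne_zero _ hg) (pow_ne_zero _ hgT)
    have h4 : (e₁ * e₂ * H.T G₁) ^ q ≠ 0 :=
      pow_ne_zero _ (mul_ne_zero (mul_ne_zero he₁ he₂) hHG)
    have h5 : algebraMap L F (se * t₂ ^ c) ≠ 0 :=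
      (map_ne_zero _).2 (mul_ne_zero hse0 (pow_ne_zero _ ht₂))
    rw [div_pow, map_div₀, div_eq_div_iff h4 h5]
    refine mul_left_cancel₀ h3 ?_
    simp only [map_mul, map_pow, mul_pow] at h1 ⊢
    rw [← pow_mul, mul_comm c q, pow_mul] 
    rw [← pow_mul G₁ q c, mul_comm q c, pow_mul] at h1
    linear_combination h1
  obtain ⟨κ, hκ, hx⟩ := exists_const_of_pow hq
    (div_ne_zero (mul_ne_zero (mul_ne_zero (pow_ne_zero _ ht₂) hk₁) hk₂)
      (mul_ne_zero hse0 (pow_ne_zero _ ht₂))) hpw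
  -- scales
  have hTg0 : R.Gap (H.T g) 0 := hgap0 (H.red g a ha ha0) (H.red' g b hb hb0)
    ((map_ne_zero H.Tb).2 ha0) ((map_ne_zero H.Tb).2 hb0)
  obtain ⟨s₁, n₁, z₁, z₁', hs₁K, hs₁, hz₁, hz₁', hr₁, hr₁'⟩ := R.exists_gap hS.rankOne he₁K he₁
  obtain rfl : n₁ = 0 := by
    have h := hTg0.unique (hTg ▸ (((hgap0 ha hb ha0 hb0).pow c).mul
      (RatStr.Gap.pow (R := R.toRatStr) (f := e₁) (n := n₁)
        ⟨s₁, z₁, z₁', hs₁, hz₁, hz₁', hr₁, hr₁'⟩ q)).smul hk₁)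
    rw [mul_zero, zero_add] at h
    exact (mul_eq_zero.1 h.symm).resolve_left (by exact_mod_cast hq.ne')
  rw [zpow_zero, mul_one] at hr₁'
  have hgap0' : ∀ {f : F} {x x' : C}, D.Red f x → D'.Red f x' → x ≠ 0 → x' ≠ 0 → R'.Gap f 0 :=
    fun {f x x'} h h' hx hx' => ⟨1, x, x', one_ne_zero, hx, hx', by rwa [one_smul],
      by rwa [zpow_zero, mul_one, one_smul]⟩
  have hTgT0 : R'.Gap (H.T gT) 0 := hgap0' (H.red gT _ hT hTt0) (H.red' gT _ hT' hTt0)
    ((map_ne_zero H.Tb).2 hTt0) ((map_ne_zero H.Tb).2 hTt0)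
  obtain ⟨s₂, n₂, z₂, z₂', hs₂K, hs₂, hz₂, hz₂', hr₂, hr₂'⟩ :=
    R'.exists_gap hS.rankOne he₂K he₂
  obtain rfl : n₂ = 0 := by
    have h := hTgT0.unique (hTgT ▸ (((hgap0' hT hT' hTt0 hTt0).pow c).mul
      (RatStr.Gap.pow (R := R'.toRatStr) (f := e₂) (n := n₂)
        ⟨s₂, z₂, z₂', hs₂, hz₂, hz₂', hr₂, hr₂'⟩ q)).smul hk₂)
    rw [mul_zero, zero_add] at h
    exact (mul_eq_zero.1 h.symm).resolve_left (by exact_mod_cast hq.ne')
  rw [zpow_zero, mul_one] at hr₂'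
  set ρ₁ := toRingAut T.σ (s₁ • e₁) / (s₁ • e₁) with hρ₁
  have hρ₁D : Close D (u * u) ρ₁ 1 := by
    have h := T.cong _ (R.smul_mem hs₁K he₁K) hr₁.mem
    refine Close.of_mul_right (u := s₁ • e₁) ?_ hr₁ hz₁
    rwa [hρ₁, div_mul_cancel₀ _ (hr₁.ne_zero hz₁), one_mul]
  have hρ₁D' : Close D' (u * u) ρ₁ 1 := by
    have h := T.cong' _ (R.smul_mem hs₁K he₁K) hr₁'.mem
    refine Close.of_mul_right (u := s₁ • e₁) ?_ hr₁' hz₁'
    rwa [hρ₁, div_mul_cancel₀ _ (hr₁'.ne_zero hz₁'), one_mul]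
  set K₀ := baseAut T.σ s₁ / s₁ * κ / s₂ with hK₀
  have hkey : ρ₁ * G₁ ^ c = K₀ • (s₂ • e₂ * H.T G₁) := by
    have hne : e₁ * e₂ * H.T G₁ ≠ 0 := mul_ne_zero (mul_ne_zero he₁ he₂) hHG
    rw [hρ₁, Algebra.smul_def s₁ e₁, map_mul, SemilinearAut.commutes, hK₀, Algebra.smul_def,
      Algebra.smul_def, map_div₀, map_mul, map_div₀]
    have e3 := (div_eq_iff hne).1 hx
    have := (map_ne_zero (algebraMap L F)).2 hs₁
    have := (map_ne_zero (algebraMap L F)).2 hs₂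
    field_simp
    linear_combination (algebraMap L F (baseAut T.σ s₁)) * e3
  -- residual scalars
  have hside : ∀ {Dx : RedDatum A π F C} {z₂ : C} {l : A}, Dx.Red (s₂ • e₂) z₂ → z₂ ≠ 0 →
      Close Dx (u * u) ρ₁ 1 → Close Dx (u * u) G₁ (algebraMap L F ((1 + u * l : A) : L)) →
      (∀ f, Close Dx (u * u) f 1 → Close Dx (u * u) (H.T f) 1) →
      (∀ z : k, Dx.Red (s₂ • e₂) (algebraMap k C z) → ∀ lT : A, (lT : L) ∈ R'.K → π lT = z →
        Close Dx (u * u) (s₂ • e₂) (algebraMap L F lT)) →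
      ∃ hK : K₀ ∈ A, π ⟨K₀, hK⟩ ≠ 0 ∧ ∀ lT : A, (lT : L) ∈ R'.K → π lT = (π ⟨K₀, hK⟩)⁻¹ →
        u * u ∣ (1 + u * l) ^ c - ⟨K₀, hK⟩ * lT * (1 + u * l) ^ H.d := by
    intro Dx z₂ l hz₂r hz₂ hρc hG hTc hrig
    have hone' : π (1 + u * l) = 1 := by simp [hπu]
    have hl0 : ((1 + u * l : A) : L) ≠ 0 := fun h => by
      rw [show (1 + u * l : A) = 0 from Subtype.ext h, map_zero] at hone'
      exact zero_ne_one hone'
    have hGr : Dx.Red G₁ 1 := hG.red huun (by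
      simpa [hone'] using red_algebraMap (D := Dx) (1 + u * l))
    -- `T G₁` is congruent to the power of the constant
    have hTG : Close Dx (u * u) (H.T G₁) (algebraMap L F (((1 + u * l) ^ H.d : A) : L)) := by
      have h1 : Close Dx (u * u) (G₁ / algebraMap L F ((1 + u * l : A) : L)) 1 := by
        refine Close.of_mul_right (u := algebraMap L F ((1 + u * l : A) : L)) ?_
          (red_algebraMap (D := Dx) (1 + u * l)) (by rw [hone', map_one]; exact one_ne_zero)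
        rwa [div_mul_cancel₀ _ ((map_ne_zero _).2 hl0), one_mul]
      have h2 := (hTc _ h1).mul_right (u := algebraMap L F (((1 + u * l) ^ H.d : A) : L))
        ((Dx.mem_iff _).2 ((1 + u * l) ^ H.d : A).2)
      rwa [one_mul, map_div₀, H.T_algebraMap, SubmonoidClass.coe_pow,
        div_mul_cancel₀ _ ((map_ne_zero _).2 (pow_ne_zero _ hl0))] at h2
    have hTGr : Dx.Red (H.T G₁) 1 := hTG.red huun (by
      simpa [hone'] using red_algebraMap (D := Dx) ((1 + u * l) ^ H.d))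
    have hL : Dx.Red (K₀ • (s₂ • e₂ * H.T G₁)) 1 := by
      rw [← hkey]; simpa using (hρc.red huun red_one).mul (hGr.pow c)
    have hP : Dx.Red (s₂ • e₂ * H.T G₁) z₂ := by simpa using hz₂r.mul hTGr
    have hK : K₀ ∈ A := mem_of_smul_mem_of_red Dx hP hz₂ hL.mem
    have hres := hL.unique (red_smul (⟨K₀, hK⟩ : A) hP)
    have hπK : π ⟨K₀, hK⟩ ≠ 0 := fun h => one_ne_zero (by rw [hres, h, zero_smul])
    have hz₂c : z₂ = algebraMap k C (π ⟨K₀, hK⟩)⁻¹ := by
      rw [map_inv₀]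
      exact eq_inv_of_mul_eq_one_right (by rw [← Algebra.smul_def, ← hres])
    refine ⟨hK, hπK, fun lT hlTK hlT => dvd_of_close_algebraMap (Dx := Dx) (by simp [hu0]) ?_⟩
    have hcl := hrig _ (by rwa [← hz₂c]) lT hlTK hlT
    have h3 : Close Dx (u * u) (ρ₁ * G₁ ^ c) (algebraMap L F (((1 + u * l) ^ c : A) : L)) := by
      have := hρc.mul (hG.pow ((Dx.mem_iff _).2 (1 + u * l : A).2) c) (hGr.pow c).mem (one_mem _)
      rwa [one_mul, ← map_pow, ← SubmonoidClass.coe_pow] at this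
    have h4 : Close Dx (u * u) (K₀ • (s₂ • e₂ * H.T G₁))
        (algebraMap L F ((⟨K₀, hK⟩ * lT * (1 + u * l) ^ H.d : A) : L)) := by
      have h5 := (hcl.mul hTG hTGr.mem ((Dx.mem_iff _).2 lT.2)).mul_left
        (u := algebraMap L F K₀) ((Dx.mem_iff _).2 hK)
      rw [← Algebra.smul_def, ← map_mul, ← map_mul] at h5
      convert h5 using 3
      simp [mul_assoc]
    exact h3.symm.trans (hkey ▸ h4)
  obtain ⟨hK, hπK, hdvd⟩ := hside hr₂ hz₂ hρ₁D hl1 hHc fun z hz lT hlT hπ =>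
    (close_fst R'.toRatStr (R'.smul_mem hs₂K he₂K) (R'.algebraMap_mem _ hlT) hz
      (by rw [← hπ]; exact red_algebraMap lT)).mono T.unif_dvd
  obtain ⟨hK', hπK', hdvd'⟩ := hside hr₂' hz₂' hρ₁D' hl1' hHc' fun z hz lT hlT hπ =>
    (close_snd R'.toRatStr (R'.smul_mem hs₂K he₂K) (R'.algebraMap_mem _ hlT) hz
      (by rw [← hπ]; exact red_algebraMap lT)).mono T.unif_dvd
  obtain ⟨lT, hlTK, hlT⟩ := R'.lift (π ⟨K₀, hK⟩)⁻¹
  have heqr : r = r' := by
    rw [← hl, ← hl']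
    exact residual_eq (M := ⟨K₀, hK⟩ * lT) hu0 hπu
      (by rw [map_mul, hlT, mul_inv_cancel₀ hπK]) hc (hdvd lT hlTK hlT) (hdvd' lT hlTK hlT)
  have hl1'' : Close D' (u * u) G₁ (algebraMap L F ((1 + u * l : A) : L)) :=
    hlin (close_snd R.toRatStr hyK (R.algebraMap_mem _ hlK) (z := algebraMap k C r)
      (by rw [heqr, ← hr']; exact hz')
      (by rw [← hl]; exact red_algebraMap l))
  have hone' : π (1 + u * l) = 1 := by simp [hπu]
  have hl0 : ((1 + u * l : A) : L) ≠ 0 := fun h => by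
    rw [show (1 + u * l : A) = 0 from Subtype.ext h, map_zero] at hone'
    exact zero_ne_one hone'
  have hfin : ∀ {Dx : RedDatum A π F C},
      Close Dx (u * u) G₁ (algebraMap L F ((1 + u * l : A) : L)) →
      Close Dx (u * u) (((1 + u * l : A) : L)⁻¹ • G₁) 1 := fun {Dx} h => by
    refine Close.of_mul_right (u := algebraMap L F ((1 + u * l : A) : L)) ?_
      (red_algebraMap (D := Dx) (1 + u * l)) (by rw [hone', map_one]; exact one_ne_zero)
    rw [one_mul, Algebra.smul_def, mul_right_comm, ← map_mul, inv_mul_cancel₀ hl0, map_one,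
      one_mul]
    exact h
  refine ⟨((1 + u * l : A) : L)⁻¹ • G₁, R.smul_mem (inv_mem ?_) hG₁K,
    smul_ne_zero (inv_ne_zero hl0) (h₁.ne_zero one_ne_zero), ?_, hfin hl1, hfin hl1''⟩
  · show 1 + R.ϖ * (l : L) ∈ R.K
    exact add_mem (one_mem R.K) (mul_mem R.ϖ_mem hlK)
  · rw [divisorOf_smul (inv_ne_zero hl0) (h₁.ne_zero one_ne_zero), hG₁,
      divisorOf_smul (inv_ne_zero hl₀0) (smul_ne_zero hcG hG'), divisorOf_smul hcG hG', hdG',
      hdivG]

end FLTAgent.MazurP
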