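import Fermat.Agent.MazurP.FixedFrac
import Fermat.Agent.MazurP.SecondOrder
import Fermat.Agent.LevelLower.AuxMap
import Fermat.Agent.LevelLower.HeckeInst

/-!
# The rational structures of level `M q` over subfields fixed by subgroups of inertia

For a subgroup `H` of inertia with a uniformiser `ϖ` of its fixed field, the functions fixed by
`H` form a rational structure, and an automorphism moving the integral fixed constants only modulo
`u` moves the integral fixed functions only modulo `u`.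
-/

set_option autoImplicit false
set_option linter.style.haveILetI false
set_option linter.unusedSectionVars false
set_option synthInstance.maxHeartbeats 100000

noncomputable section

open ModularCurve AlgebraicCurve SemilinearAut IsLocalRing

namespace FLTAgent.MazurP

open FLTAgent.GoodRed FLTAgent.GoodRed.RedDatum FLTAgent.Semistable FLTAgent.Hecke
  FLTAgent.FunctionField FLTAgent.LevelLower

local notation "Qbar" => AlgebraicClosure ℚ
local notation "Γℚ" => AlgebraicClosure ℚ ≃ₐ[ℚ] AlgebraicClosure ℚ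

local instance (priority := high) instAlgebraFullCRatSub {K : Type*} [Field K] (N : ℕ) :
    Algebra K (modularFunctionFieldFullC K N) :=
  SubalgebraClass.toAlgebra (modularFunctionFieldFullC K N)

local instance (priority := high) instAlgebraLevelRatSub (N : ℕ) :
    Algebra Qbar (Hecke.MF Qbar N) :=
  SubalgebraClass.toAlgebra (Hecke.MF Qbar N)

/-- A subgroup of inertia with a uniformiser of its fixed field. -/
structure Ground (A : ValuationSubring (AlgebraicClosure ℚ)) where
  /-- the subgroup -/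
  H : Subgroup (AlgebraicClosure ℚ ≃ₐ[ℚ] AlgebraicClosure ℚ)
  le : H ≤ A.inertiaSubgroupIn ℚ
  /-- the uniformiser -/
  ϖ : AlgebraicClosure ℚ
  ϖ_fix : ∀ σ ∈ H, σ ϖ = ϖ
  ϖ_ne : ϖ ≠ 0
  ϖ_nonunit : ϖ ∈ A.nonunits
  gap : ∀ a : AlgebraicClosure ℚ, (∀ σ ∈ H, σ a = a) → a ∈ A.nonunits → a / ϖ ∈ A

section rat

variable {A : ValuationSubring (AlgebraicClosure ℚ)} (P : Ground A)

/-- The constants fixed by the subgroup. -/
def Ground.field : Subfield Qbar where
  carrier := {a | ∀ σ ∈ P.H, σ a = a}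
  one_mem' := fun σ _ => map_one σ
  zero_mem' := fun σ _ => map_zero σ
  add_mem' := fun ha hb σ hσ => by rw [map_add, ha σ hσ, hb σ hσ]
  mul_mem' := fun ha hb σ hσ => by rw [map_mul, ha σ hσ, hb σ hσ]
  neg_mem' := fun ha σ hσ => by rw [map_neg, ha σ hσ]
  inv_mem' := fun a ha σ hσ => by rw [map_inv₀, ha σ hσ]

theorem Ground.mem_field {a : Qbar} : a ∈ P.field ↔ ∀ σ ∈ P.H, σ a = a := Iff.rfl

variable (N : ℕ)

/-- The functions fixed by the subgroup. -/
def subFun : Subfield (modularFunctionFieldBar N) where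
  carrier := {f | ∀ σ ∈ P.H, toRingAut (galAct N σ) f = f}
  one_mem' := fun σ _ => map_one _
  zero_mem' := fun σ _ => map_zero _
  add_mem' := fun hf hg σ hσ => by rw [map_add, hf σ hσ, hg σ hσ]
  mul_mem' := fun hf hg σ hσ => by rw [map_mul, hf σ hσ, hg σ hσ]
  neg_mem' := fun hf σ hσ => by rw [map_neg, hf σ hσ]
  inv_mem' := fun f hf σ hσ => by rw [map_inv₀, hf σ hσ]

variable {P N}

theorem algebraMap_mem_subFun {a : Qbar} (ha : a ∈ P.field) :
    algebraMap Qbar (modularFunctionFieldBar N) a ∈ subFun P N := fun σ hσ => by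
  rw [commutes]
  exact congrArg _ (ha σ hσ)

theorem subFun_mono {P' : Ground A} (h : P.H ≤ P'.H) : subFun P' N ≤ subFun P N :=
  fun _ hf σ hσ => hf σ (h hσ)

theorem heckeFun_mem_subFun {l : ℕ} [NeZero N] [NeZero l] {f : modularFunctionFieldBar N}
    (hf : f ∈ subFun P N) : heckeFun N l f ∈ subFun P N := fun σ hσ => by
  rw [← heckeFun_galois, hf σ hσ]

theorem span_subFun [NeZero N] (X : Divisor Qbar (modularFunctionFieldBar N))
    (hX : ∀ σ : P.H, galAct N σ • X = X) :
    riemannRochSpace X ≤ Submodule.span Qbar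
      ((riemannRochSpace X : Set (modularFunctionFieldBar N)) ∩ subFun P N) := by
  let v : modularFunctionFieldBar N →ₗ[Qbar] LaurentSeries Qbar :=
    { toFun := fun u => (u : LaurentSeries Qbar)
      map_add' := fun _ _ => rfl
      map_smul' := fun c u => by
        rw [RingHom.id_apply, coe_smul_eq, smul_series] }
  have hv : Function.Injective v := Subtype.val_injective
  intro f hf
  have hstab : ∀ (σ : P.H), ∀ w ∈ (riemannRochSpace X).map v,
      coeffMap ((σ : Γℚ) : Qbar →+* Qbar) w ∈ (riemannRochSpace X).map v := by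
    rintro σ _ ⟨u, hu, rfl⟩
    refine ⟨toRingAut (galAct N σ) u, ?_, rfl⟩
    have h := toRingAut_mem_rr (galAct N σ) hu
    rwa [hX σ] at h
  have h1 := le_span_fixed_series (fun σ : P.H => ((σ : Γℚ) : Qbar →+* Qbar))
    ((riemannRochSpace X).map v) hstab ⟨f, hf, rfl⟩
  have h2 : Submodule.span Qbar {w | w ∈ (riemannRochSpace X).map v ∧
      ∀ σ : P.H, coeffMap ((σ : Γℚ) : Qbar →+* Qbar) w = w} ≤
      (Submodule.span Qbar
        ((riemannRochSpace X : Set (modularFunctionFieldBar N)) ∩ subFun P N)).map v := by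
    refine Submodule.span_le.2 ?_
    rintro _ ⟨⟨u, hu, rfl⟩, hfix⟩
    exact ⟨u, Submodule.subset_span ⟨hu, fun σ hσ => Subtype.ext (hfix ⟨σ, hσ⟩)⟩, rfl⟩
  obtain ⟨u, hu, hue⟩ := h2 h1
  rwa [← hv hue]

end rat

section level

variable {A : ValuationSubring (AlgebraicClosure ℚ)} {q : ℕ} [Fact q.Prime]
  (hA : A.LiesOverPrime q) [CharP (ResidueField A) q] [IsAlgClosed (ResidueField A)]
  {M : ℕ} [NeZero M] (hqM : ¬ q ∣ M) (P : Ground A)

local instance instNeZeroQSub : NeZero q := ⟨(Fact.out : q.Prime).ne_zero⟩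
local instance instNeZeroLevelSub : NeZero (M * q) :=
  ⟨Nat.mul_ne_zero (NeZero.ne M) (Fact.out : q.Prime).ne_zero⟩

variable {P}

theorem swapW_mem_subFun {f : MF Qbar (M * q)} (hf : f ∈ subFun P (M * q)) :
    swapW M hqM f ∈ subFun P (M * q) := fun σ hσ => by
  rw [← swapW_galAct M hqM, hf σ hσ]

theorem exists_redInf_scale_sub {f : MF Qbar (M * q)} (hf : f ∈ subFun P (M * q)) (hf0 : f ≠ 0) :
    ∃ c ∈ P.field, c ≠ 0 ∧ ∃ z, z ≠ 0 ∧ (redInf A hA M hqM).Red (c • f) z := by
  obtain ⟨c, hcK, hc, w, hw, hr⟩ := exists_fixed_scale (π := residue A) hA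
    (fun _ hx => Igusa.modularFunctionFieldFull_le_boundedField q (M * q) hx)
    (fun σ : P.H => ((σ : Γℚ) : Qbar →+* Qbar)) (K := P.field) (fun a h σ hσ => h ⟨σ, hσ⟩) f.2
    (fun σ => congrArg Subtype.val (hf σ σ.2)) fun h => hf0 (Subtype.ext h)
  have hm : w ∈ modularFunctionFieldFullC (ResidueField A) M :=
    (mem_fullC_iff_sRed A hA M hqM w).2
      ⟨c • (f : LaurentSeries Qbar), by rw [smul_series, ← coe_smul_eq]; exact (c • f).2, hr⟩
  refine ⟨c, hcK, hc, ⟨w, hm⟩, fun h => hw (congrArg Subtype.val h), (redInf_iff hA hqM).2 ?_⟩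
  rw [coe_smul_eq, ← smul_series]
  exact hr

variable (P)

/-- The rational structure fixed by the subgroup. -/
def subRat : GalStr (redInf A hA M hqM) (redZero A hA M hqM) where
  K := P.field
  FK := subFun P (M * q)
  algebraMap_mem _ ha := algebraMap_mem_subFun ha
  scale _ hf hf0 := exists_redInf_scale_sub hA hqM hf hf0
  scale' f hf hf0 := by
    obtain ⟨c, hcK, hc, z, hz, hr⟩ := exists_redInf_scale_sub hA hqM
      (swapW_mem_subFun hqM hf) ((map_ne_zero (swapW M hqM)).2 hf0)
    exact ⟨c, hcK, hc, z, hz, (redZero_iff hA hqM).2 (by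
      rwa [Algebra.smul_def, map_mul, AlgEquiv.commutes, ← Algebra.smul_def])⟩
  ϖ := P.ϖ
  ϖ_mem := P.ϖ_fix
  ϖ_ne := P.ϖ_ne
  ϖ_nonunit := P.ϖ_nonunit
  gap a ha han := P.gap a ha han
  lift t := by
    obtain ⟨r, hr⟩ := LevelSq.urRes_surjective hA t
    exact ⟨LevelSq.urIncl A r,
      fun σ hσ => (IntermediateField.mem_fixedField_iff _ _).1 (r : LevelSq.urField A).2 σ (P.le hσ),
      hr⟩
  Γ := P.H
  act σ := galAct (M * q) σ
  fix_FK σ _ hf := hf σ σ.2
  span_rat X hX := span_subFun X hX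

theorem coe_unifOf_subRat : ((unifOf (subRat hA hqM P).toRatStr : A) : Qbar) = P.ϖ := rfl

/-- The operator `T l` on the functions fixed by the subgroup. -/
def subHecke (l : ℕ) [NeZero l] (hl : l.Prime) (hlM : ¬ l ∣ M) (hlq : l ≠ q)
    [HasPrincipalDivisors Qbar (Hecke.MF Qbar (M * q * l))] :
    HeckeOp (redInf A hA M hqM) (redZero A hA M hqM) (subRat hA hqM P).FK where
  T := (levelHecke A hA M hqM l hl hlM hlq).T
  d := l + 1
  Tdiv := (levelHecke A hA M hqM l hl hlM hlq).Tdiv
  div_T := (levelHecke A hA M hqM l hl hlM hlq).div_T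
  T_algebraMap := (levelHecke A hA M hqM l hl hlM hlq).T_algebraMap
  T_FK _ hf := heckeFun_mem_subFun hf
  Tb := (levelHecke A hA M hqM l hl hlM hlq).Tb
  red := (levelHecke A hA M hqM l hl hlM hlq).red
  red' := (levelHecke A hA M hqM l hl hlM hlq).red'

variable {P}

include hA in
/-- A series with a reduction is integral on the first component. -/
theorem mem_V_of_sRed {f : MF Qbar (M * q)} {w : LaurentSeries (ResidueField A)}
    (h : SRed (residue A) (f : LaurentSeries Qbar) w) : f ∈ (redInf A hA M hqM).V :=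
  Red.mem (z := ⟨w, (mem_fullC_iff_sRed A hA M hqM w).2 ⟨f, f.2, h⟩⟩) ((redInf_iff hA hqM).2 h)

theorem close_redZero_of_swapW {c : A} {f g : MF Qbar (M * q)}
    (h : Close (redInf A hA M hqM) c (swapW M hqM f) (swapW M hqM g)) :
    Close (redZero A hA M hqM) c f g := by
  obtain ⟨w, hw, e⟩ := h
  obtain ⟨z, hz⟩ := exists_red hw
  refine ⟨swapW M hqM w, Red.mem (z := z) ((redZero_iff hA hqM).2 (by rwa [swapW_swapW])), ?_⟩
  have e' := congrArg (swapW M hqM) e
  rw [map_sub, swapW_swapW, swapW_swapW] at e'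
  rw [e', Algebra.smul_def, Algebra.smul_def, map_mul, AlgEquiv.commutes]

theorem swapW_mem_V {f : MF Qbar (M * q)} (h : f ∈ (redZero A hA M hqM).V) :
    swapW M hqM f ∈ (redInf A hA M hqM).V := by
  obtain ⟨z, hz⟩ := exists_red h
  exact ((redZero_iff hA hqM).1 hz).mem

set_option maxHeartbeats 800000 in
include hA in
/-- An automorphism moving the integral fixed constants modulo `u` moves the integral fixed
functions modulo `u`. -/
theorem close_galAct {σ : Γℚ} {u : A} (hu0 : (u : Qbar) ≠ 0) (hun : (u : Qbar) ∈ A.nonunits)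
    (hσ : ∀ a : A, (a : Qbar) ∈ P.field → ∃ b : A, σ (a : Qbar) = (a : Qbar) + (u : Qbar) * b)
    {y : MF Qbar (M * q)} (hy : y ∈ subFun P (M * q)) (hyV : y ∈ (redInf A hA M hqM).V) :
    Close (redInf A hA M hqM) u (toRingAut (galAct (M * q) σ) y) y := by
  classical
  obtain ⟨w, hw⟩ := exists_red hyV
  have hw' := (redInf_iff hA hqM).1 hw
  obtain ⟨n, e, eb, a, b, he, hind, hrat, ha, hb, hb0, hab⟩ :=
    exists_fixed_frac_rat (π := residue A) hA
      (fun _ hx => Igusa.modularFunctionFieldFull_le_boundedField q (M * q) hx)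
      (fun τ : P.H => ((τ : Γℚ) : Qbar →+* Qbar)) y.2 fun τ => congrArg Subtype.val (hy τ τ.2)
  obtain ⟨j, hj, hjA⟩ := exists_max_valuation A b fun h => hb0 (by simp [h])
  set b' : Fin n → A := fun i => ⟨b i / b j, hjA i⟩ with hb'
  set β := ∑ i, residue A (b' i) • eb i with hβ
  have hβ0 : β ≠ 0 := fun h => by
    have h3 := Fintype.linearIndependent_iff.1 hind _ h j
    rw [show b' j = 1 from Subtype.ext (div_self hj), map_one] at h3
    exact one_ne_zero h3
  have sum_red : ∀ c : Fin n → A,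
      SRed (residue A) (∑ i, (c i : Qbar) • e i) (∑ i, residue A (c i) • eb i) := fun c =>
    SRed.sum _ fun i _ => (he i).smul (c i)
  set a' : Fin n → Qbar := fun i => a i / b j with ha'
  have hab' : (y : LaurentSeries Qbar) * ∑ i, (b' i : Qbar) • e i = ∑ i, a' i • e i := by
    simp only [hb', ha', div_eq_inv_mul, mul_smul, ← Finset.smul_sum]
    rw [smul_series, smul_series, mul_left_comm, hab]
  have hyb : SRed (residue A) (∑ i, a' i • e i) ((w : LaurentSeries (ResidueField A)) * β) :=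
    hab' ▸ hw'.mul (sum_red b')
  -- the numerator has integral coefficients
  have haA : ∀ i, a' i ∈ A := by
    intro i
    by_contra hi
    obtain ⟨i₀, hi₀, hi₀A⟩ := exists_max_valuation A a' fun h => hi (by
      rw [show a' i = 0 from congrFun h i]; exact zero_mem _)
    have hn : (a' i₀)⁻¹ ∈ A.nonunits := by
      rw [ValuationSubring.inv_mem_nonunits_iff]
      refine Or.inr fun h0 => hi ?_
      have := mul_mem (hi₀A i) h0
      rwa [div_mul_cancel₀ _ hi₀] at this
    have h1 := hyb.smul (⟨_, A.nonunits_subset hn⟩ : A)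
    rw [((isResidueMap_residue A).eq_zero_iff _).2 hn, zero_smul, Finset.smul_sum] at h1
    have h2 : SRed (residue A) (∑ i, (a' i₀)⁻¹ • (a' i • e i))
        (∑ i, residue A ⟨a' i / a' i₀, hi₀A i⟩ • eb i) := by
      convert sum_red fun i => ⟨a' i / a' i₀, hi₀A i⟩ using 2 with i
      rw [smul_smul, inv_mul_eq_div]
    have h3 := Fintype.linearIndependent_iff.1 hind _ (h2.unique h1) i₀
    rw [show (⟨a' i₀ / a' i₀, hi₀A i₀⟩ : A) = 1 from Subtype.ext (div_self hi₀), map_one] at h3
    exact one_ne_zero h3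
  have hfix : ∀ {c : Fin n → Qbar} (i : Fin n),
      (∀ (τ : P.H) (i : Fin n), ((τ : Γℚ) : Qbar →+* Qbar) (c i) = c i) →
      c i / b j ∈ P.field := fun i hc τ hτ => by
    rw [map_div₀, show τ (b j) = b j from hb ⟨τ, hτ⟩ j]
    exact congrArg (· / b j) (hc ⟨τ, hτ⟩ i)
  choose α hα using fun i => hσ ⟨a' i, haA i⟩ (hfix i ha)
  choose γ hγ using fun i => hσ (b' i) (hfix i hb)
  have hσe : ∀ c : Fin n → Qbar, coeffMap (σ : Qbar →+* Qbar) (∑ i, c i • e i) =
      ∑ i, σ (c i) • e i := fun c => by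
    simp only [map_sum, smul_series, map_mul, coeffMap_algebraMap, hrat]
    rfl
  set Se := ∑ i, a' i • e i with hSe
  set Be := ∑ i, (b' i : Qbar) • e i with hBe
  set Ae := ∑ i, (α i : Qbar) • e i with hAe
  set Ge := ∑ i, (γ i : Qbar) • e i with hGe
  set U := algebraMap Qbar (LaurentSeries Qbar) (u : Qbar) with hU
  have hσS : coeffMap (σ : Qbar →+* Qbar) Se = Se + U * Ae := by
    rw [hSe, hAe, hU, hσe, Finset.mul_sum, ← Finset.sum_add_distrib]
    exact Finset.sum_congr rfl fun i _ => by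
      rw [hα i, add_smul, mul_smul, smul_series (u : Qbar)]
  have hσB : coeffMap (σ : Qbar →+* Qbar) Be = Be + U * Ge := by
    rw [hBe, hGe, hU, hσe, Finset.mul_sum, ← Finset.sum_add_distrib]
    exact Finset.sum_congr rfl fun i _ => by
      rw [hγ i, add_smul, mul_smul, smul_series (u : Qbar)]
  have hBr : SRed (residue A) Be β := sum_red b'
  have hB'r : SRed (residue A) (Be + U * Ge) β := by
    have h1 := hBr.add ((sum_red γ).smul u)
    rw [((isResidueMap_residue A).eq_zero_iff _).2 hun, zero_smul, add_zero, smul_series] at h1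
    exact h1
  have hnum := ((sum_red α).mul hBr).sub ((sum_red fun i => ⟨a' i, haA i⟩).mul (sum_red γ))
  set σy : MF Qbar (M * q) := toRingAut (galAct (M * q) σ) y with hσy
  set v : MF Qbar (M * q) := (u : Qbar)⁻¹ • (σy - y) with hv
  suffices key : (v : LaurentSeries Qbar) = (Ae * Be - Se * Ge) / ((Be + U * Ge) * Be) by
    refine ⟨v, ?_, by rw [hv, smul_inv_smul₀ hu0]⟩
    have h := hnum.div (hB'r.mul hBr) (mul_ne_zero hβ0 hβ0)
    exact mem_V_of_sRed hA hqM (f := v) (by rw [key]; exact h)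
  have hBe0 : Be ≠ 0 := hBr.ne_zero hβ0
  have hB'0 : Be + U * Ge ≠ 0 := hB'r.ne_zero hβ0
  have hy' : (y : LaurentSeries Qbar) = Se / Be := (eq_div_iff hBe0).2 hab'
  have hσy' : (σy : LaurentSeries Qbar) = (Se + U * Ae) / (Be + U * Ge) := by
    rw [hσy, coe_galAct, hy', map_div₀, hσS, hσB]
  rw [hv, coe_smul_eq, AddSubgroupClass.coe_sub, hσy', hy', map_inv₀, ← hU, eq_div_iff (mul_ne_zero hB'0 hBe0)]
  have hU0 : U ≠ 0 := (map_ne_zero _).2 hu0
  field_simp
  ring

include hA in
/-- The same on the second component. -/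
theorem close_galAct' {σ : Γℚ} {u : A} (hu0 : (u : Qbar) ≠ 0) (hun : (u : Qbar) ∈ A.nonunits)
    (hσ : ∀ a : A, (a : Qbar) ∈ P.field → ∃ b : A, σ (a : Qbar) = (a : Qbar) + (u : Qbar) * b)
    {y : MF Qbar (M * q)} (hy : y ∈ subFun P (M * q)) (hyV : y ∈ (redZero A hA M hqM).V) :
    Close (redZero A hA M hqM) u (toRingAut (galAct (M * q) σ) y) y := by
  refine close_redZero_of_swapW hA hqM ?_
  rw [swapW_galAct M hqM]
  exact close_galAct hA hqM hu0 hun hσ (swapW_mem_subFun hqM hy) (swapW_mem_V hA hqM hyV)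

/-- The automorphism of a subgroup normalising the smaller one. -/
def subTwisting {P' : Ground A} (hle : P.H ≤ P'.H)
    (hdvd : unifOf (subRat hA hqM P).toRatStr * unifOf (subRat hA hqM P).toRatStr ∣
      unifOf (subRat hA hqM P').toRatStr)
    (σ : Γℚ) (hnorm : ∀ τ ∈ P.H, σ⁻¹ * τ * σ ∈ P.H)
    (hσ : ∀ a : A, (a : Qbar) ∈ P.field →
      ∃ b : A, σ (a : Qbar) = (a : Qbar) + P.ϖ * P.ϖ * b) :
    Twisting (subRat hA hqM P) (subRat hA hqM P') where
  le := subFun_mono hle
  unif_dvd := hdvd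
  σ := galAct (M * q) σ
  σ_FK f hf τ hτ := by
    refine Subtype.ext ?_
    have h1 := congrArg Subtype.val (hf _ (hnorm τ hτ))
    rw [coe_galAct] at h1
    rw [coe_galAct, coe_galAct]
    have h2 := congrArg (coeffMap (σ : Qbar →+* Qbar)) h1
    conv_rhs => rw [← h2]
    refine HahnSeries.ext (funext fun m => ?_)
    show τ (σ _) = σ ((σ⁻¹ * τ * σ) _)
    rw [AlgEquiv.mul_apply, AlgEquiv.mul_apply]
    exact (σ.apply_symm_apply _).symm
  cong y hy hyV := close_galAct hA hqM (u := unifOf _ * unifOf _)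
    (mul_ne_zero P.ϖ_ne P.ϖ_ne) ((isResidueMap_residue A).eq_zero_iff _ |>.1 (by
      rw [map_mul, red_unifOf, zero_mul])) hσ hy hyV
  cong' y hy hyV := close_galAct' hA hqM (u := unifOf _ * unifOf _)
    (mul_ne_zero P.ϖ_ne P.ϖ_ne) ((isResidueMap_residue A).eq_zero_iff _ |>.1 (by
      rw [map_mul, red_unifOf, zero_mul])) hσ hy hyV

theorem galAct_normAlong_alpha (σ : Γℚ) (f : MF Qbar (M * q)) :
    toRingAut (galAct (M * q) σ) (alphaMap Qbar M q (normAlong (alphaMap Qbar M q) f)) =
      alphaMap Qbar M q (normAlong (alphaMap Qbar M q) (toRingAut (galAct (M * q) σ) f)) := by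
  rw [galAct_alphaMap,
    ← normAlong_equiv (alphaMap Qbar M q) (toRingAut (galAct M σ)) (toRingAut (galAct (M * q) σ))
      (fun u => galAct_alphaMap M σ u) f]

theorem galAct_normAlong_beta (σ : Γℚ) (f : MF Qbar (M * q)) :
    toRingAut (galAct (M * q) σ) (betaMap Qbar M q (normAlong (betaMap Qbar M q) f)) =
      betaMap Qbar M q (normAlong (betaMap Qbar M q) (toRingAut (galAct (M * q) σ) f)) := by
  rw [galAct_betaMap,
    ← normAlong_equiv (betaMap Qbar M q) (toRingAut (galAct M σ)) (toRingAut (galAct (M * q) σ))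
      (fun u => galAct_betaMap M σ u) f]

theorem normCompat_alpha {P' : Ground A} (T : Twisting (subRat hA hqM P) (subRat hA hqM P'))
    {σ : Γℚ} (hT : T.σ = galAct (M * q) σ) :
    letI := algebraAlong (alphaMap Qbar M q)
    NormCompat T (MF Qbar M) :=
  letI := algebraAlong (alphaMap Qbar M q)
  { σ_norm := fun f => by rw [hT]; exact galAct_normAlong_alpha σ f
    mem := fun f hf τ hτ => (galAct_normAlong_alpha τ f).trans (by rw [hf τ hτ]; rfl)
    mem' := fun f hf τ hτ => (galAct_normAlong_alpha τ f).trans (by rw [hf τ hτ]; rfl) }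

theorem normCompat_beta {P' : Ground A} (T : Twisting (subRat hA hqM P) (subRat hA hqM P'))
    {σ : Γℚ} (hT : T.σ = galAct (M * q) σ) :
    letI := algebraAlong (betaMap Qbar M q)
    NormCompat T (MF Qbar M) :=
  letI := algebraAlong (betaMap Qbar M q)
  { σ_norm := fun f => by rw [hT]; exact galAct_normAlong_beta σ f
    mem := fun f hf τ hτ => (galAct_normAlong_beta τ f).trans (by rw [hf τ hτ]; rfl)
    mem' := fun f hf τ hτ => (galAct_normAlong_beta τ f).trans (by rw [hf τ hτ]; rfl) }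

end level

end FLTAgent.MazurP
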