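import Fermat.Agent.MazurP.NormGap

/-!
# Functions regular over the tube of a crossing

A function regular over the tube of a crossing and integral on both components has reductions
regular at the two branches with equal values there.  So its two scales agree as soon as both
reductions have nonzero values.  A rational witness with a simple pole on the first branch and a
simple zero on the second after multiplication by `q` has no zero in the tube, and its
translate by its value at a point of the tube has exactly that one zero.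
-/

set_option autoImplicit false
set_option linter.unusedSectionVars false

noncomputable section

open AlgebraicCurve

namespace FLTAgent.MazurP

open FLTAgent.GoodRed FLTAgent.GoodRed.RedDatum FLTAgent.FunctionField FLTAgent.Semistable
  FLTAgent.LevelLower

variable {L k : Type*} [Field L] [Field k] {A : ValuationSubring L} {π : A →+* k}
  {E F C : Type*} [Field E] [Algebra L E] [Field F] [Algebra L F] [Algebra E F]
  [IsScalarTower L E F] [Field C] [Algebra k C]
  [IsFunctionField L E] [IsFunctionField L F] [IsFunctionField k C] [IsAlgClosed L]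
  [IsAlgClosed k] [Module.Finite E F]
  {DE : RedDatum A π E C} {D D' : RedDatum A π F C} {frob : C →ₐ[k] C} {q : ℕ}
  {ι : Type*} [Fintype ι] (S : CrossData DE D D' frob q ι)

/-- Regular at every place over the tube of the crossing `i`. -/
def RegTube (i : ι) (f : F) : Prop := ∀ P, below S P = S.x i → OrdGe P 0 f

variable {S}

theorem exists_divisor_of_regTube {i : ι} {f : F} (hf : RegTube S i f) :
    ∃ G : Divisor L E, 0 ≤ G ∧ S.red₁ G (S.x i) = 0 ∧
      f ∈ riemannRochSpace (Divisor.pullback F G) := by
  classical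
  rcases eq_or_ne f 0 with rfl | hf0
  · exact ⟨0, le_rfl, by simp [CrossData.red₁], zero_mem _⟩
  set neg : Divisor L F :=
    Finsupp.mapRange (fun n : ℤ => max (-n) 0) (by simp) (divisorOf (K := L) f) with hneg
  have hn0 : 0 ≤ neg := fun P => by
    rw [hneg, Finsupp.mapRange_apply]; exact le_max_right _ _
  have hne : ∀ P, neg P ≠ 0 → below S P ≠ S.x i := fun P hP hx => hP (by
    rw [hneg, Finsupp.mapRange_apply, divisorOf_apply, max_eq_right]
    have := (hf P hx).le_ord hf0
    omega)
  refine ⟨Finsupp.mapDomain (fun P => P.restrict E) neg, mapDomain_nonneg _ hn0, ?_, ?_⟩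
  · rw [CrossData.red₁, ← Finsupp.mapDomain_comp]
    by_contra h
    obtain ⟨P, hP, hP0⟩ := exists_preimage_of_apply_ne_zero _ h
    exact hne P hP0 hP
  · refine mem_rr_iff.2 fun P => ordGe_of_le_ord ?_
    have h1 : neg P ≤ Finsupp.mapDomain (fun P : Place L F => P.restrict E) neg (P.restrict E) :=
      mapDomain_le_apply _ (fun Q _ => hn0 Q) P rfl
    have h2 : -P.ord f ≤ neg P := by
      rw [hneg, Finsupp.mapRange_apply, divisorOf_apply]; exact le_max_left _ _
    have h3 : (1 : ℤ) ≤ P.ramificationIndex E := by exact_mod_cast P.ramificationIndex_pos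
    have h4 : 0 ≤ Finsupp.mapDomain (fun P : Place L F => P.restrict E) neg (P.restrict E) :=
      mapDomain_nonneg _ hn0 _
    rw [Divisor.pullback_apply]
    nlinarith

variable [CharP k q]

/-- The values at the two branches of a function integral on both components. -/
theorem regTube_agree {i : ι} {f : F} (hf : RegTube S i f) {a b : C} (ha : D.Red f a)
    (hb : D'.Red f b) :
    OrdGe (S.x i) 0 a ∧ OrdGe (S.frP.symm (S.x i)) 0 b ∧
      valAt (S.x i) a = valAt (S.frP.symm (S.x i)) b := by
  obtain ⟨G, hG, hGx, hfG⟩ := exists_divisor_of_regTube hf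
  obtain ⟨haM, hbM⟩ := S.red_mem hfG ha hb
  exact ⟨regular_of_mem_rr hGx haM, regular_of_mem_rr (S.red₂_symm_eq_zero hGx) hbM,
    S.agree hG i hGx hfG ha hb⟩

theorem regTube_smul {i : ι} {f : F} (hf : RegTube S i f) (c : L) : RegTube S i (c • f) :=
  fun P hP => by
    rw [Algebra.smul_def]
    simpa using (ordGe_algebraMap (v := P) c).mul (hf P hP)

/-- Nonzero values on both branches force equal scales. -/
theorem scale_eq {i : ι} {f : F} (hf : RegTube S i f) {c c' : L} {a b : C} (hc : c ≠ 0)
    (hc' : c' ≠ 0) (ha : D.Red (c • f) a) (hb : D'.Red (c' • f) b)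
    (hva : valAt (S.x i) a ≠ 0) (hvb : valAt (S.frP.symm (S.x i)) b ≠ 0) :
    A.valuation c = A.valuation c' := by
  have small : ∀ {c c' : L}, c' ≠ 0 → A.valuation c < A.valuation c' →
      c / c' ∈ A.nonunits := by
    intro c c' hc' h
    rw [A.mem_nonunits_iff, map_div₀, div_lt_one₀ (zero_lt_iff.2 ((map_ne_zero _).2 hc'))]
    exact h
  rcases lt_trichotomy (A.valuation c) (A.valuation c') with h | h | h
  · have hn := small hc' h
    have h1 : D'.Red (c • f) 0 := by
      have := red_smul (⟨c / c', A.nonunits_subset hn⟩ : A) hb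
      rwa [(D'.isResidue.eq_zero_iff _).2 hn, zero_smul, smul_smul, div_mul_cancel₀ _ hc'] at this
    refine absurd ?_ hva
    rw [(regTube_agree (regTube_smul hf c) ha h1).2.2, valAt_zero]
  · exact h
  · have hn := small hc h
    have h1 : D.Red (c' • f) 0 := by
      have := red_smul (⟨c' / c, A.nonunits_subset hn⟩ : A) ha
      rwa [(D.isResidue.eq_zero_iff _).2 hn, zero_smul, smul_smul, div_mul_cancel₀ _ hc] at this
    refine absurd ?_ hvb
    rw [← (regTube_agree (regTube_smul hf c') h1 hb).2.2, valAt_zero]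

theorem ord_one_sub_const {v : Place k C} {z : C} (hz : v.ord z < 0) (t : k) :
    v.ord (z - algebraMap k C t) = v.ord z ∧ z - algebraMap k C t ≠ 0 := by
  have hz0 : z ≠ 0 := fun h => by rw [h, Place.ord_zero] at hz; omega
  have hne : z - algebraMap k C t ≠ 0 := fun h => by
    rw [sub_eq_zero] at h
    rw [h, ord_algebraMap] at hz
    omega
  refine ⟨le_antisymm ?_ ?_, hne⟩
  · by_contra hlt
    push Not at hlt
    have h1 : OrdGe v (v.ord z + 1) (z - algebraMap k C t + algebraMap k C t) :=
      (ordGe_of_le_ord (by omega) : OrdGe v (v.ord z + 1) (z - algebraMap k C t)).add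
        ((ordGe_algebraMap t).mono (by omega))
    rw [sub_add_cancel] at h1
    have := h1.le_ord hz0
    omega
  · exact ((ordGe_ord z).sub ((ordGe_algebraMap t).mono hz.le)).le_ord hne

/-- A witness at the crossing `i`. -/
structure TubeWit (S : CrossData DE D D' frob q ι) (K : Subfield F) (i : ι) where
  /-- the function -/
  T : F
  mem : T ∈ K
  reg : RegTube S i T
  /-- its first reduction -/
  z : C
  /-- the second reduction of its multiple by `q` -/
  u : C
  red : D.Red T z
  red' : D'.Red ((q : L) • T) u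
  ord_z : (S.x i).ord z = -1
  ord_u : (S.frP.symm (S.x i)).ord u = 1

variable {K : Subfield F} {i : ι} (W : TubeWit S K i)

theorem TubeWit.z_ne : W.z ≠ 0 := fun h => by
  have := W.ord_z; rw [h, Place.ord_zero] at this; omega

theorem TubeWit.u_ne : W.u ≠ 0 := fun h => by
  have := W.ord_u; rw [h, Place.ord_zero] at this; omega

/-- The witness has no zero in the tube. -/
theorem TubeWit.ord_eq_zero (hq : (q : L) ≠ 0) {P : Place L F} (hP : below S P = S.x i) :
    P.ord W.T = 0 := by
  have hT : W.T ≠ 0 := W.red.ne_zero W.z_ne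
  have hsum := mapDomain_divisorOf_gap S hq W.red W.red' W.z_ne W.u_ne (S.x i)
  rw [W.ord_z, W.ord_u] at hsum
  have h1 := mapDomain_le_apply (below S) (E := divisorOf (K := L) W.T) (b := S.x i)
    (fun Q hQ => by rw [divisorOf_apply]; exact (W.reg Q hQ).le_ord hT) P hP
  rw [hsum, divisorOf_apply] at h1
  have := (W.reg P hP).le_ord hT
  omega

/-- The translate by the value at a point of the tube has that point as only zero there; the
value is large on the first branch and small on the second. -/
theorem TubeWit.sub_value (hq : (q : L) ≠ 0) {P : Place L F} (hP : below S P = S.x i) {τ : L}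
    (hτ : OrdGe P 1 (W.T - algebraMap L F τ)) :
    τ ∉ A ∧ (q : L) * τ ∈ A.nonunits ∧ W.T - algebraMap L F τ ≠ 0 ∧
      ∀ Q, below S Q = S.x i →
        Q.ord (W.T - algebraMap L F τ) = (Finsupp.single P (1 : ℤ) : Divisor L F) Q := by
  classical
  set f := W.T - algebraMap L F τ with hf
  -- scaled reductions of the first component
  obtain ⟨c, a, hc, ha, ha0, hoa⟩ : ∃ (c : L) (a : C), c ≠ 0 ∧ D.Red (c • f) a ∧ a ≠ 0 ∧
      (S.x i).ord a = if τ ∈ A then -1 else 0 := by
    by_cases hτA : τ ∈ A
    · obtain ⟨h1, h2⟩ := ord_one_sub_const (v := S.x i) (z := W.z) (by rw [W.ord_z]; omega)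
        (π ⟨τ, hτA⟩)
      exact ⟨1, _, one_ne_zero, by rw [one_smul]; exact W.red.sub (red_algebraMap ⟨τ, hτA⟩), h2,
        by rw [h1, W.ord_z, if_pos hτA]⟩
    · have hn : τ⁻¹ ∈ A.nonunits := by
        rw [ValuationSubring.inv_mem_nonunits_iff]; exact Or.inr hτA
      have hτ0 : τ ≠ 0 := fun h => hτA (h ▸ zero_mem _)
      refine ⟨τ⁻¹, -1, inv_ne_zero hτ0, ?_, neg_ne_zero.2 one_ne_zero,
        by rw [if_neg hτA, show (-1 : C) = algebraMap k C (-1) by simp, ord_algebraMap]⟩
      have := (red_smul (⟨τ⁻¹, A.nonunits_subset hn⟩ : A) W.red).sub (red_one (D := D))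
      rw [(D.isResidue.eq_zero_iff _).2 hn, zero_smul, zero_sub] at this
      convert this using 1
      rw [hf, smul_sub, Algebra.smul_def τ⁻¹ (algebraMap L F τ), ← map_mul, inv_mul_cancel₀ hτ0,
        map_one]
  -- of the second
  obtain ⟨c', b, hc', hb, hb0, hob⟩ : ∃ (c' : L) (b : C), c' ≠ 0 ∧ D'.Red (c' • f) b ∧ b ≠ 0 ∧
      (S.frP.symm (S.x i)).ord b = if (q : L) * τ ∈ A.nonunits then 1 else 0 := by
    have hfq : (q : L) • f = (q : L) • W.T - algebraMap L F ((q : L) * τ) := by
      rw [hf, smul_sub, Algebra.smul_def (q : L) (algebraMap L F τ), ← map_mul]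
    by_cases hn : (q : L) * τ ∈ A.nonunits
    · refine ⟨q, W.u, hq, ?_, W.u_ne, by rw [W.ord_u, if_pos hn]⟩
      have := W.red'.sub (red_algebraMap (D := D') ⟨_, A.nonunits_subset hn⟩)
      rw [(D'.isResidue.eq_zero_iff _).2 hn, map_zero, sub_zero] at this
      rwa [hfq]
    · have hu : OrdGe (S.frP.symm (S.x i)) 1 W.u := ordGe_of_le_ord W.ord_u.ge
      by_cases hA : (q : L) * τ ∈ A
      · have ht : π ⟨_, hA⟩ ≠ 0 := fun h => hn ((D'.isResidue.eq_zero_iff _).1 h)
        set b := W.u - algebraMap k C (π ⟨_, hA⟩) with hb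
        have hv : valAt (S.frP.symm (S.x i)) b = -π ⟨_, hA⟩ := valAt_eq (by
          rw [hb, map_neg, sub_neg_eq_add, sub_add_cancel]; exact hu)
        obtain ⟨hb0, hob⟩ := ord_eq_zero_of_valAt_ne ((hu.mono zero_le_one).sub
          (ordGe_algebraMap _)) (by rw [hv]; exact neg_ne_zero.2 ht)
        exact ⟨q, b, hq, by rw [hfq]; exact W.red'.sub (red_algebraMap ⟨_, hA⟩), hb0,
          by rw [hob, if_neg hn]⟩
      · have hi : ((q : L) * τ)⁻¹ ∈ A.nonunits := by
          rw [ValuationSubring.inv_mem_nonunits_iff]; exact Or.inr hA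
        have h0 : (q : L) * τ ≠ 0 := fun h => hA (h ▸ zero_mem _)
        refine ⟨((q : L) * τ)⁻¹ * q, -1, mul_ne_zero (inv_ne_zero h0) hq, ?_,
          neg_ne_zero.2 one_ne_zero,
          by rw [if_neg hn, show (-1 : C) = algebraMap k C (-1) by simp, ord_algebraMap]⟩
        have := (red_smul (⟨_, A.nonunits_subset hi⟩ : A) W.red').sub (red_one (D := D'))
        rw [(D'.isResidue.eq_zero_iff _).2 hi, zero_smul, zero_sub] at this
        convert this using 1
        rw [mul_smul, hfq, smul_sub, Algebra.smul_def ((q : L) * τ)⁻¹ (algebraMap L F _),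
          ← map_mul, inv_mul_cancel₀ h0, map_one]
  have hf0 : f ≠ 0 := fun h => ha.ne_zero ha0 (by rw [h, smul_zero])
  have hcf : c • f ≠ 0 := ha.ne_zero ha0
  have hb' : D'.Red ((c' / c) • c • f) b := by rwa [smul_smul, div_mul_cancel₀ _ hc]
  have hsum := mapDomain_divisorOf_gap S (div_ne_zero hc' hc) ha hb' ha0 hb0 (S.x i)
  rw [divisorOf_smul hc hf0, hoa, hob] at hsum
  have hnn : ∀ Q, below S Q = S.x i → 0 ≤ divisorOf (K := L) f Q := fun Q hQ => by
    rw [divisorOf_apply]
    exact ((W.reg Q hQ).sub (ordGe_algebraMap τ)).le_ord hf0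
  have hP1 : 1 ≤ divisorOf (K := L) f P := by rw [divisorOf_apply]; exact hτ.le_ord hf0
  have hle := mapDomain_le_apply (below S) hnn P hP
  rw [hsum] at hle
  have hτA : τ ∉ A := fun h => by rw [if_pos h] at hle; split at hle <;> omega
  have hn : (q : L) * τ ∈ A.nonunits := by
    by_contra h; rw [if_neg h, if_neg hτA] at hle; omega
  rw [if_neg hτA, if_pos hn, zero_add] at hsum hle
  refine ⟨hτA, hn, hf0, fun Q hQ => ?_⟩
  rw [← divisorOf_apply (K := L)]
  rcases eq_or_ne Q P with rfl | hne
  · rw [Finsupp.single_eq_same]; omega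
  · rw [Finsupp.single_eq_of_ne hne]
    have hnn' : ∀ Q, below S Q = S.x i →
        0 ≤ (divisorOf (K := L) f - Finsupp.single P 1 : Divisor L F) Q := fun Q hQ => by
      rw [Finsupp.sub_apply]
      rcases eq_or_ne Q P with rfl | h
      · rw [Finsupp.single_eq_same]; omega
      · rw [Finsupp.single_eq_of_ne h, sub_zero]; exact hnn Q hQ
    have h := mapDomain_le_apply (below S) hnn' Q hQ
    rw [Finsupp.mapDomain_sub, Finsupp.sub_apply, Finsupp.sub_apply, Finsupp.mapDomain_single,
      hP, Finsupp.single_eq_same, hsum, Finsupp.single_eq_of_ne hne, sub_zero] at h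
    have := hnn Q hQ
    omega

end FLTAgent.MazurP
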