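import Fermat.Agent.MazurP.Core
import Fermat.Agent.Reduction.Peu.Kummer
import Fermat.Agent.LevelLower.Endgame.Dictionary

/-!
# The shape of a peu ramifié `E[p]` at `p`
-/

set_option autoImplicit false
set_option linter.style.haveILetI false

noncomputable section

open WeierstrassCurve
open scoped WeierstrassCurve.Affine

namespace FLTAgent.MazurP

open FLTAgent.LevelLower.Endgame FLTAgent.Reduction

local notation "Qbar" => AlgebraicClosure ℚ

variable {W : WeierstrassCurve ℤ} (hΔ : W.Δ ≠ 0) {p : ℕ} [Fact p.Prime]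

set_option maxHeartbeats 800000 in
/-- Kummer data give the shape. -/
theorem nonempty_kummerShape_of_data {A : ValuationSubring (AlgebraicClosure ℚ)}
    (h : ∃ (b : Module.Basis (Fin 2) (ZMod p) (TorsQ W p)) (ε : AddChar (ZMod p) Qbar) (x : Qbar)
      (a c : (Qbar ≃ₐ[ℚ] Qbar) → ZMod p),
      ε 1 ≠ 1 ∧ A.valuation x = 1 ∧ ∀ σ ∈ A.inertiaSubgroupIn ℚ,
        (∀ j, σ (ε j) = ε (a σ * j)) ∧ σ • b 0 = a σ • b 0 ∧ σ • b 1 = c σ • b 0 + b 1 ∧
          σ x = ε (c σ) * x) :
    Nonempty (KummerShape A (torsMat hΔ p)) := by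
  obtain ⟨b, ε, x, a, c, hε, hx, h⟩ := h
  haveI := LevelDrop.isElliptic_rat_of_ne_zero hΔ
  let b' : Module.Basis (Fin 2) (ZMod p) (LevelDrop.torsRep hΔ p).V := b
  have key : ∀ σ ∈ A.inertiaSubgroupIn ℚ,
      LinearMap.toMatrix b' b' ((LevelDrop.torsRep hΔ p).ρ σ) = !![a σ, c σ; 0, 1] := by
    intro σ hσ
    obtain ⟨-, h0, h1, -⟩ := h σ hσ
    have e0 : (LevelDrop.torsRep hΔ p).ρ σ (b' 0) = a σ • b' 0 := h0
    have e1 : (LevelDrop.torsRep hΔ p).ρ σ (b' 1) = c σ • b' 0 + b' 1 := h1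
    ext i j
    fin_cases i <;> fin_cases j <;> simp [LinearMap.toMatrix_apply, e0, e1]
  refine ⟨{ ε := ε, t := x, a := a, c := c, ε_ne := hε, t_unit := hx,
            cyc := fun σ hσ => (h σ hσ).1, kum := fun σ hσ => (h σ hσ).2.2.2,
            trace_eq := fun σ hσ => ?_, det_eq := fun σ hσ => ?_,
            eq_one := fun σ hσ ha hc => ?_ }⟩
  · rw [torsMat, Carayol.resMat, Carayol.trace_matHom, LinearMap.trace_eq_matrix_trace _ b',
      key σ hσ, Matrix.trace_fin_two]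
    simp
  · rw [torsMat, Carayol.resMat, Carayol.matHom_apply, LinearMap.det_toMatrix,
      ← LinearMap.det_toMatrix b', key σ hσ, Matrix.det_fin_two]
    simp
  · have hk := key σ hσ
    rw [ha, hc, ← Matrix.one_fin_two, ← LinearMap.toMatrix_one b',
      (LinearMap.toMatrix b' b').injective.eq_iff] at hk
    rw [torsMat, Carayol.resMat, Carayol.matHom_apply, hk, LinearMap.toMatrix_one]

/-- A bad semistable odd prime `p` dividing the valuation of the discriminant. -/
theorem nonempty_kummerShape {A : ValuationSubring (AlgebraicClosure ℚ)} (hA : A.LiesOverPrime p)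
    (h2 : p ≠ 2) (hbad : (p : ℤ) ∣ W.Δ) (hc₄ : ¬(p : ℤ) ∣ W.c₄) (hdiv : p ∣ padicValInt p W.Δ) :
    Nonempty (KummerShape A (torsMat hΔ p)) :=
  nonempty_kummerShape_of_data hΔ (Peu.exists_kummer_data hA h2 hΔ hbad hc₄ hdiv)

end FLTAgent.MazurP
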