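import Mathlib.LinearAlgebra.Matrix.Adjugate
import Mathlib.LinearAlgebra.Matrix.Trace
import Mathlib.Tactic

/-!
# Plane groups whose traces are `det + 1` have a stable line
-/

set_option autoImplicit false

open Matrix

namespace FLTAgent.MazurP

variable {K : Type*} [Field K]

/-- Two nilpotents of rank at most one with orthogonal trace annihilate each other. -/
theorem mul_eq_zero_of_nilpotent {N N' : Matrix (Fin 2) (Fin 2) K} (h1 : N.trace = 0)
    (h2 : N.det = 0) (h1' : N'.trace = 0) (h2' : N'.det = 0) (h : (N' * N).trace = 0) :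
    N' * N = 0 := by
  rw [trace_fin_two] at h1 h1' h
  rw [det_fin_two] at h2 h2'
  have e : N 1 1 = -N 0 0 := by linear_combination h1
  have e' : N' 1 1 = -N' 0 0 := by linear_combination h1'
  simp only [Matrix.mul_apply, Fin.sum_univ_two, e, e'] at h h2 h2'
  have s01 : (N' 0 0 * N 0 1 + N' 0 1 * -N 0 0) ^ 2 = 0 := by
    linear_combination (-(N 0 1 * N' 0 1)) * h - N 0 1 ^ 2 * h2' - N' 0 1 ^ 2 * h2
  have s10 : (N' 1 0 * N 0 0 + -N' 0 0 * N 1 0) ^ 2 = 0 := by
    linear_combination (-(N 1 0 * N' 1 0)) * h - N' 1 0 ^ 2 * h2 - N 1 0 ^ 2 * h2'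
  have s00 : (N' 0 0 * N 0 0 + N' 0 1 * N 1 0) ^ 2 = 0 := by
    linear_combination (N' 0 0 * N 0 0 + N' 0 1 * N 1 0) * h -
      (-N' 0 0 ^ 2 - N' 0 1 * N' 1 0) * h2 -
      (N' 1 0 * N 0 0 + -N' 0 0 * N 1 0) * eq_zero_of_pow_eq_zero s01
  ext i j
  simp only [Matrix.mul_apply, Fin.sum_univ_two, Matrix.zero_apply]
  fin_cases i <;> fin_cases j <;> simp only [Fin.zero_eta, Fin.mk_one, Fin.isValue, e, e']
  · exact eq_zero_of_pow_eq_zero s00
  · exact eq_zero_of_pow_eq_zero s01
  · exact eq_zero_of_pow_eq_zero s10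
  · linear_combination h - eq_zero_of_pow_eq_zero s00

/-- The kernel of a nonzero singular matrix is a line. -/
theorem exists_smul_of_mulVec_eq_zero {N : Matrix (Fin 2) (Fin 2) K} (hN : N ≠ 0)
    {u v : Fin 2 → K} (hv : v ≠ 0) (hu : N *ᵥ u = 0) (hv' : N *ᵥ v = 0) : ∃ c : K, u = c • v := by
  have hrow : ∀ i, N i 0 * (u 0 * v 1 - u 1 * v 0) = 0 ∧
      N i 1 * (u 0 * v 1 - u 1 * v 0) = 0 := fun i => by
    have a := congrFun hu i
    have b := congrFun hv' i
    simp only [Matrix.mulVec, dotProduct, Fin.sum_univ_two, Pi.zero_apply] at a b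
    exact ⟨by linear_combination v 1 * a - u 1 * b, by linear_combination u 0 * b - v 0 * a⟩
  have hdet : u 0 * v 1 - u 1 * v 0 = 0 := by
    by_contra h
    refine hN (Matrix.ext fun i j => ?_)
    fin_cases j
    · exact (mul_eq_zero.1 (hrow i).1).resolve_right h
    · exact (mul_eq_zero.1 (hrow i).2).resolve_right h
  by_cases h0 : v 0 = 0
  · have h1 : v 1 ≠ 0 := fun h1 => hv (funext fun i => by fin_cases i <;> assumption)
    refine ⟨u 1 / v 1, funext fun i => ?_⟩
    fin_cases i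
    · simpa [h0, h1] using hdet
    · simp [h1]
  · refine ⟨u 0 / v 0, funext fun i => ?_⟩
    fin_cases i
    · simp [h0]
    · show u 1 = u 0 / v 0 * v 1
      field_simp
      linear_combination -hdet

variable {G : Type*} [Group G] (ρ : G →* Matrix (Fin 2) (Fin 2) K) (H : Subgroup G)

/-- A plane group with all traces `det + 1` and a nontrivial determinant has a stable line. -/
theorem exists_stable_vector (hT : ∀ g ∈ H, (ρ g).trace = (ρ g).det + 1) {g₀ : G} (hg₀ : g₀ ∈ H)
    (hd₀ : (ρ g₀).det ≠ 1) :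
    ∃ v : Fin 2 → K, v ≠ 0 ∧ ∀ g ∈ H, ∃ c : K, ρ g *ᵥ v = c • v := by
  have hnil : ∀ g ∈ H, (ρ g - 1).det = 0 := fun g hg => by
    have h := hT g hg
    rw [trace_fin_two, det_fin_two] at h
    rw [det_fin_two]
    simp
    linear_combination -h
  have htr : ∀ g ∈ H, (ρ g).det = 1 → (ρ g - 1).trace = 0 := fun g hg h => by
    rw [trace_sub, hT g hg, h, trace_one, Fintype.card_fin]
    norm_num
  have hinv : ∀ g, ρ g * ρ g⁻¹ = 1 := fun g => by rw [← map_mul, mul_inv_cancel, map_one]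
  suffices h : ∃ (N : Matrix (Fin 2) (Fin 2) K) (v : Fin 2 → K), N ≠ 0 ∧ v ≠ 0 ∧ N *ᵥ v = 0 ∧
      ∀ g ∈ H, N *ᵥ (ρ g *ᵥ v) = 0 by
    obtain ⟨N, v, hN, hv, hv', hg⟩ := h
    exact ⟨v, hv, fun g hgH => exists_smul_of_mulVec_eq_zero hN hv (hg g hgH) hv'⟩
  by_cases hex : ∃ h ∈ H, (ρ h).det = 1 ∧ ρ h ≠ 1
  · obtain ⟨h, hh, hdet, hne⟩ := hex
    set N := ρ h - 1 with hN
    have hN0 : N ≠ 0 := fun e => hne (sub_eq_zero.1 e)
    obtain ⟨j, hj⟩ : ∃ j, (fun i => N i j) ≠ 0 := by
      by_contra hall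
      push Not at hall
      exact hN0 (Matrix.ext fun i j => congrFun (hall j) i)
    have key : ∀ g ∈ H, N * ρ g * N = 0 := fun g hg => by
      set h' := g⁻¹ * h * g with hh'
      have hh'H : h' ∈ H := mul_mem (mul_mem (inv_mem hg) hh) hg
      have hdet' : (ρ h').det = 1 := by
        rw [hh', map_mul, map_mul, det_mul, det_mul, hdet, mul_one, ← det_mul, ← map_mul,
          inv_mul_cancel, map_one, det_one]
      have e : ρ h' - 1 = ρ g⁻¹ * N * ρ g := by
        rw [hN, hh', map_mul, map_mul, mul_sub, sub_mul, mul_one,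
          show ρ g⁻¹ * ρ g = 1 by rw [← map_mul, inv_mul_cancel, map_one]]
      have hsum : ((ρ h' - 1) * N).trace = 0 := by
        have h1 : (ρ (h' * h)).det = 1 := by rw [map_mul, det_mul, hdet', hdet, mul_one]
        have h2 : (ρ h' - 1) * N = (ρ (h' * h) - 1) - (ρ h' - 1) - N := by
          rw [hN, map_mul ρ h' h]
          simp only [sub_mul, mul_sub, one_mul, mul_one]
          abel
        rw [h2, trace_sub, trace_sub, htr _ (mul_mem hh'H hh) h1, htr _ hh'H hdet', hN,
          htr _ hh hdet, sub_zero, sub_zero]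
      have h0 := mul_eq_zero_of_nilpotent (htr _ hh hdet) (hnil _ hh) (htr _ hh'H hdet')
        (hnil _ hh'H) hsum
      rw [e] at h0
      calc N * ρ g * N = ρ g * (ρ g⁻¹ * N * ρ g * N) := by
            simp only [← mul_assoc, hinv g, one_mul]
        _ = 0 := by rw [h0, mul_zero]
    refine ⟨N, fun i => N i j, hN0, hj, funext fun i => ?_, fun g hg => funext fun i => ?_⟩
    · have := congrFun (congrFun (key 1 H.one_mem) i) j
      rw [map_one, mul_one] at this
      exact this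
    · have := congrFun (congrFun (key g hg) i) j
      rw [mul_assoc] at this
      simp only [Matrix.mulVec, dotProduct, Matrix.mul_apply] at this ⊢
      exact this
  · push Not at hex
    set N := ρ g₀ - 1 with hN
    have hN0 : N ≠ 0 := fun e => hd₀ (by rw [sub_eq_zero.1 e, det_one])
    obtain ⟨v, hv, hv'⟩ := Matrix.exists_mulVec_eq_zero_iff.2 (hnil g₀ hg₀)
    refine ⟨N, v, hN0, hv, hv', fun g hg => ?_⟩
    have hc : ρ g * ρ g₀ = ρ g₀ * ρ g := by
      have h1 := hex (g * g₀ * g⁻¹ * g₀⁻¹)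
        (mul_mem (mul_mem (mul_mem hg hg₀) (inv_mem hg)) (inv_mem hg₀)) (by
          simp only [map_mul, det_mul]
          have a : (ρ g).det * (ρ g⁻¹).det = 1 := by rw [← det_mul, hinv, det_one]
          have b : (ρ g₀).det * (ρ g₀⁻¹).det = 1 := by rw [← det_mul, hinv, det_one]
          linear_combination ((ρ g₀).det * (ρ g₀⁻¹).det) * a + b)
      calc ρ g * ρ g₀ = ρ (g * g₀ * g⁻¹ * g₀⁻¹) * (ρ g₀ * ρ g) := by
            rw [← map_mul, ← map_mul, ← map_mul]
            congr 1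
            group
        _ = ρ g₀ * ρ g := by rw [h1, one_mul]
    rw [Matrix.mulVec_mulVec, show N * ρ g = ρ g * N by
      rw [hN, sub_mul, mul_sub, one_mul, mul_one, hc], ← Matrix.mulVec_mulVec, hv', mulVec_zero]

end FLTAgent.MazurP
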