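import Fermat.Agent.MazurP.Principle
import Fermat.Agent.MazurP.StableLine

/-!
# An inertia-stable line from a system missing at level `M`

If the system of `W[p]` occurs in `J₀(M p)[p]` and not in `J₀(M)[p]`, then on its classes inertia
is killed by `(σ - χ σ) (σ - 1)`, so `W[p]` has traces `χ + 1` on inertia and a stable line.
-/

set_option autoImplicit false
set_option linter.style.haveILetI false
set_option linter.unusedSectionVars false
set_option synthInstance.maxHeartbeats 100000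

noncomputable section

open ModularCurve AlgebraicCurve IsLocalRing WeierstrassCurve
open scoped WeierstrassCurve.Affine

namespace FLTAgent.MazurP

open FLTAgent.GoodRed FLTAgent.GoodRed.RedDatum FLTAgent.Semistable FLTAgent.Hecke
  FLTAgent.FunctionField FLTAgent.LevelLower FLTAgent.LevelLower.Endgame GalRep

local notation "Qbar" => AlgebraicClosure ℚ
local notation "Γℚ" => AlgebraicClosure ℚ ≃ₐ[ℚ] AlgebraicClosure ℚ

variable {A : ValuationSubring (AlgebraicClosure ℚ)} {p : ℕ} [Fact p.Prime]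
  (hA : A.LiesOverPrime p) [CharP (ResidueField A) p] [IsAlgClosed (ResidueField A)]
  {M : ℕ} [NeZero M]

local instance instNeZeroPSupersingular : NeZero p := ⟨(Fact.out : p.Prime).ne_zero⟩
local instance instNeZeroLevelSupersingular : NeZero (M * p) :=
  ⟨Nat.mul_ne_zero (NeZero.ne M) (NeZero.ne p)⟩

include hA in
set_option maxHeartbeats 3200000 in
-- the classes live in a large quotient
/-- On inertia the trace is the cyclotomic character plus one. -/
theorem trace_eq_cyclo_add_one (hp3 : 5 ≤ p ∨ (p = 3 ∧ 2 ∣ M)) (hpM : ¬ p ∣ M)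
    {ρ : Γℚ →* Matrix (Fin 2) (Fin 2) (ZMod p)}
    (hdet : ∀ σ : Γℚ, (ρ σ).det = ((((cyclo p σ : ℤ_[p]).toZModPow 1).val : ℕ) : ZMod p))
    (hker : ∃ L : IntermediateField ℚ Qbar, FiniteDimensional ℚ L ∧
      ∀ σ : Γℚ, (∀ x ∈ L, σ x = x) → ρ σ = 1) {a : ℕ → ℕ}
    (hfrob : ∀ l : ℕ, l.Prime → ¬ l ∣ M * p * p → ∀ A : ValuationSubring Qbar,
      A.LiesOverPrime l → ∀ σ : Γℚ, A.IsFrobeniusAt σ l →
        (ρ σ).trace = (a l : ZMod p) ∧ (ρ σ).det = (l : ZMod p))
    (habs : ∀ y ∈ eigenSub M p a (M * p * p), y = 0)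
    {x : JZero (M * p)} (hx : x ∈ eigenSub (M * p) p a (M * p * p)) (hx0 : x ≠ 0) {σ : Γℚ}
    (hσ : σ ∈ A.inertiaSubgroupIn ℚ) : (ρ σ).trace = (ρ σ).det + 1 := by
  have hp : p.Prime := Fact.out
  have hp2 : p ≠ 2 := by rcases hp3 with h | ⟨h, -⟩ <;> omega
  haveI : NeZero (M * p * p) := ⟨Nat.mul_ne_zero (NeZero.ne (M * p)) hp.ne_zero⟩
  obtain ⟨M', hM', hMM', hpM', h2, h3, hc3, b, hb, eb⟩ :=
    exists_auxLevel (NeZero.ne M) hp hp3 hpM
  haveI := GoodRed.isFunctionField_fullC A hA M' hpM'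
  obtain ⟨ι, _, X, hfr, hxX, hG₁, hG₂⟩ := exists_x0CrossData hA hpM' h2 h3
    (mul_psi_le_card_crossingSet hA hpM' h2 h3 (fun h => absurd h hp2) hc3)
  have key := smul_smul_sub_eq X hMM' hfr hxX hG₁ hG₂
    (coprime_degrees hA hMM' hpM hpM' hb eb).2 hpM hx.1
    (habs _ (pushPic_mem_eigenSub 1 _ (dvd_refl _) hx))
    (habs _ (pushPic_mem_eigenSub p _ (dvd_refl _) hx)) hσ hσ
  set χ := ((cyclo p σ : ℤ_[p]).toZModPow 1).val with hχ
  set z : eigenSub (M * p) p a (M * p * p) := ⟨x, hx⟩ with hz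
  have k1 := killedBy_eigenRep (N := M * p) (dvd_refl _) ρ hker hfrob σ z
  rw [hdet σ, ← hχ] at k1
  have k2 : eigenRep σ (eigenRep σ z) - ((χ : ZMod p) + 1) • eigenRep σ z +
      (χ : ZMod p) • z = 0 := by
    refine Subtype.ext ?_
    rw [add_smul, one_smul, Nat.cast_smul_eq_nsmul, Nat.cast_smul_eq_nsmul, AddSubgroup.coe_add,
      AddSubgroupClass.coe_sub, AddSubgroup.coe_add, AddSubgroup.coe_nsmul, AddSubgroup.coe_nsmul,
      coe_eigenRep, coe_eigenRep, AddSubgroup.coe_zero]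
    rw [smul_sub, nsmul_sub] at key
    rw [← sub_eq_zero] at key
    rw [← key]
    show σ • σ • x - (χ • σ • x + σ • x) + χ • x = _
    abel
  have k3 : ((ρ σ).trace - ((χ : ZMod p) + 1)) • eigenRep σ z = 0 := by
    have := congrArg₂ (fun u v => v - u) k1 k2
    simp only [sub_zero] at this
    rw [← this, sub_smul]
    abel
  have hz0 : eigenRep σ z ≠ 0 := fun h => hx0 (by
    have h1 := congrArg (fun w : eigenSub (M * p) p a (M * p * p) => (w : JZero (M * p))) h
    simp only [coe_eigenRep, AddSubgroup.coe_zero, hz] at h1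
    rw [← one_smul Γℚ x, ← inv_mul_cancel σ, mul_smul, h1, GalRep.smul_zero_jZero])
  rw [hdet σ, ← hχ]
  exact sub_eq_zero.1 ((smul_eq_zero.1 k3).resolve_right hz0)

section curve

variable {W : WeierstrassCurve ℤ} (hΔ : W.Δ ≠ 0)

/-- The determinant of `W[p]` is the cyclotomic character. -/
theorem det_torsMat_cyclo (σ : Γℚ) :
    (torsMat hΔ p σ).det = ((((cyclo p σ : ℤ_[p]).toZModPow 1).val : ℕ) : ZMod p) := by
  rw [det_torsMat, LevelDrop.coeff_zero_charpoly]
  haveI := LevelDrop.isElliptic_rat_of_ne_zero hΔ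
  haveI := WeilPairing.isElliptic_qbar (W.map (Int.castRingHom ℚ))
  exact WeilPairing.det_galoisRepModuleEnd_eq_of_forall_pow _ p
    (Nat.cast_ne_zero.mpr (Fact.out : p.Prime).ne_zero) σ _ fun ζ hζ =>
      GalRep.cyclo_spec p σ (n := 1) (by rwa [pow_one])

include hA in
/-- Traces `det + 1` on inertia give a stable line in `W[p]`. -/
theorem exists_line_of_trace (hp2 : p ≠ 2)
    (hT : ∀ σ ∈ A.inertiaSubgroupIn ℚ, (torsMat hΔ p σ).trace = (torsMat hΔ p σ).det + 1) :
    ∃ v : Reduction.TorsQ W p, v ≠ 0 ∧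
      ∀ σ ∈ A.inertiaSubgroupIn ℚ, σ • v ∈ Submodule.span (ZMod p) {v} := by
  obtain ⟨g, hg, hg1⟩ := FlatModel.exists_cyclo_ne_one hp2 hA
  have hd : (torsMat hΔ p g).det ≠ 1 := by
    rw [det_torsMat_cyclo hΔ g]
    intro h
    refine hg1 ?_
    have h2 := (ZMod.natCast_eq_natCast_iff _ _ _).1 (h.trans Nat.cast_one.symm)
    have h3 : ((((cyclo p g : ℤ_[p]).toZModPow 1).val : ℕ) : ZMod (p ^ 1)) =
        ((1 : ℕ) : ZMod (p ^ 1)) :=
      (ZMod.natCast_eq_natCast_iff _ _ _).2 (Nat.ModEq.of_dvd (dvd_of_eq (pow_one p)) h2)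
    rwa [ZMod.natCast_zmod_val, Nat.cast_one] at h3
  obtain ⟨v, hv, hline⟩ := exists_stable_vector (torsMat hΔ p) (A.inertiaSubgroupIn ℚ) hT hg hd
  set b := Carayol.resBasis (LevelDrop.torsRep hΔ p)
  refine ⟨b.equivFun.symm v, fun h => hv ?_, fun σ hσ => ?_⟩
  · exact b.equivFun.symm.map_eq_zero_iff.1 h
  · obtain ⟨c, hc⟩ := hline σ hσ
    refine Submodule.mem_span_singleton.2 ⟨c, ?_⟩
    show c • b.equivFun.symm v = (LevelDrop.torsRep hΔ p).ρ σ (b.equivFun.symm v)
    refine b.equivFun.injective ?_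
    rw [map_smul, LinearEquiv.apply_symm_apply, ← hc]
    rw [show torsMat hΔ p σ = LinearMap.toMatrix b b ((LevelDrop.torsRep hΔ p).ρ σ) from rfl]
    have h1 := LinearMap.toMatrix_mulVec_repr b b ((LevelDrop.torsRep hΔ p).ρ σ)
      (b.equivFun.symm v)
    rw [← Module.Basis.equivFun_apply, ← Module.Basis.equivFun_apply,
      LinearEquiv.apply_symm_apply] at h1
    exact h1

end curve

end FLTAgent.MazurP
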