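import Fermat.Agent.MazurP.Position
import Fermat.Agent.Semistable.PTorsClose

/-!
# An automorphism moving the point over a crossing

Let `σ` fix the witnesses, move rational functions only to second order in the uniformiser `ϖ`,
and move every possible position `τ` exactly to first order.  If `σ X - X` differs from the
divisor of a function congruent to one to second order on both components only by a class with a
comparison function agreeing to second order with one regular over the tube, then the point over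
the crossing cannot exist.
-/

set_option autoImplicit false
set_option linter.unusedSectionVars false

noncomputable section

open AlgebraicCurve SemilinearAut

namespace FLTAgent.MazurP

open FLTAgent.GoodRed FLTAgent.GoodRed.RedDatum FLTAgent.FunctionField FLTAgent.Semistable
  FLTAgent.LevelLower

variable {L k : Type*} [Field L] [Field k] {A : ValuationSubring L} {π : A →+* k}
  {E F C : Type*} [Field E] [Algebra L E] [Field F] [Algebra L F] [Algebra E F]
  [IsScalarTower L E F] [Field C] [Algebra k C]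
  [IsFunctionField L E] [IsFunctionField L F] [IsFunctionField k C] [IsAlgClosed L]
  [IsAlgClosed k] [Module.Finite E F]
  {DE : RedDatum A π E C} {D D' : RedDatum A π F C} {frob : C →ₐ[k] C} {q : ℕ}
  {ι : Type*} [Fintype ι] {S : CrossData DE D D' frob q ι}

/-- The uniformiser as an integral constant. -/
def TubeRat.unif (R : TubeRat S) : A := ⟨R.ϖ, A.nonunits_subset R.ϖ_nonunit⟩

/-- An automorphism moving the possible positions to first order. -/
structure Mover (R : TubeRat S) (m : ℕ) where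
  /-- the automorphism -/
  σ : SemilinearAut L F
  tube : ∀ i P, below S (σ • P) = S.x i ↔ below S P = S.x i
  fix_wit : ∀ i, toRingAut σ (R.wit i).T = (R.wit i).T
  cong : ∀ y ∈ R.FK, y ∈ D.V → Close D (R.unif * R.unif) (toRingAut σ y) y
  cong' : ∀ y ∈ R.FK, y ∈ D'.V → Close D' (R.unif * R.unif) (toRingAut σ y) y
  natCast_mem : (q : L) ∈ R.K
  move : ∀ τ ∈ R.K, ∀ β : ℕ, 0 < β → β < m → A.valuation τ ^ m * A.valuation (q : L) ^ β = 1 →
    ∃ a : A, π a ≠ 0 ∧ baseAut σ τ = τ * (1 + R.ϖ * a)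

/-- Two elements congruent to one congruent. -/
theorem close_div_one {Dx : RedDatum A π F C} {c : A} {y z : F}
    {b : C} (h : Close Dx c y z) (hz : Dx.Red z b) (hb : b ≠ 0) : Close Dx c (y / z) 1 := by
  have hz0 : z ≠ 0 := hz.ne_zero hb
  refine Close.of_mul_right (u := z) ?_ hz hb
  rwa [div_mul_cancel₀ _ hz0, one_mul]

variable [CharP k q] (R : TubeRat S) {m : ℕ} (M : Mover R m)

theorem dvd_ord_of_mover (hA : IsRankOne A) (hq : (q : L) ≠ 0) (hm : 0 < m) {X : Divisor L F}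
    (hX : Divisor.degree X = 0) (hXfix : ∀ γ, R.act γ • X = X) {g : F} (hg : g ≠ 0)
    (hdiv : divisorOf g = m • X) {a b : C} (ha : D.Red g a) (hb : D'.Red g b) (ha0 : a ≠ 0)
    (hb0 : b ≠ 0) (hpair : ∀ v, (m : ℤ) ∣ v.ord a + (S.frP.symm v).ord b)
    {G : F} {Tt : Divisor L F} (hG0 : G ≠ 0) (hdivG : divisorOf G = M.σ • X - X - Tt)
    (hG : Close D (R.unif * R.unif) G 1) (hG' : Close D' (R.unif * R.unif) G 1)
    (hcomp : ∀ i, ∃ (w Y : F) (aw bw : C), w ≠ 0 ∧
      (∀ P, below S P = S.x i → 0 ≤ (divisorOf (K := L) w + Tt : Divisor L F) P) ∧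
      RegTube S i Y ∧ D.Red Y aw ∧ D'.Red Y bw ∧ valAt (S.x i) aw ≠ 0 ∧
      Close D (R.unif * R.unif) w Y ∧ Close D' (R.unif * R.unif) w Y) :
    ∀ v : Place k C, (m : ℤ) ∣ v.ord a := by
  refine dvd_of_no_position R hA hq hm hX hXfix hg hdiv ha hb ha0 hb0 hpair fun i Pos => ?_
  obtain ⟨w, Y, aw, bw, hw0, hwT, hY, hYa, hYb, haw, hwY, hwY'⟩ := hcomp i
  set W := R.wit i with hW
  set τ := Pos.τ with hτdef
  set u := R.unif with hu
  have huϖ : (u : L) = R.ϖ := rfl
  have hun : (u : L) ∈ A.nonunits := R.ϖ_nonunit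
  have hπu : π u = 0 := (D.isResidue.eq_zero_iff _).2 hun
  have hu0 : (u : L) ≠ 0 := R.ϖ_ne
  have huun : ((u * u : A) : L) ∈ A.nonunits := by
    rw [← D.isResidue.eq_zero_iff, map_mul, hπu, zero_mul]
  have hτ0 : τ ≠ 0 := fun h => Pos.τ_large (by
    rw [show Pos.τ = 0 from h]; exact zero_mem _)
  obtain ⟨t, ht, hmove⟩ := M.move τ Pos.τ_mem Pos.β Pos.β_pos Pos.β_lt Pos.val
  set δ := baseAut M.σ τ with hδ
  have hs : π (1 + u * t) = 1 := by simp [hπu]
  have hs0 : ((1 + u * t : A) : L) ≠ 0 := fun h => by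
    rw [show (1 + u * t : A) = 0 from Subtype.ext h, map_zero] at hs
    exact zero_ne_one hs
  have hδe : δ = τ * ((1 + u * t : A) : L) := by rw [hmove]; simp [huϖ]
  have hδ0 : δ ≠ 0 := by rw [hδe]; exact mul_ne_zero hτ0 hs0
  have hsi : ((1 + u * t : A) : L)⁻¹ ∈ A := by
    have h1 : A.valuation ((1 + u * t : A) : L) = 1 :=
      (D.isResidue.ne_zero_iff _).1 (by rw [hs]; exact one_ne_zero)
    rw [← A.valuation_le_one_iff, map_inv₀, h1, inv_one]
  set si : A := ⟨_, hsi⟩ with hsidef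
  -- the small constants
  have hτn : τ⁻¹ ∈ A.nonunits := by
    rw [ValuationSubring.inv_mem_nonunits_iff]; exact Or.inr Pos.τ_large
  obtain ⟨τ', hτ'⟩ : ∃ τ' : A, (τ' : L) = τ⁻¹ / R.ϖ :=
    ⟨⟨_, R.gap _ (inv_mem Pos.τ_mem) hτn⟩, rfl⟩
  obtain ⟨qτ', hqτ'⟩ : ∃ r : A, (r : L) = (q : L) * τ / R.ϖ :=
    ⟨⟨_, R.gap _ (mul_mem M.natCast_mem Pos.τ_mem) Pos.qτ_small⟩, rfl⟩
  have hτ'e : (u : L) * (τ' : L) = τ⁻¹ := by
    rw [hτ', huϖ, mul_div_cancel₀ _ R.ϖ_ne]
  have hqτ'e : (u : L) * (qτ' : L) = (q : L) * τ := by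
    rw [hqτ', huϖ, mul_div_cancel₀ _ R.ϖ_ne]
  -- `ψ = (T - δ) / (T - τ)`
  set f₀ := W.T - algebraMap L F τ with hf₀
  set f₁ := W.T - algebraMap L F δ with hf₁
  have hf₁s : f₁ = toRingAut M.σ f₀ := by
    rw [hf₁, hf₀, map_sub, M.fix_wit, SemilinearAut.commutes]
  have hf₀0 : f₀ ≠ 0 := Pos.T_sub_ne
  have hf₁0 : f₁ ≠ 0 := by rw [hf₁s]; exact (map_ne_zero _).2 hf₀0
  set ψ := f₁ / f₀ with hψ
  have hsD : D.Red (τ⁻¹ • f₀) (-1) := by
    have := (red_smul (⟨τ⁻¹, A.nonunits_subset hτn⟩ : A) W.red).sub (red_one (D := D))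
    rw [(D.isResidue.eq_zero_iff _).2 hτn, zero_smul, zero_sub] at this
    convert this using 1
    rw [hf₀, smul_sub, Algebra.smul_def τ⁻¹ (algebraMap L F τ), ← map_mul, inv_mul_cancel₀ hτ0,
      map_one]
  have hsD' : D'.Red ((q : L) • f₀) W.u := by
    have := W.red'.sub (red_algebraMap (D := D') ⟨_, A.nonunits_subset Pos.qτ_small⟩)
    rw [(D'.isResidue.eq_zero_iff _).2 Pos.qτ_small, map_zero, sub_zero] at this
    rwa [hf₀, smul_sub, Algebra.smul_def (q : L) (algebraMap L F τ), ← map_mul]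
  have hψD : Close D (u * u) ψ (((1 + u * t : A) : L) • (1 : F)) := by
    refine Close.of_mul_right (u := τ⁻¹ • f₀) ?_ hsD (neg_ne_zero.2 one_ne_zero)
    -- both sides, computed
    have e1 : ψ * τ⁻¹ • f₀ = τ⁻¹ • f₁ := by
      rw [hψ, mul_smul_comm, div_mul_cancel₀ _ hf₀0]
    rw [e1, smul_mul_assoc, one_mul, smul_smul]
    refine ⟨(((t : L) * (τ' : L)) • W.T : F) * (-1), mul_mem ?_ (neg_mem (one_mem _)), ?_⟩
    · rw [show ((t : L) * (τ' : L)) = ((t * τ' : A) : L) from rfl]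
      exact smul_mem_V D _ W.red.mem
    · have he : τ⁻¹ * δ = ((1 + u * t : A) : L) := by
        rw [hδe, inv_mul_cancel_left₀ hτ0]
      have h2 : ((1 + u * t : A) : L) * τ⁻¹ * τ = τ⁻¹ * δ := by
        rw [mul_assoc, inv_mul_cancel₀ hτ0, mul_one, he]
      rw [hf₁, hf₀, smul_sub, smul_sub, Algebra.smul_def τ⁻¹ (algebraMap L F δ),
        Algebra.smul_def (((1 + u * t : A) : L) * τ⁻¹) (algebraMap L F τ), ← map_mul, ← map_mul,
        h2, Algebra.smul_def, Algebra.smul_def, Algebra.smul_def, Algebra.smul_def, ← hτ'e]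
      simp only [MulMemClass.coe_mul, AddMemClass.coe_add, OneMemClass.coe_one, map_mul, map_add,
        map_one]
      ring
  have hψD' : Close D' (u * u) ψ 1 := by
    refine Close.of_mul_right (u := (q : L) • f₀) ?_ hsD' W.u_ne
    have e1 : ψ * (q : L) • f₀ = (q : L) • f₁ := by
      rw [hψ, mul_smul_comm, div_mul_cancel₀ _ hf₀0]
    rw [e1, one_mul]
    refine ⟨algebraMap L F (-((qτ' * t : A) : L)), ?_, ?_⟩
    · exact (D'.mem_iff _).2 (neg_mem (qτ' * t).2)
    · rw [hf₁, hf₀, ← smul_sub, sub_sub_sub_cancel_left, ← map_sub, Algebra.smul_def,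
        Algebra.smul_def, ← map_mul, ← map_mul, hδe]
      refine congrArg _ ?_
      simp only [MulMemClass.coe_mul, AddMemClass.coe_add, OneMemClass.coe_one]
      linear_combination (u : L) * (t : L) * hqτ'e
  -- the ratio of the conjugate of `f`
  set ρ := toRingAut M.σ Pos.f / Pos.f with hρ
  have hf0 : Pos.f ≠ 0 := Pos.red.ne_zero Pos.a_ne
  have hρD : Close D (u * u) ρ 1 :=
    close_div_one (M.cong _ Pos.f_mem Pos.red.mem) Pos.red Pos.a_ne
  have hρD' : Close D' (u * u) ρ 1 :=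
    close_div_one (M.cong' _ Pos.f_mem Pos.red'.mem) Pos.red' Pos.b_ne
  have hρ0 : ρ ≠ 0 := div_ne_zero ((map_ne_zero _).2 hf0) hf0
  have hGρ : ∀ {Dx : RedDatum A π F C}, Close Dx (u * u) G 1 → Close Dx (u * u) ρ 1 →
      Close Dx (u * u) (G * ρ)⁻¹ 1 := fun {Dx} h h' => by
    have h1 : Close Dx (u * u) (G * ρ) 1 := by
      simpa using h.mul h' (h'.mem_of_mem (one_mem _)) (one_mem _)
    simpa using h1.inv huun red_one one_ne_zero
  set Φ := w * ψ * (G * ρ)⁻¹ with hΦ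
  have hΦD : Close D (u * u) Φ (Y * ((1 + u * t : A) : L) • (1 : F)) := by
    have h1 : Close D (u * u) (w * ψ) (Y * ((1 + u * t : A) : L) • (1 : F)) :=
      hwY.mul hψD (hψD.mem_of_mem (smul_mem_V D _ (one_mem _))) hYa.mem
    rw [hΦ]
    simpa using h1.mul (hGρ hG hρD) ((hGρ hG hρD).mem_of_mem (one_mem _))
      (mul_mem hYa.mem (smul_mem_V D _ (one_mem _)))
  have hΦD' : Close D' (u * u) Φ Y := by
    have h1 : Close D' (u * u) (w * ψ) (Y * 1) :=
      hwY'.mul hψD' (hψD'.mem_of_mem (one_mem _)) hYb.mem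
    rw [mul_one] at h1
    rw [hΦ]
    simpa using h1.mul (hGρ hG' hρD') ((hGρ hG' hρD').mem_of_mem (one_mem _)) hYb.mem
  set Ψ := (u : L)⁻¹ • (Φ - Y) with hΨ
  have hΨD : D.Red Ψ (π t • aw) := by
    obtain ⟨r, hr, e⟩ := hΦD
    obtain ⟨z, hz⟩ := exists_red hr
    have he : Ψ = (t : L) • Y + (u : L) • r := by
      rw [hΨ, show Φ - Y = ((u : L) * (t : L)) • Y + ((u : L) * (u : L)) • r by
        rw [show (u : L) * (u : L) = ((u * u : A) : L) from rfl, ← e, mul_smul_comm, mul_one,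
          show ((1 + u * t : A) : L) = 1 + (u : L) * (t : L) from rfl, add_smul, one_smul]
        abel, smul_add, smul_smul, smul_smul, inv_mul_cancel_left₀ hu0, inv_mul_cancel_left₀ hu0]
    rw [he]
    simpa [hπu] using (red_smul t hYa).add (red_smul u hz)
  have hΨD' : D'.Red Ψ 0 := by
    obtain ⟨r, hr, e⟩ := hΦD'
    obtain ⟨z, hz⟩ := exists_red hr
    rw [hΨ, e, smul_smul, MulMemClass.coe_mul, inv_mul_cancel_left₀ hu0]
    simpa [hπu] using red_smul u hz
  -- regularity over the tube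
  have hψ0 : ψ ≠ 0 := div_ne_zero hf₁0 hf₀0
  have hΦreg : RegTube S i Φ := fun Q hQ => ordGe_of_le_ord (by
    obtain ⟨Q', rfl⟩ : ∃ Q', M.σ • Q' = Q := ⟨M.σ⁻¹ • Q, smul_inv_smul _ _⟩
    have hQ' := (M.tube i Q').1 hQ
    have e1 : ∀ (y : F), (M.σ • Q').ord (toRingAut M.σ y) = Q'.ord y := fun y => by
      rw [← SemilinearAut.smul_def]; exact ord_smul _ _ _
    have e2 : (M.σ • Q').ord G = X Q' - X (M.σ • Q') - Tt (M.σ • Q') := by
      rw [← divisorOf_apply (K := L) G, hdivG, Finsupp.sub_apply, Finsupp.sub_apply,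
        divisor_smul_apply_smul]
    have e3 := Pos.single _ hQ'
    have e4 := Pos.single _ hQ
    rw [Finsupp.add_apply, divisorOf_apply, divisorOf_apply] at e3 e4
    have e5 := hwT _ hQ
    rw [Finsupp.add_apply, divisorOf_apply] at e5
    rw [hΦ, (M.σ • Q').ord_mul (mul_ne_zero hw0 hψ0) (inv_ne_zero (mul_ne_zero hG0 hρ0)),
      (M.σ • Q').ord_mul hw0 hψ0, (M.σ • Q').ord_inv, (M.σ • Q').ord_mul hG0 hρ0, hψ, hρ,
      FunctionField.ord_div hf₁0 hf₀0, FunctionField.ord_div ((map_ne_zero _).2 hf0) hf0, hf₁s,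
      e1, e1, e2]
    rw [← hf₀] at e3 e4
    omega)
  have hΨreg : RegTube S i Ψ := regTube_smul (fun Q hQ => (hΦreg Q hQ).sub (hY Q hQ)) _
  obtain ⟨-, -, hag⟩ := regTube_agree hΨreg hΨD hΨD'
  rw [valAt_zero, valAt_smul _ (regTube_agree hY hYa hYb).1] at hag
  exact mul_ne_zero ht haw hag

end FLTAgent.MazurP
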